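/-
GATE-B / B9 PROVIDER (flat branch), group G1 = the B3 fields (helper51).

For the SETUP bundle `P : SetupPkg.Pkg p W hcard₁ hker M A` and ONE Taylor–Wiles set
`Q : TWSet P g n` (`g` primes `qv i ∉ S0`, `p ^ (n + 1) ∣ qv i - 1`, distinct Frobenius eigenvalues
`al i ≠ be i` with `al i + be i = a_{qv i}(W)`, `al i * be i = qv i` in `k`) this file NAMES the
objects at which helper95's `Plug.tw` is taken

  `Q.N = M * ∏ qv i`, `Q.Sy = stdSymbols W p Q.N qv` (good symbols: all primes good for `W`, prime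
  to `Q.N p`; `U`-symbols: the Taylor–Wiles primes), `Q.𝔪 = mQW P Q.Sy al` (`T_ℓ ↦ a_ℓ(W)`,
  `U_{qv i} ↦ al i`), `Q.s0`, `Q.hyp : Plug.Hyp …`, the framed characters
  `cFam s cq v = cq` at `v = Fin.last s` (the prime `q`), `= 1` at the other framed primes (R5),

and proves the B3 group of `LevelMulti.nonempty_TWInput_multi` for
`Q.tw H … := Plug.tw Q.Sy Q.𝔪 H (Q.hyp hp3) (s + 1) g (cFam s cq) hc hc1`:

* `tw_L1_d`, `tw_Lχ_d` (`hd₁ hd₂`: both ranks are `Q.d H hp3`),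
* `d_pos` (`hd`), `d_le` (`d ≤ D := finrank O Hom(Γ₀(M), O)`, independent of `Q`, `n`),
* `Nfun_eq` (the diamond orders are `fun _ => p ^ (n + 1)`), `Nfun_pos'` (`hN`),
* `TWInput.castN` (transport of a `TWInput` along an equality of the order functions).

`H : TWChars.PrimeData Q.N p (g + 1) r e N'` is helper54's H1 (`r i = qv i`, `e i = n + 1` for
`i < g`; `r g = q`, `e g = eq`).
-/
import Mathlib
import Fermat.Agent.GB.Setup.B3Plug
import Fermat.Agent.GB.B3.PlugD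
import Fermat.Agent.GB.B8.LevelPlug
import Fermat.Agent.GB.B9.ModOfTW
import Fermat.Agent.Common_helper32.FrobeniusExists

set_option autoImplicit false
set_option linter.unusedSectionVars false
set_option linter.unusedVariables false
set_option linter.style.haveILetI false

open IsLocalRing MvPolynomial
open scoped MatrixGroups
open CongruenceSubgroup

namespace Fermat.Agent.GB.B9.ProviderFlat.G1

open Fermat.Agent.GB.B3.HeckeActH Fermat.Agent.GB.B3.StepInst Fermat.Agent.GB.Setup.SetupPkg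
  Fermat.Agent.GB.Setup.MQ Fermat.Agent.GB.B3.TWLevel Fermat.Agent.GB.B3.TWChars
  Fermat.Agent.GB.B3.Final Fermat.Agent.GB.B3.FinalTW Fermat.Agent.GB.B8.LevelIter
  Fermat.Agent.GB.Setup.RhoBar Fermat.Agent.GB.B3.Tower

variable {p : ℕ} [hpF : Fact p.Prime] {W : WeierstrassCurve ℤ}
  {hcard₁ : Nat.card (Submodule.torsionBy ℤ
    ((W.map (Int.castRingHom ℚ)).toAffine.baseChange (AlgebraicClosure ℚ)).Point p) = p ^ 2}
  {hker : GaloisFactorsThroughFiniteLevel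
    (WeierstrassCurve.Affine.Point.galoisRepModuleEnd (K := AlgebraicClosure ℚ) ℚ
      (W.map (Int.castRingHom ℚ)) p)}
  {M A : ℕ}

/-- **A Taylor–Wiles set of depth `n`** for the bundle `P` (the S56 clauses + a choice of
Frobenius eigenvalues). -/
structure TWSet (P : Pkg p W hcard₁ hker M A) (g n : ℕ) where
  /-- the Taylor–Wiles primes -/
  qv : Fin g → ℕ
  inj : Function.Injective qv
  prime : ∀ i, (qv i).Prime
  notMem : ∀ i, qv i ∉ (↑P.S0 : Set ℕ)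
  cong : ∀ i, p ^ (n + 1) ∣ qv i - 1
  /-- the chosen Frobenius eigenvalue (`U_{qv i} ↦ al i`) -/
  al : Fin g → P.k
  /-- the other one -/
  be : Fin g → P.k
  ne : ∀ i, al i ≠ be i
  sum : ∀ i, al i + be i = ((W.apOfModel (qv i) : ℤ) : P.k)
  prod : ∀ i, al i * be i = ((qv i : ℕ) : P.k)

namespace TWSet

variable {P : Pkg p W hcard₁ hker M A} {g n : ℕ} (Q : TWSet P g n)

/-- the level `M * ∏ qv i` -/
def N : ℕ := M * ∏ i, Q.qv i

theorem N_ne_zero : Q.N ≠ 0 :=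
  Nat.mul_ne_zero P.hM (Finset.prod_ne_zero_iff.mpr fun i _ => (Q.prime i).ne_zero)

instance neZeroN : NeZero Q.N := ⟨Q.N_ne_zero⟩

theorem qv_dvd_N (i : Fin g) : Q.qv i ∣ Q.N :=
  Dvd.dvd.mul_left (Finset.dvd_prod_of_mem _ (Finset.mem_univ i)) _

/-- the Taylor–Wiles primes are good for `W`, prime to `M`, `≠ p` -/
theorem good (i : Fin g) : W.IsGoodPrimeFor (Q.qv i) ∧ ¬ Q.qv i ∣ M ∧ Q.qv i ≠ p :=
  P.good_of_notMem_S0 (Q.prime i) (Q.notMem i)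

/-- `qv i = 1` in `k` -/
theorem qv_cast_eq_one (i : Fin g) : ((Q.qv i : ℕ) : P.k) = 1 := by
  have h1 : p ∣ Q.qv i - 1 := Dvd.dvd.trans (dvd_pow_self p (Nat.succ_ne_zero n)) (Q.cong i)
  have h2 : ((Q.qv i - 1 : ℕ) : P.k) = 0 := (CharP.cast_eq_zero_iff P.k p _).mpr h1
  rw [Nat.cast_sub (Q.prime i).one_lt.le, Nat.cast_one, sub_eq_zero] at h2
  exact h2

/-- **the Hecke symbols**: good symbols = all primes good for `W`, prime to `N p`; `U`-symbols =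
the Taylor–Wiles primes. -/
def Sy : Symbols Q.N := stdSymbols W p Q.N Q.qv Q.prime Q.qv_dvd_N

/-- **the maximal ideal `𝔪_Q`**: `T_ℓ ↦ a_ℓ(W)`, `U_{qv i} ↦ al i`. -/
noncomputable def 𝔪 : Ideal (Q.Sy.𝕋 P.O) := mQW P Q.Sy Q.al

instance isMaximal_𝔪 : Q.𝔪.IsMaximal := isMaximal_mQW P Q.Sy Q.al

/-- a non-Eisenstein good symbol -/
noncomputable def s0 : Q.Sy.ι₁ :=
  (exists_s0_std P Q.qv Q.prime Q.qv_dvd_N Q.al).choose

theorem hτ : tauOf Q.Sy P.O Q.s0 ∉ Q.𝔪 :=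
  (exists_s0_std P Q.qv Q.prime Q.qv_dvd_N Q.al).choose_spec

/-- **the standing hypotheses of B3** at `Q` -/
theorem hyp (hp3 : p ≠ 3) : Fermat.Agent.GB.B3.Plug.Hyp Q.Sy Q.𝔪 p P.ϖ Q.s0 :=
  { hϖ0 := P.hϖ0
    hmax := P.hmax
    hpϖ := P.hpϖ
    hp0 := P.hp0
    hp2 := P.hp2
    hp3 := hp3
    hτ := Q.hτ }

end TWSet

/-! ### the residual characters `lamBase`, `lamTop` (helper49 `LevelIter`) -/

section Lam

variable {P : Pkg p W hcard₁ hker M A} {g n : ℕ} (Q : TWSet P g n)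

namespace TWSet

/-- the `i`-th Taylor–Wiles prime as a `U`-symbol -/
def jOf (i : Fin g) : Q.Sy.ι₂ := i

/-- the index of a `U`-symbol -/
def iOf (j : Q.Sy.ι₂) : Fin g := j

theorem jOf_iOf (j : Q.Sy.ι₂) : Q.jOf (Q.iOf j) = j := rfl

theorem iOf_jOf (i : Fin g) : Q.iOf (Q.jOf i) = i := rfl

theorem r_jOf (i : Fin g) : Q.Sy.r (Q.jOf i) = Q.qv i := rfl

theorem r_eq (j : Q.Sy.ι₂) : Q.Sy.r j = Q.qv (Q.iOf j) := rfl

theorem jOf_injective : Function.Injective Q.jOf := fun _ _ h => h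

/-- the residual `U`-eigenvalues -/
def u (j : Q.Sy.ι₂) : P.k := Q.al (Q.iOf j)

/-- the residual `a_{qv i}(W)` -/
noncomputable def aq (j : Q.Sy.ι₂) : P.k := ((W.apOfModel (Q.qv (Q.iOf j)) : ℤ) : P.k)

/-- `X_ℓ ↦ a_ℓ(W)`, `U_{qv i} ↦ al i`: the character with kernel `𝔪_Q` -/
noncomputable def lamTop : Q.Sy.𝕋 P.O →ₐ[P.O] P.k :=
  MvPolynomial.aeval (Sum.elim (aW P Q.Sy) Q.u)

/-- `X_ℓ ↦ a_ℓ(W)`, `U_{qv i} ↦ a_{qv i}(W)`: the character at the base level `M` -/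
noncomputable def lamBase : Q.Sy.𝕋 P.O →ₐ[P.O] P.k :=
  MvPolynomial.aeval (Sum.elim (aW P Q.Sy) Q.aq)

theorem h𝔪 : Q.𝔪 = RingHom.ker (Q.lamTop : Q.Sy.𝕋 P.O →+* P.k) := by
  refine Ideal.ext fun t => ?_
  exact Iff.rfl

theorem lamTop_X_inl (i : Q.Sy.ι₁) : Q.lamTop (X (Sum.inl i)) = aW P Q.Sy i := by
  rw [lamTop, MvPolynomial.aeval_X, Sum.elim_inl]

theorem lamTop_X_inr (j : Q.Sy.ι₂) : Q.lamTop (X (Sum.inr j)) = Q.u j := by
  rw [lamTop, MvPolynomial.aeval_X, Sum.elim_inr]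

theorem lamBase_X_inl (i : Q.Sy.ι₁) : Q.lamBase (X (Sum.inl i)) = aW P Q.Sy i := by
  rw [lamBase, MvPolynomial.aeval_X, Sum.elim_inl]

theorem lamBase_X_inr (j : Q.Sy.ι₂) : Q.lamBase (X (Sum.inr j)) = Q.aq j := by
  rw [lamBase, MvPolynomial.aeval_X, Sum.elim_inr]

theorem lamBase_X (s : Q.Sy.ι₁ ⊕ Q.Sy.ι₂) :
    Q.lamBase (X s) = ((W.apOfModel (prSy Q.Sy s) : ℤ) : P.k) := by
  rcases s with i | j
  · rw [lamBase_X_inl]
    rfl
  · rw [lamBase_X_inr]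
    rfl

theorem symbols_good (s : Q.Sy.ι₁ ⊕ Q.Sy.ι₂) :
    W.IsGoodPrimeFor (prSy Q.Sy s) ∧ ¬ prSy Q.Sy s ∣ M ∧ prSy Q.Sy s ≠ p := by
  rcases s with i | j
  · exact ⟨i.2.2.1, fun h => i.2.2.2.1 (Dvd.dvd.mul_right h _), i.2.2.2.2⟩
  · exact Q.good (Q.iOf j)

theorem injective_ℓ : Function.Injective Q.Sy.ℓ := Subtype.val_injective

theorem injective_r : Function.Injective Q.Sy.r := Q.inj

/-- lifts of the Frobenius eigenvalues to `O` -/
noncomputable def αl : Q.Sy.ι₁ ⊕ Q.Sy.ι₂ → P.O :=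
  Sum.elim (fun _ => 0) (fun j => (residue_surjective (Q.al (Q.iOf j))).choose)

/-- lifts of the Frobenius eigenvalues to `O` -/
noncomputable def βl : Q.Sy.ι₁ ⊕ Q.Sy.ι₂ → P.O :=
  Sum.elim (fun _ => 0) (fun j => (residue_surjective (Q.be (Q.iOf j))).choose)

theorem algebraMap_αl (j : Q.Sy.ι₂) :
    algebraMap P.O P.k (Q.αl (Sum.inr j)) = Q.al (Q.iOf j) :=
  (residue_surjective (Q.al (Q.iOf j))).choose_spec

theorem algebraMap_βl (j : Q.Sy.ι₂) :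
    algebraMap P.O P.k (Q.βl (Sum.inr j)) = Q.be (Q.iOf j) :=
  (residue_surjective (Q.be (Q.iOf j))).choose_spec

/-- the Taylor–Wiles symbols -/
noncomputable def Qset : Finset (Q.Sy.ι₁ ⊕ Q.Sy.ι₂) :=
  (Finset.univ : Finset (Fin g)).map
    ⟨fun i => Sum.inr (Q.jOf i), fun _ _ h => Q.jOf_injective (Sum.inr_injective h)⟩

theorem mem_Qset {s : Q.Sy.ι₁ ⊕ Q.Sy.ι₂} : s ∈ Q.Qset ↔ ∃ j : Q.Sy.ι₂, s = Sum.inr j := by
  rw [Qset, Finset.mem_map]
  constructor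
  · rintro ⟨i, -, rfl⟩
    exact ⟨Q.jOf i, rfl⟩
  · rintro ⟨j, rfl⟩
    exact ⟨Q.iOf j, Finset.mem_univ _, rfl⟩

theorem hN : Q.N = M * ∏ s ∈ Q.Qset, prSy Q.Sy s := by
  rw [Qset, Finset.prod_map]
  rfl

theorem hQM : ∀ s ∈ Q.Qset, ¬ prSy Q.Sy s ∣ M := by
  intro s hs
  obtain ⟨j, rfl⟩ := Q.mem_Qset.mp hs
  exact (Q.good (Q.iOf j)).2.1

theorem hTW : ∀ s ∈ Q.Qset, TWCond (prSy Q.Sy) Q.lamBase Q.lamTop Q.αl Q.βl s := by
  intro s hs
  obtain ⟨j, rfl⟩ := Q.mem_Qset.mp hs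
  refine TWCond.of_eq_one (prSy Q.Sy) ?_ ?_ ?_ ?_ ?_
  · rw [Q.lamBase_X_inr, map_add, Q.algebraMap_αl, Q.algebraMap_βl, Q.sum (Q.iOf j)]
    rfl
  · rw [Q.lamTop_X_inr, Q.algebraMap_αl]
    rfl
  · rw [map_mul, Q.algebraMap_αl, Q.algebraMap_βl, Q.prod (Q.iOf j), Q.qv_cast_eq_one]
  · rw [map_natCast]
    exact Q.qv_cast_eq_one (Q.iOf j)
  · rw [Q.algebraMap_αl, Q.algebraMap_βl]
    exact Q.ne (Q.iOf j)

theorem haway : ∀ s, s ∉ Q.Qset → Q.lamTop (X s) = Q.lamBase (X s) := by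
  intro s hs
  rcases s with i | j
  · rw [Q.lamTop_X_inl, Q.lamBase_X_inl]
  · exact absurd (Q.mem_Qset.mpr ⟨j, rfl⟩) hs

include Q in
theorem hsurj : Function.Surjective (algebraMap P.O P.k) := residue_surjective

include Q in
theorem hκp : ((p : ℕ) : P.k) = 0 := CharP.cast_eq_zero P.k p

include Q in
theorem hres : W.IsResiduallyModularOfLevel p M := (nonempty_modData_iff W p M).mpr ⟨P.D⟩

end TWSet

end Lam

/-! ### the framed characters (RULING R5: `χ` only at `q = Fin.last s`) -/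

section CFam

variable {O : Type} [CommRing O]

/-- the characters of the framed diamonds: `cq` at the last framed prime `q`, `1` elsewhere -/
def cFam (s : ℕ) (cq : O) (v : Fin (s + 1)) : O := if v = Fin.last s then cq else 1

theorem cFam_last (s : ℕ) (cq : O) : cFam s cq (Fin.last s) = cq := if_pos rfl

theorem cFam_of_ne (s : ℕ) (cq : O) {v : Fin (s + 1)} (hv : v ≠ Fin.last s) :
    cFam s cq v = 1 := if_neg hv

/-- the `hc` binder of `Plug.tw` for `cFam` -/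
theorem cFam_pow {p : ℕ} {e : ℕ → ℕ} (s g : ℕ) {cq : O} {eq : ℕ} (heg : e g = eq)
    (hcq : cq ^ p ^ eq = 1) (v : Fin (s + 1)) :
    cFam s cq v ^ p ^ e (s + 1 + g - 1 - v) = 1 := by
  by_cases hv : v = Fin.last s
  · subst hv
    have h1 : s + 1 + g - 1 - ((Fin.last s : Fin (s + 1)) : ℕ) = g := by
      rw [Fin.val_last]
      omega
    rw [cFam_last, h1, heg, hcq]
  · rw [cFam_of_ne s cq hv, one_pow]

/-- the `hc1` binder of `Plug.tw` for `cFam` -/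
theorem cFam_sub_mem (s : ℕ) {cq ϖ : O} (hcq1 : (1 : O) - cq ∈ Ideal.span {ϖ})
    (v : Fin (s + 1)) : (1 : O) - cFam s cq v ∈ Ideal.span {ϖ} := by
  by_cases hv : v = Fin.last s
  · subst hv
    rw [cFam_last]
    exact hcq1
  · rw [cFam_of_ne s cq hv, sub_self]
    exact Submodule.zero_mem _

end CFam

/-! ### the `TWLevelData` at `Q` and its rank -/

section TW

variable {P : Pkg p W hcard₁ hker M A} {g n : ℕ} (Q : TWSet P g n)
  {r e N' : ℕ → ℕ} (H : PrimeData Q.N p (g + 1) r e N') (hp3 : p ≠ 3)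
  (s : ℕ) {cq : P.O} {eq : ℕ} (heg : e g = eq) (hcq : cq ^ p ^ eq = 1)
  (hcq1 : (1 : P.O) - cq ∈ Ideal.span {P.ϖ})

namespace TWSet

/-- **THE `TWLevelData` of the provider** at the Taylor–Wiles set `Q`: helper95's `Plug.tw` with
`s + 1` framed primes (the last one is `q`, character `cq`), `g` Taylor–Wiles primes. -/
noncomputable def tw :
    TWLevelData P.O P.ϖ (Q.Sy.𝕋 P.O) (M0 Q.Sy Q.𝔪 (Δs p e) H.psi) (act0 Q.Sy Q.𝔪 (Δs p e) H.psi)
      (Fermat.Agent.GB.B3.ChiLevelMulti.ChiBaseM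
        (Fermat.Agent.GB.B3.Plug.bigLevel Q.Sy Q.𝔪 H (Q.hyp hp3) (s + 1 + g)) (cFam s cq))
      (Fermat.Agent.GB.B3.ChiLevelMulti.chiBaseActM
        (Fermat.Agent.GB.B3.Plug.bigLevel Q.Sy Q.𝔪 H (Q.hyp hp3) (s + 1 + g)) (cFam s cq))
      g (fun i => Nfun p e (s + 1 + g) (Fin.natAdd (s + 1) i)) :=
  Fermat.Agent.GB.B3.Plug.tw Q.Sy Q.𝔪 H (Q.hyp hp3) (s + 1) g (cFam s cq)
    (cFam_pow s g heg hcq) (cFam_sub_mem s hcq1)

/-- the common rank of `M¹_Q` and `M^χ_Q` over `O[Δ_Q]` -/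
noncomputable def d : ℕ := (Fermat.Agent.GB.B3.Plug.bigLevel Q.Sy Q.𝔪 H (Q.hyp hp3) (s + 1 + g)).d

/-- `hd₁` -/
theorem tw_L1_d : (Q.tw H hp3 s heg hcq hcq1).L1.d = Q.d H hp3 s := rfl

/-- `hd₂` -/
theorem tw_Lχ_d : (Q.tw H hp3 s heg hcq hcq1).Lχ.d = Q.d H hp3 s := rfl

/-- **the bound `D`**: the `O`-rank of `Hom(Γ₀(M), O)` (independent of `Q`, `n`) -/
noncomputable def D (P : Pkg p W hcard₁ hker M A) : ℕ :=
  Module.finrank P.O (Additive (Gamma0 M) →+ P.O)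

/-- **`d ≤ D`** -/
theorem d_le : Q.d H hp3 s ≤ D P := by
  classical
  haveI : NeZero M := P.neZeroM
  exact Fermat.Agent.GB.B8.LevelPlug.bigLevel_d_le Q.Sy Q.𝔪 H (Q.hyp hp3) Q.injective_ℓ
    Q.injective_r Q.hsurj M Q.lamBase Q.lamTop Q.αl Q.βl Q.Qset Q.hN Q.hQM Q.hTW Q.haway Q.h𝔪
    (s + 1 + g)

/-- **`0 < d`** (from `hres` at level `M`) -/
theorem d_pos : 0 < Q.d H hp3 s := by
  classical
  haveI : NeZero M := P.neZeroM
  exact Fermat.Agent.GB.B8.LevelPlug.bigLevel_d_pos_of_hres Q.Sy Q.𝔪 H (Q.hyp hp3) Q.injective_ℓ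
    Q.injective_r Q.hsurj M Q.lamBase Q.lamTop Q.αl Q.βl Q.Qset Q.hN Q.hQM Q.hTW Q.haway Q.h𝔪
    W Q.hres Q.symbols_good Q.hκp Q.lamBase_X (s + 1 + g)

/-- the orders of the Taylor–Wiles diamonds of `Q.tw` are all `p ^ (n + 1)` -/
theorem Nfun_eq (he : ∀ i, i < g → e i = n + 1) :
    (fun i : Fin g => Nfun p e (s + 1 + g) (Fin.natAdd (s + 1) i)) = fun _ => p ^ (n + 1) :=
  Fermat.Agent.GB.B3.Plug.Nfun_natAdd_eq_const (s + 1) g (n + 1) he

/-- `hN` -/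
theorem Nfun_pos' (i : Fin g) : 0 < Nfun p e (s + 1 + g) (Fin.natAdd (s + 1) i) :=
  Nfun_pos hpF.out e (s + 1 + g) _

end TWSet

end TW

/-! ### a `TWSet` from the S56 clauses -/

/-- **The Taylor–Wiles set of the frozen S56 conclusion is a `TWSet`** (`S ⊇ S0`): choose a place
and a Frobenius at every `qv i`, and its two distinct eigenvalues. -/
theorem exists_TWSet (P : Pkg p W hcard₁ hker M A) {g n : ℕ} (S : Finset ℕ)
    (hS0 : ∀ ℓ ∈ P.S0, ℓ ∈ S) (qv : Fin g → ℕ) (hinj : Function.Injective qv)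
    (hqv : ∀ i, (qv i).Prime ∧ qv i ∉ S ∧ p ^ (n + 1) ∣ qv i - 1)
    (hfrob : ∀ i, ∀ Pl : ValuationSubring (AlgebraicClosure ℚ), Pl.LiesOverPrime (qv i) →
      ∀ φ : AlgebraicClosure ℚ ≃ₐ[ℚ] AlgebraicClosure ℚ, Pl.IsFrobeniusAt φ (qv i) →
        ∃ α β : P.k, α ≠ β ∧ LinearMap.charpoly (P.rhobar.ρ φ) =
          (Polynomial.X - Polynomial.C α) * (Polynomial.X - Polynomial.C β)) :
    ∃ Q : TWSet P g n, Q.qv = qv := by
  have hnot : ∀ i, qv i ∉ (↑P.S0 : Set ℕ) := fun i h => (hqv i).2.1 (hS0 _ h)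
  have hex : ∀ i, ∃ α β : P.k, α ≠ β ∧ α + β = ((W.apOfModel (qv i) : ℤ) : P.k) ∧
      α * β = ((qv i : ℕ) : P.k) := by
    intro i
    obtain ⟨Pl, φ, hPl, hφ⟩ :=
      Fermat.Agent.Common_helper32.exists_isFrobeniusAt (qv i) (hqv i).1
    obtain ⟨α, β, hne, hcp⟩ := hfrob i Pl hPl φ hφ
    obtain ⟨hgood, hM, hp⟩ := P.good_of_notMem_S0 (hqv i).1 (hnot i)
    obtain ⟨h1, h2⟩ := P.tw_roots (hqv i).1 hgood hM hp Pl hPl φ hφ α β hcp
    exact ⟨α, β, hne, h1, h2⟩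
  choose al be hne hsum hprod using hex
  exact ⟨{ qv := qv, inj := hinj, prime := fun i => (hqv i).1, notMem := hnot,
           cong := fun i => (hqv i).2.2, al := al, be := be, ne := hne, sum := hsum,
           prod := hprod }, rfl⟩

/-! ### transport of a `TWInput` along an equality of the diamond orders -/

theorem TWInput.castN {O : Type} [CommRing O] {ϖ : O} {R : Type} [CommRing R] [IsLocalRing R]
    [Algebra O R] {J₁ J₂ : Ideal R} {k nz : ℕ} {N₁ N₂ : Fin k → ℕ} {d : ℕ} (hN : N₁ = N₂)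
    (h : Nonempty (Fermat.Agent.GB.B9.TWInput O ϖ R J₁ J₂ k nz N₁ d)) :
    Nonempty (Fermat.Agent.GB.B9.TWInput O ϖ R J₁ J₂ k nz N₂ d) := by
  subst hN
  exact h

end Fermat.Agent.GB.B9.ProviderFlat.G1
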