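/-
GATE-B / PROVIDER, HOLE H1 of helper53 6307 (helper54): **`TWChars.PrimeData` from the Taylor–Wiles
primes of the S56 conclusion and the framed primes with a character.**

Input (exactly what S56 + the level hypotheses give):
* `M` the level (it contains the framed primes), `qv : Fin k → ℕ` the Taylor–Wiles primes
  (injective, prime, `qv i ∤ M`, `p ^ n ∣ qv i - 1`),
* `fr : Fin s → ℕ` the framed primes carrying a character (injective, prime, `fr v ∥ M`,
  `p ^ ef v ∣ fr v - 1`); under R5 `s = 1`, `fr 0 = q`.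

Output: with `N := bigN M qv = M * ∏ i, qv i`,
`r := seq qv fr` (TW primes FIRST, framed primes LAST, `0` afterwards — the ordering of
helper95 `FinalTW`/`Plug`), `e := seq (fun _ => n) ef`, `N' i := N / r i`:

  `primeData : PrimeData (bigN M qv) p (k + s) (seq qv fr) (seq (fun _ => n) ef) (cof M qv fr)`

plus the API of `seq` (`seq_lt`, `seq_natAdd`, `seq_ge`, `e i = n` for `i < k`), and the side facts
`qv i ∣ bigN`, `M ∣ bigN`, `Squarefree (bigN M qv)` from `Squarefree M`, positivity.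
Mathlib + `GB/B3/TWChars` only.
-/
import Mathlib
import Fermat.Agent.GB.B3.TWChars

set_option autoImplicit false

namespace Fermat.Agent.GB.B9.ProviderFlat.H1

open Fermat.Agent.GB.B3.TWChars

/-! ### concatenation of two finite families into a sequence `ℕ → ℕ` -/

/-- `a 0, …, a (k-1), b 0, …, b (s-1), 0, 0, …` -/
def seq {k s : ℕ} (a : Fin k → ℕ) (b : Fin s → ℕ) (i : ℕ) : ℕ :=
  if h : i < k then a ⟨i, h⟩ else if h' : i - k < s then b ⟨i - k, h'⟩ else 0

section Seq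

variable {k s : ℕ} (a : Fin k → ℕ) (b : Fin s → ℕ)

theorem seq_lt {i : ℕ} (h : i < k) : seq a b i = a ⟨i, h⟩ := by
  rw [seq, dif_pos h]

theorem seq_castAdd (i : Fin k) : seq a b (i : ℕ) = a i := by
  rw [seq_lt a b i.2]

theorem seq_mid {i : ℕ} (h : k ≤ i) (h' : i - k < s) : seq a b i = b ⟨i - k, h'⟩ := by
  rw [seq, dif_neg (not_lt.mpr h), dif_pos h']

theorem seq_natAdd (v : Fin s) : seq a b (k + (v : ℕ)) = b v := by
  have h' : k + (v : ℕ) - k < s := by rw [Nat.add_sub_cancel_left]; exact v.2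
  rw [seq_mid a b (Nat.le_add_right k v) h']
  congr 1
  exact Fin.ext (Nat.add_sub_cancel_left (n := k) (m := (v : ℕ)))

theorem seq_ge {i : ℕ} (h : k + s ≤ i) : seq a b i = 0 := by
  have h1 : ¬ i < k := by omega
  have h2 : ¬ i - k < s := by omega
  rw [seq, dif_neg h1, dif_neg h2]

/-- every index below `k + s` is a `castAdd` or a `natAdd` -/
theorem lt_add_cases {i : ℕ} (h : i < k + s) :
    (∃ j : Fin k, i = (j : ℕ)) ∨ ∃ v : Fin s, i = k + (v : ℕ) := by
  by_cases hi : i < k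
  · exact Or.inl ⟨⟨i, hi⟩, rfl⟩
  · exact Or.inr ⟨⟨i - k, by omega⟩, by simp only; omega⟩

end Seq

/-! ### the big level -/

/-- the level with the Taylor–Wiles primes added -/
abbrev bigN {k : ℕ} (M : ℕ) (qv : Fin k → ℕ) : ℕ := M * ∏ i, qv i

/-- the cofactors -/
def cof {k s : ℕ} (M : ℕ) (qv : Fin k → ℕ) (fr : Fin s → ℕ) (i : ℕ) : ℕ :=
  bigN M qv / seq qv fr i

section Big

variable {k : ℕ} (M : ℕ) (qv : Fin k → ℕ)

theorem dvd_bigN : M ∣ bigN M qv := Dvd.intro _ rfl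

theorem qv_dvd_bigN (i : Fin k) : qv i ∣ bigN M qv :=
  Dvd.dvd.mul_left (Finset.dvd_prod_of_mem qv (Finset.mem_univ i)) M

theorem bigN_pos (hM : 0 < M) (hq : ∀ i, (qv i).Prime) : 0 < bigN M qv :=
  Nat.mul_pos hM (Finset.prod_pos fun i _ => (hq i).pos)

theorem neZero_bigN (hM : 0 < M) (hq : ∀ i, (qv i).Prime) : NeZero (bigN M qv) :=
  ⟨(bigN_pos M qv hM hq).ne'⟩

/-- the product of the other Taylor–Wiles primes -/
theorem prod_eq_mul_erase (i : Fin k) :
    ∏ j, qv j = qv i * ∏ j ∈ Finset.univ.erase i, qv j :=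
  (Finset.mul_prod_erase Finset.univ qv (Finset.mem_univ i)).symm

theorem bigN_eq_qv_mul (i : Fin k) :
    bigN M qv = qv i * (M * ∏ j ∈ Finset.univ.erase i, qv j) := by
  rw [bigN, prod_eq_mul_erase qv i]
  ring

variable {M qv}

/-- a prime not dividing `M` and different from all the `qv j` is prime to `bigN` -/
theorem coprime_mul_prod {ℓ : ℕ} (hℓ : ℓ.Prime) {M' : ℕ} (hM' : ¬ ℓ ∣ M')
    (t : Finset (Fin k)) (hq : ∀ j ∈ t, (qv j).Prime) (hne : ∀ j ∈ t, ℓ ≠ qv j) :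
    Nat.Coprime ℓ (M' * ∏ j ∈ t, qv j) := by
  refine Nat.Coprime.mul_right ((Nat.Prime.coprime_iff_not_dvd hℓ).mpr hM') ?_
  refine Nat.Coprime.prod_right fun j hj => ?_
  exact (Nat.coprime_primes hℓ (hq j hj)).mpr (hne j hj)

theorem squarefree_bigN (hM : Squarefree M) (hq : ∀ i, (qv i).Prime)
    (hqM : ∀ i, ¬ qv i ∣ M) (hinj : Function.Injective qv) : Squarefree (bigN M qv) := by
  rw [bigN]
  have hprod : Squarefree (∏ i, qv i) := by
    refine Finset.squarefree_prod_of_pairwise_isCoprime (fun i _ j _ hij => ?_)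
      (fun i _ => (hq i).squarefree)
    show IsRelPrime (qv i) (qv j)
    rw [← Nat.coprime_iff_isRelPrime]
    exact (Nat.coprime_primes (hq i) (hq j)).mpr fun h => hij (hinj h)
  rw [Nat.squarefree_mul_iff]
  refine ⟨?_, hM, hprod⟩
  refine Nat.Coprime.prod_right fun i _ => ?_
  exact ((Nat.Prime.coprime_iff_not_dvd (hq i)).mpr (hqM i)).symm

end Big

/-! ### the prime data -/

section Data

variable {k s : ℕ} {M p n : ℕ} {qv : Fin k → ℕ} {fr : Fin s → ℕ} {ef : Fin s → ℕ}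

/-- **HOLE H1**: the Taylor–Wiles prime data of the big level `M * ∏ qv`, Taylor–Wiles primes first,
framed primes (with their characters) last. -/
theorem primeData
    (hqinj : Function.Injective qv) (hq : ∀ i, (qv i).Prime) (hqM : ∀ i, ¬ qv i ∣ M)
    (hqcong : ∀ i, p ^ n ∣ qv i - 1)
    (hfinj : Function.Injective fr) (hf : ∀ v, (fr v).Prime) (hfM : ∀ v, fr v ∣ M)
    (hfM2 : ∀ v, ¬ fr v ^ 2 ∣ M) (hfcong : ∀ v, p ^ ef v ∣ fr v - 1) :
    PrimeData (bigN M qv) p (k + s) (seq qv fr) (seq (fun _ : Fin k => n) ef) (cof M qv fr) := by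
  -- framed primes are different from Taylor–Wiles primes
  have hne : ∀ (v : Fin s) (j : Fin k), fr v ≠ qv j := fun v j h => hqM j (h ▸ hfM v)
  have hrdvd : ∀ i, i < k + s → seq qv fr i ∣ bigN M qv := by
    intro i hi
    rcases lt_add_cases hi with ⟨j, rfl⟩ | ⟨v, rfl⟩
    · rw [seq_castAdd]; exact qv_dvd_bigN M qv j
    · rw [seq_natAdd]; exact (hfM v).trans (dvd_bigN M qv)
  refine ⟨?_, ?_, ?_, ?_, ?_, ?_⟩
  · -- prime
    intro i hi
    rcases lt_add_cases hi with ⟨j, rfl⟩ | ⟨v, rfl⟩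
    · rw [seq_castAdd]; exact hq j
    · rw [seq_natAdd]; exact hf v
  · -- fact
    intro i hi
    rw [cof, Nat.mul_div_cancel' (hrdvd i hi)]
  · -- cop
    intro i hi
    rcases lt_add_cases hi with ⟨j, rfl⟩ | ⟨v, rfl⟩
    · have h1 : cof M qv fr (j : ℕ) = M * ∏ j' ∈ Finset.univ.erase j, qv j' := by
        rw [cof, seq_castAdd]
        conv_lhs => rw [bigN_eq_qv_mul M qv j]
        exact Nat.mul_div_cancel_left _ (hq j).pos
      rw [h1, seq_castAdd]
      refine coprime_mul_prod (hq j) (hqM j) _ (fun j' _ => hq j') ?_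
      intro j' hj' h
      exact (Finset.ne_of_mem_erase hj') (hqinj h).symm
    · obtain ⟨M', hM'⟩ := hfM v
      have hM'2 : ¬ fr v ∣ M' := by
        intro h
        apply hfM2 v
        rw [hM', pow_two]
        exact Nat.mul_dvd_mul_left _ h
      have h1 : cof M qv fr (k + (v : ℕ)) = M' * ∏ j, qv j := by
        rw [cof, seq_natAdd, bigN, hM', Nat.mul_assoc]
        exact Nat.mul_div_cancel_left _ (hf v).pos
      rw [h1, seq_natAdd]
      exact coprime_mul_prod (hf v) hM'2 _ (fun j _ => hq j) (fun j _ => hne v j)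
  · -- cong
    intro i hi
    rcases lt_add_cases hi with ⟨j, rfl⟩ | ⟨v, rfl⟩
    · rw [seq_castAdd, seq_castAdd]; exact hqcong j
    · rw [seq_natAdd, seq_natAdd]; exact hfcong v
  · -- inj
    intro i j hi hj hij
    rcases lt_add_cases hi with ⟨i', rfl⟩ | ⟨v, rfl⟩ <;>
      rcases lt_add_cases hj with ⟨j', rfl⟩ | ⟨w, rfl⟩
    · rw [seq_castAdd, seq_castAdd]
      intro h
      exact hij (congrArg Fin.val (hqinj h))
    · rw [seq_castAdd, seq_natAdd]
      exact (hne w i').symm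
    · rw [seq_natAdd, seq_castAdd]
      exact hne v j'
    · rw [seq_natAdd, seq_natAdd]
      intro h
      exact hij (by rw [hfinj h])
  · -- e_out
    intro i hi
    exact seq_ge _ _ hi

/-- the exponents of the Taylor–Wiles primes are all `n` -/
theorem e_eq_of_lt (ef : Fin s → ℕ) (n : ℕ) {i : ℕ} (hi : i < k) :
    seq (fun _ : Fin k => n) ef i = n := seq_lt _ _ hi

/-- the exponent of the framed prime `v` -/
theorem e_natAdd (ef : Fin s → ℕ) (n : ℕ) (v : Fin s) :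
    seq (fun _ : Fin k => n) ef (k + (v : ℕ)) = ef v := seq_natAdd _ _ v

/-- the Taylor–Wiles primes are prime to the level `M` -/
theorem r_not_dvd_of_lt (fr : Fin s → ℕ) (hqM : ∀ i, ¬ qv i ∣ M) {i : ℕ} (hi : i < k) :
    ¬ seq qv fr i ∣ M := by
  rw [seq_lt _ _ hi]; exact hqM _

end Data

/-! ### R5: one framed prime `q` with a character -/

section One

variable {k : ℕ} {M p n eq q : ℕ} {qv : Fin k → ℕ}

/-- **R5 form**: Taylor–Wiles primes `qv` and ONE framed prime `q ∥ M` with `p ^ eq ∣ q - 1`. -/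
theorem primeData_one
    (hqinj : Function.Injective qv) (hq : ∀ i, (qv i).Prime) (hqM : ∀ i, ¬ qv i ∣ M)
    (hqcong : ∀ i, p ^ n ∣ qv i - 1)
    (hqp : q.Prime) (hqdvd : q ∣ M) (hq2 : ¬ q ^ 2 ∣ M) (hcong : p ^ eq ∣ q - 1) :
    PrimeData (bigN M qv) p (k + 1) (seq qv (fun _ : Fin 1 => q))
      (seq (fun _ : Fin k => n) (fun _ : Fin 1 => eq)) (cof M qv (fun _ : Fin 1 => q)) :=
  primeData hqinj hq hqM hqcong (fun a b _ => Subsingleton.elim a b) (fun _ => hqp)
    (fun _ => hqdvd) (fun _ => hq2) (fun _ => hcong)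

theorem r_last (qv : Fin k → ℕ) (q : ℕ) : seq qv (fun _ : Fin 1 => q) k = q := by
  have := seq_natAdd qv (fun _ : Fin 1 => q) 0
  simpa using this

theorem e_last (n eq : ℕ) : seq (fun _ : Fin k => n) (fun _ : Fin 1 => eq) k = eq := by
  have := seq_natAdd (fun _ : Fin k => n) (fun _ : Fin 1 => eq) 0
  simpa using this

end One


/-! ### the level spelled `N * q` (the spelling of B7 `UqOne.exists_tw₁` / B3 `LocTransport`) -/

section MulQ

variable {k : ℕ} {M' p n eq q : ℕ} {qv : Fin k → ℕ}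

theorem bigN_mul_q (M' q : ℕ) (qv : Fin k → ℕ) : bigN (M' * q) qv = bigN M' qv * q := by
  rw [bigN, bigN]; ring

/-- **R5 form with the level written `N * q`**, `N := bigN M' qv = M' * ∏ qv` the level WITHOUT the
framed prime `q ∤ M'`. -/
theorem primeData_mul_q
    (hqinj : Function.Injective qv) (hq : ∀ i, (qv i).Prime) (hqM : ∀ i, ¬ qv i ∣ M')
    (hqne : ∀ i, qv i ≠ q) (hqcong : ∀ i, p ^ n ∣ qv i - 1)
    (hqp : q.Prime) (hqM' : ¬ q ∣ M') (hcong : p ^ eq ∣ q - 1) :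
    PrimeData (bigN M' qv * q) p (k + 1) (seq qv (fun _ : Fin 1 => q))
      (seq (fun _ : Fin k => n) (fun _ : Fin 1 => eq)) (cof (M' * q) qv (fun _ : Fin 1 => q)) := by
  rw [← bigN_mul_q]
  refine primeData_one hqinj hq (fun i h => ?_) hqcong hqp (Dvd.intro_left M' rfl) ?_ hcong
  · rcases ((hq i).dvd_mul).mp h with h | h
    · exact hqM i h
    · exact hqne i ((Nat.prime_dvd_prime_iff_eq (hq i) hqp).mp h)
  · intro h
    rw [pow_two] at h
    exact hqM' (Nat.dvd_of_mul_dvd_mul_right hqp.pos h)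

/-- the Taylor–Wiles primes divide the level `N = bigN M' qv` without `q` (`hrk` of
`UqOne.exists_tw₁`) -/
theorem r_dvd_bigN (M' q : ℕ) (qv : Fin k → ℕ) (i : Fin k) :
    seq qv (fun _ : Fin 1 => q) (i : ℕ) ∣ bigN M' qv := by
  rw [seq_castAdd]; exact qv_dvd_bigN M' qv i

end MulQ

/-! ### from the literal S56 conclusion -/

section S56

variable {k : ℕ} {M p n eq q : ℕ} {S : Finset ℕ} {qv : Fin k → ℕ}

/-- **From the S56 conclusion verbatim**: `qv` injective, `(qv i).Prime ∧ qv i ∉ S ∧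
p ^ (n + 1) ∣ qv i - 1`, and every prime factor of `M` lies in `S`. -/
theorem primeData_of_S56
    (hqinj : Function.Injective qv)
    (hqv : ∀ i, (qv i).Prime ∧ qv i ∉ S ∧ p ^ (n + 1) ∣ qv i - 1)
    (hMS : ∀ ℓ : ℕ, ℓ.Prime → ℓ ∣ M → ℓ ∈ S)
    (hqp : q.Prime) (hqdvd : q ∣ M) (hq2 : ¬ q ^ 2 ∣ M) (hcong : p ^ eq ∣ q - 1) :
    PrimeData (bigN M qv) p (k + 1) (seq qv (fun _ : Fin 1 => q))
      (seq (fun _ : Fin k => n + 1) (fun _ : Fin 1 => eq)) (cof M qv (fun _ : Fin 1 => q)) :=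
  primeData_one hqinj (fun i => (hqv i).1)
    (fun i h => (hqv i).2.1 (hMS _ (hqv i).1 h)) (fun i => (hqv i).2.2) hqp hqdvd hq2 hcong

end S56

/-! ### the named data of the FLAT provider (spelling of helper51 6372) -/

section Flat

variable {g : ℕ}

/-- `r i := qv i` (`i < g`), `r g := q`, `0` afterwards -/
def rOf (qv : Fin g → ℕ) (q : ℕ) : ℕ → ℕ := seq qv (fun _ : Fin 1 => q)

/-- `e i := n` (`i < g`), `e g := eq`, `0` afterwards -/
def eOf (g n eq : ℕ) : ℕ → ℕ := seq (fun _ : Fin g => n) (fun _ : Fin 1 => eq)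

/-- the cofactors `N' i := (M * ∏ qv) / r i` -/
def cofOf (M : ℕ) (qv : Fin g → ℕ) (q : ℕ) : ℕ → ℕ := cof M qv (fun _ : Fin 1 => q)

@[simp] theorem rOf_lt (qv : Fin g → ℕ) (q : ℕ) {i : ℕ} (h : i < g) : rOf qv q i = qv ⟨i, h⟩ :=
  seq_lt _ _ h

@[simp] theorem rOf_fin (qv : Fin g → ℕ) (q : ℕ) (i : Fin g) : rOf qv q (i : ℕ) = qv i :=
  seq_castAdd _ _ i

@[simp] theorem rOf_eq (qv : Fin g → ℕ) (q : ℕ) : rOf qv q g = q := r_last qv q

theorem rOf_gt (qv : Fin g → ℕ) (q : ℕ) {i : ℕ} (h : g < i) : rOf qv q i = 0 :=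
  seq_ge _ _ (by omega)

@[simp] theorem eOf_lt (n eq : ℕ) {i : ℕ} (h : i < g) : eOf g n eq i = n := seq_lt _ _ h

@[simp] theorem eOf_eq (n eq : ℕ) : eOf g n eq g = eq := e_last n eq

theorem eOf_gt (n eq : ℕ) {i : ℕ} (h : g < i) : eOf g n eq i = 0 := seq_ge _ _ (by omega)

theorem cofOf_apply (M : ℕ) (qv : Fin g → ℕ) (q i : ℕ) :
    cofOf M qv q i = (M * ∏ j, qv j) / rOf qv q i := rfl

variable {M p n eq q : ℕ} {S : Finset ℕ} {qv : Fin g → ℕ}

/-- **H1, final form** (helper51 6372): from the S56 conclusion verbatim + `q ∣ M`, `Squarefree M`,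
`p ^ eq ∣ q - 1`: the prime data of the big level `M * ∏ qv`, `K = g + 1`, framed prime `q` at
step `g`. -/
theorem primeData_flat
    (hqinj : Function.Injective qv)
    (hqv : ∀ i, (qv i).Prime ∧ qv i ∉ S ∧ p ^ (n + 1) ∣ qv i - 1)
    (hMS : ∀ ℓ : ℕ, ℓ.Prime → ℓ ∣ M → ℓ ∈ S)
    (hqp : q.Prime) (hqM : q ∣ M) (hsq : Squarefree M) (hcong : p ^ eq ∣ q - 1) :
    PrimeData (M * ∏ i, qv i) p (g + 1) (rOf qv q) (eOf g (n + 1) eq) (cofOf M qv q) :=
  primeData_of_S56 hqinj hqv hMS hqp hqM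
    (fun h => Nat.squarefree_iff_prime_squarefree.mp hsq q hqp (by rwa [← pow_two])) hcong

/-- the big level is squarefree -/
theorem squarefree_level
    (hqinj : Function.Injective qv)
    (hqv : ∀ i, (qv i).Prime ∧ qv i ∉ S ∧ p ^ (n + 1) ∣ qv i - 1)
    (hMS : ∀ ℓ : ℕ, ℓ.Prime → ℓ ∣ M → ℓ ∈ S) (hsq : Squarefree M) :
    Squarefree (M * ∏ i, qv i) :=
  squarefree_bigN hsq (fun i => (hqv i).1) (fun i h => (hqv i).2.1 (hMS _ (hqv i).1 h)) hqinj

/-- the level is positive -/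
theorem level_pos (hM : 0 < M) (hq : ∀ i, (qv i).Prime) : 0 < M * ∏ i, qv i :=
  bigN_pos M qv hM hq

/-- every step prime divides the big level -/
theorem rOf_dvd_level (hqM : q ∣ M) {i : ℕ} (hi : i < g + 1) : rOf qv q i ∣ M * ∏ j, qv j := by
  rcases Nat.lt_succ_iff_lt_or_eq.mp hi with h | rfl
  · rw [rOf_lt qv q h]; exact qv_dvd_bigN M qv _
  · rw [rOf_eq]; exact hqM.trans (dvd_bigN M qv)

/-- the Taylor–Wiles steps do not divide `M` -/
theorem rOf_not_dvd (hqv : ∀ i, (qv i).Prime ∧ qv i ∉ S ∧ p ^ (n + 1) ∣ qv i - 1)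
    (hMS : ∀ ℓ : ℕ, ℓ.Prime → ℓ ∣ M → ℓ ∈ S) {i : ℕ} (hi : i < g) : ¬ rOf qv q i ∣ M := by
  rw [rOf_lt qv q hi]
  exact fun h => (hqv _).2.1 (hMS _ (hqv _).1 h)

end Flat

end Fermat.Agent.GB.B9.ProviderFlat.H1
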