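/-
GATE-B / B9 PROVIDER (flat branch), G1 ∘ H1 ∘ LevelMulti (helper51): **the level assembly with the
B3 group discharged**.

* `TWSet.primeData` : helper54's `H1.primeData_flat` at a `TWSet` (`S := S0`): the prime data of
  the big level `Q.N`, `K = g + 1`, `r = rOf Q.qv q`, `e = eOf g (n + 1) eq`.
* `TWSet.twF` : `Q.tw` at that prime data — THE `TWLevelData` of the flat provider at `Q`
  (`s + 1` framed primes, `q` last with character `cq`).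
* `exists_level` : for a `J₂` with helper59's `Kill2Handle`, from the REMAINING groups stated on
  `Q.twF …` (G2: `T a₁ a₂ …`; G3: `Θ₀ ψ`; G4: `x unit₁ unit₂`; G5: the `T`-level identities;
  G6: `hnu`; G7: `he`) the level clause of `LevelMulti.nonempty_TWSystem_of_handle`:
    `∃ d', 0 < d' ∧ d' ≤ D P ∧ Nonempty (TWInput P.O P.ϖ (RM P.O (s+1) g) (J1 …) J₂ g (3 (s+1))
       (fun _ => p ^ (n + 1)) d')`.
  The B3 fields `tw hd₁ hd₂ hN hd`, the bound `d ≤ D` and the order bookkeeping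
  (`Nfun … = fun _ => p ^ (n + 1)`) are discharged here.
-/
import Fermat.Agent.GB.B9.ProviderFlat.G1
import Fermat.Agent.GB.B9.ProviderFlat.H1
import Fermat.Agent.GB.B9.LevelMulti

set_option autoImplicit false
set_option linter.unusedSectionVars false
set_option linter.unusedVariables false
set_option linter.style.haveILetI false

open IsLocalRing
open scoped MatrixGroups
open CongruenceSubgroup

namespace Fermat.Agent.GB.B9.ProviderFlat.G1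

open Fermat.Agent.GB.Setup.SetupPkg Fermat.Agent.GB.B3.TWLevel Fermat.Agent.GB.B3.TWChars
  Fermat.Agent.GB.B3.Final Fermat.Agent.GB.B3.FinalTW Fermat.Agent.GB.B3.Tower
  Fermat.Agent.GB.B9.ProviderFlat.H1
  Fermat.Agent.GB.Local.TamePoint Fermat.Agent.GB.Local.R4Point
  Fermat.Agent.GB.Local.Multi Fermat.Agent.GB.B9.AlgHypMulti Fermat.Agent.GB.B9.AlgHypKill2
  Fermat.Agent.GB.Local.Multi.Kill2Field Fermat.Agent.GB.Local.Multi.Kill2Q Matrix

variable {p : ℕ} [hpF : Fact p.Prime] {W : WeierstrassCurve ℤ}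
  {hcard₁ : Nat.card (Submodule.torsionBy ℤ
    ((W.map (Int.castRingHom ℚ)).toAffine.baseChange (AlgebraicClosure ℚ)).Point p) = p ^ 2}
  {hker : GaloisFactorsThroughFiniteLevel
    (WeierstrassCurve.Affine.Point.galoisRepModuleEnd (K := AlgebraicClosure ℚ) ℚ
      (W.map (Int.castRingHom ℚ)) p)}
  {M A : ℕ} {P : Pkg p W hcard₁ hker M A} {g n : ℕ} (Q : TWSet P g n)

namespace TWSet

/-- **the prime data of the big level** (helper54 H1 at `S := S0`) -/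
theorem primeData {q eq : ℕ} (hq : q.Prime) (hqM : q ∣ M) (hsq : Squarefree M)
    (hcong : p ^ eq ∣ q - 1) :
    PrimeData Q.N p (g + 1) (rOf Q.qv q) (eOf g (n + 1) eq) (cofOf M Q.qv q) :=
  primeData_flat (S := P.S0) Q.inj
    (fun i => ⟨Q.prime i, fun h => Q.notMem i (Finset.mem_coe.mpr h), Q.cong i⟩)
    (fun ℓ hℓ hℓM => Finset.mem_coe.mp (P.hMS0 ℓ hℓ hℓM)) hq hqM hsq hcong

variable {q eq : ℕ} (hq : q.Prime) (hqM : q ∣ M) (hsq : Squarefree M) (hcong : p ^ eq ∣ q - 1)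
  (hp3 : p ≠ 3) (s : ℕ) {cq : P.O} (hcq : cq ^ p ^ eq = 1)
  (hcq1 : (1 : P.O) - cq ∈ Ideal.span {P.ϖ})

/-- **THE `TWLevelData` of the flat provider** at `Q` -/
noncomputable def twF :=
  Q.tw (Q.primeData hq hqM hsq hcong) hp3 s (eOf_eq (n + 1) eq) hcq hcq1

/-- its rank -/
noncomputable def dF : ℕ := Q.d (Q.primeData hq hqM hsq hcong) hp3 s

theorem dF_pos : 0 < Q.dF hq hqM hsq hcong hp3 s := Q.d_pos _ hp3 s

theorem dF_le : Q.dF hq hqM hsq hcong hp3 s ≤ D P := Q.d_le _ hp3 s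

theorem twF_L1_d : (Q.twF hq hqM hsq hcong hp3 s hcq hcq1).L1.d = Q.dF hq hqM hsq hcong hp3 s :=
  rfl

theorem twF_Lχ_d : (Q.twF hq hqM hsq hcong hp3 s hcq hcq1).Lχ.d = Q.dF hq hqM hsq hcong hp3 s :=
  rfl

/-- **THE LEVEL CLAUSE** of `LevelMulti.nonempty_TWSystem_of_handle` at depth `n + 1`, B3 group
discharged; the other groups are the hypotheses, stated on `Q.twF …`. -/
theorem exists_level {h : P.O} (hh : 2 * h = 1) (ℓ : Fin (s + 1) → ℕ)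
    {J₂ : Ideal (RM P.O (s + 1) g)} (hkill : Kill2Handle h ℓ J₂)
    -- G2 (B4)
    (T : Type) [CommRing T] [IsLocalRing T] [Algebra P.O T] [Module.Finite P.O T] [IsReduced T]
    (a₁ : T →ₐ[P.O] Module.End P.O (Q.twF hq hqM hsq hcong hp3 s hcq hcq1).L1.M)
    (a₂ : T →ₐ[P.O] Module.End P.O (Q.twF hq hqM hsq hcong hp3 s hcq hcq1).Lχ.M)
    (a₁_D : ∀ t i, a₁ t * (Q.twF hq hqM hsq hcong hp3 s hcq hcq1).L1.D i =
      (Q.twF hq hqM hsq hcong hp3 s hcq hcq1).L1.D i * a₁ t)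
    (a₂_D : ∀ t i, a₂ t * (Q.twF hq hqM hsq hcong hp3 s hcq hcq1).Lχ.D i =
      (Q.twF hq hqM hsq hcong hp3 s hcq hcq1).Lχ.D i * a₂ t)
    (a_U : ∀ (t : T) (x : (Q.twF hq hqM hsq hcong hp3 s hcq hcq1).L1.M)
      (y : (Q.twF hq hqM hsq hcong hp3 s hcq hcq1).Lχ.M),
      (Q.twF hq hqM hsq hcong hp3 s hcq hcq1).U (Submodule.Quotient.mk x) =
        Submodule.Quotient.mk y →
      (Q.twF hq hqM hsq hcong hp3 s hcq hcq1).U (Submodule.Quotient.mk (a₁ t x)) =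
        Submodule.Quotient.mk (a₂ t y))
    -- G3 (B2 + B4)
    {ζ : Type} [Finite ζ] (e : ζ ≃ Fin (3 * (s + 1))) {RQ : Type} [CommRing RQ] [Algebra P.O RQ]
    (Θ₀ : RM P.O (s + 1) g →ₐ[P.O] MvPowerSeries ζ RQ) (hΘ₀ : Function.Surjective Θ₀)
    (ψ : RQ →ₐ[P.O] T) (hψ : Function.Surjective ψ)
    -- G4 (P5)
    (x : Fin g → T) (hx : ∀ i, x i - 1 ∈ maximalIdeal T)
    (unit₁ : ∀ i m, ∃ m', (Q.twF hq hqM hsq hcong hp3 s hcq hcq1).L1.D i m - m = a₁ (x i) m' - m')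
    (unit₂ : ∀ i m, ∃ m', (Q.twF hq hqM hsq hcong hp3 s hcq hcq1).Lχ.D i m - m = a₂ (x i) m' - m')
    -- G5
    (S F : Fin (s + 1) → Matrix (Fin 2) (Fin 2) T)
    (γ γi : Fin (s + 1) → Matrix (Fin 2) (Fin 2) (MvPowerSeries ζ T))
    (hFdet : ∀ v, (F v).det = (ℓ v : T)) (hrel : ∀ v, F v * S v = S v ^ ℓ v * F v)
    (hFres : ∀ v k, tl (algebraMap P.O T h) (F v) k ∈ maximalIdeal T)
    (hSres : ∀ v k, tl (algebraMap P.O T h) (S v) k ∈ maximalIdeal T)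
    (hγ : ∀ v, γ v * γi v = 1)
    (hΘa : ∀ v k, MvPowerSeries.map (ψ : RQ →+* T) (Θ₀ (aV P.O v k)) =
      tl (MvPowerSeries.C (algebraMap P.O T h)) (γ v * (F v).map MvPowerSeries.C * γi v) k)
    (hΘn : ∀ v k, MvPowerSeries.map (ψ : RQ →+* T) (Θ₀ (nV P.O v k)) =
      tl (MvPowerSeries.C (algebraMap P.O T h)) (γ v * (S v).map MvPowerSeries.C * γi v) k)
    (htr : ∀ v, v ≠ Fin.last s → (S v).trace = 2)
    (hSu : ∀ v, v ≠ Fin.last s → (S v - 1) ^ 2 = 0)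
    (hSdet : (S (Fin.last s)).det = 1)
    (hres : (S (Fin.last s)).trace - 2 ∈ maximalIdeal T)
    -- G6 (B5 at `q`)
    (hnu : ∀ i : Fermat.Agent.GB.Glue.Points.Idx P.O (Tchi a₂),
      ((S (Fin.last s)).map (phi a₂ i) - 1) ^ 2 = 0 → (S (Fin.last s)).map (phi a₂ i) = 1)
    -- G7 (B7)
    (he : a₁ ((F (Fin.last s)).trace ^ 2 - (1 + (ℓ (Fin.last s) : T)) ^ 2) = 0) :
    ∃ d', 0 < d' ∧ d' ≤ D P ∧
      Nonempty (TWInput P.O P.ϖ (RM P.O (s + 1) g) (J1 s g ((ℓ (Fin.last s) : P.O) - 1)) J₂ g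
        (3 * (s + 1)) (fun _ => p ^ (n + 1)) d') := by
  refine ⟨Q.dF hq hqM hsq hcong hp3 s, Q.dF_pos hq hqM hsq hcong hp3 s,
    Q.dF_le hq hqM hsq hcong hp3 s, ?_⟩
  refine TWInput.castN
    (TWSet.Nfun_eq (g := g) (n := n) s (e := eOf g (n + 1) eq) (fun i hi => eOf_lt (n + 1) eq hi)) ?_
  exact Fermat.Agent.GB.B9.LevelMulti.nonempty_TWInput_multi hh ℓ hkill
    (fun i => TWSet.Nfun_pos' s i) (Q.dF_pos hq hqM hsq hcong hp3 s)
    (Q.twF hq hqM hsq hcong hp3 s hcq hcq1) rfl rfl T a₁ a₂ a₁_D a₂_D a_U e Θ₀ hΘ₀ ψ hψ x hx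
    unit₁ unit₂ S F γ γi hFdet hrel hFres hSres hγ hΘa hΘn htr hSu hSdet hres hnu he

end TWSet

end Fermat.Agent.GB.B9.ProviderFlat.G1
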