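/-
GATE-B (S38/S43) / PROVIDER GAPS v1 (helper28, board 6415), gap **(N3)** (helper69):
**`¬ W.IsResiduallyModularOfLevel p M` is CONSUMED here**: the Betti `𝔪`-part at a squarefree base
level `M` VANISHES when `W` is not residually modular of level `M` — the CONVERSE of helper21's
`DPos` (`PlugD.exists_isLoc_base_of_hres`).

Output = the binder `hbase` of helper95's `GB/B3/PlugZero.isLoc_eq_zero_of_base` VERBATIM
(`hbase_of_not_resMod`, `hbase_std`), and (through helper49's `exists_baseEquiv`) the binder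
`hbase` of `GB/B3/SeamQ.exists_thetaLow` / `PlugZero.isLoc_eq_zero` at the Taylor–Wiles level
(`act0_isLoc_eq_zero_of_base`) — so `hzero` of `GB/B7/UqOne.exists_tw₁` follows from
`¬ hres (M / q)`.

Proof (NO completeness of `O`, NO preimage lemma, NO twist tower — one element of the symbol
algebra kills everything): with `1 = P + P₀`, `P (T^M) = 0` on `S₂(Γ₀(M))`, `P₀ ∈ (p, X_ℓ − a_ℓ(W))`
(`GB/B10/KillerPlug.exists_killer_poly_of_not_resMod`) and `τ = T_{ℓ₀} − (ℓ₀ + 1)`: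
* `τ ψ` is PARABOLIC for EVERY `ψ ∈ Hom(Γ₀(M), O)` (helper11's (★★) at squarefree level,
  transported to `Γ₀(M)` itself: `cohT_apply_of_parabolic`);
* `P` of the symbols kills every parabolic class (`actN_ren_apply`: Eichler–Shimura on the
  symbols = helper83's `Coeff.coeffAct`);
* so `s := P · τ` acts as `0` on `Hom(Γ₀(M), O)`, and `lamBase s = 1 · lamBase τ ≠ 0`;
  `IsLoc y` gives `y = s y' = 0`.

* `cohT_apply_of_parabolic` : (★★) on `Γ₀(N)`, squarefree `N`;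
* `ren`, `actN_ren_apply`, `lam_ren_eq_zero_of_mem_nIdeal`;
* **`isLoc_eq_zero_of_not_resMod`** : the core, for ANY family of prime symbols `pr : σ → ℕ` which
  exhausts the primes outside a finite `S ⊇ primes(M)`, any ring hom `lamBase` to any ring `κ`;
* `tauOf_notMem_ker_base`, **`hbase_of_not_resMod`** (`Sy : Symbols N`), **`hbase_std`**
  (`MQ.stdSymbols W p N r`, `S := primes(N) ∪ {p} ∪ bad(W)`, any squarefree `M ∣ N`);
* `act0_isLoc_eq_zero_of_base` : base level `M` ⟹ Taylor–Wiles level `N = M ∏_{s ∈ Q} pr s`;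
* `hO_of_isTorsionFree`, `hO_of_charZero` : the torsion-freeness binder `hO`.
-/
import Mathlib
import Fermat.Agent.GB.B3.Boundary.MatPlug
import Fermat.Agent.GB.B3.BaseGamma0
import Fermat.Agent.GB.B4.Twist.Coeff
import Fermat.Agent.GB.B10.KillerPlug
import Fermat.Agent.GB.B8.LevelGen
import Fermat.Agent.GB.B3.PlugZero
import Fermat.Agent.GB.Setup.MQ

set_option autoImplicit false
set_option linter.unusedSectionVars false

open scoped MatrixGroups
open CongruenceSubgroup ModularCurve ModularCurve.Period CuspForm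

namespace Fermat.Agent.GB.B9.ProviderFlat.N3

open Fermat.Agent.S16_helper49 Fermat.Agent.GM.B
open Fermat.Agent.GB.B3 Fermat.Agent.GB.B3.EisGamma0 Fermat.Agent.GB.B3.RealLevel
open Fermat.Agent.GB.B8.LevelGen

section BND

variable {N : ℕ} [NeZero N] {ℓ : ℕ} [Fact ℓ.Prime]

/-- **(★★) at `Γ₀(N)` itself** (squarefree level): `T_ℓ` multiplies the values on parabolic
elements by `ℓ + 1`, for EVERY homomorphism on `Γ₀(N)`. -/
theorem cohT_apply_of_parabolic (hN : Squarefree N) (hℓN : ¬ ℓ ∣ N) {A : Type} [AddCommGroup A]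
    (φ : Additive (Gamma0 N) →+ A) (γ : Gamma0 N)
    (hγ : ((γ : SL(2, ℤ)) : Matrix (Fin 2) (Fin 2) ℤ).trace ^ 2 = 4) :
    cohT hℓN A φ (Additive.ofMul γ) = (ℓ + 1) • φ (Additive.ofMul γ) := by
  -- the trivial character
  let θ₀ : (ZMod N)ˣ →* Unit := 1
  set k : GamH.GammaH θ₀ := kerMk (chi θ₀) γ (Subsingleton.elim _ _) with hk
  have hkγ : kerIncl (chi θ₀) k = γ := kerIncl_kerMk (chi θ₀) γ _
  have hkc : ((k : GamH.GammaH θ₀) : SL(2, ℤ)) = (γ : SL(2, ℤ)) := by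
    rw [← hkγ]; rfl
  have h1 : cohT hℓN A φ (Additive.ofMul γ)
      = GamH.TH θ₀ A hℓN (GamH.resH θ₀ A φ) (Additive.ofMul k) := by
    rw [GamH.TH_resH, GamH.resH_apply, hkγ]
  have h2 : φ (Additive.ofMul γ) = GamH.resH θ₀ A φ (Additive.ofMul k) := by
    rw [GamH.resH_apply, hkγ]
  rw [h1, h2]
  refine Boundary.Mat.TH_apply_of_parabolic' hℓN hN ?_ k (by rw [hkc]; exact hγ)
  intro d β _
  have e1 : GamH.resH θ₀ A φ (Additive.ofMul (conjK (chi θ₀) d β))
      = φ (Additive.ofMul (kerIncl (chi θ₀) (conjK (chi θ₀) d β))) :=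
    GamH.resH_apply θ₀ φ _
  have e2 : GamH.resH θ₀ A φ (Additive.ofMul β)
      = φ (Additive.ofMul (kerIncl (chi θ₀) β)) := GamH.resH_apply θ₀ φ _
  have hc : kerIncl (chi θ₀) (conjK (chi θ₀) d β) = d * kerIncl (chi θ₀) β * d⁻¹ := by
    apply Subtype.ext
    rfl
  rw [e1, e2, hc, ofMul_mul, ofMul_mul, map_add, map_add, ofMul_inv, map_neg]
  abel

end BND


section Main

open MvPolynomial
open Fermat.Agent.GK.New Fermat.Agent.GB.A.A6.Killer Fermat.Agent.GB.B4.Twist.Coeff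

variable {σ : Type} (pr : σ → ℕ) (hpr : ∀ s, (pr s).Prime)
variable {O : Type} [CommRing O] (hO : ∀ (n : ℤ) (a : O), n ≠ 0 → n • a = 0 → a = 0)
variable {M : ℕ} [NeZero M] {S : Finset ℕ} (hMS : ∀ q : ℕ, q.Prime → q ∣ M → q ∈ S)

/-- the renaming of the variables `ℓ ∉ S` into symbols, along a section `sec` of `pr` -/
noncomputable def ren (sec : PrimeIdx S → σ) :
    MvPolynomial (PrimeIdx S) ℤ →ₐ[ℤ] MvPolynomial σ O :=
  MvPolynomial.aeval fun i => (X (sec i) : MvPolynomial σ O)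

theorem ren_X (sec : PrimeIdx S → σ) (i : PrimeIdx S) :
    ren (O := O) sec (X i) = X (sec i) := MvPolynomial.aeval_X _ i

include hO in
/-- **Eichler–Shimura on the symbols**: on a parabolic class the symbol polynomial `ren Q` acts as
the element `Q (T_ℓ)` of the Hecke algebra of forms (through `Coeff.coeffAct`). -/
theorem actN_ren_apply (sec : PrimeIdx S → σ) (hsec : ∀ i, pr (sec i) = i.1)
    (Q : MvPolynomial (PrimeIdx S) ℤ) (φ : ↥(parabolicHoms O (Gamma0 M) O)) :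
    actN O pr hpr M (ren sec Q) (φ : Additive (Gamma0 M) →+ O)
      = ((coeffAct M (↑S : Set ℕ) O hO (MvPolynomial.aeval (TfamH hMS) Q) φ :
          ↥(parabolicHoms O (Gamma0 M) O)) : Additive (Gamma0 M) →+ O) := by
  induction Q using MvPolynomial.induction_on generalizing φ with
  | C n =>
    rw [MvPolynomial.aeval_C]
    unfold ren
    rw [MvPolynomial.aeval_C, eq_intCast, eq_intCast, map_intCast, map_intCast,
      Module.End.intCast_apply, Module.End.intCast_apply]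
    rfl
  | add Q₁ Q₂ h₁ h₂ =>
    rw [map_add, map_add, map_add, map_add, LinearMap.add_apply, LinearMap.add_apply, h₁, h₂]
    rfl
  | mul_X Q i h =>
    rw [map_mul, map_mul, map_mul, map_mul, Module.End.mul_apply, Module.End.mul_apply, ren_X,
      MvPolynomial.aeval_X]
    have hi : ¬ pr (sec i) ∣ M := by
      rw [hsec]
      exact PrimeIdx.not_dvd hMS i
    have key : ∀ (ℓ : ℕ) (_ : ℓ = i.1) [Fact ℓ.Prime] (hℓM : ¬ ℓ ∣ M),
        cohT hℓM O (φ : Additive (Gamma0 M) →+ O)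
          = (haveI : Fact i.1.Prime := ⟨i.2.1⟩;
              cohT (PrimeIdx.not_dvd hMS i) O (φ : Additive (Gamma0 M) →+ O)) := by
      intro ℓ hℓ
      subst hℓ
      intro _ _
      rfl
    have h1 : actN O pr hpr M (X (sec i)) (φ : Additive (Gamma0 M) →+ O)
        = ((coeffAct M (↑S : Set ℕ) O hO (TfamH hMS i) φ :
          ↥(parabolicHoms O (Gamma0 M) O)) : Additive (Gamma0 M) →+ O) := by
      haveI : Fact (pr (sec i)).Prime := ⟨hpr (sec i)⟩
      rw [actN_X_of_not_dvd O pr hpr (sec i) hi]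
      have h2 := coe_coeffAct_T M (↑S : Set ℕ) O hO i.2.1 (PrimeIdx.not_dvd hMS i)
        (by exact_mod_cast i.2.2) φ
      have h3 : TfamH hMS i = heckeAlgebra.T i.2.1 (PrimeIdx.not_dvd hMS i)
        (by exact_mod_cast i.2.2) := rfl
      rw [h3, h2]
      exact key (pr (sec i)) (hsec i) hi
    rw [h1, h]


variable {κ : Type} [CommRing κ]

/-- a mod-`p` character of the symbol algebra with the eigenvalues `a_ℓ(W)` kills the renamed
ideal `(p, X_ℓ - a_ℓ)`. -/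
theorem lam_ren_eq_zero_of_mem_nIdeal (sec : PrimeIdx S → σ) {p : ℕ} {a : ℕ → ℤ}
    (lam : MvPolynomial σ O →+* κ) (hκp : ((p : ℕ) : κ) = 0)
    (hlam : ∀ i : PrimeIdx S, lam (X (sec i)) = ((a i.1 : ℤ) : κ))
    {P₀ : MvPolynomial (PrimeIdx S) ℤ} (hP₀ : P₀ ∈ nIdeal S p a) :
    lam (ren sec P₀) = 0 := by
  set ev : MvPolynomial (PrimeIdx S) ℤ →+* κ :=
    lam.comp (ren (O := O) sec : MvPolynomial (PrimeIdx S) ℤ →+* MvPolynomial σ O) with hev
  have hC : ∀ n : ℤ, ev (MvPolynomial.C n) = (n : κ) := fun n => by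
    rw [hev, RingHom.comp_apply]
    show lam (ren sec (MvPolynomial.C n)) = _
    unfold ren
    rw [MvPolynomial.aeval_C, eq_intCast, map_intCast]
  have hX : ∀ i : PrimeIdx S, ev (MvPolynomial.X i) = ((a i.1 : ℤ) : κ) := fun i => by
    rw [hev, RingHom.comp_apply]
    show lam (ren sec (MvPolynomial.X i)) = _
    rw [ren_X, hlam]
  have hle : nIdeal S p a ≤ RingHom.ker ev := by
    unfold nIdeal
    rw [Ideal.span_le]
    rintro y (rfl | ⟨i, rfl⟩)
    · show ev _ = 0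
      rw [hC]
      exact_mod_cast hκp
    · show ev _ = 0
      rw [map_sub, hX, hC, sub_self]
  exact hle hP₀

include hO hMS in
/-- **(N3): the Betti `𝔪`-part at a squarefree level `M` vanishes when `W` is NOT residually
modular of level `M`.**  `pr : σ → ℕ` the primes of the Hecke symbols (every prime outside the
finite set `S ⊇ primes(M)` is a symbol), `lamBase` the mod-`p` character of the symbol algebra with
`lamBase X_s = a_{pr s}(W)` for `pr s ∉ S`, non-Eisenstein at the symbol `s0`. -/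
theorem isLoc_eq_zero_of_not_resMod (hM : Squarefree M) {p : ℕ} (hp : p.Prime)
    (W : WeierstrassCurve ℤ) (hΔ : W.Δ ≠ 0) (hno : ¬ W.IsResiduallyModularOfLevel p M)
    (hcover : ∀ ℓ : ℕ, ℓ.Prime → ℓ ∉ S → ∃ s, pr s = ℓ)
    (lamBase : MvPolynomial σ O →+* κ) (hκp : ((p : ℕ) : κ) = 0)
    (hlam : ∀ s, pr s ∉ S → lamBase (X s) = ((W.apOfModel (pr s) : ℤ) : κ))
    (s0 : σ) (hs0 : ¬ pr s0 ∣ M)
    (hτ : (X s0 - C (((pr s0 + 1 : ℕ) : O)) : MvPolynomial σ O) ∉ RingHom.ker lamBase)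
    (y : Additive (Gamma0 M) →+ O)
    (hy : IsLoc (actN O pr hpr M) (RingHom.ker lamBase) y) :
    y = 0 := by
  classical
  -- the section
  choose sec hsec using fun i : PrimeIdx S => hcover i.1 i.2.1 i.2.2
  -- the killer
  obtain ⟨P, P₀, hP₀, hsum, hP⟩ :=
    Fermat.Agent.GB.B10.KillerPlug.exists_killer_poly_of_not_resMod (S := S) W hΔ hp hMS hno
  set τ : MvPolynomial σ O := X s0 - C (((pr s0 + 1 : ℕ) : O)) with hτdef
  -- `ren P * τ ∉ 𝔪`
  have h0 : lamBase (ren sec P₀) = 0 :=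
    lam_ren_eq_zero_of_mem_nIdeal sec lamBase hκp
      (fun i => by rw [hlam (sec i) (by rw [hsec]; exact i.2.2), hsec]) hP₀
  have h1 : lamBase (ren sec P) = 1 := by
    have : P = 1 - P₀ := eq_sub_of_add_eq hsum
    rw [this, map_sub, map_one, map_sub, map_one, h0, sub_zero]
  have hnot : ren sec P * τ ∉ RingHom.ker lamBase := by
    intro hmem
    apply hτ
    rw [RingHom.mem_ker] at hmem ⊢
    have : lamBase (ren sec P * τ) = 0 := hmem
    rw [map_mul, h1, one_mul] at this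
    exact this
  -- `y = (ren P * τ) y'`
  obtain ⟨y', rfl⟩ := hy _ hnot
  -- `τ y'` is parabolic
  haveI : Fact (pr s0).Prime := ⟨hpr s0⟩
  have hpar : IsParabolicHom (Gamma0 M) (actN O pr hpr M τ y') := by
    intro γ hγ
    have e : actN O pr hpr M τ y' = cohT hs0 O y' - ((pr s0 + 1 : ℕ) : O) • y' := by
      rw [hτdef, map_sub, LinearMap.sub_apply, actN_X_of_not_dvd O pr hpr s0 hs0,
        MvPolynomial.algHom_C, Algebra.algebraMap_eq_smul_one, LinearMap.smul_apply,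
        Module.End.one_apply]
    rw [e, AddMonoidHom.sub_apply, cohT_apply_of_parabolic hM hs0 y' γ hγ,
      AddMonoidHom.smul_apply, Nat.cast_smul_eq_nsmul]
    exact sub_self _
  rw [map_mul, Module.End.mul_apply]
  have h2 := actN_ren_apply pr hpr hO hMS sec hsec P ⟨_, hpar⟩
  rw [hP, map_zero] at h2
  exact h2

end Main

/-! ### the binder `hbase` of `GB/B3/PlugZero.isLoc_eq_zero_of_base`, VERBATIM -/

section Symbols

open MvPolynomial
open Fermat.Agent.GB.B3.HeckeActH Fermat.Agent.GB.B3.StepInst Fermat.Agent.GB.B8.LevelIter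

variable {N : ℕ} (Sy : Symbols N)
variable {O : Type} [CommRing O] (hO : ∀ (n : ℤ) (a : O), n ≠ 0 → n • a = 0 → a = 0)
variable {κ : Type} [Field κ] [Algebra O κ]

/-- `tauOf ∉ ker lamTop ⟹ tauOf ∉ ker lamBase` when the two characters agree at the symbol `s0`
(`haway` of `PlugZero.isLoc_eq_zero_of_base` at `Sum.inl s0 ∉ Q`). -/
theorem tauOf_notMem_ker_base (lamBase lamTop : Sy.𝕋 O →ₐ[O] κ) (s0 : Sy.ι₁)
    (haway : lamTop (X (Sum.inl s0)) = lamBase (X (Sum.inl s0)))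
    (hτ : tauOf Sy O s0 ∉ RingHom.ker (lamTop : Sy.𝕋 O →+* κ)) :
    tauOf Sy O s0 ∉ RingHom.ker (lamBase : Sy.𝕋 O →+* κ) := by
  intro h
  apply hτ
  rw [RingHom.mem_ker] at h ⊢
  have h' : lamBase (tauOf Sy O s0) = 0 := h
  show lamTop (tauOf Sy O s0) = 0
  rw [tauOf, map_sub, MvPolynomial.algHom_C] at h' ⊢
  rw [haway]
  exact h'

include hO in
/-- **(N3), the binder `hbase` of `PlugZero.isLoc_eq_zero_of_base` VERBATIM**: the
`ker lamBase`-primary part of `Hom(Γ₀(M), O)` vanishes at a squarefree base level `M` at which `W`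
is NOT residually modular.  `S ⊇ primes(M) ∪ {r j}` finite, every prime outside `S` is a good
symbol of `Sy`, `lamBase T_ℓ = a_ℓ(W)`, non-Eisenstein at `s0`. -/
theorem hbase_of_not_resMod (M : ℕ) [NeZero M] (hM : Squarefree M) {p : ℕ} (hp : p.Prime)
    (W : WeierstrassCurve ℤ) (hΔ : W.Δ ≠ 0) (hno : ¬ W.IsResiduallyModularOfLevel p M)
    (S : Finset ℕ) (hMS : ∀ q : ℕ, q.Prime → q ∣ M → q ∈ S) (hrS : ∀ j, Sy.r j ∈ S)
    (hcover : ∀ ℓ : ℕ, ℓ.Prime → ℓ ∉ S → ∃ i : Sy.ι₁, Sy.ℓ i = ℓ)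
    (lamBase : Sy.𝕋 O →ₐ[O] κ) (hκp : ((p : ℕ) : κ) = 0)
    (hlam : ∀ i : Sy.ι₁, lamBase (X (Sum.inl i)) = ((W.apOfModel (Sy.ℓ i) : ℤ) : κ))
    (s0 : Sy.ι₁) (hs0 : ¬ Sy.ℓ s0 ∣ M)
    (hτ : tauOf Sy O s0 ∉ RingHom.ker (lamBase : Sy.𝕋 O →+* κ)) :
    ∀ y : Additive (Gamma0 M) →+ O,
      IsLoc (actN O (prSy Sy) (prSy_prime Sy) M) (RingHom.ker (lamBase : Sy.𝕋 O →+* κ)) y →
        y = 0 := by
  intro y hy
  refine isLoc_eq_zero_of_not_resMod (prSy Sy) (prSy_prime Sy) hO hMS hM hp W hΔ hno ?_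
    (lamBase : Sy.𝕋 O →+* κ) hκp ?_ (Sum.inl s0) hs0 hτ y hy
  · intro ℓ hℓ hℓS
    obtain ⟨i, hi⟩ := hcover ℓ hℓ hℓS
    exact ⟨Sum.inl i, hi⟩
  · rintro (i | j) hs
    · exact hlam i
    · exact absurd (hrS j) hs

end Symbols

/-! ### the binder `hbase` of `SeamQ.exists_thetaLow` / `PlugZero.isLoc_eq_zero` (TW level) -/

section Top

open MvPolynomial
open Fermat.Agent.GB.B3.HeckeActH Fermat.Agent.GB.B3.StepInst Fermat.Agent.GB.B8.LevelIter
open Fermat.Agent.GB.B3.TWLevel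

variable {N : ℕ} (Sy : Symbols N)
variable {O : Type} [CommRing O] [IsLocalRing O] [IsNoetherianRing O]
  [IsAdicComplete (IsLocalRing.maximalIdeal O) O]
variable {κ : Type} [Field κ] [Algebra O κ]
variable [DecidableEq Sy.ι₁] [DecidableEq Sy.ι₂]

/-- the vanishing of the primary part passes from the base level `M` to the Taylor–Wiles level
`N = M ∏_{s ∈ Q} pr s` (helper49's `exists_baseEquiv`); binders of
`PlugD.finrank_locSub_eq` VERBATIM. -/
theorem act0_isLoc_eq_zero_of_base (hℓ : Function.Injective Sy.ℓ) (hr : Function.Injective Sy.r)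
    (hsurj : Function.Surjective (algebraMap O κ)) (M : ℕ) [NeZero M]
    (lamBase lamTop : Sy.𝕋 O →ₐ[O] κ) (α β : Sy.ι₁ ⊕ Sy.ι₂ → O) (Q : Finset (Sy.ι₁ ⊕ Sy.ι₂))
    (hN : N = M * ∏ s ∈ Q, prSy Sy s) (hQM : ∀ s ∈ Q, ¬ prSy Sy s ∣ M)
    (hTW : ∀ s ∈ Q, TWCond (prSy Sy) lamBase lamTop α β s)
    (haway : ∀ s, s ∉ Q → lamTop (X s) = lamBase (X s))
    (𝔪 : Ideal (Sy.𝕋 O)) (h𝔪 : 𝔪 = RingHom.ker (lamTop : Sy.𝕋 O →+* κ))
    (hbase : ∀ y : Additive (Gamma0 M) →+ O,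
      IsLoc (actN O (prSy Sy) (prSy_prime Sy) M) (RingHom.ker (lamBase : Sy.𝕋 O →+* κ)) y →
        y = 0) :
    ∀ y : Additive (Gamma0 N) →+ O, IsLoc (act0 Sy O) 𝔪 y → y = 0 := by
  subst h𝔪
  obtain ⟨e, -⟩ := exists_baseEquiv Sy hℓ hr hsurj M lamBase lamTop α β Q hN hQM hTW haway
  intro y hy
  have h0 : e.symm ⟨y, hy⟩ = 0 := Subtype.ext (hbase _ (e.symm ⟨y, hy⟩).2)
  have h1 : (⟨y, hy⟩ : Fermat.Agent.GB.B3.Base.locSub (act0 Sy O)
      (RingHom.ker (lamTop : Sy.𝕋 O →+* κ))) = 0 := by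
    rw [← e.apply_symm_apply ⟨y, hy⟩, h0, map_zero]
  exact congrArg Subtype.val h1

end Top

/-! ### the canonical symbols `MQ.stdSymbols` -/

section Std

open MvPolynomial
open Fermat.Agent.GB.B3.HeckeActH Fermat.Agent.GB.B3.StepInst Fermat.Agent.GB.B8.LevelIter
open Fermat.Agent.GB.Setup.MQ

variable (W : WeierstrassCurve ℤ) (p N : ℕ) [NeZero N] {ι₂ : Type} (r : ι₂ → ℕ)
  (hr : ∀ j, (r j).Prime) (hrN : ∀ j, r j ∣ N)
variable {O : Type} [CommRing O] (hO : ∀ (n : ℤ) (a : O), n ≠ 0 → n • a = 0 → a = 0)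
variable {κ : Type} [Field κ] [Algebra O κ]

include hO in
/-- **(N3) for the canonical symbols of `W` at level `N`** (`ι₁` = ALL primes good for `W`,
`∤ N`, `≠ p`): the binder `hbase` of `PlugZero.isLoc_eq_zero_of_base` at any squarefree `M ∣ N` at
which `W` is not residually modular.  `S := primes(N) ∪ {p} ∪ bad(W)`. -/
theorem hbase_std (hΔ : W.Δ ≠ 0) (hp : p.Prime) (M : ℕ) [NeZero M] (hM : Squarefree M)
    (hMN : M ∣ N) (hno : ¬ W.IsResiduallyModularOfLevel p M)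
    (lamBase : (stdSymbols W p N r hr hrN).𝕋 O →ₐ[O] κ) (hκp : ((p : ℕ) : κ) = 0)
    (hlam : ∀ i : (stdSymbols W p N r hr hrN).ι₁,
      lamBase (X (Sum.inl i)) = ((W.apOfModel ((stdSymbols W p N r hr hrN).ℓ i) : ℤ) : κ))
    (s0 : (stdSymbols W p N r hr hrN).ι₁)
    (hτ : tauOf (stdSymbols W p N r hr hrN) O s0
      ∉ RingHom.ker (lamBase : (stdSymbols W p N r hr hrN).𝕋 O →+* κ)) :
    ∀ y : Additive (Gamma0 M) →+ O,
      IsLoc (actN O (prSy (stdSymbols W p N r hr hrN)) (prSy_prime (stdSymbols W p N r hr hrN)) M)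
        (RingHom.ker (lamBase : (stdSymbols W p N r hr hrN).𝕋 O →+* κ)) y → y = 0 := by
  have hN0 : N ≠ 0 := NeZero.ne N
  refine hbase_of_not_resMod (stdSymbols W p N r hr hrN) hO M hM hp W hΔ hno
    (N.primeFactors ∪ {p} ∪ W.Δ.natAbs.primeFactors) ?_ ?_ ?_ lamBase hκp hlam s0 ?_ hτ
  · intro q hq hqM
    exact Finset.mem_union_left _ (Finset.mem_union_left _
      (Nat.mem_primeFactors.mpr ⟨hq, hqM.trans hMN, hN0⟩))
  · intro j
    exact Finset.mem_union_left _ (Finset.mem_union_left _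
      (Nat.mem_primeFactors.mpr ⟨hr j, hrN j, hN0⟩))
  · intro ℓ hℓ hℓS
    rw [Finset.mem_union, Finset.mem_union, not_or, not_or] at hℓS
    obtain ⟨⟨h1, h2⟩, h3⟩ := hℓS
    have hℓN : ¬ ℓ ∣ N := fun h => h1 (Nat.mem_primeFactors.mpr ⟨hℓ, h, hN0⟩)
    have hℓp : ℓ ≠ p := fun h => h2 (Finset.mem_singleton.mpr h)
    have hgood : W.IsGoodPrimeFor ℓ := by
      intro hd
      exact h3 (Nat.mem_primeFactors.mpr ⟨hℓ, Int.natCast_dvd.mp hd, Int.natAbs_ne_zero.mpr hΔ⟩)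
    exact ⟨⟨ℓ, hℓ, hgood, hℓN, hℓp⟩, rfl⟩
  · intro h
    exact (stdSymbols W p N r hr hrN).hℓN s0 (h.trans hMN)

end Std

/-! ### the torsion-freeness binder -/

theorem hO_of_isTorsionFree {O : Type} [CommRing O] [Module.IsTorsionFree ℤ O] :
    ∀ (n : ℤ) (a : O), n ≠ 0 → n • a = 0 → a = 0 :=
  fun _ _ hn h => (smul_eq_zero.mp h).resolve_left hn

theorem hO_of_charZero {O : Type} [CommRing O] [IsDomain O] [CharZero O] :
    ∀ (n : ℤ) (a : O), n ≠ 0 → n • a = 0 → a = 0 :=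
  fun _ _ hn h => (smul_eq_zero.mp h).resolve_left hn

end Fermat.Agent.GB.B9.ProviderFlat.N3
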