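/-
GATE-B / B9 PROVIDER (flat branch), group **G7 = `he`** (helper52): `kill₁` at the objects of record
of one Taylor–Wiles level (helper51 `ProviderFlat/G1`, `G1Plug`).

For `Q : TWSet P g n`, the framed prime `q ∥ M` (`Squarefree M`), `Q.twF hq hqM hsq hcong hp3 0 …`
(B3 chain with ONE framed diamond = `q`, seam (S2) of board 6689):

* `Q.Nl q = M / q * ∏ qv` : the level lowered at `q`, `Q.N = Q.Nl q * q` (`N_eq`);
* `hbase_Nl` : the `𝔪_Q`-part of `Hom(Γ₀(Q.Nl q), O)` VANISHES when `W` is not residually modular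
  of level `M / q` (helper69 `N3.hbase_of_not_resMod` at `M / q` + `N3.act0_isLoc_eq_zero_of_base`
  through the Taylor–Wiles primes);
* `hbnd_N` : (BND) at every stage of the tower of `Q.N` (helper11/helper74 `Boundary`, squarefree);
* **`he_twF`** : the binder `he` of `Q.exists_level` / helper59 `G5Pkg.nonempty_TWInput_thetaAt`
  (for EVERY Kummer test pair at `q`), from `Kill1Var.he_plug_var`; binders left = the G2 outputs
  (`T_Q χ a₁ tw₁ twP …`) and the G3 outputs (`ψ ρ_Q` + characteristic polynomials).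
-/
import Mathlib
import Fermat.Agent.GB.B7.Kill1Var
import Fermat.Agent.GB.B9.ProviderFlat.G1Plug
import Fermat.Agent.GB.B9.ProviderFlat.N3
import Fermat.Agent.GB.B3.Boundary.MatPlug
import Fermat.Agent.GB.B3.Boundary.MatSqfree
import Fermat.Agent.GB.Def.LocGenInst

set_option autoImplicit false
set_option linter.unusedSectionVars false
set_option linter.unusedVariables false
set_option linter.style.haveILetI false

noncomputable section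

open scoped MatrixGroups
open CongruenceSubgroup Polynomial IsLocalRing CuspForm
open Fermat.Agent.GM.B
open Fermat.Agent.GB.B3 Fermat.Agent.GB.B3.EisGamma0 Fermat.Agent.GB.B3.GamH
open Fermat.Agent.GB.B3.RealLevel Fermat.Agent.GB.B3.HeckeActH Fermat.Agent.GB.B3.HeckeAct
open Fermat.Agent.GB.B3.TWChars Fermat.Agent.GB.B3.Tower Fermat.Agent.GB.B3.FinalTW
open Fermat.Agent.GJ.J2.Lat

namespace Fermat.Agent.GB.B9.ProviderFlat.G7

/-- `G_ℚ`. -/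
local notation "GQ" => AlgebraicClosure ℚ ≃ₐ[ℚ] AlgebraicClosure ℚ
/-- `ℚ̄`. -/
local notation "Qb" => AlgebraicClosure ℚ

open Fermat.Agent.GB.B3.L1Iso Fermat.Agent.GB.B3.Plug Fermat.Agent.GB.B3.ChiLevelMulti
  Fermat.Agent.GB.B3.Final Fermat.Agent.GB.B3.TWLevel
  Fermat.Agent.GB.B3.LocTransport Fermat.Agent.S16_helper49 ModularCurve.Period
  Fermat.Agent.GM.EisClass Fermat.Agent.GB.B9.ThetaT
  Fermat.Agent.GB.Setup.SetupPkg Fermat.Agent.GB.B9.ProviderFlat.G1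
  Fermat.Agent.GB.B9.ProviderFlat.H1 Fermat.Agent.GB.B7.Kill1Var
  Fermat.Agent.GB.B8.LevelIter Fermat.Agent.GB.B3.StepInst Fermat.Agent.GB.B8.LevelGen

variable {p : ℕ} [hpF : Fact p.Prime] {W : WeierstrassCurve ℤ}
  {hcard₁ : Nat.card (Submodule.torsionBy ℤ
    ((W.map (Int.castRingHom ℚ)).toAffine.baseChange (AlgebraicClosure ℚ)).Point p) = p ^ 2}
  {hker : GaloisFactorsThroughFiniteLevel
    (WeierstrassCurve.Affine.Point.galoisRepModuleEnd (K := AlgebraicClosure ℚ) ℚ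
      (W.map (Int.castRingHom ℚ)) p)}
  {M A : ℕ} {P : Pkg p W hcard₁ hker M A} {g n : ℕ} (Q : TWSet P g n)

namespace TWSetG7

/-! ### the level lowered at `q` -/

/-- the level lowered at the framed prime `q`: `M / q * ∏ qv` -/
def Nl (q : ℕ) : ℕ := M / q * ∏ i, Q.qv i

variable {q : ℕ}

theorem N_eq (hqM : q ∣ M) : Q.N = Nl Q q * q := by
  unfold TWSet.N Nl
  rw [mul_right_comm, Nat.div_mul_cancel hqM]

theorem Nl_ne_zero (hqM : q ∣ M) : Nl Q q ≠ 0 := by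
  intro h0
  have h1 := N_eq Q hqM
  rw [h0, zero_mul] at h1
  exact Q.N_ne_zero h1

theorem neZero_Nl (hqM : q ∣ M) : NeZero (Nl Q q) := ⟨Nl_ne_zero Q hqM⟩

theorem div_dvd_Nl : M / q ∣ Nl Q q := Dvd.intro _ rfl

include Q in
theorem div_ne_zero (hqM : q ∣ M) : M / q ≠ 0 := by
  intro h0
  apply Nl_ne_zero Q hqM
  unfold Nl
  rw [h0, zero_mul]

include Q in
theorem neZero_div (hqM : q ∣ M) : NeZero (M / q) := ⟨div_ne_zero Q hqM⟩

theorem squarefree_div {M q : ℕ} (hqM : q ∣ M) (hsq : Squarefree M) : Squarefree (M / q) :=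
  Squarefree.squarefree_of_dvd (Nat.div_dvd_of_dvd hqM) hsq

theorem Nl_dvd_N (hqM : q ∣ M) : Nl Q q ∣ Q.N := Dvd.intro _ (N_eq Q hqM).symm

/-- the `U`-symbols (= the Taylor–Wiles primes) divide the lowered level -/
theorem hrN (j : Q.Sy.ι₂) : Q.Sy.r j ∣ Nl Q q :=
  Dvd.dvd.mul_left (Finset.dvd_prod_of_mem _ (Finset.mem_univ (Q.iOf j))) _

/-- `q ∤ M / q * ∏ qv` -/
theorem hqN (hq : q.Prime) (hqM : q ∣ M) (hsq : Squarefree M) : ¬ q ∣ Nl Q q := by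
  intro hd
  rcases (Nat.Prime.dvd_mul hq).mp hd with h | h
  · -- `q ∣ M / q` contradicts squarefreeness
    obtain ⟨c, hc⟩ := h
    have h2 : q * q ∣ M := by
      refine ⟨c, ?_⟩
      rw [mul_assoc, ← hc, Nat.mul_div_cancel' hqM]
    exact hq.not_isUnit (hsq q h2)
  · obtain ⟨i, -, hi⟩ := (Prime.dvd_finsetProd_iff hq.prime _).mp h
    have heq : q = Q.qv i := (Nat.prime_dvd_prime_iff_eq hq (Q.prime i)).mp hi
    exact (Q.good i).2.1 (heq ▸ hqM)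

/-- the Taylor–Wiles steps of the prime data divide the lowered level -/
theorem hrk (i : Fin g) : rOf Q.qv q (i : ℕ) ∣ Nl Q q := by
  rw [rOf_fin]
  exact Dvd.dvd.mul_left (Finset.dvd_prod_of_mem _ (Finset.mem_univ i)) _

/-- the level `Q.N` is squarefree -/
theorem squarefree_N (hsq : Squarefree M) : Squarefree Q.N :=
  Fermat.Agent.GB.B3.Boundary.Mat.squarefree_mul_prod_fin hsq Q.qv Q.prime Q.inj
    (fun i => (Q.good i).2.1)

/-! ### `hbase` at the lowered level -/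

section HBase

variable {q : ℕ} (hqM : q ∣ M)

/-- the symbols of record, as symbols of the lowered level -/
abbrev SyL : Symbols (Nl Q q) := restrictVar Q.Sy (N_eq Q hqM) (hrN Q)

include hqM in
theorem div_dvd_N : M / q ∣ Q.N := (div_dvd_Nl Q).trans (Nl_dvd_N Q hqM)

/-- **(N3) at the lowered level**: the `𝔪_Q`-part of `Hom(Γ₀(M / q * ∏ qv), O)` vanishes when `W` is
not residually modular of level `M / q` (helper69 `N3`). -/
theorem hbase_Nl (hsq : Squarefree M) (hno : ¬ W.IsResiduallyModularOfLevel p (M / q)) :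
    ∀ y : Additive (Gamma0 (Nl Q q)) →+ P.O,
      IsLoc (HeckeActH.act0 (restrictVar Q.Sy (N_eq Q hqM) (hrN Q)) P.O) Q.𝔪 y → y = 0 := by
  classical
  haveI : NeZero (M / q) := neZero_div Q hqM
  have hN0 : Q.N ≠ 0 := Q.N_ne_zero
  have hMN : M / q ∣ Q.N := div_dvd_N Q hqM
  -- through the Taylor–Wiles primes
  have hN : Nl Q q = M / q * ∏ s ∈ Q.Qset, prSy (SyL Q hqM) s := by
    unfold Nl
    rw [TWSet.Qset, Finset.prod_map]
    rfl
  have hQM : ∀ s ∈ Q.Qset, ¬ prSy (SyL Q hqM) s ∣ M / q := fun s hs h =>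
    Q.hQM s hs (h.trans (Nat.div_dvd_of_dvd hqM))
  refine N3.act0_isLoc_eq_zero_of_base (SyL Q hqM) Q.injective_ℓ Q.injective_r Q.hsurj (M / q)
    Q.lamBase Q.lamTop Q.αl Q.βl Q.Qset hN hQM Q.hTW Q.haway Q.𝔪 Q.h𝔪 ?_
  -- the base level `M / q`
  refine N3.hbase_of_not_resMod (SyL Q hqM) N3.hO_of_charZero (M / q) (squarefree_div hqM hsq)
    hpF.out W P.hΔ hno (Q.N.primeFactors ∪ {p} ∪ W.Δ.natAbs.primeFactors) ?_ ?_ ?_ Q.lamBase
    Q.hκp ?_ Q.s0 ?_ ?_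
  · intro ℓ hℓ hℓM
    exact Finset.mem_union_left _ (Finset.mem_union_left _
      (Nat.mem_primeFactors.mpr ⟨hℓ, hℓM.trans hMN, hN0⟩))
  · intro j
    exact Finset.mem_union_left _ (Finset.mem_union_left _
      (Nat.mem_primeFactors.mpr ⟨Q.Sy.hr j, Q.Sy.hrN j, hN0⟩))
  · intro ℓ hℓ hℓS
    rw [Finset.mem_union, Finset.mem_union, not_or, not_or] at hℓS
    obtain ⟨⟨h1, h2⟩, h3⟩ := hℓS
    have hℓN : ¬ ℓ ∣ Q.N := fun h => h1 (Nat.mem_primeFactors.mpr ⟨hℓ, h, hN0⟩)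
    have hℓp : ℓ ≠ p := fun h => h2 (Finset.mem_singleton.mpr h)
    have hgood : W.IsGoodPrimeFor ℓ := by
      intro hd
      exact h3 (Nat.mem_primeFactors.mpr
        ⟨hℓ, Int.natCast_dvd.mp hd, Int.natAbs_ne_zero.mpr P.hΔ⟩)
    exact ⟨(⟨ℓ, hℓ, hgood, hℓN, hℓp⟩ :
      {ℓ : ℕ // ℓ.Prime ∧ W.IsGoodPrimeFor ℓ ∧ ¬ ℓ ∣ Q.N ∧ ℓ ≠ p}), rfl⟩
  · intro i
    exact Q.lamBase_X (Sum.inl i)
  · intro h
    exact Q.Sy.hℓN Q.s0 (h.trans hMN)
  · have hnot : (Sum.inl Q.s0 : Q.Sy.ι₁ ⊕ Q.Sy.ι₂) ∉ Q.Qset := by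
      intro hmem
      obtain ⟨j, hj⟩ := Q.mem_Qset.mp hmem
      exact Sum.inl_ne_inr hj
    have hτtop : tauOf Q.Sy P.O Q.s0 ∉ RingHom.ker (Q.lamTop : Q.Sy.𝕋 P.O →+* P.k) := by
      rw [← Q.h𝔪]
      exact Q.hτ
    exact N3.tauOf_notMem_ker_base Q.Sy Q.lamBase Q.lamTop Q.s0 (Q.haway _ hnot) hτtop

end HBase

/-! ### (BND) at the level of record -/

section HBnd

variable {q eq : ℕ} (hq : q.Prime) (hqM : q ∣ M) (hsq : Squarefree M) (hcong : p ^ eq ∣ q - 1)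
  (hp3 : p ≠ 3)

include hp3 in
/-- **(BND) at every stage of the tower of `Q.N`** (squarefree level; helper11/helper74). -/
theorem hbnd_N (j : ℕ)
    (y : Additive (GammaH (Theta (Δs p (eOf g (n + 1) eq))
      (Q.primeData hq hqM hsq hcong).psi j)) →+ P.O)
    (hy : IsLoc (actH Q.Sy P.O (Theta (Δs p (eOf g (n + 1) eq))
      (Q.primeData hq hqM hsq hcong).psi j)) Q.𝔪 y) :
    y ∈ parabolicHoms P.O (GammaH (Theta (Δs p (eOf g (n + 1) eq))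
      (Q.primeData hq hqM hsq hcong).psi j)) P.O :=
  Fermat.Agent.GB.B3.Boundary.Mat.isLoc_mem_parabolicHoms_theta_of_squarefree Q.Sy Q.𝔪
    (Q.primeData hq hqM hsq hcong) (Q.hyp hp3) (squarefree_N Q hsq) j hy

end HBnd

/-! ### the binder `he` -/

section He

open Fermat.Agent.GB.Def.LocGenInst

variable {q eq : ℕ} (hq : q.Prime) (hqM : q ∣ M) (hsq : Squarefree M) (hcong : p ^ eq ∣ q - 1)
  (hp3 : p ≠ 3) {cq : P.O} (hcq : cq ^ p ^ eq = 1) (hcq1 : (1 : P.O) - cq ∈ Ideal.span {P.ϖ})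
variable {TQ : Type} [CommRing TQ] [IsLocalRing TQ] [Algebra P.O TQ]
  {ρbar : ResidualGaloisRep (ResidueField P.O)}
  {𝒟 : ∀ ⦃A : Type⦄ [CommRing A] [IsLocalRing A] [Algebra P.O A], GaloisRepAdic A → Prop}
  {DQ : GaloisRep.DeformationRingData P.O ρbar 𝒟}

/-- **G7 = the binder `he` of `Q.exists_level` / `G5Pkg.nonempty_TWInput_thetaAt` at
`Q.twF … 0 …`** (ONE B3-framed diamond, the one of `q`), for every Kummer test pair at `q`.

DISCHARGED here: the level bookkeeping (`Q.N = Nl Q q * q`), `hbase` (from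
`¬ W.IsResiduallyModularOfLevel p (M / q)`), (BND).  LEFT: the G2 outputs `T_Q χ a₁ tw₁ twP`
(`TwRestrictPlug.exists_twP`, `TQCompat.quotTw_fmk`, `TwInst.exists_tw_primeData`) and the G3
outputs `ψ ρ_Q` with the characteristic polynomials of Frobenius. -/
theorem he_twF (hno : ¬ W.IsResiduallyModularOfLevel p (M / q))
    (S : Finset ℕ) (hSN : ∀ ℓ : ℕ, ℓ.Prime → ℓ ∣ Q.N → ℓ ∈ S) (hpS : p ∈ S) (hqp : q ≠ p)
    {N' : ℕ} [NeZero N'] (hSN' : ∀ ℓ : ℕ, ℓ.Prime → ℓ ∣ N' → ℓ ∈ (↑S : Set ℕ))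
    (ψ : DQ.R →ₐ[P.O] TQ) (hψ : IsLocalHom (ψ : DQ.R →+* TQ)) (ρQ : GaloisRepAdic TQ)
    (hequiv : (DQ.ρ.baseChangeAlong (ψ : DQ.R →+* TQ) hψ).IsEquiv ρQ)
    (χ : ↥(heckeAlgebra N' 2 (↑S : Set ℕ)) →+* TQ)
    (hχ : Algebra.adjoin P.O (Set.range χ) = ⊤)
    (a₁ : TQ →ₐ[P.O] Module.End P.O (Q.twF hq hqM hsq hcong hp3 0 hcq hcq1).L1.M)
    (hred : ∀ t : TQ, a₁ t * a₁ t = 0 → a₁ t = 0)
    (tw₁ : ↥(heckeAlgebra N' 2 (↑S : Set ℕ)) →+*
      Module.End P.O (Q.twF hq hqM hsq hcong hp3 0 hcq hcq1).L1.M)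
    (ha : ∀ t, a₁ (χ t) = tw₁ t)
    (twP : ↥(heckeAlgebra N' 2 (↑S : Set ℕ)) →+*
      Module.End P.O (bigLevel Q.Sy Q.𝔪 (Q.primeData hq hqM hsq hcong) (Q.hyp hp3) (1 + g)).M)
    (hfmk : ∀ t (x : (bigLevel Q.Sy Q.𝔪 (Q.primeData hq hqM hsq hcong) (Q.hyp hp3) (1 + g)).M),
      tw₁ t (fmk (frD (bigLevel Q.Sy Q.𝔪 (Q.primeData hq hqM hsq hcong) (Q.hyp hp3) (1 + g)))
          (fun _ => (1 : P.O)) x)
        = fmk (frD (bigLevel Q.Sy Q.𝔪 (Q.primeData hq hqM hsq hcong) (Q.hyp hp3) (1 + g)))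
          (fun _ => (1 : P.O)) (twP t x))
    (hT : ∀ (ℓ : ℕ) (hℓ : ℓ.Prime) (hℓN' : ¬ ℓ ∣ N') (hℓS : ℓ ∉ (↑S : Set ℕ))
        (hℓN : ¬ ℓ ∣ Q.N),
      haveI : Fact ℓ.Prime := ⟨hℓ⟩
      ∃ d : Gamma0 Q.N,
        (∀ u : (ZMod Q.N)ˣ, (u : ZMod Q.N) = ((ℓ : ℕ) : ZMod Q.N) →
          chi (Theta (Δs p (eOf g (n + 1) eq)) (Q.primeData hq hqM hsq hcong).psi (1 + g)) d ^ 2 *
            Theta (Δs p (eOf g (n + 1) eq)) (Q.primeData hq hqM hsq hcong).psi (1 + g) u = 1) ∧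
        ∀ x : (bigLevel Q.Sy Q.𝔪 (Q.primeData hq hqM hsq hcong) (Q.hyp hp3) (1 + g)).M,
          (bigReal Q.Sy Q.𝔪 (Q.primeData hq hqM hsq hcong) (Q.hyp hp3) (1 + g)).ι
              (twP (heckeAlgebra.T hℓ hℓN' hℓS) x)
            = diaH (Theta (Δs p (eOf g (n + 1) eq)) (Q.primeData hq hqM hsq hcong).psi (1 + g))
                P.O d
                (TH (Theta (Δs p (eOf g (n + 1) eq)) (Q.primeData hq hqM hsq hcong).psi (1 + g))
                  P.O hℓN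
                  ((bigReal Q.Sy Q.𝔪 (Q.primeData hq hqM hsq hcong) (Q.hyp hp3) (1 + g)).ι x)))
    (hρ : ∀ (ℓ : ℕ) (hℓ : ℓ.Prime) (hℓN' : ¬ ℓ ∣ N') (hℓS : ℓ ∉ (↑S : Set ℕ)),
      ∀ A : ValuationSubring Qb, A.LiesOverPrime ℓ → ∀ σ : GQ, A.IsFrobeniusAt σ ℓ →
        LinearMap.charpoly (ρQ.ρ σ)
          = X ^ 2 - C (χ (heckeAlgebra.T hℓ hℓN' hℓS)) * X + C ((ℓ : TQ))) :
    haveI : Fact q.Prime := ⟨hq⟩
    ∀ φ τ₀ : GQ, KummerTests q p φ τ₀ →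
      a₁ ((matT ψ φ).trace ^ 2 - (1 + (q : TQ)) ^ 2) = 0 := by
  haveI : Fact q.Prime := ⟨hq⟩
  intro φ τ₀ hK
  haveI : NeZero (Nl Q q) := neZero_Nl Q hqM
  obtain ⟨x, ζ, hx, hζ, hφ, hτ, hτx⟩ := hK
  exact he_plug_var (N_eq Q hqM) Q.Sy (hrN Q) (hqN Q hq hqM hsq) Q.𝔪
    (Q.primeData hq hqM hsq hcong) (Q.hyp hp3) g (cFam 0 cq)
    (cFam_pow 0 g (eOf_eq (n + 1) eq) hcq) (cFam_sub_mem 0 hcq1) (Nat.le_succ g) (hrk Q)
    (hbase_Nl Q hqM hsq hno) (hbnd_N Q hq hqM hsq hcong hp3 g) S hSN hpS hqp hSN' ψ hψ ρQ hequiv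
    χ hχ a₁ hred tw₁ ha twP hfmk hT hρ (padicPlace q)
    (Fermat.Agent.GP.Loc.TWLocalHlc.natCast_mem_nonunits_padicPlace q) φ hφ

end He

end TWSetG7

end Fermat.Agent.GB.B9.ProviderFlat.G7
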