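/-
GATE-B / B9 PROVIDER, seam G2 → G6 / G7 (helper28, referee seat): **the binder `hT` of
`Kill1TQ.he_plug` / `Kill1Var.he_plug_var` / `G7One.he_tw1F` / `HnuPlug.hnu_plug`** from the output
of helper11's `G2.exists_twP_hecke`.

`exists_twP_hecke` characterises `twP` on the generators `formsGenS N'' ↑S l` (`l : PrimesOff ↑S`)
with the half-diamonds `dℓ l`; the consumers want, for every prime `ℓ ∉ S` (with ANY proofs of
`¬ ℓ ∣ N''`, `¬ ℓ ∣ N`), SOME half-diamond `d` and the formula for `twP (heckeAlgebra.T …)`.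
`hT_of_hι` is that translation (`formsGenS_of_not_dvd` + proof irrelevance), at the generic objects
`Sy 𝔪 H h` of `GB/B3/Plug.lean` and ANY stage `j` (consumers: `j := s + k`, `1 + g`).
-/
import Fermat.Agent.GB.B9.ProviderFlat.G2

set_option autoImplicit false
set_option linter.unusedSectionVars false
set_option linter.unusedVariables false
set_option linter.style.haveILetI false

noncomputable section

open scoped MatrixGroups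
open CongruenceSubgroup ModularCurve.Period CuspForm

namespace Fermat.Agent.GB.B9.ProviderFlat.G2HT

open Fermat.Agent.GM.B Fermat.Agent.GB.B3 Fermat.Agent.GB.B3.EisGamma0
  Fermat.Agent.GB.B3.HeckeActH Fermat.Agent.GB.B3.RealLevel Fermat.Agent.GB.B3.Tower
  Fermat.Agent.GB.B3.TWChars Fermat.Agent.GB.B3.FinalTW Fermat.Agent.GB.B3.Plug
  Fermat.Agent.GB.B3.TWLevel Fermat.Agent.GB.B3.GamH
  Fermat.Agent.GB.B3.Final Fermat.Agent.GJ.J2.Lat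
  Fermat.Agent.GB.B9.ProviderFlat.G2

variable {N p : ℕ} [NeZero N] [hpF : Fact p.Prime] {K : ℕ} {r e N' : ℕ → ℕ}
variable (Sy : Symbols N)
variable {O : Type} [CommRing O] [IsDomain O] [IsPrincipalIdealRing O] [IsLocalRing O]
  [IsAdicComplete (IsLocalRing.maximalIdeal O) O] [Module.IsTorsionFree ℤ O]
variable (𝔪 : Ideal (Sy.𝕋 O)) [𝔪.IsMaximal]
variable (H : PrimeData N p K r e N') {ϖ : O} {s0 : Sy.ι₁} (h : Plug.Hyp Sy 𝔪 p ϖ s0)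
variable (j : ℕ)

/-- **the binder `hT` of `he_plug` / `hnu_plug`** from clause 1 of `G2.exists_twP_hecke`. -/
theorem hT_of_hι {N'' : ℕ} [NeZero N''] (S : Finset ℕ)
    (dℓ : PrimesOff (↑S : Set ℕ) → Gamma0 N)
    (hdℓ : ∀ (l : PrimesOff (↑S : Set ℕ)) (u : (ZMod N)ˣ),
      (u : ZMod N) = ((l.1 : ℕ) : ZMod N) →
        chi (Theta (Δs p e) H.psi j) (dℓ l) ^ 2 * Theta (Δs p e) H.psi j u = 1)
    (hnd : ∀ l : PrimesOff (↑S : Set ℕ), ¬ (l.1 : ℕ) ∣ N)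
    (twP : ↥(heckeAlgebra N'' 2 (↑S : Set ℕ)) →+* Module.End O (bigLevel Sy 𝔪 H h j).M)
    (hι : ∀ (l : PrimesOff (↑S : Set ℕ)) (x : (bigLevel Sy 𝔪 H h j).M),
      haveI : Fact (l.1 : ℕ).Prime := ⟨l.1.2⟩
      (bigReal Sy 𝔪 H h j).ι (twP (formsGenS N'' (↑S : Set ℕ) l) x) =
        diaH (Theta (Δs p e) H.psi j) O (dℓ l)
          (TH (Theta (Δs p e) H.psi j) O (hnd l) ((bigReal Sy 𝔪 H h j).ι x))) :
    ∀ (ℓ : ℕ) (hℓ : ℓ.Prime) (hℓN' : ¬ ℓ ∣ N'') (hℓS : ℓ ∉ (↑S : Set ℕ)) (hℓN : ¬ ℓ ∣ N),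
      haveI : Fact ℓ.Prime := ⟨hℓ⟩
      ∃ d : Gamma0 N,
        (∀ u : (ZMod N)ˣ, (u : ZMod N) = ((ℓ : ℕ) : ZMod N) →
          chi (Theta (Δs p e) H.psi j) d ^ 2 * Theta (Δs p e) H.psi j u = 1) ∧
        ∀ x : (bigLevel Sy 𝔪 H h j).M,
          (bigReal Sy 𝔪 H h j).ι (twP (heckeAlgebra.T hℓ hℓN' hℓS) x)
            = diaH (Theta (Δs p e) H.psi j) O d
                (TH (Theta (Δs p e) H.psi j) O hℓN ((bigReal Sy 𝔪 H h j).ι x)) := by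
  intro ℓ hℓ hℓN' hℓS hℓN
  refine ⟨dℓ ⟨⟨ℓ, hℓ⟩, hℓS⟩, fun u hu => hdℓ ⟨⟨ℓ, hℓ⟩, hℓS⟩ u hu, fun x => ?_⟩
  have h1 := hι ⟨⟨ℓ, hℓ⟩, hℓS⟩ x
  rw [formsGenS_of_not_dvd N'' (↑S : Set ℕ) ⟨⟨ℓ, hℓ⟩, hℓS⟩ hℓN'] at h1
  exact h1

end Fermat.Agent.GB.B9.ProviderFlat.G2HT
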