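/-
GATE-B / B9 PROVIDER, group G4 = (P5) (helper6), file 9: **(B5) at the Taylor–Wiles primes on
`Q.tw1F …`** = the binders `hB5₁ hB5₂` of `G4TW.exists_x_tw1F_rev` / `LowerFill.groupsOn_of_parts`
VERBATIM, from helper35's `GB/B5/Glue/HnuPlug.hB5_plug` (two calls: `L := tw.L1`, `π := fmk` at
the trivial family; `L := tw.Lχ`, `π := fmk` at `fun _ => cq`).

* Plug level (`Sy 𝔪 H h k c hc hc1` generic, helper95 `Plug.tw … 1 k c hc hc1`):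
  `piOne` (`= fmk` onto `tw.L1.M` as a linear map, top-level def; `HnuPlug.piChi` is its `Lχ` twin),
  `piOne_D`, `piChi_Dtw` (`π (B.D (Fin.natAdd 1 i) y) = L.D i (π y)`, `rfl`),
  `hB5_plug_L1`, `hB5_plug_Lχ`.
* `Q : G1.TWSet P g n`: `hB5₁_tw1F`, `hB5₂_tw1F`.  DISCHARGED: (BND) (`G7.hbnd_N`, squarefree
  level), `1 + g ≤ g + 1`, `1 ≤ e (g - 1 - i)`, `r (g - 1 - i) ≠ p`, the prime of the diamond
  `rOf Q.qv q (g - 1 - i) = Q.qv (Fin.rev i)` (`G4TW.rOf_rev`), the point `x := ψ q'`,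
  `O' := Rq q'`.  LEFT as binders (= the G2 / G3 outputs, in the spelling of helper52's
  `G7One.he_tw1F` and helper35's `HnuPlug`): `S hpS N'' hN'' hSN'' ρQ χ a a_D tw ha twP hfmk hT hρ`.
-/
import Fermat.Agent.GB.B5.Glue.HnuPlug
import Fermat.Agent.GB.B9.ProviderFlat.G4TW1Rev
import Fermat.Agent.GB.B9.ProviderFlat.G7

set_option autoImplicit false
set_option linter.unusedSectionVars false
set_option linter.unusedVariables false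
set_option linter.style.haveILetI false

open scoped MatrixGroups
open CongruenceSubgroup Polynomial IsLocalRing CuspForm
open Fermat.Agent.GM.B ModularCurve.Period
open Fermat.Agent.GB.B3 Fermat.Agent.GB.B3.EisGamma0 Fermat.Agent.GB.B3.GamH
open Fermat.Agent.GB.B3.RealLevel Fermat.Agent.GB.B3.HeckeActH Fermat.Agent.GB.B3.HeckeAct
open Fermat.Agent.GB.B3.TWChars Fermat.Agent.GB.B3.Tower Fermat.Agent.GB.B3.FinalTW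
open Fermat.Agent.GB.B3.Plug Fermat.Agent.GB.B3.ChiLevelMulti Fermat.Agent.GB.B3.TWLevel
open Fermat.Agent.GB.B3.StepInst Fermat.Agent.GB.B3.Final
open Fermat.Agent.GJ.J2.Lat
open Fermat.Agent.GB.B4.Twist.Asm Fermat.Agent.GB.B4.Twist.TwFinal Fermat.Agent.GB.B4.Twist.TwInst
open Fermat.Agent.GB.B5.Glue.HnuPlug

namespace Fermat.Agent.GB.B9.ProviderFlat.G4B5

open Fermat.Agent.Common_helper32

/-- local instance (Prop-valued class) -/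
local instance factPrimeOffG4B5 {S : Set ℕ} (l : PrimesOff S) : Fact (l.1 : ℕ).Prime := ⟨l.1.2⟩

section Plug

variable {N p K : ℕ} [NeZero N] [hpF : Fact p.Prime] {r e N' : ℕ → ℕ}
variable (Sy : Symbols N)
variable {O : Type} [CommRing O] [IsDomain O] [IsDiscreteValuationRing O]
  [IsAdicComplete (maximalIdeal O) O] [CharZero O] [Finite (ResidueField O)]
variable (𝔪 : Ideal (Sy.𝕋 O)) [𝔪.IsMaximal]
variable (H : PrimeData N p K r e N') {ϖ : O} {s0 : Sy.ι₁} (h : Plug.Hyp Sy 𝔪 p ϖ s0)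
variable (k : ℕ)
variable {TQ : Type} [CommRing TQ] [IsLocalRing TQ] [Algebra O TQ]
variable (c : Fin 1 → O) (hc : ∀ v : Fin 1, c v ^ p ^ e (1 + k - 1 - v) = 1)
  (hc1 : ∀ v, (1 : O) - c v ∈ Ideal.span {ϖ})

/-- the orders of the Taylor–Wiles diamonds of `Plug.tw … 1 k …` are nonzero -/
instance neZero_Nfun_natAdd (i : Fin k) : NeZero (Nfun p e (1 + k) (Fin.natAdd 1 i)) :=
  ⟨(Nfun_pos hpF.out e (1 + k) _).ne'⟩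

/-- the quotient map `(bigLevel …).M ↠ M¹` (`= fmk` at the trivial family) as a linear map -/
noncomputable def piOne :
    (bigLevel Sy 𝔪 H h (1 + k)).M →ₗ[O] (tw Sy 𝔪 H h 1 k c hc hc1).L1.M :=
  (famRange (frD (bigLevel Sy 𝔪 H h (1 + k))) (fun _ => (1 : O))).mkQ

theorem piOne_apply (x : (bigLevel Sy 𝔪 H h (1 + k)).M) :
    piOne Sy 𝔪 H h k c hc hc1 x
      = fmk (frD (bigLevel Sy 𝔪 H h (1 + k))) (fun _ => (1 : O)) x := rfl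

theorem piOne_surjective : Function.Surjective (piOne Sy 𝔪 H h k c hc hc1) :=
  Submodule.mkQ_surjective (famRange (frD (bigLevel Sy 𝔪 H h (1 + k))) (fun _ => (1 : O)))

/-- `π ∘ B.D (Fin.natAdd 1 i) = L1.D i ∘ π` -/
theorem piOne_D (i : Fin k) (y : (bigLevel Sy 𝔪 H h (1 + k)).M) :
    piOne Sy 𝔪 H h k c hc hc1 ((bigLevel Sy 𝔪 H h (1 + k)).D (Fin.natAdd 1 i) y)
      = (tw Sy 𝔪 H h 1 k c hc hc1).L1.D i (piOne Sy 𝔪 H h k c hc hc1 y) := rfl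

/-- `π ∘ B.D (Fin.natAdd 1 i) = Lχ.D i ∘ π` -/
theorem piChi_Dtw (i : Fin k) (y : (bigLevel Sy 𝔪 H h (1 + k)).M) :
    piChi Sy 𝔪 H h k c hc hc1 ((bigLevel Sy 𝔪 H h (1 + k)).D (Fin.natAdd 1 i) y)
      = (tw Sy 𝔪 H h 1 k c hc hc1).Lχ.D i (piChi Sy 𝔪 H h k c hc hc1 y) := rfl

/-- **(B5) at the `i`-th Taylor–Wiles diamond, on `M¹ = (Plug.tw …).L1.M`.** -/
theorem hB5_plug_L1 (hk : 1 + k ≤ K)
    (hbnd : ∀ y : Additive (GammaH (Theta (Δs p e) H.psi (1 + k))) →+ O,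
      IsLoc (actH Sy O (Theta (Δs p e) H.psi (1 + k))) 𝔪 y →
        y ∈ parabolicHoms O (GammaH (Theta (Δs p e) H.psi (1 + k))) O)
    (S : Finset ℕ) (hpS : p ∈ S)
    {N'' : ℕ} [NeZero N''] (hN'' : N'' = N * ∏ i : Fin (1 + k), r i)
    (hSN'' : ∀ ℓ : ℕ, ℓ.Prime → ℓ ∣ N'' → ℓ ∈ (↑S : Set ℕ))
    (ρQ : GaloisRepAdic TQ)
    (χ : ↥(heckeAlgebra N'' 2 (↑S : Set ℕ)) →+* TQ)
    (hNk : ∀ i : Fin k, p ∣ Nfun p e (1 + k) (Fin.natAdd 1 i))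
    (a₁ : TQ →ₐ[O] Module.End O (tw Sy 𝔪 H h 1 k c hc hc1).L1.M)
    (a₁_D : ∀ t i, a₁ t * (tw Sy 𝔪 H h 1 k c hc hc1).L1.D i
      = (tw Sy 𝔪 H h 1 k c hc hc1).L1.D i * a₁ t)
    (tw₁ : ↥(heckeAlgebra N'' 2 (↑S : Set ℕ)) →+*
      Module.End O (tw Sy 𝔪 H h 1 k c hc hc1).L1.M)
    (ha : ∀ t, a₁ (χ t) = tw₁ t)
    (twP : ↥(heckeAlgebra N'' 2 (↑S : Set ℕ)) →+* Module.End O (bigLevel Sy 𝔪 H h (1 + k)).M)
    (hfmk : ∀ t (x : (bigLevel Sy 𝔪 H h (1 + k)).M),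
      tw₁ t (fmk (frD (bigLevel Sy 𝔪 H h (1 + k))) (fun _ => (1 : O)) x)
        = fmk (frD (bigLevel Sy 𝔪 H h (1 + k))) (fun _ => (1 : O)) (twP t x))
    (hT : ∀ (ℓ : ℕ) (hℓ : ℓ.Prime) (hℓN' : ¬ ℓ ∣ N'') (hℓS : ℓ ∉ (↑S : Set ℕ))
        (hℓN : ¬ ℓ ∣ N),
      haveI : Fact ℓ.Prime := ⟨hℓ⟩
      ∃ d : Gamma0 N,
        (∀ u : (ZMod N)ˣ, (u : ZMod N) = ((ℓ : ℕ) : ZMod N) →
          chi (Theta (Δs p e) H.psi (1 + k)) d ^ 2 * Theta (Δs p e) H.psi (1 + k) u = 1) ∧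
        ∀ x : (bigLevel Sy 𝔪 H h (1 + k)).M,
          (bigReal Sy 𝔪 H h (1 + k)).ι (twP (heckeAlgebra.T hℓ hℓN' hℓS) x)
            = diaH (Theta (Δs p e) H.psi (1 + k)) O d
                (TH (Theta (Δs p e) H.psi (1 + k)) O hℓN ((bigReal Sy 𝔪 H h (1 + k)).ι x)))
    (hρ : ∀ (ℓ : ℕ) (hℓ : ℓ.Prime) (hℓN' : ¬ ℓ ∣ N'') (hℓS : ℓ ∉ (↑S : Set ℕ))
      (A : ValuationSubring Qb), A.LiesOverPrime ℓ → ∀ σ : GQ, A.IsFrobeniusAt σ ℓ →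
        LinearMap.charpoly (ρQ.ρ σ)
          = X ^ 2 - C (χ (heckeAlgebra.T hℓ hℓN' hℓS)) * X + C ((ℓ : TQ)))
    (i : Fin k) (hei : 1 ≤ e (k - 1 - i)) (hrp : r (k - 1 - i) ≠ p)
    {O' : Type} [CommRing O'] [IsDomain O'] [IsDiscreteValuationRing O']
    [IsAdicComplete (maximalIdeal O') O'] [Finite (ResidueField O')] [CharZero O']
    (hpO' : (p : O') ∈ maximalIdeal O') (x : TQ →+* O') (hx : IsLocalHom x)
    (hocc : ∀ t : TQ,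
      (∀ m, a₁ t m ∈ (tw Sy 𝔪 H h 1 k c hc hc1).L1.unitSub p hNk i) → x t = 0) :
    ¬ (ρQ.baseChangeAlong x hx).IsUnipotentOnInertiaAt (r (k - 1 - i)) :=
  hB5_plug Sy 𝔪 H h k hk hbnd S hpS hN'' hSN'' ρQ χ (tw Sy 𝔪 H h 1 k c hc hc1).L1 hNk
    (piOne Sy 𝔪 H h k c hc hc1) (piOne_surjective Sy 𝔪 H h k c hc hc1)
    (piOne_D Sy 𝔪 H h k c hc hc1) a₁ a₁_D tw₁ ha twP hfmk hT hρ i hei hrp hpO' x hx hocc

/-- **(B5) at the `i`-th Taylor–Wiles diamond, on `M^χ = (Plug.tw …).Lχ.M`.** -/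
theorem hB5_plug_Lχ (hk : 1 + k ≤ K)
    (hbnd : ∀ y : Additive (GammaH (Theta (Δs p e) H.psi (1 + k))) →+ O,
      IsLoc (actH Sy O (Theta (Δs p e) H.psi (1 + k))) 𝔪 y →
        y ∈ parabolicHoms O (GammaH (Theta (Δs p e) H.psi (1 + k))) O)
    (S : Finset ℕ) (hpS : p ∈ S)
    {N'' : ℕ} [NeZero N''] (hN'' : N'' = N * ∏ i : Fin (1 + k), r i)
    (hSN'' : ∀ ℓ : ℕ, ℓ.Prime → ℓ ∣ N'' → ℓ ∈ (↑S : Set ℕ))
    (ρQ : GaloisRepAdic TQ)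
    (χ : ↥(heckeAlgebra N'' 2 (↑S : Set ℕ)) →+* TQ)
    (hNk : ∀ i : Fin k, p ∣ Nfun p e (1 + k) (Fin.natAdd 1 i))
    (a₂ : TQ →ₐ[O] Module.End O (tw Sy 𝔪 H h 1 k c hc hc1).Lχ.M)
    (a₂_D : ∀ t i, a₂ t * (tw Sy 𝔪 H h 1 k c hc hc1).Lχ.D i
      = (tw Sy 𝔪 H h 1 k c hc hc1).Lχ.D i * a₂ t)
    (twχ : ↥(heckeAlgebra N'' 2 (↑S : Set ℕ)) →+*
      Module.End O (tw Sy 𝔪 H h 1 k c hc hc1).Lχ.M)
    (ha : ∀ t, a₂ (χ t) = twχ t)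
    (twP : ↥(heckeAlgebra N'' 2 (↑S : Set ℕ)) →+* Module.End O (bigLevel Sy 𝔪 H h (1 + k)).M)
    (hfmk : ∀ t (x : (bigLevel Sy 𝔪 H h (1 + k)).M),
      twχ t (fmk (frD (bigLevel Sy 𝔪 H h (1 + k))) c x)
        = fmk (frD (bigLevel Sy 𝔪 H h (1 + k))) c (twP t x))
    (hT : ∀ (ℓ : ℕ) (hℓ : ℓ.Prime) (hℓN' : ¬ ℓ ∣ N'') (hℓS : ℓ ∉ (↑S : Set ℕ))
        (hℓN : ¬ ℓ ∣ N),
      haveI : Fact ℓ.Prime := ⟨hℓ⟩
      ∃ d : Gamma0 N,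
        (∀ u : (ZMod N)ˣ, (u : ZMod N) = ((ℓ : ℕ) : ZMod N) →
          chi (Theta (Δs p e) H.psi (1 + k)) d ^ 2 * Theta (Δs p e) H.psi (1 + k) u = 1) ∧
        ∀ x : (bigLevel Sy 𝔪 H h (1 + k)).M,
          (bigReal Sy 𝔪 H h (1 + k)).ι (twP (heckeAlgebra.T hℓ hℓN' hℓS) x)
            = diaH (Theta (Δs p e) H.psi (1 + k)) O d
                (TH (Theta (Δs p e) H.psi (1 + k)) O hℓN ((bigReal Sy 𝔪 H h (1 + k)).ι x)))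
    (hρ : ∀ (ℓ : ℕ) (hℓ : ℓ.Prime) (hℓN' : ¬ ℓ ∣ N'') (hℓS : ℓ ∉ (↑S : Set ℕ))
      (A : ValuationSubring Qb), A.LiesOverPrime ℓ → ∀ σ : GQ, A.IsFrobeniusAt σ ℓ →
        LinearMap.charpoly (ρQ.ρ σ)
          = X ^ 2 - C (χ (heckeAlgebra.T hℓ hℓN' hℓS)) * X + C ((ℓ : TQ)))
    (i : Fin k) (hei : 1 ≤ e (k - 1 - i)) (hrp : r (k - 1 - i) ≠ p)
    {O' : Type} [CommRing O'] [IsDomain O'] [IsDiscreteValuationRing O']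
    [IsAdicComplete (maximalIdeal O') O'] [Finite (ResidueField O')] [CharZero O']
    (hpO' : (p : O') ∈ maximalIdeal O') (x : TQ →+* O') (hx : IsLocalHom x)
    (hocc : ∀ t : TQ,
      (∀ m, a₂ t m ∈ (tw Sy 𝔪 H h 1 k c hc hc1).Lχ.unitSub p hNk i) → x t = 0) :
    ¬ (ρQ.baseChangeAlong x hx).IsUnipotentOnInertiaAt (r (k - 1 - i)) :=
  hB5_plug Sy 𝔪 H h k hk hbnd S hpS hN'' hSN'' ρQ χ (tw Sy 𝔪 H h 1 k c hc hc1).Lχ hNk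
    (piChi Sy 𝔪 H h k c hc hc1) (piChi_surjective Sy 𝔪 H h k c hc hc1)
    (piChi_Dtw Sy 𝔪 H h k c hc hc1) a₂ a₂_D twχ ha twP hfmk hT hρ i hei hrp hpO' x hx hocc

end Plug

/-! ### at a Taylor–Wiles set `Q` of the setup bundle -/

section Pkg

open Fermat.Agent.GB.Setup.SetupPkg Fermat.Agent.GB.B9.ProviderFlat.H1
  Fermat.Agent.GB.B9.ProviderFlat.G1 Fermat.Agent.GB.B9.ProviderFlat.G4TW
  Fermat.Agent.GB.Glue.Points Fermat.Agent.GB.B9.ProviderFlat.G7.TWSetG7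

variable {p : ℕ} [hpF : Fact p.Prime] {W : WeierstrassCurve ℤ}
  {hcard₁ : Nat.card (Submodule.torsionBy ℤ
    ((W.map (Int.castRingHom ℚ)).toAffine.baseChange (AlgebraicClosure ℚ)).Point p) = p ^ 2}
  {hker : GaloisFactorsThroughFiniteLevel
    (WeierstrassCurve.Affine.Point.galoisRepModuleEnd (K := AlgebraicClosure ℚ) ℚ
      (W.map (Int.castRingHom ℚ)) p)}
  {M A : ℕ} {P : Pkg p W hcard₁ hker M A} {g n : ℕ} (Q : TWSet P g n)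

variable {q eq : ℕ} (hq : q.Prime) (hqM : q ∣ M) (hsq : Squarefree M) (hcong : p ^ eq ∣ q - 1)
  (hp3 : p ≠ 3) {cq : P.O} (hcq : cq ^ p ^ eq = 1)
  (hcq1 : (1 : P.O) - cq ∈ Ideal.span {P.ϖ})

/-- the exponent of the `i`-th Taylor–Wiles diamond is `n + 1 ≥ 1` -/
theorem one_le_eOf_rev (i : Fin g) : 1 ≤ eOf g (n + 1) eq (g - 1 - (i : ℕ)) := by
  have hi : g - 1 - (i : ℕ) < g := by have := i.2; omega
  rw [eOf_lt (n + 1) eq hi]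
  omega

/-- the prime of the `i`-th Taylor–Wiles diamond is not `p` -/
theorem rOf_rev_ne (i : Fin g) : rOf Q.qv q (g - 1 - (i : ℕ)) ≠ p := by
  rw [rOf_rev Q i]
  exact (Q.good (Fin.rev i)).2.2

/-- **`hB5₁` of `G4TW.exists_x_tw1F_rev` / `LowerFill.groupsOn_of_parts`, VERBATIM.** -/
theorem hB5₁_tw1F
    (S : Finset ℕ) (hpS : p ∈ S)
    {N'' : ℕ} [NeZero N''] (hN'' : N'' = Q.N * ∏ i : Fin (1 + g), rOf Q.qv q i)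
    (hSN'' : ∀ ℓ : ℕ, ℓ.Prime → ℓ ∣ N'' → ℓ ∈ (↑S : Set ℕ))
    (T : Type) [CommRing T] [IsLocalRing T] [Algebra P.O T] [IsLocalHom (algebraMap P.O T)]
    [Module.Finite P.O T] [IsReduced T] [IsNoetherianRing T] [IsAdicComplete (maximalIdeal T) T]
    (ρQ : GaloisRepAdic T)
    (χ : ↥(heckeAlgebra N'' 2 (↑S : Set ℕ)) →+* T)
    (a₁ : T →ₐ[P.O] Module.End P.O (Q.tw1F hq hqM hsq hcong hp3 hcq hcq1).L1.M)
    (a₁_D : ∀ t i, a₁ t * (Q.tw1F hq hqM hsq hcong hp3 hcq hcq1).L1.D i =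
      (Q.tw1F hq hqM hsq hcong hp3 hcq hcq1).L1.D i * a₁ t)
    (tw₁ : ↥(heckeAlgebra N'' 2 (↑S : Set ℕ)) →+*
      Module.End P.O (Q.tw1F hq hqM hsq hcong hp3 hcq hcq1).L1.M)
    (ha : ∀ t, a₁ (χ t) = tw₁ t)
    (twP : ↥(heckeAlgebra N'' 2 (↑S : Set ℕ)) →+*
      Module.End P.O (bigLevel Q.Sy Q.𝔪 (Q.primeData hq hqM hsq hcong) (Q.hyp hp3) (1 + g)).M)
    (hfmk : ∀ t (x : (bigLevel Q.Sy Q.𝔪 (Q.primeData hq hqM hsq hcong) (Q.hyp hp3) (1 + g)).M),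
      tw₁ t (fmk (frD (bigLevel Q.Sy Q.𝔪 (Q.primeData hq hqM hsq hcong) (Q.hyp hp3) (1 + g)))
          (fun _ => (1 : P.O)) x)
        = fmk (frD (bigLevel Q.Sy Q.𝔪 (Q.primeData hq hqM hsq hcong) (Q.hyp hp3) (1 + g)))
          (fun _ => (1 : P.O)) (twP t x))
    (hT : ∀ (ℓ : ℕ) (hℓ : ℓ.Prime) (hℓN' : ¬ ℓ ∣ N'') (hℓS : ℓ ∉ (↑S : Set ℕ))
        (hℓN : ¬ ℓ ∣ Q.N),
      haveI : Fact ℓ.Prime := ⟨hℓ⟩
      ∃ d : Gamma0 Q.N,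
        (∀ u : (ZMod Q.N)ˣ, (u : ZMod Q.N) = ((ℓ : ℕ) : ZMod Q.N) →
          chi (Theta (Δs p (eOf g (n + 1) eq)) (Q.primeData hq hqM hsq hcong).psi (1 + g)) d ^ 2 *
            Theta (Δs p (eOf g (n + 1) eq)) (Q.primeData hq hqM hsq hcong).psi (1 + g) u = 1) ∧
        ∀ x : (bigLevel Q.Sy Q.𝔪 (Q.primeData hq hqM hsq hcong) (Q.hyp hp3) (1 + g)).M,
          (bigReal Q.Sy Q.𝔪 (Q.primeData hq hqM hsq hcong) (Q.hyp hp3) (1 + g)).ι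
              (twP (heckeAlgebra.T hℓ hℓN' hℓS) x)
            = diaH (Theta (Δs p (eOf g (n + 1) eq)) (Q.primeData hq hqM hsq hcong).psi (1 + g))
                P.O d
                (TH (Theta (Δs p (eOf g (n + 1) eq)) (Q.primeData hq hqM hsq hcong).psi (1 + g))
                  P.O hℓN
                  ((bigReal Q.Sy Q.𝔪 (Q.primeData hq hqM hsq hcong) (Q.hyp hp3) (1 + g)).ι x)))
    (hρ : ∀ (ℓ : ℕ) (hℓ : ℓ.Prime) (hℓN' : ¬ ℓ ∣ N'') (hℓS : ℓ ∉ (↑S : Set ℕ)),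
      ∀ A : ValuationSubring Qb, A.LiesOverPrime ℓ → ∀ σ : GQ, A.IsFrobeniusAt σ ℓ →
        LinearMap.charpoly (ρQ.ρ σ)
          = X ^ 2 - C (χ (heckeAlgebra.T hℓ hℓN' hℓS)) * X + C ((ℓ : T))) :
    ∀ (i : Fin g) (x : Idx P.O T)
      (hloc : IsLocalHom ((ψ x : T →ₐ[P.O] Rq x) : T →+* Rq x)),
      (∀ t : T, (∀ m, a₁ t m ∈
        (Q.tw1F hq hqM hsq hcong hp3 hcq hcq1).L1.unitSub p dvd_nfun1 i) → ψ x t = 0) →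
      ¬ (ρQ.baseChangeAlong ((ψ x : T →ₐ[P.O] Rq x) : T →+* Rq x) hloc).IsUnipotentOnInertiaAt
        (Q.qv (Fin.rev i)) := by
  intro i x hloc hocc
  have h := hB5_plug_L1 Q.Sy Q.𝔪 (Q.primeData hq hqM hsq hcong) (Q.hyp hp3) g (fun _ => cq)
    (TWSet.hc_one (g := g) (eOf_eq (n + 1) eq) hcq) (fun _ => hcq1)
    (Nat.le_of_eq (Nat.add_comm 1 g)) (hbnd_N Q hq hqM hsq hcong hp3 (1 + g)) S hpS hN'' hSN''
    ρQ χ dvd_nfun1 a₁ a₁_D tw₁ ha twP hfmk hT hρ i (one_le_eOf_rev i) (rOf_rev_ne Q i)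
    (natCast_mem_maximalIdeal_Rq x P.hpO) ((ψ x : T →ₐ[P.O] Rq x) : T →+* Rq x) hloc hocc
  rwa [rOf_rev Q i] at h

/-- **`hB5₂` of `G4TW.exists_x_tw1F_rev` / `LowerFill.groupsOn_of_parts`, VERBATIM.** -/
theorem hB5₂_tw1F
    (S : Finset ℕ) (hpS : p ∈ S)
    {N'' : ℕ} [NeZero N''] (hN'' : N'' = Q.N * ∏ i : Fin (1 + g), rOf Q.qv q i)
    (hSN'' : ∀ ℓ : ℕ, ℓ.Prime → ℓ ∣ N'' → ℓ ∈ (↑S : Set ℕ))
    (T : Type) [CommRing T] [IsLocalRing T] [Algebra P.O T] [IsLocalHom (algebraMap P.O T)]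
    [Module.Finite P.O T] [IsReduced T] [IsNoetherianRing T] [IsAdicComplete (maximalIdeal T) T]
    (ρQ : GaloisRepAdic T)
    (χ : ↥(heckeAlgebra N'' 2 (↑S : Set ℕ)) →+* T)
    (a₂ : T →ₐ[P.O] Module.End P.O (Q.tw1F hq hqM hsq hcong hp3 hcq hcq1).Lχ.M)
    (a₂_D : ∀ t i, a₂ t * (Q.tw1F hq hqM hsq hcong hp3 hcq hcq1).Lχ.D i =
      (Q.tw1F hq hqM hsq hcong hp3 hcq hcq1).Lχ.D i * a₂ t)
    (twχ : ↥(heckeAlgebra N'' 2 (↑S : Set ℕ)) →+*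
      Module.End P.O (Q.tw1F hq hqM hsq hcong hp3 hcq hcq1).Lχ.M)
    (ha : ∀ t, a₂ (χ t) = twχ t)
    (twP : ↥(heckeAlgebra N'' 2 (↑S : Set ℕ)) →+*
      Module.End P.O (bigLevel Q.Sy Q.𝔪 (Q.primeData hq hqM hsq hcong) (Q.hyp hp3) (1 + g)).M)
    (hfmk : ∀ t (x : (bigLevel Q.Sy Q.𝔪 (Q.primeData hq hqM hsq hcong) (Q.hyp hp3) (1 + g)).M),
      twχ t (fmk (frD (bigLevel Q.Sy Q.𝔪 (Q.primeData hq hqM hsq hcong) (Q.hyp hp3) (1 + g)))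
          (fun _ => cq) x)
        = fmk (frD (bigLevel Q.Sy Q.𝔪 (Q.primeData hq hqM hsq hcong) (Q.hyp hp3) (1 + g)))
          (fun _ => cq) (twP t x))
    (hT : ∀ (ℓ : ℕ) (hℓ : ℓ.Prime) (hℓN' : ¬ ℓ ∣ N'') (hℓS : ℓ ∉ (↑S : Set ℕ))
        (hℓN : ¬ ℓ ∣ Q.N),
      haveI : Fact ℓ.Prime := ⟨hℓ⟩
      ∃ d : Gamma0 Q.N,
        (∀ u : (ZMod Q.N)ˣ, (u : ZMod Q.N) = ((ℓ : ℕ) : ZMod Q.N) →
          chi (Theta (Δs p (eOf g (n + 1) eq)) (Q.primeData hq hqM hsq hcong).psi (1 + g)) d ^ 2 *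
            Theta (Δs p (eOf g (n + 1) eq)) (Q.primeData hq hqM hsq hcong).psi (1 + g) u = 1) ∧
        ∀ x : (bigLevel Q.Sy Q.𝔪 (Q.primeData hq hqM hsq hcong) (Q.hyp hp3) (1 + g)).M,
          (bigReal Q.Sy Q.𝔪 (Q.primeData hq hqM hsq hcong) (Q.hyp hp3) (1 + g)).ι
              (twP (heckeAlgebra.T hℓ hℓN' hℓS) x)
            = diaH (Theta (Δs p (eOf g (n + 1) eq)) (Q.primeData hq hqM hsq hcong).psi (1 + g))
                P.O d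
                (TH (Theta (Δs p (eOf g (n + 1) eq)) (Q.primeData hq hqM hsq hcong).psi (1 + g))
                  P.O hℓN
                  ((bigReal Q.Sy Q.𝔪 (Q.primeData hq hqM hsq hcong) (Q.hyp hp3) (1 + g)).ι x)))
    (hρ : ∀ (ℓ : ℕ) (hℓ : ℓ.Prime) (hℓN' : ¬ ℓ ∣ N'') (hℓS : ℓ ∉ (↑S : Set ℕ)),
      ∀ A : ValuationSubring Qb, A.LiesOverPrime ℓ → ∀ σ : GQ, A.IsFrobeniusAt σ ℓ →
        LinearMap.charpoly (ρQ.ρ σ)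
          = X ^ 2 - C (χ (heckeAlgebra.T hℓ hℓN' hℓS)) * X + C ((ℓ : T))) :
    ∀ (i : Fin g) (x : Idx P.O T)
      (hloc : IsLocalHom ((ψ x : T →ₐ[P.O] Rq x) : T →+* Rq x)),
      (∀ t : T, (∀ m, a₂ t m ∈
        (Q.tw1F hq hqM hsq hcong hp3 hcq hcq1).Lχ.unitSub p dvd_nfun1 i) → ψ x t = 0) →
      ¬ (ρQ.baseChangeAlong ((ψ x : T →ₐ[P.O] Rq x) : T →+* Rq x) hloc).IsUnipotentOnInertiaAt
        (Q.qv (Fin.rev i)) := by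
  intro i x hloc hocc
  have h := hB5_plug_Lχ Q.Sy Q.𝔪 (Q.primeData hq hqM hsq hcong) (Q.hyp hp3) g (fun _ => cq)
    (TWSet.hc_one (g := g) (eOf_eq (n + 1) eq) hcq) (fun _ => hcq1)
    (Nat.le_of_eq (Nat.add_comm 1 g)) (hbnd_N Q hq hqM hsq hcong hp3 (1 + g)) S hpS hN'' hSN''
    ρQ χ dvd_nfun1 a₂ a₂_D twχ ha twP hfmk hT hρ i (one_le_eOf_rev i) (rOf_rev_ne Q i)
    (natCast_mem_maximalIdeal_Rq x P.hpO) ((ψ x : T →ₐ[P.O] Rq x) : T →+* Rq x) hloc hocc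
  rwa [rOf_rev Q i] at h

end Pkg

end Fermat.Agent.GB.B9.ProviderFlat.G4B5
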