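/-
GATE-B / B9 PROVIDER, group G4 = (P5) (helper6), file 2: **the `TWChars` inputs at a Taylor–Wiles
prime from RESIDUAL data.**

`ρ : GaloisRepAdic T` with `ρ.residual ≃ ρbar ⊗_ψ k_T` (the last conjunct of
`TQGal.exists_galRep_flat_of_rhobar` / `PushTloc.residual_push`), `r` a prime at which `ρbar` is
unramified, `φ` a Frobenius at `P ∣ r` with `charpoly ρbar(φ) = (X - α)(X - β)`, `α ≠ β` (the S56
Taylor–Wiles clause of `FramedSurjKummerConcl`), `a₀ b₀ ∈ T` lifts of `ψ α`, `ψ β`.  Then the binders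
`htr hdet hab hunr` of `GB/E2/TWChars.exists_characters_of_unr` hold
(`twChars_inputs`), and `hq` holds as soon as `p ∣ r - 1` (`natCast_sub_one_mem`).
-/
import Fermat.Agent.GB.Glue.Habs
import Fermat.Agent.GB.E2.TWChars

set_option autoImplicit false
set_option linter.unusedSectionVars false
set_option linter.style.haveILetI false

namespace Fermat.Agent.GB.B9.ProviderFlat.G4Res

open IsLocalRing Polynomial Fermat.Agent.Common_helper32 Fermat.Agent.GB.E2.TWDiag

section Residual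

variable {k : Type} [Field k]

/-- equivalent residual representations have the same characteristic polynomials -/
theorem charpoly_eq_of_isEquiv {ρ₁ ρ₂ : ResidualGaloisRep k} (h : ρ₁.IsEquiv ρ₂) (σ : GQ) :
    LinearMap.charpoly (ρ₁.ρ σ) = LinearMap.charpoly (ρ₂.ρ σ) := by
  obtain ⟨e⟩ := h
  have h2 : ρ₂.ρ σ = e.toLinearEquiv.conj (ρ₁.ρ σ) := by
    refine LinearMap.ext fun y => ?_
    rw [LinearEquiv.conj_apply, LinearMap.comp_apply, LinearMap.comp_apply,
      LinearEquiv.coe_coe, LinearEquiv.coe_coe, e.map_apply, LinearEquiv.apply_symm_apply]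
  rw [h2, LinearEquiv.charpoly_conj]

/-- equivalent residual representations are trivial at the same elements -/
theorem eq_one_of_isEquiv {ρ₁ ρ₂ : ResidualGaloisRep k} (h : ρ₁.IsEquiv ρ₂) {σ : GQ}
    (h1 : ρ₁.ρ σ = 1) : ρ₂.ρ σ = 1 := by
  obtain ⟨e⟩ := h
  refine LinearMap.ext fun y => ?_
  have := e.map_apply σ (e.toLinearEquiv.symm y)
  rw [LinearEquiv.apply_symm_apply, h1, Module.End.one_apply, LinearEquiv.apply_symm_apply] at this
  rw [← this, Module.End.one_apply]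

theorem isUnramifiedAt_of_isEquiv {ρ₁ ρ₂ : ResidualGaloisRep k} (h : ρ₁.IsEquiv ρ₂) {q : ℕ}
    (hq : ρ₁.IsUnramifiedAt q) : ρ₂.IsUnramifiedAt q :=
  fun P hP σ hσ => eq_one_of_isEquiv h (hq P hP σ hσ)

theorem isUnramifiedAt_baseChangeAlong {k' : Type} [Field k'] (ψ : k →+* k')
    {ρ : ResidualGaloisRep k} {q : ℕ} (hq : ρ.IsUnramifiedAt q) :
    (ρ.baseChangeAlong ψ).IsUnramifiedAt q := by
  intro P hP σ hσ
  letI : Algebra k k' := ψ.toAlgebra
  show (ρ.ρ σ).baseChange k' = 1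
  rw [hq P hP σ hσ, LinearMap.baseChange_one]

end Residual

section Adic

variable {T : Type} [CommRing T] [IsLocalRing T]

/-- `charpoly = X² - tr X + det`, residually -/
theorem residue_trace_det_of_charpoly (ρ : GaloisRepAdic T) (σ : GQ) (a b : ResidueField T)
    (h : (LinearMap.charpoly (ρ.ρ σ)).map (residue T) = (X - C a) * (X - C b)) :
    residue T (LinearMap.trace T ρ.V (ρ.ρ σ)) = a + b ∧
      residue T (LinearMap.det (ρ.ρ σ)) = a * b := by
  rw [Fermat.Agent.GK.Tate.charpoly_eq_of_finrank_two ρ.finrank_eq (ρ.ρ σ)] at h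
  simp only [Polynomial.map_add, Polynomial.map_sub, Polynomial.map_mul, Polynomial.map_pow,
    Polynomial.map_X, Polynomial.map_C] at h
  have h1 := congrArg (fun Q : (ResidueField T)[X] => Q.coeff 1) h
  have h0 := congrArg (fun Q : (ResidueField T)[X] => Q.coeff 0) h
  have e : ((X : (ResidueField T)[X]) - C a) * (X - C b) = X ^ 2 - C (a + b) * X + C (a * b) := by
    rw [map_add, map_mul]; ring
  rw [e] at h1 h0
  simp only [coeff_add, coeff_sub, coeff_X_pow, coeff_C_mul, coeff_X_one, mul_one, coeff_C,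
    coeff_X_zero, mul_zero] at h1 h0
  have h12 : ¬ ((1 : ℕ) = 2) := by decide
  have h02 : ¬ ((0 : ℕ) = 2) := by decide
  simp only [h12, h02, one_ne_zero, if_false, if_true, zero_sub, add_zero, neg_inj, sub_zero,
    zero_add] at h1 h0
  exact ⟨h1, h0⟩

/-- **the `TWChars` binders from residual data.** -/
theorem twChars_inputs (ρ : GaloisRepAdic T) {k₀ : Type} [Field k₀]
    (ρbar : ResidualGaloisRep k₀) (ψ : k₀ →+* ResidueField T)
    (hres : ρ.residual.IsEquiv (ρbar.baseChangeAlong ψ))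
    (P : ValuationSubring Qb) {r : ℕ} (hP : P.LiesOverPrime r)
    (hunrbar : ρbar.IsUnramifiedAt r)
    (φ : GQ) (α β : k₀) (hαβ : α ≠ β)
    (hchar : LinearMap.charpoly (ρbar.ρ φ) = (X - C α) * (X - C β))
    (a₀ b₀ : T) (ha : residue T a₀ = ψ α) (hb : residue T b₀ = ψ β) :
    LinearMap.trace T ρ.V (ρ.ρ φ) - (a₀ + b₀) ∈ maximalIdeal T ∧
      LinearMap.det (ρ.ρ φ) - a₀ * b₀ ∈ maximalIdeal T ∧ IsUnit (a₀ - b₀) ∧
      ∀ s ∈ P.inertiaSubgroupIn ℚ, ∀ v,
        ρ.ρ s v - v ∈ maximalIdeal T • (⊤ : Submodule T ρ.V) := by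
  have hc : (LinearMap.charpoly (ρ.ρ φ)).map (residue T) = (X - C (ψ α)) * (X - C (ψ β)) := by
    rw [← Fermat.Agent.GB.Glue.Habs.charpoly_residual, charpoly_eq_of_isEquiv hres,
      Fermat.Agent.GB.Glue.Habs.charpoly_baseChangeAlong, hchar, Polynomial.map_mul,
      Polynomial.map_sub, Polynomial.map_sub, Polynomial.map_X, Polynomial.map_C,
      Polynomial.map_C]
  obtain ⟨ht, hd⟩ := residue_trace_det_of_charpoly ρ φ (ψ α) (ψ β) hc
  refine ⟨?_, ?_, ?_, ?_⟩
  · rw [← residue_eq_zero_iff, map_sub, map_add, ht, ha, hb, sub_self]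
  · rw [← residue_eq_zero_iff, map_sub, map_mul, hd, ha, hb, sub_self]
  · by_contra hnu
    have hmem : a₀ - b₀ ∈ maximalIdeal T := (mem_maximalIdeal _).mpr hnu
    rw [← residue_eq_zero_iff, map_sub, ha, hb, sub_eq_zero] at hmem
    exact hαβ (ψ.injective hmem)
  · have hunr : ρ.residual.IsUnramifiedAt r := by
      obtain ⟨e⟩ := hres
      exact isUnramifiedAt_of_isEquiv ⟨e.symm⟩ (isUnramifiedAt_baseChangeAlong ψ hunrbar)
    intro s hs v
    exact sub_mem_smul_top_of_baseChange_eq_one (ρ.ρ s) (hunr P hP s hs) v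

/-- `p ∈ 𝔪_T`, `p ∣ r - 1`, `1 ≤ r` ⟹ `(r : T) - 1 ∈ 𝔪_T` -/
theorem natCast_sub_one_mem {p r : ℕ} (hpT : (p : T) ∈ maximalIdeal T) (hr : 1 ≤ r)
    (hpr : p ∣ r - 1) : (r : T) - 1 ∈ maximalIdeal T := by
  obtain ⟨c, hc⟩ := hpr
  have h : (r : T) - 1 = (p : T) * (c : T) := by
    have h2 : r = p * c + 1 := by omega
    rw [h2]
    push_cast
    ring
  rw [h]
  exact Ideal.mul_mem_right _ _ hpT

end Adic

end Fermat.Agent.GB.B9.ProviderFlat.G4Res
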