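/-
GATE-B / B9 PROVIDER (flat branch), group **G6 = `hnu`** at THE `TWLevelData` of record
`Q.tw1F hq hqM hsq hcong hp3 hcq hcq1` (helper51 `G1One`) (helper35) — twin of helper52's
`G7One.he_tw1F`, same binder spelling for the G2 outputs (`χ a₂ twχ ha twP hfmk hT`) and the G3
outputs (`ψ hψ ρQ hequiv hρ` + the residual conjunct `hres`).

`hnu_tw1F` : the binder `hnu` of `Q.exists_level1` / `Lower.GroupsOn` / helper59
`G5Pkg.nonempty_TWInput_thetaAt`, for EVERY Kummer test pair at `q`: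
`∀ φ τ₀, KummerTests q p φ τ₀ → ∀ i, ((matT ψ τ₀).map (phi a₂ i) - 1)² = 0 → … = 1`.

DISCHARGED: (BND) at the stage `1 + g` (squarefree level, `G7.hbnd_N`), the frame of B5-POINT at
the prime data (`Glue/FramePD`), `tw_ℂ`/`tw_O` (`TwInst.exists_tw_primeData`), B5-POINT + S36PLUS
(`Glue/HnuPlug.hnu_plug`), the tame generator (`TameGenKummer.isTameGenerator_of_kummer`), residual
unramifiedness at `q` (from `hres` + `ρ̄` unramified at `q`), `charpoly (matT ψ τ₀)`.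
-/
import Mathlib
import Fermat.Agent.GB.B5.Glue.HnuPlug
import Fermat.Agent.GB.B9.ProviderFlat.G7
import Fermat.Agent.GB.B9.ProviderFlat.G1One
import Fermat.Agent.GB.B9.ProviderFlat.G4Res
import Fermat.Agent.GB.E2.TameGenKummer

set_option autoImplicit false
set_option linter.unusedSectionVars false
set_option linter.unusedVariables false
set_option linter.style.haveILetI false

noncomputable section

open scoped MatrixGroups
open CongruenceSubgroup Polynomial IsLocalRing CuspForm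
open Fermat.Agent.GM.B
open Fermat.Agent.GB.B3 Fermat.Agent.GB.B3.EisGamma0 Fermat.Agent.GB.B3.GamH
open Fermat.Agent.GB.B3.RealLevel Fermat.Agent.GB.B3.HeckeActH Fermat.Agent.GB.B3.HeckeAct
open Fermat.Agent.GB.B3.TWChars Fermat.Agent.GB.B3.Tower Fermat.Agent.GB.B3.FinalTW
open Fermat.Agent.GJ.J2.Lat

namespace Fermat.Agent.GB.B9.ProviderFlat.G6

/-- `G_ℚ`. -/
local notation "GQ" => AlgebraicClosure ℚ ≃ₐ[ℚ] AlgebraicClosure ℚ
/-- `ℚ̄`. -/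
local notation "Qb" => AlgebraicClosure ℚ

open Fermat.Agent.GB.B3.Plug Fermat.Agent.GB.B3.ChiLevelMulti
  Fermat.Agent.GB.B3.Final Fermat.Agent.GB.B3.TWLevel
  Fermat.Agent.S16_helper49 ModularCurve.Period
  Fermat.Agent.GB.B9.ThetaT
  Fermat.Agent.GB.Setup.SetupPkg Fermat.Agent.GB.B9.ProviderFlat.G1
  Fermat.Agent.GB.B9.ProviderFlat.H1
  Fermat.Agent.GB.B3.StepInst
  Fermat.Agent.GB.Def.LocGenInst
  Fermat.Agent.GB.Local.Multi.Kill2Field Fermat.Agent.GB.Local.Multi.Kill2Q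

variable {p : ℕ} [hpF : Fact p.Prime] {W : WeierstrassCurve ℤ}
  {hcard₁ : Nat.card (Submodule.torsionBy ℤ
    ((W.map (Int.castRingHom ℚ)).toAffine.baseChange (AlgebraicClosure ℚ)).Point p) = p ^ 2}
  {hker : GaloisFactorsThroughFiniteLevel
    (WeierstrassCurve.Affine.Point.galoisRepModuleEnd (K := AlgebraicClosure ℚ) ℚ
      (W.map (Int.castRingHom ℚ)) p)}
  {M A : ℕ} {P : Pkg p W hcard₁ hker M A} {g n : ℕ} (Q : TWSet P g n)

namespace TWSetG6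

variable {q eq : ℕ} (hq : q.Prime) (hqM : q ∣ M) (hsq : Squarefree M) (hcong : p ^ eq ∣ q - 1)
  (hp3 : p ≠ 3) {cq : P.O} (hcq : cq ^ p ^ eq = 1) (hcq1 : (1 : P.O) - cq ∈ Ideal.span {P.ϖ})
variable {TQ : Type} [CommRing TQ] [IsLocalRing TQ] [Algebra P.O TQ] [Module.Finite P.O TQ]
  [IsReduced TQ] [IsLocalHom (algebraMap P.O TQ)]
  {ρbar : ResidualGaloisRep (ResidueField P.O)}
  {𝒟 : ∀ ⦃A : Type⦄ [CommRing A] [IsLocalRing A] [Algebra P.O A], GaloisRepAdic A → Prop}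
  {DQ : GaloisRep.DeformationRingData P.O ρbar 𝒟}

/-- **G6 = the binder `hnu` of `Q.exists_level1` / `Lower.GroupsOn` /
`G5Pkg.nonempty_TWInput_thetaAt` at THE `TWLevelData` of record `Q.tw1F …`**, for every Kummer
test pair at `q`. -/
theorem hnu_tw1F (hcq0 : cq ≠ 1)
    (S : Finset ℕ) (hpS : p ∈ S) (hqp : q ≠ p)
    {N' : ℕ} [NeZero N'] (hN' : N' = Q.N * ∏ i : Fin (1 + g), rOf Q.qv q i)
    (hSN' : ∀ ℓ : ℕ, ℓ.Prime → ℓ ∣ N' → ℓ ∈ (↑S : Set ℕ))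
    (ψ : DQ.R →ₐ[P.O] TQ) (hψ : IsLocalHom (ψ : DQ.R →+* TQ)) (ρQ : GaloisRepAdic TQ)
    (hequiv : (DQ.ρ.baseChangeAlong (ψ : DQ.R →+* TQ) hψ).IsEquiv ρQ)
    (hres : ρQ.residual.IsEquiv
      (ρbar.baseChangeAlong (ResidueField.map (algebraMap P.O TQ))))
    (hunrbar : ρbar.IsUnramifiedAt q)
    (χ : ↥(heckeAlgebra N' 2 (↑S : Set ℕ)) →+* TQ)
    (a₂ : TQ →ₐ[P.O] Module.End P.O (Q.tw1F hq hqM hsq hcong hp3 hcq hcq1).Lχ.M)
    (twχ : ↥(heckeAlgebra N' 2 (↑S : Set ℕ)) →+*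
      Module.End P.O (Q.tw1F hq hqM hsq hcong hp3 hcq hcq1).Lχ.M)
    (ha : ∀ t, a₂ (χ t) = twχ t)
    (twP : ↥(heckeAlgebra N' 2 (↑S : Set ℕ)) →+*
      Module.End P.O (bigLevel Q.Sy Q.𝔪 (Q.primeData hq hqM hsq hcong) (Q.hyp hp3) (1 + g)).M)
    (hfmk : ∀ t (x : (bigLevel Q.Sy Q.𝔪 (Q.primeData hq hqM hsq hcong) (Q.hyp hp3) (1 + g)).M),
      twχ t (fmk (frD (bigLevel Q.Sy Q.𝔪 (Q.primeData hq hqM hsq hcong) (Q.hyp hp3) (1 + g)))
          (fun _ => cq) x)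
        = fmk (frD (bigLevel Q.Sy Q.𝔪 (Q.primeData hq hqM hsq hcong) (Q.hyp hp3) (1 + g)))
          (fun _ => cq) (twP t x))
    (hT : ∀ (ℓ : ℕ) (hℓ : ℓ.Prime) (hℓN' : ¬ ℓ ∣ N') (hℓS : ℓ ∉ (↑S : Set ℕ))
        (hℓN : ¬ ℓ ∣ Q.N),
      haveI : Fact ℓ.Prime := ⟨hℓ⟩
      ∃ d : Gamma0 Q.N,
        (∀ u : (ZMod Q.N)ˣ, (u : ZMod Q.N) = ((ℓ : ℕ) : ZMod Q.N) →
          chi (Theta (Δs p (eOf g (n + 1) eq)) (Q.primeData hq hqM hsq hcong).psi (1 + g)) d ^ 2 *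
            Theta (Δs p (eOf g (n + 1) eq)) (Q.primeData hq hqM hsq hcong).psi (1 + g) u = 1) ∧
        ∀ x : (bigLevel Q.Sy Q.𝔪 (Q.primeData hq hqM hsq hcong) (Q.hyp hp3) (1 + g)).M,
          (bigReal Q.Sy Q.𝔪 (Q.primeData hq hqM hsq hcong) (Q.hyp hp3) (1 + g)).ι
              (twP (heckeAlgebra.T hℓ hℓN' hℓS) x)
            = diaH (Theta (Δs p (eOf g (n + 1) eq)) (Q.primeData hq hqM hsq hcong).psi (1 + g))
                P.O d
                (TH (Theta (Δs p (eOf g (n + 1) eq)) (Q.primeData hq hqM hsq hcong).psi (1 + g))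
                  P.O hℓN
                  ((bigReal Q.Sy Q.𝔪 (Q.primeData hq hqM hsq hcong) (Q.hyp hp3) (1 + g)).ι x)))
    (hρ : ∀ (ℓ : ℕ) (hℓ : ℓ.Prime) (hℓN' : ¬ ℓ ∣ N') (hℓS : ℓ ∉ (↑S : Set ℕ)),
      ∀ A : ValuationSubring Qb, A.LiesOverPrime ℓ → ∀ σ : GQ, A.IsFrobeniusAt σ ℓ →
        LinearMap.charpoly (ρQ.ρ σ)
          = X ^ 2 - C (χ (heckeAlgebra.T hℓ hℓN' hℓS)) * X + C ((ℓ : TQ))) :
    haveI : Fact q.Prime := ⟨hq⟩
    ∀ φ τ₀ : GQ, KummerTests q p φ τ₀ →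
      ∀ i : Fermat.Agent.GB.Glue.Points.Idx P.O (Tchi a₂),
        ((matT ψ τ₀).map (phi a₂ i) - 1) ^ 2 = 0 → (matT ψ τ₀).map (phi a₂ i) = 1 := by
  haveI : Fact q.Prime := ⟨hq⟩
  intro φ τ₀ hK
  obtain ⟨x, ζ, hx, hζ, hφ, hτ, hτx⟩ := hK
  have hPl : (padicPlace q).LiesOverPrime q :=
    Fermat.Agent.GP.Loc.TWLocalHlc.natCast_mem_nonunits_padicPlace q
  have hrq : rOf Q.qv q g = q := rOf_eq Q.qv q
  -- residual unramifiedness at `q`
  have hunrQ : ρQ.residual.IsUnramifiedAt q := by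
    obtain ⟨e⟩ := hres
    exact Fermat.Agent.GB.B9.ProviderFlat.G4Res.isUnramifiedAt_of_isEquiv ⟨e.symm⟩
      (Fermat.Agent.GB.B9.ProviderFlat.G4Res.isUnramifiedAt_baseChangeAlong _ hunrbar)
  have hunr : ∀ σ ∈ (padicPlace q).inertiaSubgroupIn ℚ, ∀ v : ρQ.V,
      ρQ.ρ σ v - v ∈ maximalIdeal TQ • (⊤ : Submodule TQ ρQ.V) := fun σ hσ v =>
    Fermat.Agent.GB.E2.TWDiag.sub_mem_smul_top_of_baseChange_eq_one (ρQ.ρ σ)
      (hunrQ (padicPlace q) hPl σ hσ) v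
  -- the tame generator
  have hτ₀ : Fermat.Agent.GB.E2.TameGenAdic.IsTameGenerator (padicPlace q) p τ₀ :=
    Fermat.Agent.GB.E2.TameGenKummer.isTameGenerator_of_kummer (padicPlace q) hq hPl p
      (fun h => hqp h.symm) hx hζ hτ hτx
  -- the characteristic polynomial of `matT ψ τ₀`
  have hSq : (matT ψ τ₀).charpoly = LinearMap.charpoly (ρQ.ρ τ₀) := by
    rw [charpoly_matT ψ hψ, Fermat.Agent.S53_helper35.charpoly_eq_of_isEquiv hequiv]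
  exact Fermat.Agent.GB.B5.Glue.HnuPlug.hnu_plug Q.Sy Q.𝔪 (Q.primeData hq hqM hsq hcong)
    (Q.hyp hp3) g (fun _ => cq) (TWSet.hc_one (g := g) (eOf_eq (n + 1) eq) hcq) (fun _ => hcq1)
    (by omega) (Fermat.Agent.GB.B9.ProviderFlat.G7.TWSetG7.hbnd_N Q hq hqM hsq hcong hp3 (1 + g))
    S hpS (by rw [hrq]; exact hqp) P.hpO hN' hSN' ρQ χ a₂ twχ ha twP hfmk hT hρ
    (Q.d1F_pos hq hqM hsq hcong hp3) hcq0 (padicPlace q) (by rw [hrq]; exact hPl) hτ₀ hunr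
    (matT ψ τ₀) hSq

end TWSetG6

end Fermat.Agent.GB.B9.ProviderFlat.G6
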