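/-
GATE-B / B9 PROVIDER, flat branch, **STAGE B of the final wiring** (helper6): the two binders
`h1` (1pt) and `hnu` (G6) that helper54's `FlatGroups.groupsOn_of_twP_aux` still carries, in HIS
spelling (ring `G2.T … twP hD θQ`, actions `G2.a₁ / G2.a₂`, level datum `Plug.tw …` `= Q.tw1F …`),
from helper49's `G4H1.h1_G2` and helper35's `G6.TWSetG6.hnu_tw1F`.

* `h1_twR` : the binder `h1` of `groupsOn_of_twP_aux` / `LowerFill.groupsOn_of_parts` VERBATIM.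
  New binders w.r.t. the `aux` context: `hsym` (`= hsym` of `G2.exists_twP_hecke` at
  `ev := Q.lamTop`) and `hfrobQ` (clause 6 of `PkgLevel.exists_thetaQ`).
* `hnu_twR` : the binder `hnu` of `groupsOn_of_twP_aux` at `ℓs (Fin.last s) := q`.
  New binders: `hcq0 : cq ≠ 1`, `hunrbar : P.rhobar.IsUnramifiedAt q`.
-/
import Fermat.Agent.GB.B9.ProviderFlat.G2
import Fermat.Agent.GB.B9.ProviderFlat.G2HT
import Fermat.Agent.GB.B9.ProviderFlat.G4H1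
import Fermat.Agent.GB.B9.ProviderFlat.G4B5
import Fermat.Agent.GB.B9.ProviderFlat.G6

set_option autoImplicit false
set_option linter.unusedSectionVars false
set_option linter.unusedVariables false
set_option linter.style.haveILetI false

open WeierstrassCurve WeierstrassCurve.Affine.Point IsLocalRing
open scoped WeierstrassCurve.Affine
open scoped MatrixGroups
open CongruenceSubgroup ModularCurve.Period CuspForm Polynomial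

namespace Fermat.Agent.GB.B9.ProviderFlat.FlatFill

open Fermat.Agent.GM.B
open Fermat.Agent.GB.B3.HeckeActH Fermat.Agent.GB.B3.RealLevel Fermat.Agent.GB.B3.Tower
  Fermat.Agent.GB.B3.TWChars Fermat.Agent.GB.B3.FinalTW Fermat.Agent.GB.B3.Plug
  Fermat.Agent.GB.B3.TWLevel Fermat.Agent.GB.B3.GamH Fermat.Agent.GB.B3.ChiLevelMulti
  Fermat.Agent.GB.B3.Final
open Fermat.Agent.GJ.J2.Lat
open Fermat.Agent.GB.B4.Datum.ImageRing Fermat.Agent.GB.B4.Datum.TQFields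
open Fermat.Agent.GB.Setup.SetupPkg
open Fermat.Agent.GB.Def.FramedNodes Fermat.Agent.GB.Def.LocGenInst
open Fermat.Agent.GB.B9.ThetaT
open Fermat.Agent.GB.B9.ProviderFlat.G1
open Fermat.Agent.GB.B9.ProviderFlat.H1

/-- local instance (Prop-valued class) -/
local instance factPrimeOffFF {S : Set ℕ} (l : PrimesOff S) : Fact (l.1 : ℕ).Prime := ⟨l.1.2⟩

/-- `ℚ̄`. -/
local notation "Qb" => AlgebraicClosure ℚ
/-- `G_ℚ`. -/
local notation "GQ" => (AlgebraicClosure ℚ ≃ₐ[ℚ] AlgebraicClosure ℚ)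
/-- the character `Γ₀(N) → Δ` of a character of `(ℤ/N)ˣ`. -/
local notation "chiΓ" => Fermat.Agent.GB.B3.EisGamma0.chi
/-- the structure map `A → T_Q`. -/
local notation "chiT" => Fermat.Agent.GB.B4.Datum.ImageRing.chi
/-- `T / ker a₂`. -/
local notation "TchiK" => Fermat.Agent.GB.Local.Multi.Kill2Field.Tchi
/-- the points of `T / ker a₂`. -/
local notation "phiK" => Fermat.Agent.GB.Local.Multi.Kill2Q.phi

noncomputable section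

variable {p : ℕ} [hpF : Fact p.Prime] {W : WeierstrassCurve ℤ}
  {hcard₁ : Nat.card (Submodule.torsionBy ℤ
    ((W.map (Int.castRingHom ℚ))⁄(AlgebraicClosure ℚ)).Point p) = p ^ 2}
  {hker : GaloisFactorsThroughFiniteLevel
    (galoisRepModuleEnd (K := AlgebraicClosure ℚ) ℚ (W.map (Int.castRingHom ℚ)) p)}
  {M A : ℕ} {P : Pkg p W hcard₁ hker M A} {g n : ℕ} (Q : TWSet P g n)
  {q eq : ℕ} (hq : q.Prime) (hqM : q ∣ M) (hsq : Squarefree M) (hcong : p ^ eq ∣ q - 1)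
  (hp3 : p ≠ 3) {cq : P.O} (hcq : cq ^ p ^ eq = 1)
  (hcq1 : (1 : P.O) - cq ∈ Ideal.span {P.ϖ})

/-- the level datum of record in `Plug.tw` spelling (`= Q.tw1F …`, by `rfl`; = helper54's
`FlatGroups.twR`). -/
abbrev twR :=
  Fermat.Agent.GB.B3.Plug.tw Q.Sy Q.𝔪 (Q.primeData hq hqM hsq hcong) (Q.hyp hp3) 1 g
    (fun _ : Fin 1 => cq) (TWSet.hc_one (g := g) (eOf_eq (n + 1) eq) hcq) (fun _ => hcq1)

variable {N'' : ℕ} [NeZero N''] {SQ : Finset ℕ}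
  (twP : ↥(heckeAlgebra N'' 2 (↑SQ : Set ℕ)) →+*
    Module.End P.O (bigLevel Q.Sy Q.𝔪 (Q.primeData hq hqM hsq hcong) (Q.hyp hp3) (1 + g)).M)
  (hD : ∀ t i,
    twP t * (bigLevel Q.Sy Q.𝔪 (Q.primeData hq hqM hsq hcong) (Q.hyp hp3) (1 + g)).D i =
      (bigLevel Q.Sy Q.𝔪 (Q.primeData hq hqM hsq hcong) (Q.hyp hp3) (1 + g)).D i * twP t)
  (θQ : ↥(heckeAlgebra N'' 2 (↑SQ : Set ℕ)) →+* P.k)

/-- helper11's `G2.tw₁` at `Q` (= helper54's `FlatGroups.tw₁Q`) -/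
abbrev tw₁Q :=
  G2.tw₁ Q.Sy Q.𝔪 (Q.primeData hq hqM hsq hcong) (Q.hyp hp3) 1 g
    (fun _ : Fin 1 => cq) (TWSet.hc_one (g := g) (eOf_eq (n + 1) eq) hcq) (fun _ => hcq1) twP hD

/-- helper11's `G2.twχ` at `Q` (= helper54's `FlatGroups.twχQ`) -/
abbrev twχQ :=
  G2.twχ Q.Sy Q.𝔪 (Q.primeData hq hqM hsq hcong) (Q.hyp hp3) 1 g
    (fun _ : Fin 1 => cq) (TWSet.hc_one (g := g) (eOf_eq (n + 1) eq) hcq) (fun _ => hcq1) twP hD

/-- helper11's `G2.T` at `Q` (= helper54's `FlatGroups.TR`) -/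
abbrev TR : Type :=
  G2.T Q.Sy Q.𝔪 (Q.primeData hq hqM hsq hcong) (Q.hyp hp3) 1 g
    (fun _ : Fin 1 => cq) (TWSet.hc_one (g := g) (eOf_eq (n + 1) eq) hcq) (fun _ => hcq1) twP hD θQ

/-- helper11's `G2.a₁` at `Q` (= helper54's `FlatGroups.a₁R`) -/
abbrev a₁R :=
  G2.a₁ Q.Sy Q.𝔪 (Q.primeData hq hqM hsq hcong) (Q.hyp hp3) 1 g
    (fun _ : Fin 1 => cq) (TWSet.hc_one (g := g) (eOf_eq (n + 1) eq) hcq) (fun _ => hcq1) twP hD θQ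

/-- helper11's `G2.a₂` at `Q` (= helper54's `FlatGroups.a₂R`) -/
abbrev a₂R :=
  G2.a₂ Q.Sy Q.𝔪 (Q.primeData hq hqM hsq hcong) (Q.hyp hp3) 1 g
    (fun _ : Fin 1 => cq) (TWSet.hc_one (g := g) (eOf_eq (n + 1) eq) hcq) (fun _ => hcq1) twP hD θQ

/-- `2` is a nonzerodivisor of `AlgebraicClosure (Frac O)` -/
theorem two_mul_eq_zero_algClosure (c : AlgebraicClosure (FractionRing P.O))
    (hc : (2 : AlgebraicClosure (FractionRing P.O)) * c = 0) : c = 0 := by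
  rcases mul_eq_zero.mp hc with h2 | h
  · exact absurd h2 two_ne_zero
  · exact h

/-- **the binder `h1` of `FlatGroups.groupsOn_of_twP_aux` / `LowerFill.groupsOn_of_parts`,
VERBATIM**, from helper49's `G4H1.h1_G2`. -/
theorem h1_twR
    (hpS : p ∈ SQ) (hNS : ∀ ℓ : ℕ, ℓ.Prime → ℓ ∣ N'' → ℓ ∈ SQ)
    (hSN : ∀ ℓ : ℕ, ℓ.Prime → ℓ ∣ Q.N → ℓ ∈ SQ)
    (dℓ : PrimesOff (↑SQ : Set ℕ) → Gamma0 Q.N)
    (hdℓ : ∀ (l : PrimesOff (↑SQ : Set ℕ)) (u : (ZMod Q.N)ˣ),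
      (u : ZMod Q.N) = ((l.1 : ℕ) : ZMod Q.N) →
        chiΓ (Theta (Δs p (eOf g (n + 1) eq)) (Q.primeData hq hqM hsq hcong).psi (1 + g))
            (dℓ l) ^ 2 *
          Theta (Δs p (eOf g (n + 1) eq)) (Q.primeData hq hqM hsq hcong).psi (1 + g) u = 1)
    (hnd : ∀ l : PrimesOff (↑SQ : Set ℕ), ¬ (l.1 : ℕ) ∣ Q.N)
    (hι : ∀ (l : PrimesOff (↑SQ : Set ℕ))
        (x : (bigLevel Q.Sy Q.𝔪 (Q.primeData hq hqM hsq hcong) (Q.hyp hp3) (1 + g)).M),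
      (bigReal Q.Sy Q.𝔪 (Q.primeData hq hqM hsq hcong) (Q.hyp hp3) (1 + g)).ι
          (twP (formsGenS N'' (↑SQ : Set ℕ) l) x) =
        diaH (Theta (Δs p (eOf g (n + 1) eq)) (Q.primeData hq hqM hsq hcong).psi (1 + g)) P.O
          (dℓ l)
          (TH (Theta (Δs p (eOf g (n + 1) eq)) (Q.primeData hq hqM hsq hcong).psi (1 + g)) P.O
            (hnd l)
            ((bigReal Q.Sy Q.𝔪 (Q.primeData hq hqM hsq hcong) (Q.hyp hp3) (1 + g)).ι x)))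
    (hsym : ∀ l : PrimesOff (↑SQ : Set ℕ), ∃ i : Q.Sy.ι₁, Q.Sy.ℓ i = (l.1 : ℕ) ∧
      θQ (formsGenS N'' (↑SQ : Set ℕ) l) = Q.lamTop (MvPolynomial.X (Sum.inl i)))
    (hfrobQ : ∀ (ℓ : ℕ) (hℓ : ℓ.Prime) (hℓN : ¬ ℓ ∣ N'') (hℓS : ℓ ∉ (↑SQ : Set ℕ))
      (Pl : ValuationSubring Qb), Pl.LiesOverPrime ℓ → ∀ σ : GQ, Pl.IsFrobeniusAt σ ℓ →
        LinearMap.charpoly (P.rhobar.ρ σ) =
          X ^ 2 - C (θQ (heckeAlgebra.T hℓ hℓN hℓS)) * X + C ((ℓ : ℕ) : P.k))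
    [Fact (LocHyp P.O θQ (prodTw P.O (tw₁Q Q hq hqM hsq hcong hp3 hcq hcq1 twP hD)
      (twχQ Q hq hqM hsq hcong hp3 hcq hcq1 twP hD)))]
    [Module.Finite P.O ((twR Q hq hqM hsq hcong hp3 hcq hcq1).L1.M ×
      (twR Q hq hqM hsq hcong hp3 hcq hcq1).Lχ.M)]
    [Module.Free P.O ((twR Q hq hqM hsq hcong hp3 hcq hcq1).L1.M ×
      (twR Q hq hqM hsq hcong hp3 hcq hcq1).Lχ.M)]
    [Nontrivial ((twR Q hq hqM hsq hcong hp3 hcq hcq1).L1.M ×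
      (twR Q hq hqM hsq hcong hp3 hcq hcq1).Lχ.M)]
    (ρQ : GaloisRepAdic (TR Q hq hqM hsq hcong hp3 hcq hcq1 twP hD θQ))
    (hρ : ∀ (ℓ : ℕ) (hℓ : ℓ.Prime) (hℓN : ¬ ℓ ∣ N'') (hℓS : ℓ ∉ (↑SQ : Set ℕ))
        (Pl : ValuationSubring Qb), Pl.LiesOverPrime ℓ → ∀ σ : GQ, Pl.IsFrobeniusAt σ ℓ →
          LinearMap.charpoly (ρQ.ρ σ) =
            X ^ 2 - C (chiT P.O θQ (prodTw P.O (tw₁Q Q hq hqM hsq hcong hp3 hcq hcq1 twP hD)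
                (twχQ Q hq hqM hsq hcong hp3 hcq hcq1 twP hD)) (heckeAlgebra.T hℓ hℓN hℓS)) * X
              + C ((ℓ : TR Q hq hqM hsq hcong hp3 hcq hcq1 twP hD θQ))) :
    ∀ (i : Fin g) (Pl : ValuationSubring Qb) (hPl : Pl.LiesOverPrime (Q.qv (Fin.rev i)))
      (σ : GQ) (hσ : σ ∈ Pl.inertiaSubgroupIn ℚ)
      (Bas : Module.Basis (Fin 2) (TR Q hq hqM hsq hcong hp3 hcq hcq1 twP hD θQ) ρQ.V)
      (χ : Fin 2 → Pl.decompositionSubgroup ℚ →*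
        (TR Q hq hqM hsq hcong hp3 hcq hcq1 twP hD θQ)ˣ),
      (∀ (j : Fin 2) (τ : Pl.decompositionSubgroup ℚ),
        ρQ.ρ (τ : GQ) (Bas j) =
          (χ j τ : TR Q hq hqM hsq hcong hp3 hcq hcq1 twP hD θQ) • Bas j) →
      ∀ θ : TR Q hq hqM hsq hcong hp3 hcq hcq1 twP hD θQ →ₐ[P.O]
          AlgebraicClosure (FractionRing P.O),
        (G4.Occ₁ (twR Q hq hqM hsq hcong hp3 hcq hcq1).L1
            (a₁R Q hq hqM hsq hcong hp3 hcq hcq1 twP hD θQ) i θ ∨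
          G4.Occ₁ (twR Q hq hqM hsq hcong hp3 hcq hcq1).Lχ
            (a₂R Q hq hqM hsq hcong hp3 hcq hcq1 twP hD θQ) i θ) →
          θ (χ 0 ⟨σ, Fermat.Agent.GB.E2.TWDiag.inertia_le_decomposition Pl hσ⟩ :
            TR Q hq hqM hsq hcong hp3 hcq hcq1 twP hD θQ) = 1 := by
  intro i Pl hPl σ hσ Bas χ hχ θ hocc
  haveI : Algebra.IsIntegral P.O (TR Q hq hqM hsq hcong hp3 hcq hcq1 twP hD θQ) :=
    Algebra.IsIntegral.of_finite P.O _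
  have hker𝔪 : ∀ t : Q.Sy.𝕋 P.O, t ∈ Q.𝔪 ↔ Q.lamTop t = 0 := fun t => by
    rw [Q.h𝔪]
    exact RingHom.mem_ker
  have hfrob : ∀ l : PrimesOff (↑SQ : Set ℕ),
      ∀ P' : ValuationSubring Qb, P'.LiesOverPrime (l.1 : ℕ) → ∀ σ' : GQ,
        P'.IsFrobeniusAt σ' (l.1 : ℕ) →
        ∃ d₀ : P.k, LinearMap.charpoly (P.rhobar.ρ σ')
          = X ^ 2 - C (θQ (formsGenS N'' (↑SQ : Set ℕ) l)) * X + C d₀ := by
    intro l P' hP' σ' hσ'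
    have hlN'' : ¬ (l.1 : ℕ) ∣ N'' := fun h => l.2 (Finset.mem_coe.mpr (hNS _ l.1.2 h))
    refine ⟨(((l.1 : ℕ) : ℕ) : P.k), ?_⟩
    rw [formsGenS_of_not_dvd N'' (↑SQ : Set ℕ) l hlN'']
    exact hfrobQ (l.1 : ℕ) l.1.2 hlN'' l.2 P' hP' σ' hσ'
  have hP : Pl.LiesOverPrime (rOf Q.qv q (g - 1 - (i : ℕ))) := by
    rw [Fermat.Agent.GB.B9.ProviderFlat.G4TW.rOf_rev Q i]
    exact hPl
  exact G4H1.h1_G2 Q.Sy Q.𝔪 (Q.primeData hq hqM hsq hcong) (Q.hyp hp3) 1 g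
    (fun _ : Fin 1 => cq) (TWSet.hc_one (g := g) (eOf_eq (n + 1) eq) hcq) (fun _ => hcq1)
    twP hD θQ (G7.TWSetG7.squarefree_N Q hsq) (Nat.le_of_eq (Nat.add_comm 1 g)) i ρQ hpS hNS hSN
    hρ dℓ hdℓ hnd hι Q.lamTop hker𝔪 hsym P.rhobar P.habs hfrob
    (two_mul_eq_zero_algClosure (P := P))
    (G4B5.rOf_rev_ne Q i) Pl hP Bas χ hχ σ hσ
    (Fermat.Agent.GB.E2.TWDiag.inertia_le_decomposition Pl hσ) θ hocc 0

/-- **the binder `hnu` of `FlatGroups.groupsOn_of_twP_aux`** (at `ℓs (Fin.last s) := q`), from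
helper35's `G6.TWSetG6.hnu_tw1F`. -/
theorem hnu_twR (hcq0 : cq ≠ 1) (hqp : q ≠ p)
    (hN'' : N'' = Q.N * ∏ i : Fin (1 + g), rOf Q.qv q i)
    (hpS : p ∈ SQ) (hNS : ∀ ℓ : ℕ, ℓ.Prime → ℓ ∣ N'' → ℓ ∈ SQ)
    (hT : ∀ (ℓ : ℕ) (hℓ : ℓ.Prime) (hℓN' : ¬ ℓ ∣ N'') (hℓS : ℓ ∉ (↑SQ : Set ℕ))
        (hℓN : ¬ ℓ ∣ Q.N),
      haveI : Fact ℓ.Prime := ⟨hℓ⟩
      ∃ d : Gamma0 Q.N,
        (∀ u : (ZMod Q.N)ˣ, (u : ZMod Q.N) = ((ℓ : ℕ) : ZMod Q.N) →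
          chiΓ (Theta (Δs p (eOf g (n + 1) eq)) (Q.primeData hq hqM hsq hcong).psi (1 + g)) d ^ 2 *
            Theta (Δs p (eOf g (n + 1) eq)) (Q.primeData hq hqM hsq hcong).psi (1 + g) u = 1) ∧
        ∀ x : (bigLevel Q.Sy Q.𝔪 (Q.primeData hq hqM hsq hcong) (Q.hyp hp3) (1 + g)).M,
          (bigReal Q.Sy Q.𝔪 (Q.primeData hq hqM hsq hcong) (Q.hyp hp3) (1 + g)).ι
              (twP (heckeAlgebra.T hℓ hℓN' hℓS) x)
            = diaH (Theta (Δs p (eOf g (n + 1) eq)) (Q.primeData hq hqM hsq hcong).psi (1 + g))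
                P.O d
                (TH (Theta (Δs p (eOf g (n + 1) eq)) (Q.primeData hq hqM hsq hcong).psi (1 + g))
                  P.O hℓN
                  ((bigReal Q.Sy Q.𝔪 (Q.primeData hq hqM hsq hcong) (Q.hyp hp3) (1 + g)).ι x)))
    [Fact (LocHyp P.O θQ (prodTw P.O (tw₁Q Q hq hqM hsq hcong hp3 hcq hcq1 twP hD)
      (twχQ Q hq hqM hsq hcong hp3 hcq hcq1 twP hD)))]
    [Module.Finite P.O ((twR Q hq hqM hsq hcong hp3 hcq hcq1).L1.M ×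
      (twR Q hq hqM hsq hcong hp3 hcq hcq1).Lχ.M)]
    [Module.Free P.O ((twR Q hq hqM hsq hcong hp3 hcq hcq1).L1.M ×
      (twR Q hq hqM hsq hcong hp3 hcq hcq1).Lχ.M)]
    [Nontrivial ((twR Q hq hqM hsq hcong hp3 hcq hcq1).L1.M ×
      (twR Q hq hqM hsq hcong hp3 hcq hcq1).Lχ.M)]
    [IsReduced (TR Q hq hqM hsq hcong hp3 hcq hcq1 twP hD θQ)]
    {𝒟 : ∀ ⦃B : Type⦄ [CommRing B] [IsLocalRing B] [Algebra P.O B], GaloisRepAdic B → Prop}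
    {DQ : GaloisRep.DeformationRingData P.O P.rhobar 𝒟}
    (ψ : DQ.R →ₐ[P.O] TR Q hq hqM hsq hcong hp3 hcq hcq1 twP hD θQ)
    (hψl : IsLocalHom (ψ : DQ.R →+* TR Q hq hqM hsq hcong hp3 hcq hcq1 twP hD θQ))
    (ρQ : GaloisRepAdic (TR Q hq hqM hsq hcong hp3 hcq hcq1 twP hD θQ))
    (hequiv : (DQ.ρ.baseChangeAlong
      (ψ : DQ.R →+* TR Q hq hqM hsq hcong hp3 hcq hcq1 twP hD θQ) hψl).IsEquiv ρQ)
    (hρ : ∀ (ℓ : ℕ) (hℓ : ℓ.Prime) (hℓN : ¬ ℓ ∣ N'') (hℓS : ℓ ∉ (↑SQ : Set ℕ))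
        (Pl : ValuationSubring Qb), Pl.LiesOverPrime ℓ → ∀ σ : GQ, Pl.IsFrobeniusAt σ ℓ →
          LinearMap.charpoly (ρQ.ρ σ) =
            X ^ 2 - C (chiT P.O θQ (prodTw P.O (tw₁Q Q hq hqM hsq hcong hp3 hcq hcq1 twP hD)
                (twχQ Q hq hqM hsq hcong hp3 hcq hcq1 twP hD)) (heckeAlgebra.T hℓ hℓN hℓS)) * X
              + C ((ℓ : TR Q hq hqM hsq hcong hp3 hcq hcq1 twP hD θQ)))
    (hres : ρQ.residual.IsEquiv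
      (P.rhobar.baseChangeAlong
        (ResidueField.map (algebraMap P.O (TR Q hq hqM hsq hcong hp3 hcq hcq1 twP hD θQ)))))
    (hunrbar : P.rhobar.IsUnramifiedAt q) :
    haveI : Fact q.Prime := ⟨hq⟩
    ∀ φ τ₀ : GQ, KummerTests q p φ τ₀ →
      ∀ i : Fermat.Agent.GB.Glue.Points.Idx P.O
          (TchiK (a₂R Q hq hqM hsq hcong hp3 hcq hcq1 twP hD θQ)),
        ((matT ψ τ₀).map (phiK (a₂R Q hq hqM hsq hcong hp3 hcq hcq1 twP hD θQ) i) - 1) ^ 2 = 0 →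
          (matT ψ τ₀).map (phiK (a₂R Q hq hqM hsq hcong hp3 hcq hcq1 twP hD θQ) i) = 1 :=
  G6.TWSetG6.hnu_tw1F Q hq hqM hsq hcong hp3 hcq hcq1 hcq0 SQ hpS hqp hN''
    (fun ℓ hℓ hd => Finset.mem_coe.mpr (hNS ℓ hℓ hd))
    ψ hψl ρQ hequiv hres hunrbar
    (chiT P.O θQ (prodTw P.O (tw₁Q Q hq hqM hsq hcong hp3 hcq hcq1 twP hD)
      (twχQ Q hq hqM hsq hcong hp3 hcq hcq1 twP hD)))
    (a₂R Q hq hqM hsq hcong hp3 hcq hcq1 twP hD θQ)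
    (twχQ Q hq hqM hsq hcong hp3 hcq hcq1 twP hD)
    (G2.a₂_chi Q.Sy Q.𝔪 (Q.primeData hq hqM hsq hcong) (Q.hyp hp3) 1 g
      (fun _ : Fin 1 => cq) (TWSet.hc_one (g := g) (eOf_eq (n + 1) eq) hcq) (fun _ => hcq1)
      twP hD θQ)
    twP
    (G2.twχ_fmk Q.Sy Q.𝔪 (Q.primeData hq hqM hsq hcong) (Q.hyp hp3) 1 g
      (fun _ : Fin 1 => cq) (TWSet.hc_one (g := g) (eOf_eq (n + 1) eq) hcq) (fun _ => hcq1)
      twP hD)
    hT hρ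

end

end Fermat.Agent.GB.B9.ProviderFlat.FlatFill
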