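/-
GATE-B / ProviderFlat **G2Red** (helper67, claim GB-G2-HRED; request helper54 board 6980): the
binder `hred : ∀ t, a₁ t * a₁ t = 0 → a₁ t = 0` of `G7One.he_tw1F` / `Kill1Var.he_plug_var` (and the
`a₂`-twin for G6 `hnu`) for helper11's `G2.a₁`, `G2.a₂`.

`T = TQ O θ (prodTw tw₁ tw₂)` acts on `M₁` through `actL`, whose image is the single-factor image
ring `TQ O θ tw₁` (`actL (mkQ a) = twO tw₁ a = act (mkQ₁ a)`); that ring is reduced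
(`TQReduced.isReduced_TQ`: generated over `O` by the image of the reduced `ℤ`-finite Hecke algebra)
and acts faithfully, so an element of `T` whose square kills `M₁` kills `M₁`.

* `actL_eq_zero_of_sq`, `actR_eq_zero_of_sq` : generic (`ImageRing` + `TQFields` + `TQReduced`);
* `actL_eq_zero_of_sq_hecke`, `actR_eq_zero_of_sq_hecke` : `A = heckeAlgebra N 2 ↑S`, primes of `N` in `S`;
* **`hred₁`**, **`hred₂`** : at `G2.a₁`, `G2.a₂` (binders `hlocP hd hS` of `G2.isReduced_T`).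
-/
import Mathlib
import Fermat.Agent.GB.B9.ProviderFlat.G2

set_option autoImplicit false
set_option linter.unusedSectionVars false
set_option linter.unusedVariables false
set_option linter.style.haveILetI false

noncomputable section

open scoped MatrixGroups
open CongruenceSubgroup ModularCurve.Period CuspForm

namespace Fermat.Agent.GB.B9.ProviderFlat.G2Red

open IsLocalRing Fermat.Agent.GM.B Fermat.Agent.GB.B3 Fermat.Agent.GB.B3.EisGamma0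
  Fermat.Agent.GB.B3.HeckeActH Fermat.Agent.GB.B3.RealLevel Fermat.Agent.GB.B3.Tower
  Fermat.Agent.GB.B3.TWChars Fermat.Agent.GB.B3.FinalTW Fermat.Agent.GB.B3.Plug
  Fermat.Agent.GB.B3.TWLevel Fermat.Agent.GB.B3.GamH Fermat.Agent.GB.B3.Boundary
  Fermat.Agent.GB.B3.ChiLevelMulti Fermat.Agent.GB.B3.Final
  Fermat.Agent.GJ.J2.Lat
  Fermat.Agent.GB.B4.Twist.Asm Fermat.Agent.GB.B4.Twist.TwFinal Fermat.Agent.GB.B4.Twist.TwInst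
  Fermat.Agent.GB.B4.Datum.ImageRing Fermat.Agent.GB.B4.Datum.TQFields
  Fermat.Agent.GB.B4.Datum.TQCompat Fermat.Agent.GB.B4.Datum.TwRestrictPlug
  Fermat.Agent.GB.B4.Datum.TQReduced Fermat.Agent.GB.B9.ProviderFlat.G2

/-! ### generic form -/

section Abstract

variable {𝒪 : Type} [CommRing 𝒪] [IsLocalRing 𝒪] [IsNoetherianRing 𝒪] [IsDomain 𝒪]
  [IsPrincipalIdealRing 𝒪] [CharZero 𝒪]
  {A : Type} [CommRing A] [IsReduced A] [Module.Finite ℤ A]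
  {M₁ M₂ : Type} [AddCommGroup M₁] [Module 𝒪 M₁] [AddCommGroup M₂] [Module 𝒪 M₂]
  (θ : A →+* ResidueField 𝒪) (tw₁ : A →+* Module.End 𝒪 M₁) (tw₂ : A →+* Module.End 𝒪 M₂)

/-- the image of `T_Q` in `End M₁` is reduced -/
theorem actL_eq_zero_of_sq [Module.Finite 𝒪 M₁] [Module.Free 𝒪 M₁] [Nontrivial M₁]
    [Fact (LocHyp 𝒪 θ tw₁)] (t : TQ 𝒪 θ (prodTw 𝒪 tw₁ tw₂))
    (h : actL 𝒪 θ tw₁ tw₂ t * actL 𝒪 θ tw₁ tw₂ t = 0) : actL 𝒪 θ tw₁ tw₂ t = 0 := by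
  obtain ⟨a, rfl⟩ := mkQ_surjective 𝒪 θ (prodTw 𝒪 tw₁ tw₂) t
  rw [actL_mkQ] at h ⊢
  haveI : IsReduced (TQ 𝒪 θ tw₁) := isReduced_TQ θ tw₁
  have h1 : mkQ 𝒪 θ tw₁ a * mkQ 𝒪 θ tw₁ a = 0 := by
    apply act_injective 𝒪 θ tw₁
    rw [map_mul, act_mkQ, map_zero]
    exact h
  have h2 : mkQ 𝒪 θ tw₁ a = 0 := by
    have hn : IsNilpotent (mkQ 𝒪 θ tw₁ a) := ⟨2, by rw [pow_two]; exact h1⟩
    exact hn.eq_zero
  rw [← act_mkQ 𝒪 θ tw₁ a, h2, map_zero]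

/-- the image of `T_Q` in `End M₂` is reduced -/
theorem actR_eq_zero_of_sq [Module.Finite 𝒪 M₂] [Module.Free 𝒪 M₂] [Nontrivial M₂]
    [Fact (LocHyp 𝒪 θ tw₂)] (t : TQ 𝒪 θ (prodTw 𝒪 tw₁ tw₂))
    (h : actR 𝒪 θ tw₁ tw₂ t * actR 𝒪 θ tw₁ tw₂ t = 0) : actR 𝒪 θ tw₁ tw₂ t = 0 := by
  obtain ⟨a, rfl⟩ := mkQ_surjective 𝒪 θ (prodTw 𝒪 tw₁ tw₂) t
  rw [actR_mkQ] at h ⊢
  haveI : IsReduced (TQ 𝒪 θ tw₂) := isReduced_TQ θ tw₂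
  have h1 : mkQ 𝒪 θ tw₂ a * mkQ 𝒪 θ tw₂ a = 0 := by
    apply act_injective 𝒪 θ tw₂
    rw [map_mul, act_mkQ, map_zero]
    exact h
  have h2 : mkQ 𝒪 θ tw₂ a = 0 := by
    have hn : IsNilpotent (mkQ 𝒪 θ tw₂ a) := ⟨2, by rw [pow_two]; exact h1⟩
    exact hn.eq_zero
  rw [← act_mkQ 𝒪 θ tw₂ a, h2, map_zero]

end Abstract

section Hecke

variable {𝒪 : Type} [CommRing 𝒪] [IsLocalRing 𝒪] [IsNoetherianRing 𝒪] [IsDomain 𝒪]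
  [IsPrincipalIdealRing 𝒪] [CharZero 𝒪]
  {N : ℕ} [NeZero N] {S : Finset ℕ}
  {M₁ M₂ : Type} [AddCommGroup M₁] [Module 𝒪 M₁] [AddCommGroup M₂] [Module 𝒪 M₂]
  (θ : heckeAlgebra N 2 (↑S : Set ℕ) →+* ResidueField 𝒪)
  (tw₁ : heckeAlgebra N 2 (↑S : Set ℕ) →+* Module.End 𝒪 M₁)
  (tw₂ : heckeAlgebra N 2 (↑S : Set ℕ) →+* Module.End 𝒪 M₂)

theorem actL_eq_zero_of_sq_hecke [Module.Finite 𝒪 M₁] [Module.Free 𝒪 M₁] [Nontrivial M₁]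
    [Fact (LocHyp 𝒪 θ tw₁)] (hNS : ∀ q : ℕ, q.Prime → q ∣ N → q ∈ S)
    (t : TQ 𝒪 θ (prodTw 𝒪 tw₁ tw₂))
    (h : actL 𝒪 θ tw₁ tw₂ t * actL 𝒪 θ tw₁ tw₂ t = 0) : actL 𝒪 θ tw₁ tw₂ t = 0 := by
  have : IsReduced (heckeAlgebra N 2 (↑S : Set ℕ)) :=
    Fermat.Agent.GS.Pet.isReduced_heckeAlgebra N 2 (↑S : Set ℕ) (fun q hq hqN => hNS q hq hqN)
  exact actL_eq_zero_of_sq θ tw₁ tw₂ t h

theorem actR_eq_zero_of_sq_hecke [Module.Finite 𝒪 M₂] [Module.Free 𝒪 M₂] [Nontrivial M₂]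
    [Fact (LocHyp 𝒪 θ tw₂)] (hNS : ∀ q : ℕ, q.Prime → q ∣ N → q ∈ S)
    (t : TQ 𝒪 θ (prodTw 𝒪 tw₁ tw₂))
    (h : actR 𝒪 θ tw₁ tw₂ t * actR 𝒪 θ tw₁ tw₂ t = 0) : actR 𝒪 θ tw₁ tw₂ t = 0 := by
  have : IsReduced (heckeAlgebra N 2 (↑S : Set ℕ)) :=
    Fermat.Agent.GS.Pet.isReduced_heckeAlgebra N 2 (↑S : Set ℕ) (fun q hq hqN => hNS q hq hqN)
  exact actR_eq_zero_of_sq θ tw₁ tw₂ t h

end Hecke

/-! ### at `G2.a₁`, `G2.a₂` -/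

section Fields

variable {N p : ℕ} [NeZero N] [hpF : Fact p.Prime] {K : ℕ} {r e N' : ℕ → ℕ}
variable (Sy : Symbols N)
variable {O : Type} [CommRing O] [IsDomain O] [IsPrincipalIdealRing O] [IsLocalRing O]
  [IsAdicComplete (IsLocalRing.maximalIdeal O) O] [Module.IsTorsionFree ℤ O] [CharZero O]
variable (𝔪 : Ideal (Sy.𝕋 O)) [𝔪.IsMaximal]
variable (H : PrimeData N p K r e N') {ϖ : O} {s0 : Sy.ι₁} (h : Plug.Hyp Sy 𝔪 p ϖ s0)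
variable (s k : ℕ) (c : Fin s → O) (hc : ∀ v : Fin s, c v ^ p ^ e (s + k - 1 - v) = 1)
  (hc1 : ∀ v, (1 : O) - c v ∈ Ideal.span {ϖ})
variable {N'' : ℕ} [NeZero N''] {S : Finset ℕ}
  (twP : ↥(heckeAlgebra N'' 2 (↑S : Set ℕ)) →+* Module.End O (bigLevel Sy 𝔪 H h (s + k)).M)
  (hD : ∀ t i, twP t * (bigLevel Sy 𝔪 H h (s + k)).D i =
    (bigLevel Sy 𝔪 H h (s + k)).D i * twP t)
  (θA : ↥(heckeAlgebra N'' 2 (↑S : Set ℕ)) →+* IsLocalRing.ResidueField O)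

theorem nontrivial_Lχ (hd : 0 < (bigLevel Sy 𝔪 H h (s + k)).d) :
    Nontrivial (tw Sy 𝔪 H h s k c hc hc1).Lχ.M :=
  nontrivial_of_pos (tw Sy 𝔪 H h s k c hc hc1).Lχ hd
    (fun i => Nfun_pos hpF.out e (s + k) (Fin.natAdd s i))

/-- (LOC) for the action on `M¹_Q` alone -/
theorem locHyp_tw₁ (hlocP : LocHyp O θA twP) :
    LocHyp O θA (tw₁ Sy 𝔪 H h s k c hc hc1 twP hD) :=
  haveI := finite_bigLevel Sy 𝔪 H h (s + k)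
  locHyp_quotTw (bigLevel Sy 𝔪 H h (s + k)) twP hD θA (fun _ => 1) hlocP

/-- (LOC) for the action on `M^χ_Q` alone -/
theorem locHyp_twχ (hlocP : LocHyp O θA twP) :
    LocHyp O θA (twχ Sy 𝔪 H h s k c hc hc1 twP hD) :=
  haveI := finite_bigLevel Sy 𝔪 H h (s + k)
  locHyp_quotTw (bigLevel Sy 𝔪 H h (s + k)) twP hD θA c hlocP

/-- **`hred` for `G2.a₁`** : the binder of `G7One.he_tw1F` -/
theorem hred₁ (hlocP : LocHyp O θA twP) (hd : 0 < (bigLevel Sy 𝔪 H h (s + k)).d)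
    (hS : ∀ q : ℕ, q.Prime → q ∣ N'' → q ∈ S)
    (t : T Sy 𝔪 H h s k c hc hc1 twP hD θA)
    (ht : a₁ Sy 𝔪 H h s k c hc hc1 twP hD θA t * a₁ Sy 𝔪 H h s k c hc hc1 twP hD θA t = 0) :
    a₁ Sy 𝔪 H h s k c hc hc1 twP hD θA t = 0 :=
  haveI : Fact (LocHyp O θA (tw₁ Sy 𝔪 H h s k c hc hc1 twP hD)) :=
    ⟨locHyp_tw₁ Sy 𝔪 H h s k c hc hc1 twP hD θA hlocP⟩
  haveI := finite_L1 Sy 𝔪 H h s k c hc hc1
  haveI := free_L1 Sy 𝔪 H h s k c hc hc1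
  haveI := nontrivial_L1 Sy 𝔪 H h s k c hc hc1 hd
  actL_eq_zero_of_sq_hecke θA (tw₁ Sy 𝔪 H h s k c hc hc1 twP hD)
    (twχ Sy 𝔪 H h s k c hc hc1 twP hD) hS t ht

/-- **`hred` for `G2.a₂`** : the binder of G6 `hnu` -/
theorem hred₂ (hlocP : LocHyp O θA twP) (hd : 0 < (bigLevel Sy 𝔪 H h (s + k)).d)
    (hS : ∀ q : ℕ, q.Prime → q ∣ N'' → q ∈ S)
    (t : T Sy 𝔪 H h s k c hc hc1 twP hD θA)
    (ht : a₂ Sy 𝔪 H h s k c hc hc1 twP hD θA t * a₂ Sy 𝔪 H h s k c hc hc1 twP hD θA t = 0) :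
    a₂ Sy 𝔪 H h s k c hc hc1 twP hD θA t = 0 :=
  haveI : Fact (LocHyp O θA (twχ Sy 𝔪 H h s k c hc hc1 twP hD)) :=
    ⟨locHyp_twχ Sy 𝔪 H h s k c hc hc1 twP hD θA hlocP⟩
  haveI := finite_Lχ Sy 𝔪 H h s k c hc hc1
  haveI := free_Lχ Sy 𝔪 H h s k c hc hc1
  haveI := nontrivial_Lχ Sy 𝔪 H h s k c hc hc1 hd
  actR_eq_zero_of_sq_hecke θA (tw₁ Sy 𝔪 H h s k c hc hc1 twP hD)
    (twχ Sy 𝔪 H h s k c hc hc1 twP hD) hS t ht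

end Fields

end Fermat.Agent.GB.B9.ProviderFlat.G2Red
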