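/-
GATE-B / B9 PROVIDER, group G3, **the LEVEL ARITHMETIC at a Taylor–Wiles set** (helper32; shared by
the flat and the `p`-new branch).

The forms level of the twisted Hecke algebra of G2 (`TwInst.exists_tw_primeData` at helper51's
`Q.tw1F`, stage `1 + g`) is a VARIABLE `N''` with the equation

  `hN'' : N'' = Q.N * ∏ i : Fin (1 + g), rOf Q.qv q i`   (`= M * (∏ qv) * ((∏ qv) * q)`).

This file proves, for such an `N''`, the arithmetic binders of helper59's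
`ProviderFlat.G3Pkg.exists_psi_pkg` and of `ProviderNew.G3Pkg.exists_psi_pkg_strict`:

* `prod_rOf`      : `∏ i : Fin (1 + g), rOf qv q i = (∏ i, qv i) * q`;
* `hNprimes_Q`    : every prime of `N''` divides `M` or is a Taylor–Wiles prime;
* `hexact_Q`      : every prime `≠ q` of `M` exactly divides `N''` (`q₀ := q`);
* `not_dvd_flat`  : `¬ p ∣ M → ¬ p ∣ N''` (the binder `hpN`, flat branch);
* `N0new`, `N0new_mul_p`, `exactDvd_new`, `hside_new` : the `p`-new branch — `N'' := N0new * p`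
  LITERALLY, `p ∥ N0new * p`, and the side condition at `p = 3` (void for `5 ≤ p`).
-/
import Fermat.Agent.GB.B9.ProviderFlat.G1One
import Fermat.Agent.GK.AL.WAut

set_option autoImplicit false
set_option linter.unusedSectionVars false
set_option linter.unusedVariables false
set_option linter.style.haveILetI false

namespace Fermat.Agent.GB.B9.ProviderFlat.G3Level

open Fermat.Agent.GB.Setup.SetupPkg Fermat.Agent.GB.B9.ProviderFlat.G1
  Fermat.Agent.GB.B9.ProviderFlat.H1 Fermat.Agent.GK.AL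

/-! ### pure arithmetic -/

section Arith

variable {g : ℕ}

/-- the product of the `1 + g` step primes: the Taylor–Wiles primes, then `q`. -/
theorem prod_rOf (qv : Fin g → ℕ) (q : ℕ) :
    ∏ i : Fin (1 + g), rOf qv q i = (∏ i, qv i) * q := by
  rw [Fin.prod_univ_eq_prod_range (fun i => rOf qv q i) (1 + g), Nat.add_comm 1 g,
    Finset.prod_range_succ, rOf_eq,
    ← Fin.prod_univ_eq_prod_range (fun i => rOf qv q i) g]
  congr 1
  exact Finset.prod_congr rfl fun i _ => rOf_fin qv q i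

/-- a prime dividing a product of primes is one of them -/
theorem eq_of_prime_dvd_prod {qv : Fin g → ℕ} (hqv : ∀ i, (qv i).Prime) {ℓ : ℕ} (hℓ : ℓ.Prime)
    (h : ℓ ∣ ∏ i, qv i) : ∃ i, ℓ = qv i := by
  obtain ⟨i, -, hi⟩ := (Prime.dvd_finsetProd_iff hℓ.prime _).mp h
  exact ⟨i, (Nat.prime_dvd_prime_iff_eq hℓ (hqv i)).mp hi⟩

end Arith

variable {p : ℕ} [hpF : Fact p.Prime] {W : WeierstrassCurve ℤ}
  {hcard₁ : Nat.card (Submodule.torsionBy ℤ
    ((W.map (Int.castRingHom ℚ)).toAffine.baseChange (AlgebraicClosure ℚ)).Point p) = p ^ 2}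
  {hker : GaloisFactorsThroughFiniteLevel
    (WeierstrassCurve.Affine.Point.galoisRepModuleEnd (K := AlgebraicClosure ℚ) ℚ
      (W.map (Int.castRingHom ℚ)) p)}
  {M A : ℕ} {P : Pkg p W hcard₁ hker M A} {g n : ℕ} (Q : TWSet P g n)
  {q : ℕ} (hq : q.Prime) (hqM : q ∣ M) (hsq : Squarefree M)

/-- the forms level in expanded form -/
theorem level_eq {N'' : ℕ} (hN'' : N'' = Q.N * ∏ i : Fin (1 + g), rOf Q.qv q i) :
    N'' = M * ((∏ i, Q.qv i) * ((∏ i, Q.qv i) * q)) := by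
  rw [hN'', prod_rOf, TWSet.N, Nat.mul_assoc]

include hq hqM in
/-- **`hNprimes`** : every prime of the forms level divides `M` or is a Taylor–Wiles prime. -/
theorem hNprimes_Q {N'' : ℕ} (hN'' : N'' = Q.N * ∏ i : Fin (1 + g), rOf Q.qv q i) :
    ∀ ℓ : ℕ, ℓ.Prime → ℓ ∣ N'' → ℓ ∣ M ∨ ℓ ∈ Finset.univ.image Q.qv := by
  intro ℓ hℓ hdvd
  rw [level_eq Q hN''] at hdvd
  have hmem : ∀ i, ℓ = Q.qv i → ℓ ∈ Finset.univ.image Q.qv := fun i hi =>
    Finset.mem_image.mpr ⟨i, Finset.mem_univ _, hi.symm⟩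
  rcases (Nat.Prime.dvd_mul hℓ).mp hdvd with h | h
  · exact Or.inl h
  · rcases (Nat.Prime.dvd_mul hℓ).mp h with h | h
    · obtain ⟨i, hi⟩ := eq_of_prime_dvd_prod Q.prime hℓ h
      exact Or.inr (hmem i hi)
    · rcases (Nat.Prime.dvd_mul hℓ).mp h with h | h
      · obtain ⟨i, hi⟩ := eq_of_prime_dvd_prod Q.prime hℓ h
        exact Or.inr (hmem i hi)
      · exact Or.inl (((Nat.prime_dvd_prime_iff_eq hℓ hq).mp h) ▸ hqM)

include hq in
/-- a prime of `M` other than `q` does not divide the cofactor `(∏ qv) * ((∏ qv) * q)` -/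
theorem not_dvd_cofactor {ℓ : ℕ} (hℓ : ℓ.Prime) (hℓM : ℓ ∣ M) (hℓq : ℓ ≠ q) :
    ¬ ℓ ∣ (∏ i, Q.qv i) * ((∏ i, Q.qv i) * q) := by
  have h1 : ¬ ℓ ∣ ∏ i, Q.qv i := fun h => by
    obtain ⟨i, hi⟩ := eq_of_prime_dvd_prod Q.prime hℓ h
    exact (Q.good i).2.1 (hi ▸ hℓM)
  intro h
  rcases (Nat.Prime.dvd_mul hℓ).mp h with h | h
  · exact h1 h
  · rcases (Nat.Prime.dvd_mul hℓ).mp h with h | h
    · exact h1 h
    · exact hℓq ((Nat.prime_dvd_prime_iff_eq hℓ hq).mp h)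

include hq hsq in
/-- **`hexact`** (`q₀ := q`) : every prime `≠ q` of `M` exactly divides the forms level. -/
theorem hexact_Q {N'' : ℕ} (hN'' : N'' = Q.N * ∏ i : Fin (1 + g), rOf Q.qv q i) :
    ∀ ℓ : ℕ, ℓ.Prime → ℓ ∣ M → ℓ ≠ p → ℓ ≠ q → ℓ ∣ N'' ∧ ¬ ℓ ^ 2 ∣ N'' := by
  intro ℓ hℓ hℓM _ hℓq
  rw [level_eq Q hN'']
  refine ⟨Dvd.dvd.mul_right hℓM _, fun h2 => ?_⟩
  have hcop : Nat.Coprime (ℓ ^ 2) ((∏ i, Q.qv i) * ((∏ i, Q.qv i) * q)) :=
    Nat.Coprime.pow_left 2 ((Nat.Prime.coprime_iff_not_dvd hℓ).mpr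
      (not_dvd_cofactor Q hq hℓ hℓM hℓq))
  have h3 : ℓ ^ 2 ∣ M := hcop.dvd_of_dvd_mul_right h2
  exact Nat.squarefree_iff_prime_squarefree.mp hsq ℓ hℓ (by rwa [← pow_two])

include hq hqM in
/-- **`hpN`, flat branch** : `p ∤ M ⟹ p ∤ N''`. -/
theorem not_dvd_flat {N'' : ℕ} (hN'' : N'' = Q.N * ∏ i : Fin (1 + g), rOf Q.qv q i)
    (hpM : ¬ p ∣ M) : ¬ p ∣ N'' := by
  have hp : p.Prime := hpF.out
  intro h
  rcases hNprimes_Q Q hq hqM hN'' p hp h with h | h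
  · exact hpM h
  · obtain ⟨i, -, hi⟩ := Finset.mem_image.mp h
    exact (Q.good i).2.2 hi

/-! ### the `p`-new branch : `N'' := N0new * p` literally -/

/-- the prime-to-`p` part of the forms level, `p ∥ M` -/
def N0new (q : ℕ) : ℕ := (M / p) * (∏ i, Q.qv i) * ∏ i : Fin (1 + g), rOf Q.qv q i

/-- **`hN''` at `N'' := N0new * p`** -/
theorem N0new_mul_p (q : ℕ) (hpM : p ∣ M) :
    N0new Q q * p = Q.N * ∏ i : Fin (1 + g), rOf Q.qv q i := by
  unfold N0new TWSet.N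
  generalize (∏ i, Q.qv i) = a
  generalize (∏ i : Fin (1 + g), rOf Q.qv q i) = b
  obtain ⟨c, rfl⟩ := hpM
  rw [Nat.mul_div_cancel_left c (hpF.out.pos)]
  ring

include hq in
theorem N0new_ne_zero (hpM : p ∣ M) : N0new Q q ≠ 0 := by
  have hp : p.Prime := hpF.out
  unfold N0new
  rw [prod_rOf]
  have h1 : M / p ≠ 0 :=
    (Nat.div_pos (Nat.le_of_dvd (Nat.pos_of_ne_zero P.hM) hpM) hp.pos).ne'
  have h2 : (∏ i, Q.qv i) ≠ 0 := Finset.prod_ne_zero_iff.mpr fun i _ => (Q.prime i).ne_zero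
  exact Nat.mul_ne_zero (Nat.mul_ne_zero h1 h2) (Nat.mul_ne_zero h2 hq.ne_zero)

include hq hsq in
/-- `p ∤ N0new` for `p ∥ M`, `q ≠ p` -/
theorem not_dvd_N0new (hpM : p ∣ M) (hqp : q ≠ p) : ¬ p ∣ N0new Q q := by
  have hp : p.Prime := hpF.out
  unfold N0new
  rw [prod_rOf]
  have h0 : ¬ p ∣ M / p := fun h => by
    have h2 : p * p ∣ M := by
      rw [← Nat.div_mul_cancel hpM]
      exact Nat.mul_dvd_mul_right h p
    exact Nat.squarefree_iff_prime_squarefree.mp hsq p hp h2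
  have h1 : ¬ p ∣ ∏ i, Q.qv i := fun h => by
    obtain ⟨i, hi⟩ := eq_of_prime_dvd_prod Q.prime hp h
    exact (Q.good i).2.2 hi.symm
  intro h
  rcases (Nat.Prime.dvd_mul hp).mp h with h | h
  · rcases (Nat.Prime.dvd_mul hp).mp h with h | h
    · exact h0 h
    · exact h1 h
  · rcases (Nat.Prime.dvd_mul hp).mp h with h | h
    · exact h1 h
    · exact hqp ((Nat.prime_dvd_prime_iff_eq hp hq).mp h).symm

include hq hsq in
/-- **`h : ExactDvd p (N₀ * p)`** of `ProviderNew.G3Pkg.exists_psi_pkg_strict` at `N₀ := N0new` -/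
theorem exactDvd_new (hpM : p ∣ M) (hqp : q ≠ p) : ExactDvd p (N0new Q q * p) where
  prime := hpF.out
  dvd := Dvd.intro_left _ rfl
  not_sq := fun h => by
    have hp : p.Prime := hpF.out
    rw [pow_two] at h
    exact not_dvd_N0new Q hq hsq hpM hqp (Nat.dvd_of_mul_dvd_mul_right hp.pos h)

/-- **`hside`** of `ProviderNew.G3Pkg.exists_psi_pkg_strict` : void for `5 ≤ p` -/
theorem hside_new (hp5 : 5 ≤ p) (N₀ : ℕ) : p = 3 → 2 ∣ N₀ * p := fun h => by omega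

end Fermat.Agent.GB.B9.ProviderFlat.G3Level
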