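/-
GATE-B / B9 PROVIDER, flat branch, group **G3** of helper53's split (board 6307) of the binders of
`LevelMulti.nonempty_TWInput_multi` (helper59): **the surjection `ψ : R_Q ↠ T_Q`**, for the FRAMED
deformation problem `framedCond p (flatCondition 𝒪 p) Smin Su Q` of B2, together with everything
the other groups need to know about `ρ_Q`.

`exists_psi_flat` : `T_Q` a complete Noetherian local `𝒪`-algebra with residue field that of `𝒪`,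
generated over `𝒪` by a residually-`θ` Hecke hom `tw : heckeAlgebra N 2 S →+* T_Q` (`p ∤ N`,
`p ∈ S`, primes of `N` in `S`), `ρbar` absolutely irreducible with the Eichler–Shimura
characteristic polynomials of `θ`.  If `p` and the primes of `N` lie in `Smin ∪ Su ∪ Q` and the
primes `≠ p` of `Smin` and of `Sun` exactly divide `N`, then for EVERY deformation datum `DQ` of
the framed problem there are a SURJECTIVE local `𝒪`-algebra hom `ψ : DQ.R → T_Q` and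
`ρ_Q : GaloisRepAdic T_Q` with
`DQ.ρ ⊗_ψ T_Q ≅ ρ_Q`, `charpoly ρ_Q(Frob_ℓ) = X² - tw(T_ℓ) X + ℓ`, `det ρ_Q` cyclotomic,
`ρ_Q` unipotent on inertia at the primes of `Sun` (e.g. `Sun := Su ∖ {q}`: `htr`/`hSu` of
`kill₂_R5` by helper4's `ThetaT.unip_matT_of_isUnipotentOnInertiaAt`), and residual representation
`ρbar` (for the `hunr` binder of helper35's `Hnu.hnu_of_not_isUnipotent`).

Chain: helper36 `DatumOfRhobar.exists_datum` (datum on `Tloc 𝒪 θ`, UNRAMIFIED OUTSIDE `N p` — the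
Hecke set `S` may be larger than `Smin ∪ Su ∪ Q`) ⟹ helper32 `PushTloc.exists_galRep_flat` ⟹
the type `framedCond` of the pushed representation ⟹ helper32 `PsiTQPush.exists_psi_of_type`.

`exists_psi_TQ_flat` : the same over helper12's image ring `ImageRing.TQ 𝒪 θ tw` of an
`End`-valued Hecke action with `LocHyp` (so for `T := TQ 𝒪 θ (prodTw 𝒪 tw₁ twχ)` of
`TQFields.exists_fields`).
-/
import Fermat.Agent.GB.B4.Datum.PsiTQPush
import Fermat.Agent.GB.B4.Datum.TQGal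
import Fermat.Agent.GB.Def.FramedNodes

set_option autoImplicit false
set_option linter.style.haveILetI false
set_option linter.unusedSectionVars false
set_option linter.unusedVariables false

noncomputable section

namespace Fermat.Agent.GB.B9.ProviderFlat.G3

open CuspForm IsLocalRing Polynomial GaloisRep Fermat.Agent.GB.B4.Datum.Carrier
  Fermat.Agent.GB.B4.Datum.ImageRing Fermat.Agent.GB.B4.Datum.Push
  Fermat.Agent.GB.Def.FramedNodes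

local notation "GQ" => (AlgebraicClosure ℚ ≃ₐ[ℚ] AlgebraicClosure ℚ)
local notation "Qb" => AlgebraicClosure ℚ

variable {p : ℕ} [Fact p.Prime] {N : ℕ} [NeZero N] {S : Finset ℕ}
  {𝒪 : Type} [CommRing 𝒪] [IsDomain 𝒪] [IsDiscreteValuationRing 𝒪]
  [IsAdicComplete (maximalIdeal 𝒪) 𝒪] [Finite (ResidueField 𝒪)] [CharZero 𝒪]
  {θ : heckeAlgebra N 2 (↑S : Set ℕ) →+* ResidueField 𝒪}

/-- **G3, general carrier.** -/
theorem exists_psi_flat
    {TQ : Type} [CommRing TQ] [IsLocalRing TQ] [IsNoetherianRing TQ]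
    [IsAdicComplete (maximalIdeal TQ) TQ] [Algebra 𝒪 TQ] [IsLocalHom (algebraMap 𝒪 TQ)]
    (hp2 : p ≠ 2) (hp𝒪 : (p : 𝒪) ∈ maximalIdeal 𝒪) (hpN : ¬ p ∣ N) (hpS : p ∈ S)
    (hNS : ∀ q : ℕ, q.Prime → q ∣ N → q ∈ S)
    (ρbar : ResidualGaloisRep (ResidueField 𝒪)) (habs : ρbar.IsAbsolutelyIrreducible)
    (hfrob : ∀ (ℓ : ℕ) (hℓ : ℓ.Prime) (hℓN : ¬ ℓ ∣ N) (hℓS : ℓ ∉ (↑S : Set ℕ)),
      ∀ P : ValuationSubring Qb, P.LiesOverPrime ℓ → ∀ σ : GQ, P.IsFrobeniusAt σ ℓ →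
        ∃ d₀ : ResidueField 𝒪, LinearMap.charpoly (ρbar.ρ σ) =
          X ^ 2 - C (θ (heckeAlgebra.T hℓ hℓN hℓS)) * X + C d₀)
    (tw : heckeAlgebra N 2 (↑S : Set ℕ) →+* TQ)
    (hres : ∀ t, residue TQ (tw t) = ResidueField.map (algebraMap 𝒪 TQ) (θ t))
    (hgen : Algebra.adjoin 𝒪 (Set.range tw) = ⊤)
    (hressurj : Function.Surjective (residue TQ ∘ algebraMap 𝒪 TQ))
    (Smin Su Q Sun : Finset ℕ) (hpT : p ∈ Smin ∪ Su ∪ Q)
    (hNT : ∀ q : ℕ, q.Prime → q ∣ N → q ∈ Smin ∪ Su ∪ Q)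
    (hSmin : ∀ q ∈ Smin, q.Prime → q ≠ p → q ∣ N ∧ ¬ q ^ 2 ∣ N)
    (hSun : ∀ q ∈ Sun, q.Prime → q ≠ p → q ∣ N ∧ ¬ q ^ 2 ∣ N)
    (DQ : DeformationRingData 𝒪 ρbar (framedCond p (flatCondition 𝒪 p) Smin Su Q)) :
    ∃ (ψ : DQ.R →ₐ[𝒪] TQ) (hψ : IsLocalHom (ψ : DQ.R →+* TQ)) (ρQ : GaloisRepAdic TQ),
      Function.Surjective ψ ∧
      (DQ.ρ.baseChangeAlong (ψ : DQ.R →+* TQ) hψ).IsEquiv ρQ ∧
      (∀ (ℓ : ℕ) (hℓ : ℓ.Prime) (hℓN : ¬ ℓ ∣ N) (hℓS : ℓ ∉ (↑S : Set ℕ))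
        (A : ValuationSubring Qb), A.LiesOverPrime ℓ → ∀ σ : GQ, A.IsFrobeniusAt σ ℓ →
          LinearMap.charpoly (ρQ.ρ σ) =
            X ^ 2 - C (tw (heckeAlgebra.T hℓ hℓN hℓS)) * X + C ((ℓ : TQ))) ∧
      ρQ.DetIsCyclotomic p ∧
      (∀ q ∈ Sun, q.Prime → q ≠ p → ρQ.IsUnipotentOnInertiaAt q) ∧
      ρQ.residual.IsEquiv (ρbar.baseChangeAlong (ResidueField.map (algebraMap 𝒪 TQ))) := by
  have hp : p.Prime := Fact.out
  obtain ⟨H, hπ, -, hunrH, hresH⟩ :=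
    Fermat.Agent.GB.Glue.DatumOfRhobar.exists_datum p N S 𝒪 θ hp2 hpS hNS hp𝒪 ρbar habs hfrob
  obtain ⟨φ, hφ, hφs, hφt, hchar, hflat, hunip⟩ :=
    Fermat.Agent.GB.B4.Datum.PushTloc.exists_galRep_flat (TQ := TQ) hp hp2 hp𝒪 hpN hpS hNS
      H hπ tw hres hgen S (Smin ∪ Sun) (Finset.Subset.refl S)
      (fun q hq hqpr hqp => by
        rcases Finset.mem_union.mp hq with h | h
        · exact hSmin q h hqpr hqp
        · exact hSun q h hqpr hqp)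
  -- the type of the pushed representation
  have h𝒟 : framedCond p (flatCondition 𝒪 p) Smin Su Q (pushRep H φ.toRingHom hφ) := by
    refine ⟨⟨hflat.1, hflat.2.1, fun q hq hqT => ?_⟩, fun q hq hqpr hqp =>
      hunip q (Finset.mem_union_left _ hq) hqpr hqp⟩
    exact Fermat.Agent.GP.Tan.isUnramifiedAt_baseChangeAlong φ.toRingHom hφ
      (hunrH q hq (fun hqN => hqT (hNT q hq hqN)) (fun hqp => hqT (by rw [hqp]; exact hpT)))
  -- its residual representation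
  have hresQ : (pushRep H φ.toRingHom hφ).residual.IsEquiv
      (ρbar.baseChangeAlong (ResidueField.map (algebraMap 𝒪 TQ))) := by
    have h := Fermat.Agent.GB.B4.Datum.PushTloc.residual_push H.ρ φ.toRingHom hφ ρbar
      (ResidueField.map (algebraMap 𝒪 (Tloc 𝒪 θ))) hresH
    haveI := hφ
    have e : (ResidueField.map φ.toRingHom).comp (ResidueField.map (algebraMap 𝒪 (Tloc 𝒪 θ))) =
        ResidueField.map (algebraMap 𝒪 TQ) := by
      ext x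
      obtain ⟨a, rfl⟩ := residue_surjective x
      rw [RingHom.comp_apply, ResidueField.map_residue, ResidueField.map_residue,
        ResidueField.map_residue]
      congr 1
      exact φ.commutes a
    rw [e] at h
    exact h
  obtain ⟨ψ, hψ, hsurj, he⟩ := Fermat.Agent.GB.B4.Datum.PsiTQPush.exists_psi_of_type DQ hNS
    hressurj (pushRep H φ.toRingHom hφ) h𝒟 hresQ tw hgen hchar
  exact ⟨ψ, hψ, pushRep H φ.toRingHom hφ, hsurj, he, hchar,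
    detIsCyclotomic_push hp hp𝒪 hpS H φ.toRingHom hφ,
    fun q hq hqpr hqp => hunip q (Finset.mem_union_right _ hq) hqpr hqp, hresQ⟩

variable {M : Type} [AddCommGroup M] [Module 𝒪 M] [Module.Finite 𝒪 M] [Module.Free 𝒪 M]
  [Nontrivial M] {tw : heckeAlgebra N 2 (↑S : Set ℕ) →+* Module.End 𝒪 M}

/-- **G3 over the image ring `TQ 𝒪 θ tw`** of an `End`-valued Hecke action with `LocHyp`. -/
theorem exists_psi_TQ_flat [hloc : Fact (LocHyp 𝒪 θ tw)]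
    (hp2 : p ≠ 2) (hp𝒪 : (p : 𝒪) ∈ maximalIdeal 𝒪) (hpN : ¬ p ∣ N) (hpS : p ∈ S)
    (hNS : ∀ q : ℕ, q.Prime → q ∣ N → q ∈ S)
    (ρbar : ResidualGaloisRep (ResidueField 𝒪)) (habs : ρbar.IsAbsolutelyIrreducible)
    (hfrob : ∀ (ℓ : ℕ) (hℓ : ℓ.Prime) (hℓN : ¬ ℓ ∣ N) (hℓS : ℓ ∉ (↑S : Set ℕ)),
      ∀ P : ValuationSubring Qb, P.LiesOverPrime ℓ → ∀ σ : GQ, P.IsFrobeniusAt σ ℓ →
        ∃ d₀ : ResidueField 𝒪, LinearMap.charpoly (ρbar.ρ σ) =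
          X ^ 2 - C (θ (heckeAlgebra.T hℓ hℓN hℓS)) * X + C d₀)
    (Smin Su Q Sun : Finset ℕ) (hpT : p ∈ Smin ∪ Su ∪ Q)
    (hNT : ∀ q : ℕ, q.Prime → q ∣ N → q ∈ Smin ∪ Su ∪ Q)
    (hSmin : ∀ q ∈ Smin, q.Prime → q ≠ p → q ∣ N ∧ ¬ q ^ 2 ∣ N)
    (hSun : ∀ q ∈ Sun, q.Prime → q ≠ p → q ∣ N ∧ ¬ q ^ 2 ∣ N)
    (DQ : DeformationRingData 𝒪 ρbar (framedCond p (flatCondition 𝒪 p) Smin Su Q)) :
    ∃ (ψ : DQ.R →ₐ[𝒪] TQ 𝒪 θ tw) (hψ : IsLocalHom (ψ : DQ.R →+* TQ 𝒪 θ tw))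
      (ρQ : GaloisRepAdic (TQ 𝒪 θ tw)),
      Function.Surjective ψ ∧
      (DQ.ρ.baseChangeAlong (ψ : DQ.R →+* TQ 𝒪 θ tw) hψ).IsEquiv ρQ ∧
      (∀ (ℓ : ℕ) (hℓ : ℓ.Prime) (hℓN : ¬ ℓ ∣ N) (hℓS : ℓ ∉ (↑S : Set ℕ))
        (A : ValuationSubring Qb), A.LiesOverPrime ℓ → ∀ σ : GQ, A.IsFrobeniusAt σ ℓ →
          LinearMap.charpoly (ρQ.ρ σ) =
            X ^ 2 - C (chi 𝒪 θ tw (heckeAlgebra.T hℓ hℓN hℓS)) * X
              + C ((ℓ : TQ 𝒪 θ tw))) ∧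
      ρQ.DetIsCyclotomic p ∧
      (∀ q ∈ Sun, q.Prime → q ≠ p → ρQ.IsUnipotentOnInertiaAt q) ∧
      ρQ.residual.IsEquiv
        (ρbar.baseChangeAlong (ResidueField.map (algebraMap 𝒪 (TQ 𝒪 θ tw)))) :=
  exists_psi_flat hp2 hp𝒪 hpN hpS hNS ρbar habs hfrob (chi 𝒪 θ tw)
    (fun t => residue_chi (θ := θ) (tw := tw) t) (adjoin_range_chi 𝒪 θ tw)
    (residue_comp_algebraMap_surjective (θ := θ) (tw := tw)) Smin Su Q Sun hpT hNT hSmin hSun DQ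

end Fermat.Agent.GB.B9.ProviderFlat.G3
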