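/-
GATE-B / B9 PROVIDER, flat branch, group G3 over the SETUP bundle (helper59): **`ψ : R_Q ↠ T_Q` in
ONE call from `P : SetupPkg.Pkg`**, at a Taylor–Wiles level `N` (a multiple of `M`, prime to `p`)
with residual eigensystem `θQ` on the Hecke set `SQ` (helper39's `PkgLevel.exists_thetaQ`), a
Taylor–Wiles set `qv`, and the chain prime `q₀ ∈ P.Su` (the only framed prime allowed to divide
`N` more than once: convention C2 of board 6415).

`exists_psi_pkg` = `G3.exists_psi_TQ_flat` with `Smin := P.Smin`, `Su := P.Su`,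
`Q := image qv`, `Sun := P.Su.erase q₀`, `ρbar := P.rhobar`, `habs := P.habs`; the side conditions
are reduced to
* `hNprimes` : every prime of `N` divides `M` or is a Taylor–Wiles prime,
* `hexact`   : every prime `≠ p, q₀` of `M` exactly divides `N`.
-/
import Fermat.Agent.GB.B9.ProviderFlat.G3
import Fermat.Agent.GB.Setup.SetupPkg

set_option autoImplicit false
set_option linter.style.haveILetI false
set_option linter.unusedSectionVars false
set_option linter.unusedVariables false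

open WeierstrassCurve WeierstrassCurve.Affine.Point IsLocalRing
open scoped WeierstrassCurve.Affine

noncomputable section

namespace Fermat.Agent.GB.B9.ProviderFlat.G3Pkg

open CuspForm Polynomial GaloisRep Fermat.Agent.GB.B4.Datum.ImageRing
  Fermat.Agent.GB.Def.FramedNodes Fermat.Agent.GB.Setup.SetupPkg
  Fermat.Agent.GB.B9.ProviderFlat.G3

local notation "GQ" => (AlgebraicClosure ℚ ≃ₐ[ℚ] AlgebraicClosure ℚ)
local notation "Qb" => AlgebraicClosure ℚ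

variable {p : ℕ} [Fact p.Prime] {W : WeierstrassCurve ℤ}
  {hcard₁ : Nat.card (Submodule.torsionBy ℤ
    ((W.map (Int.castRingHom ℚ))⁄(AlgebraicClosure ℚ)).Point p) = p ^ 2}
  {hker : GaloisFactorsThroughFiniteLevel
    (galoisRepModuleEnd (K := AlgebraicClosure ℚ) ℚ (W.map (Int.castRingHom ℚ)) p)}
  {M A : ℕ} (P : Pkg p W hcard₁ hker M A)

/-- **G3 over the SETUP bundle.** -/
theorem exists_psi_pkg {N : ℕ} [NeZero N] {SQ : Finset ℕ}
    {θQ : heckeAlgebra N 2 (↑SQ : Set ℕ) →+* P.k}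
    (hpN : ¬ p ∣ N) (hpS : p ∈ SQ) (hNS : ∀ q : ℕ, q.Prime → q ∣ N → q ∈ SQ)
    (hfrobQ : ∀ (ℓ : ℕ) (hℓ : ℓ.Prime) (hℓN : ¬ ℓ ∣ N) (hℓS : ℓ ∉ (↑SQ : Set ℕ))
      (Q : ValuationSubring Qb), Q.LiesOverPrime ℓ → ∀ σ : GQ, Q.IsFrobeniusAt σ ℓ →
        LinearMap.charpoly (P.rhobar.ρ σ) =
          X ^ 2 - C (θQ (heckeAlgebra.T hℓ hℓN hℓS)) * X + C ((ℓ : ℕ) : P.k))
    {Mod : Type} [AddCommGroup Mod] [Module P.O Mod] [Module.Finite P.O Mod]
    [Module.Free P.O Mod] [Nontrivial Mod]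
    {tw : heckeAlgebra N 2 (↑SQ : Set ℕ) →+* Module.End P.O Mod} [Fact (LocHyp P.O θQ tw)]
    {r : ℕ} (qv : Fin r → ℕ) (q₀ : ℕ) (hq₀ : q₀ ∈ P.Su)
    (hNprimes : ∀ q : ℕ, q.Prime → q ∣ N → q ∣ M ∨ q ∈ Finset.univ.image qv)
    (hexact : ∀ q : ℕ, q.Prime → q ∣ M → q ≠ p → q ≠ q₀ → q ∣ N ∧ ¬ q ^ 2 ∣ N)
    (DQ : DeformationRingData P.O P.rhobar
      (framedCond p (flatCondition P.O p) P.Smin P.Su (Finset.univ.image qv))) :
    ∃ (ψ : DQ.R →ₐ[P.O] TQ P.O θQ tw) (hψ : IsLocalHom (ψ : DQ.R →+* TQ P.O θQ tw))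
      (ρQ : GaloisRepAdic (TQ P.O θQ tw)),
      Function.Surjective ψ ∧
      (DQ.ρ.baseChangeAlong (ψ : DQ.R →+* TQ P.O θQ tw) hψ).IsEquiv ρQ ∧
      (∀ (ℓ : ℕ) (hℓ : ℓ.Prime) (hℓN : ¬ ℓ ∣ N) (hℓS : ℓ ∉ (↑SQ : Set ℕ))
        (A : ValuationSubring Qb), A.LiesOverPrime ℓ → ∀ σ : GQ, A.IsFrobeniusAt σ ℓ →
          LinearMap.charpoly (ρQ.ρ σ) =
            X ^ 2 - C (chi P.O θQ tw (heckeAlgebra.T hℓ hℓN hℓS)) * X
              + C ((ℓ : TQ P.O θQ tw))) ∧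
      ρQ.DetIsCyclotomic p ∧
      (∀ v ∈ P.Su, v ≠ q₀ → ρQ.IsUnipotentOnInertiaAt v) ∧
      ρQ.residual.IsEquiv
        (P.rhobar.baseChangeAlong (ResidueField.map (algebraMap P.O (TQ P.O θQ tw)))) := by
  have hq₀S : q₀ ∉ P.Smin := P.notMem_Smin_of_mem_Su hq₀
  obtain ⟨ψ, hψ, ρQ, h1, h2, h3, h4, h5, h6⟩ :=
    exists_psi_TQ_flat (θ := θQ) (tw := tw) P.hp2 P.hpO hpN hpS hNS P.rhobar P.habs
      (fun ℓ hℓ hℓN hℓS Q hQ σ hσ => ⟨_, hfrobQ ℓ hℓ hℓN hℓS Q hQ σ hσ⟩)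
      P.Smin P.Su (Finset.univ.image qv) (P.Su.erase q₀)
      (Finset.mem_union_left _ (Finset.mem_union_left _ P.p_mem_Smin))
      (fun q hq hqN => by
        rcases hNprimes q hq hqN with h | h
        · by_cases hqp : q = p
          · rw [hqp]
            exact Finset.mem_union_left _ (Finset.mem_union_left _ P.p_mem_Smin)
          · rcases P.mem_Smin_or_mem_Su hq h hqp with h' | h'
            · exact Finset.mem_union_left _ (Finset.mem_union_left _ h')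
            · exact Finset.mem_union_left _ (Finset.mem_union_right _ h')
        · exact Finset.mem_union_right _ h)
      (fun q hq hqpr hqp => by
        rcases P.dvd_of_mem_Smin hq with h | h
        · exact absurd h hqp
        · exact hexact q hqpr h hqp (fun h0 => hq₀S (h0 ▸ hq)))
      (fun q hq hqpr hqp => by
        obtain ⟨hne, hmem⟩ := Finset.mem_erase.mp hq
        exact hexact q hqpr (P.mem_Su_iff.mp hmem).2.1 hqp hne)
      DQ
  refine ⟨ψ, hψ, ρQ, h1, h2, h3, h4, fun v hv hne => ?_, h6⟩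
  obtain ⟨hvpr, -, hvp, -⟩ := P.mem_Su_iff.mp hv
  exact h5 v (Finset.mem_erase.mpr ⟨hne, hv⟩) hvpr hvp

end Fermat.Agent.GB.B9.ProviderFlat.G3Pkg
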