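/-
GATE-B / B9 PROVIDER, the TOP of the flat branch (helper28, referee of the Provider):
**`CaseB38minFlatF` from ONE named statement `LevelStmt`** — everything that is not a Taylor–Wiles
level is discharged here, once:

* the exponent `a = v_p(q - 1) ≥ 1` (`q - 1 = p ^ a * n'`, `p ∤ n'`), the SETUP bundle
  `P : SetupPkg.Pkg p W hcard₁ hker M a` (coefficient ring with a primitive `p ^ a`-th root of
  unity);
* the enumeration `ℓ : Fin (s + 1) → ℕ` of the framed primes `P.Su` with `ℓ (Fin.last s) = q`,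
  and the facts `ℓ v` prime, `∣ M`, `≠ p`, `≡ 1 (mod p)`, scalar Frobenius, `ρ̄_W` unramified at
  `ℓ v` (from the minimality binder `hSg`; the bridge `P.rhobar` unramified ⟹ `ρ̄_W` unramified is
  `isUnramifiedAt_rb_of_rhobar`);
* `h = 1/2 ∈ P.O`, `hℓ2 hℓm hfac hn' hpq hq` of `LevelMulti.nonempty_TWSystem_of_handle`;
* `TWSystem.elim`.

`LevelStmt` (= what the groups G1..G7 of `LevelMulti.nonempty_TWInput_multi` owe): for every such
context there are `g D` such that for EVERY ideal `J₂` with the `Kill2Handle` there are `TWInput`s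
of arbitrarily large depth `n` and rank `0 < d ≤ D`.
-/
import Fermat.Agent.GB.B9.LevelMulti
import Fermat.Agent.GB.B9.Final
import Fermat.Agent.GB.Setup.SetupPkg
import Fermat.Agent.GB.Top.SplitMin
import Fermat.Agent.GB.Def.CondBasic

set_option autoImplicit false
set_option linter.unusedSectionVars false
set_option linter.unusedVariables false
set_option linter.style.haveILetI false

open WeierstrassCurve WeierstrassCurve.Affine WeierstrassCurve.Affine.Point IsLocalRing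
open scoped WeierstrassCurve.Affine

namespace Fermat.Agent.GB.B9.ProviderFlat.Top

open Fermat.Agent.GB.Setup.SetupPkg Fermat.Agent.GB.Setup.RhoBar
open Fermat.Agent.GB.Local.Multi Fermat.Agent.GB.PatchSupp
open Fermat.Agent.GB.B9.AlgHypMulti Fermat.Agent.GB.B9.AlgHypKill2
open Fermat.Agent.GB.Top.S43Frey Fermat.Agent.GB.Top.SplitMin

/-- `ℚ̄`. -/
local notation "Qb" => AlgebraicClosure ℚ
/-- `G_ℚ`. -/
local notation "GQ" => (AlgebraicClosure ℚ ≃ₐ[ℚ] AlgebraicClosure ℚ)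

section Ctx

variable (p : ℕ) [Fact p.Prime] (W : WeierstrassCurve ℤ)
  (hcard₁ : Nat.card (Submodule.torsionBy ℤ
    ((W.map (Int.castRingHom ℚ))⁄(AlgebraicClosure ℚ)).Point p) = p ^ 2)
  (hker : GaloisFactorsThroughFiniteLevel
    (galoisRepModuleEnd (K := AlgebraicClosure ℚ) ℚ (W.map (Int.castRingHom ℚ)) p))

/-- **the CASE-B (flat, minimal) binders**, bundled. -/
structure FlatCtx (M q : ℕ) : Prop where
  hp5 : 5 ≤ p
  hΔ : W.Δ ≠ 0
  hss : W.IsSemistableModel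
  hirr : W.ModRepIsIrreducible p
  htrans : ∃ σ : GQ,
    galoisRepModuleEnd (K := Qb) ℚ (W.map (Int.castRingHom ℚ)) p σ ≠ 1 ∧
      (galoisRepModuleEnd (K := Qb) ℚ (W.map (Int.castRingHom ℚ)) p σ - 1) ^ 2 = 0
  hq : q.Prime
  hq2 : q ≠ 2
  hqp : q ≠ p
  hqM : q ∣ M
  hsf : Squarefree M
  hpM : ¬ p ∣ M
  hunr : (rb p W hcard₁ hker).IsUnramifiedAt q
  hres : W.IsResiduallyModularOfLevel p M
  hno : ¬ W.IsResiduallyModularOfLevel p (M / q)
  hq1 : q % p = 1
  hscal : ScalarFrob38 W p q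
  hSg : ∀ ℓ : ℕ, ℓ.Prime → ℓ ∣ M → ℓ ≠ p →
    ¬ (rb p W hcard₁ hker).IsUnramifiedAt ℓ ∨ (ℓ % p = 1 ∧ ScalarFrob38 W p ℓ)

variable {p W hcard₁ hker}

/-- **the enumeration of the framed primes**, `q` last, with the facts the groups consume. -/
structure FramedEnum {M a : ℕ} (P : Pkg p W hcard₁ hker M a) (q s : ℕ) (ℓ : Fin (s + 1) → ℕ) :
    Prop where
  inj : Function.Injective ℓ
  mem : ∀ v, ℓ v ∈ P.Su
  all : ∀ r ∈ P.Su, ∃ v, ℓ v = r
  last : ℓ (Fin.last s) = q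
  prime : ∀ v, (ℓ v).Prime
  dvd : ∀ v, ℓ v ∣ M
  ne_p : ∀ v, ℓ v ≠ p
  mod : ∀ v, ℓ v % p = 1
  scal : ∀ v, ScalarFrob38 W p (ℓ v)
  unr : ∀ v, (rb p W hcard₁ hker).IsUnramifiedAt (ℓ v)

end Ctx

/-- **the conclusion owed by the Taylor–Wiles levels** (shared by the flat and the `p`-new branch):
`g D` such that for EVERY ideal `J₂` with the `Kill2Handle` there are `TWInput`s of arbitrarily
large depth `n` and rank `0 < d ≤ D`. -/
def LevelConcl {p : ℕ} [Fact p.Prime] {W : WeierstrassCurve ℤ}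
    {hcard₁ : Nat.card (Submodule.torsionBy ℤ
      ((W.map (Int.castRingHom ℚ))⁄(AlgebraicClosure ℚ)).Point p) = p ^ 2}
    {hker : GaloisFactorsThroughFiniteLevel
      (galoisRepModuleEnd (K := AlgebraicClosure ℚ) ℚ (W.map (Int.castRingHom ℚ)) p)}
    {M a : ℕ} (P : Pkg p W hcard₁ hker M a) {s : ℕ} (ℓ : Fin (s + 1) → ℕ) (h : P.O) : Prop :=
  ∃ g D : ℕ, ∀ J₂ : Ideal (RM P.O (s + 1) g), Kill2Handle h ℓ J₂ → ∀ n₀ : ℕ, ∃ n, n₀ ≤ n ∧
    ∃ d', 0 < d' ∧ d' ≤ D ∧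
      Nonempty (TWInput P.O P.ϖ (RM P.O (s + 1) g)
        (J1 s g ((ℓ (Fin.last s) : P.O) - 1)) J₂ g (3 * (s + 1)) (fun _ => p ^ n) d')

/-- **what the Taylor–Wiles levels owe in the flat branch** (groups G1..G7). -/
def LevelStmt : Prop :=
  ∀ (p : ℕ) [Fact p.Prime] (W : WeierstrassCurve ℤ)
    (hcard₁ : Nat.card (Submodule.torsionBy ℤ
      ((W.map (Int.castRingHom ℚ))⁄(AlgebraicClosure ℚ)).Point p) = p ^ 2)
    (hker : GaloisFactorsThroughFiniteLevel
      (galoisRepModuleEnd (K := AlgebraicClosure ℚ) ℚ (W.map (Int.castRingHom ℚ)) p))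
    (M q : ℕ) (_ : FlatCtx p W hcard₁ hker M q)
    (a n' : ℕ) (_ : q - 1 = p ^ a * n') (_ : ¬ p ∣ n') (_ : 1 ≤ a)
    (P : Pkg p W hcard₁ hker M a) (s : ℕ) (ℓ : Fin (s + 1) → ℕ) (_ : FramedEnum P q s ℓ)
    (h : P.O) (_ : 2 * h = 1), LevelConcl P ℓ h

/-! ### bridges -/

section Bridge

variable {p : ℕ} [Fact p.Prime] {W : WeierstrassCurve ℤ}
  {hcard₁ : Nat.card (Submodule.torsionBy ℤ
    ((W.map (Int.castRingHom ℚ))⁄(AlgebraicClosure ℚ)).Point p) = p ^ 2}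
  {hker : GaloisFactorsThroughFiniteLevel
    (galoisRepModuleEnd (K := AlgebraicClosure ℚ) ℚ (W.map (Int.castRingHom ℚ)) p)}
  {M a : ℕ} (P : Pkg p W hcard₁ hker M a)

/-- `ρ̄_W ⊗ k` unramified at `r` ⟹ `ρ̄_W` unramified at `r`. -/
theorem isUnramifiedAt_rb_of_rhobar {r : ℕ} (h : P.rhobar.IsUnramifiedAt r) :
    (rb p W hcard₁ hker).IsUnramifiedAt r := by
  intro A hA σ hσ
  have h1 : ((rb p W hcard₁ hker).ρ σ).baseChange P.k = 1 := h A hA σ hσ
  haveI : Module.Finite (ZMod p) (rb p W hcard₁ hker).V :=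
    Module.finite_of_finrank_pos (by rw [(rb p W hcard₁ hker).finrank_eq]; norm_num)
  refine Fermat.Agent.GB.Def.Cond.baseChange_injective (A := ZMod p) (B := P.k)
    (algebraMap (ZMod p) P.k).injective ?_
  rw [h1, LinearMap.baseChange_one]

theorem isUnramifiedAt_rhobar_iff {r : ℕ} :
    P.rhobar.IsUnramifiedAt r ↔ (rb p W hcard₁ hker).IsUnramifiedAt r :=
  ⟨isUnramifiedAt_rb_of_rhobar P, fun h => isUnramifiedAt_baseChange hcard₁ hker h P.k⟩

/-- `2` is a unit of the coefficient ring. -/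
theorem exists_half : ∃ h : P.O, 2 * h = 1 := by
  have hp : p.Prime := Fact.out
  have h2 : IsUnit (2 : P.O) := by
    by_contra hnu
    have hmem : (2 : P.O) ∈ maximalIdeal P.O := (mem_maximalIdeal _).mpr hnu
    obtain ⟨k, hk⟩ := hp.odd_of_ne_two P.hp2
    have hk' : (p : P.O) = 2 * (k : P.O) + 1 := by
      have := congrArg (Nat.cast : ℕ → P.O) hk
      simpa using this
    have h1 : (1 : P.O) = (p : P.O) - 2 * (k : P.O) := by
      rw [hk']; ring
    have h3 : (1 : P.O) ∈ maximalIdeal P.O := by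
      rw [h1]
      exact Ideal.sub_mem _ P.hpO (Ideal.mul_mem_right _ _ hmem)
    exact (maximalIdeal.isMaximal P.O).ne_top ((Ideal.eq_top_iff_one _).mpr h3)
  obtain ⟨u, hu⟩ := h2
  exact ⟨(↑u⁻¹ : P.O), by rw [← hu, Units.mul_inv]⟩

/-- a prime `≡ 1 (mod p)` is `≡ 1` modulo the maximal ideal. -/
theorem natCast_sub_one_mem {r : ℕ} (hr : r % p = 1) : (r : P.O) - 1 ∈ maximalIdeal P.O := by
  have hp : p.Prime := Fact.out
  have h1 : p ∣ r - 1 := by
    apply Nat.dvd_of_mod_eq_zero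
    apply Nat.sub_mod_eq_zero_of_mod_eq
    rw [hr, Nat.one_mod_eq_one.mpr hp.one_lt.ne']
  obtain ⟨k, hk⟩ := h1
  have hr1 : 1 ≤ r := by
    rcases Nat.eq_zero_or_pos r with h0 | h0
    · rw [h0, Nat.zero_mod] at hr; exact absurd hr (by norm_num)
    · exact h0
  have h2 : r = p * k + 1 := by omega
  have h3 : (r : P.O) - 1 = (p : P.O) * (k : P.O) := by
    have := congrArg (Nat.cast : ℕ → P.O) h2
    rw [this]; push_cast; ring
  rw [h3]
  exact Ideal.mul_mem_right _ _ P.hpO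

end Bridge

/-! ### the top theorem -/

/-- **the common core of the flat and the `p`-new branch**: the binders actually used by the upper
half, and the levels as a continuation. -/
theorem false_of_levels {p : ℕ} [Fact p.Prime] (hp5 : 5 ≤ p) {W : WeierstrassCurve ℤ}
    (hΔ : W.Δ ≠ 0)
    {hcard₁ : Nat.card (Submodule.torsionBy ℤ
      ((W.map (Int.castRingHom ℚ))⁄(AlgebraicClosure ℚ)).Point p) = p ^ 2}
    {hker : GaloisFactorsThroughFiniteLevel
      (galoisRepModuleEnd (K := AlgebraicClosure ℚ) ℚ (W.map (Int.castRingHom ℚ)) p)}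
    (hirr : W.ModRepIsIrreducible p)
    (htrans : ∃ σ : GQ,
      galoisRepModuleEnd (K := Qb) ℚ (W.map (Int.castRingHom ℚ)) p σ ≠ 1 ∧
        (galoisRepModuleEnd (K := Qb) ℚ (W.map (Int.castRingHom ℚ)) p σ - 1) ^ 2 = 0)
    {M q : ℕ} (hq : q.Prime) (hqp : q ≠ p) (hqM : q ∣ M) (hsf : Squarefree M)
    (hunr : (rb p W hcard₁ hker).IsUnramifiedAt q)
    (hres : W.IsResiduallyModularOfLevel p M) (hq1 : q % p = 1)
    (hSg : ∀ ℓ : ℕ, ℓ.Prime → ℓ ∣ M → ℓ ≠ p →
      ¬ (rb p W hcard₁ hker).IsUnramifiedAt ℓ ∨ (ℓ % p = 1 ∧ ScalarFrob38 W p ℓ))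
    (hL : ∀ (a n' : ℕ), q - 1 = p ^ a * n' → ¬ p ∣ n' → 1 ≤ a →
      ∀ (P : Pkg p W hcard₁ hker M a) (s : ℕ) (ℓ : Fin (s + 1) → ℕ), FramedEnum P q s ℓ →
        ∀ h : P.O, 2 * h = 1 → LevelConcl P ℓ h) : False := by
  classical
  have hp : p.Prime := Fact.out
  have hp2 : p ≠ 2 := by omega
  have hM : M ≠ 0 := hsf.ne_zero
  -- the exponent
  have hpq1 : p ∣ q - 1 := by
    apply Nat.dvd_of_mod_eq_zero
    apply Nat.sub_mod_eq_zero_of_mod_eq
    rw [hq1, Nat.one_mod_eq_one.mpr hp.one_lt.ne']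
  have hq0 : q - 1 ≠ 0 := by have := hq.one_lt; omega
  obtain ⟨a, n', hn', hfac⟩ := Nat.exists_eq_pow_mul_and_not_dvd hq0 p hp.one_lt.ne'
  have ha : 1 ≤ a := by
    rcases Nat.eq_zero_or_pos a with h0 | h0
    · rw [h0, pow_zero, one_mul] at hfac
      exact absurd (hfac ▸ hpq1) hn'
    · exact h0
  -- the bundle
  obtain ⟨P⟩ := nonempty_pkg hcard₁ hker hM hp2 hΔ hirr htrans hres a ha
  obtain ⟨h, hh⟩ := exists_half P
  -- the framed primes
  have hqSu : q ∈ P.Su :=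
    P.mem_Su_iff.mpr ⟨hq, hqM, hqp, (isUnramifiedAt_rhobar_iff P).mpr hunr⟩
  let T : Finset ℕ := P.Su.erase q
  let s : ℕ := T.card
  let e : Fin s ≃ T := T.equivFin.symm
  let ℓ : Fin (s + 1) → ℕ := Fin.snoc (α := fun _ => ℕ) (fun i => ((e i : T) : ℕ)) q
  have hℓlast : ℓ (Fin.last s) = q := Fin.snoc_last (α := fun _ => ℕ) _ _
  have hℓcast : ∀ i : Fin s, ℓ i.castSucc = ((e i : T) : ℕ) := fun i =>
    Fin.snoc_castSucc (α := fun _ => ℕ) _ _ i
  have hmem : ∀ v, ℓ v ∈ P.Su := by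
    intro v
    refine Fin.lastCases ?_ (fun i => ?_) v
    · rw [hℓlast]; exact hqSu
    · rw [hℓcast]; exact Finset.mem_of_mem_erase (e i).2
  have hne_q : ∀ i : Fin s, ℓ i.castSucc ≠ q := fun i => by
    rw [hℓcast]; exact Finset.ne_of_mem_erase (e i).2
  have hinj : Function.Injective ℓ := by
    intro v w
    refine Fin.lastCases ?_ (fun i => ?_) v <;> refine Fin.lastCases ?_ (fun j => ?_) w
    · intro _; rfl
    · intro hvw; rw [hℓlast] at hvw; exact absurd hvw.symm (hne_q j)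
    · intro hvw; rw [hℓlast] at hvw; exact absurd hvw (hne_q i)
    · intro hvw
      rw [hℓcast, hℓcast] at hvw
      have : e i = e j := Subtype.ext hvw
      rw [e.injective this]
  have hall : ∀ r ∈ P.Su, ∃ v, ℓ v = r := by
    intro r hr
    by_cases hrq : r = q
    · exact ⟨Fin.last s, by rw [hℓlast, hrq]⟩
    · have hrT : r ∈ T := Finset.mem_erase.mpr ⟨hrq, hr⟩
      refine ⟨(e.symm ⟨r, hrT⟩).castSucc, ?_⟩
      rw [hℓcast, Equiv.apply_symm_apply]
  have hfacts : ∀ v, (ℓ v).Prime ∧ ℓ v ∣ M ∧ ℓ v ≠ p ∧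
      (rb p W hcard₁ hker).IsUnramifiedAt (ℓ v) := fun v => by
    obtain ⟨h1, h2, h3, h4⟩ := P.mem_Su_iff.mp (hmem v)
    exact ⟨h1, h2, h3, (isUnramifiedAt_rhobar_iff P).mp h4⟩
  have hmin : ∀ v, ℓ v % p = 1 ∧ ScalarFrob38 W p (ℓ v) := fun v => by
    obtain ⟨h1, h2, h3, h4⟩ := hfacts v
    rcases hSg (ℓ v) h1 h2 h3 with h5 | h5
    · exact absurd h4 h5
    · exact h5
  have E : FramedEnum P q s ℓ :=
    ⟨hinj, hmem, hall, hℓlast, fun v => (hfacts v).1, fun v => (hfacts v).2.1,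
      fun v => (hfacts v).2.2.1, fun v => (hmin v).1, fun v => (hmin v).2,
      fun v => (hfacts v).2.2.2⟩
  -- the levels
  obtain ⟨g, D, hlevel⟩ := hL a n' hfac hn' ha P s ℓ E h hh
  have hY : Nonempty TWSystem :=
    Fermat.Agent.GB.B9.LevelMulti.nonempty_TWSystem_of_handle (O := P.O) P.hϖ hh hp hp2 P.hpO
      (a := a) (n' := n') P.hζ g ℓ
      (fun v _ => (E.prime v).two_le)
      (fun v _ => natCast_sub_one_mem P (E.mod v))
      (by rw [hℓlast]; exact hfac) hn' (by rw [hℓlast]; exact hpq1)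
      (by rw [hℓlast]; exact hq.one_lt.le) D hlevel
  obtain ⟨Y⟩ := hY
  exact Y.elim

/-- **`CaseB38minFlatF` from the Taylor–Wiles levels.** -/
theorem flatF_of_levelStmt (hL : LevelStmt) : CaseB38minFlatF := by
  intro p _ hp5 W hΔ hss hcard₁ hker hirr htrans M q hq hq2 hqp hqM hsf hpM hunr hres hno hq1
    hscal hSg
  have C : FlatCtx p W hcard₁ hker M q :=
    ⟨hp5, hΔ, hss, hirr, htrans, hq, hq2, hqp, hqM, hsf, hpM, hunr, hres, hno, hq1, hscal, hSg⟩
  exact false_of_levels hp5 hΔ hirr htrans hq hqp hqM hsf hunr hres hq1 hSg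
    (fun a n' hfac hn' ha P s ℓ E h hh =>
      hL p W hcard₁ hker M q C a n' hfac hn' ha P s ℓ E h hh)

end Fermat.Agent.GB.B9.ProviderFlat.Top
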