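/-
GATE-B / B9 PROVIDER, flat branch, **group G3 AT a Taylor–Wiles set `Q : G1.TWSet P g n`, in the
field shape of `LowerFill.groupsOn_of_parts`** (helper28, referee seat: compiled seam
`G3Pkg.exists_psi_pkg` ∘ `G3Level` ∘ `Top.FramedEnum`).

Inputs: the flat context facts (`hq hqM hsq`, `¬ p ∣ M`), the enumeration `E : FramedEnum P q s ℓs`
of the framed primes (`q` last), the VARIABLE forms level `N''` with
`hN'' : N'' = Q.N * ∏ i : Fin (1 + g), rOf Q.qv q i` (helper32 6873), the residual eigensystem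
`θQ` on `SQ` (helper39 `PkgLevel.exists_thetaQ P (dvd_level Q hN'')`: only `hpS hNS hfrobQ` are
used), ANY action `tw` of the forms Hecke algebra on a finite free nontrivial module with (LOC), and
a deformation datum `DQ` of the flat framed problem at `Q.qv`.

Output (`exists_psi_Q`): `ψ hψl ρQ` with `hψ hequiv hρ hdet hu hres`, where
`hu : ∀ v, v ≠ Fin.last s → ρQ.IsUnipotentOnInertiaAt (ℓs v)` is the `GroupsOn` spelling and `hρ`
is the characteristic-polynomial clause (the binder `hρ` of `Kill1TQ.he_plug` / `HnuPlug`).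
Also `dvd_level : M ∣ N''` (the binder of `exists_thetaQ`) and `neZero_level`.
-/
import Fermat.Agent.GB.B9.ProviderFlat.G3Pkg
import Fermat.Agent.GB.B9.ProviderFlat.G3Level
import Fermat.Agent.GB.B9.ProviderFlat.Top

set_option autoImplicit false
set_option linter.style.haveILetI false
set_option linter.unusedSectionVars false
set_option linter.unusedVariables false

open WeierstrassCurve WeierstrassCurve.Affine.Point IsLocalRing
open scoped WeierstrassCurve.Affine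

noncomputable section

namespace Fermat.Agent.GB.B9.ProviderFlat.G3Q

open CuspForm Polynomial GaloisRep Fermat.Agent.GB.B4.Datum.ImageRing
  Fermat.Agent.GB.Def.FramedNodes Fermat.Agent.GB.Setup.SetupPkg
  Fermat.Agent.GB.B9.ProviderFlat.G1 Fermat.Agent.GB.B9.ProviderFlat.H1
  Fermat.Agent.GB.B9.ProviderFlat.G3Level Fermat.Agent.GB.B9.ProviderFlat.Top

local notation "GQ" => (AlgebraicClosure ℚ ≃ₐ[ℚ] AlgebraicClosure ℚ)
local notation "Qb" => AlgebraicClosure ℚ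

variable {p : ℕ} [hpF : Fact p.Prime] {W : WeierstrassCurve ℤ}
  {hcard₁ : Nat.card (Submodule.torsionBy ℤ
    ((W.map (Int.castRingHom ℚ))⁄(AlgebraicClosure ℚ)).Point p) = p ^ 2}
  {hker : GaloisFactorsThroughFiniteLevel
    (galoisRepModuleEnd (K := AlgebraicClosure ℚ) ℚ (W.map (Int.castRingHom ℚ)) p)}
  {M A : ℕ} {P : Pkg p W hcard₁ hker M A} {g n : ℕ} (Q : TWSet P g n)

/-- the base level divides the forms level (binder `hMN` of `PkgLevel.exists_thetaQ`) -/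
theorem dvd_level {q N'' : ℕ} (hN'' : N'' = Q.N * ∏ i : Fin (1 + g), rOf Q.qv q i) : M ∣ N'' := by
  rw [level_eq Q hN'']
  exact Dvd.intro _ rfl

/-- the forms level is nonzero -/
theorem level_ne_zero {q N'' : ℕ} (hq : q.Prime)
    (hN'' : N'' = Q.N * ∏ i : Fin (1 + g), rOf Q.qv q i) : N'' ≠ 0 := by
  rw [hN'', prod_rOf]
  have h2 : (∏ i, Q.qv i) ≠ 0 := Finset.prod_ne_zero_iff.mpr fun i _ => (Q.prime i).ne_zero
  exact Nat.mul_ne_zero Q.N_ne_zero (Nat.mul_ne_zero h2 hq.ne_zero)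

theorem neZero_level {q N'' : ℕ} (hq : q.Prime)
    (hN'' : N'' = Q.N * ∏ i : Fin (1 + g), rOf Q.qv q i) : NeZero N'' :=
  ⟨level_ne_zero Q hq hN''⟩

/-- **G3 at `Q`, in the field shape of `LowerFill.groupsOn_of_parts`** (flat branch). -/
theorem exists_psi_Q {q : ℕ} (hq : q.Prime) (hqM : q ∣ M) (hsq : Squarefree M) (hpM : ¬ p ∣ M)
    {s : ℕ} {ℓs : Fin (s + 1) → ℕ} (E : FramedEnum P q s ℓs)
    {N'' : ℕ} [NeZero N''] (hN'' : N'' = Q.N * ∏ i : Fin (1 + g), rOf Q.qv q i)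
    {SQ : Finset ℕ} {θQ : heckeAlgebra N'' 2 (↑SQ : Set ℕ) →+* P.k}
    (hpS : p ∈ SQ) (hNS : ∀ ℓ : ℕ, ℓ.Prime → ℓ ∣ N'' → ℓ ∈ SQ)
    (hfrobQ : ∀ (ℓ : ℕ) (hℓ : ℓ.Prime) (hℓN : ¬ ℓ ∣ N'') (hℓS : ℓ ∉ (↑SQ : Set ℕ))
      (Pl : ValuationSubring Qb), Pl.LiesOverPrime ℓ → ∀ σ : GQ, Pl.IsFrobeniusAt σ ℓ →
        LinearMap.charpoly (P.rhobar.ρ σ) =
          X ^ 2 - C (θQ (heckeAlgebra.T hℓ hℓN hℓS)) * X + C ((ℓ : ℕ) : P.k))
    {Mod : Type} [AddCommGroup Mod] [Module P.O Mod] [Module.Finite P.O Mod]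
    [Module.Free P.O Mod] [Nontrivial Mod]
    {tw : heckeAlgebra N'' 2 (↑SQ : Set ℕ) →+* Module.End P.O Mod} [Fact (LocHyp P.O θQ tw)]
    (DQ : DeformationRingData P.O P.rhobar
      (framedCond p (flatCondition P.O p) P.Smin P.Su (Finset.univ.image Q.qv))) :
    ∃ (ψ : DQ.R →ₐ[P.O] TQ P.O θQ tw) (hψl : IsLocalHom (ψ : DQ.R →+* TQ P.O θQ tw))
      (ρQ : GaloisRepAdic (TQ P.O θQ tw)),
      Function.Surjective ψ ∧
      (DQ.ρ.baseChangeAlong (ψ : DQ.R →+* TQ P.O θQ tw) hψl).IsEquiv ρQ ∧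
      (∀ (ℓ : ℕ) (hℓ : ℓ.Prime) (hℓN : ¬ ℓ ∣ N'') (hℓS : ℓ ∉ (↑SQ : Set ℕ))
        (Pl : ValuationSubring Qb), Pl.LiesOverPrime ℓ → ∀ σ : GQ, Pl.IsFrobeniusAt σ ℓ →
          LinearMap.charpoly (ρQ.ρ σ) =
            X ^ 2 - C (chi P.O θQ tw (heckeAlgebra.T hℓ hℓN hℓS)) * X
              + C ((ℓ : TQ P.O θQ tw))) ∧
      ρQ.DetIsCyclotomic p ∧
      (∀ v, v ≠ Fin.last s → ρQ.IsUnipotentOnInertiaAt (ℓs v)) ∧
      ρQ.residual.IsEquiv
        (P.rhobar.baseChangeAlong (ResidueField.map (algebraMap P.O (TQ P.O θQ tw)))) := by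
  have hqSu : q ∈ P.Su := E.last ▸ E.mem (Fin.last s)
  obtain ⟨ψ, hψl, ρQ, h1, h2, h3, h4, h5, h6⟩ :=
    Fermat.Agent.GB.B9.ProviderFlat.G3Pkg.exists_psi_pkg P (θQ := θQ) (tw := tw)
      (not_dvd_flat Q hq hqM hN'' hpM) hpS hNS hfrobQ Q.qv q hqSu
      (hNprimes_Q Q hq hqM hN'') (hexact_Q Q hq hsq hN'') DQ
  refine ⟨ψ, hψl, ρQ, h1, h2, h3, h4, fun v hv => ?_, h6⟩
  refine h5 (ℓs v) (E.mem v) fun hvq => hv (E.inj ?_)
  rw [hvq, E.last]

end Fermat.Agent.GB.B9.ProviderFlat.G3Q
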