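/-
GATE-B / B9 PROVIDER, G4 (1pt) (helper49): **the binder `h1` of `G4TW.exists_x_tw1F_rev` /
`LowerFill.groupsOn_of_parts`** on helper11's `G2` objects.

* `h1_G2` : at `Plug.tw Sy 𝔪 H h s k c hc hc1`, for `T a₁ a₂ := G2.T / G2.a₁ / G2.a₂` of ANY twisted
  action `twP` of the Hecke algebra of forms on the big level with the generator description
  `hι` (clause 1 of `G2.exists_twP_hecke`): a point `θ` of `T` occurring in `M¹_Q / (D_i - 1)` or in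
  `M^χ_Q / (D_i - 1)` kills the inertia at the prime `r (k - 1 - i)` on a diagonalising basis.
  `= H1Plug.h1_plug` (module half `LowerTwSkip` ∘ Galois half helper66 `OnePtEnd`) with the `G2`
  record plugged.
-/
import Mathlib
import Fermat.Agent.GB.P5.H1Plug
import Fermat.Agent.GB.B9.ProviderFlat.G2

set_option autoImplicit false
set_option linter.unusedSectionVars false
set_option linter.style.haveILetI false

open scoped MatrixGroups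
open CongruenceSubgroup Matrix Matrix.SpecialLinearGroup ModularCurve.Period CuspForm Polynomial
open Fermat.Agent.S16_helper49 Fermat.Agent.GM.B Fermat.Agent.GM.EisClass
open Fermat.Agent.GB.B3 Fermat.Agent.GB.B3.EisGamma0 Fermat.Agent.GB.B3.GamH
open Fermat.Agent.GB.B3.RealLevel Fermat.Agent.GB.B3.HeckeActH Fermat.Agent.GB.B3.HeckeAct
open Fermat.Agent.GB.B3.CycInst Fermat.Agent.GB.B3.StepInst Fermat.Agent.GB.B3.TWLevel
open Fermat.Agent.GB.B3.ChiLevelMulti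
open Fermat.Agent.GB.B3.Tower Fermat.Agent.GB.B3.Final Fermat.Agent.GB.B3.TWChars
open Fermat.Agent.GB.B3.FinalTW Fermat.Agent.GB.B3.Plug
open Fermat.Agent.GJ.J2.ZStruct Fermat.Agent.GJ.J2.Lat
open Fermat.Agent.GB.B4.Datum.Carrier Fermat.Agent.GB.B4.Datum.ImageRing
open Fermat.Agent.GB.B4.Datum.TQFields
open Fermat.Agent.Common_helper32
open Fermat.Agent.GB.P5.H1Plug

namespace Fermat.Agent.GB.B9.ProviderFlat.G4H1

section Gen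

variable {N : ℕ} [NeZero N] (Sy : Symbols N) {Δ : Type} [CommGroup Δ] (θ : (ZMod N)ˣ →* Δ)
  {O : Type} [CommRing O] {𝔪 : Ideal (Sy.𝕋 O)}
  {M0 : Type} [AddCommGroup M0] [Module O M0] {act0 : Sy.𝕋 O →ₐ[O] Module.End O M0}
  {j : ℕ} {Nk : Fin j → ℕ} {B : FreeLevel O (Sy.𝕋 O) M0 act0 j Nk}
  {E : Fin j → Module.End O (Additive (GammaH θ) →+ O)}
  (R : Realizes B (actH Sy O θ) 𝔪 E)

/-- an operator of the big level described on representatives as `⟨d⟩ T_ℓ` is determined by the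
`diaLin * actH` form of that description -/
theorem eq_of_ι (f : Module.End O B.M) (d : Gamma0 N) {ℓ : ℕ} [Fact ℓ.Prime] (hℓN : ¬ ℓ ∣ N)
    (hι : ∀ x, R.ι (f x) = diaH θ O d (TH θ O hℓN (R.ι x)))
    (i : Sy.ι₁) (hi : Sy.ℓ i = ℓ) (x x' : B.M)
    (hx : R.ι x' = (diaLin O θ d * actH Sy O θ (MvPolynomial.X (Sum.inl i))) (R.ι x)) :
    f x = x' := by
  haveI := Sy.factℓ i
  apply R.inj
  rw [hx, hι, Module.End.mul_apply, diaLin_apply, actH_X_inl]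
  congr 1
  exact G2.TH_congr θ O hi.symm hℓN (Sy.hℓN i) _

end Gen

section Plug

variable {N p : ℕ} [NeZero N] [hpF : Fact p.Prime] {K : ℕ} {r e N' : ℕ → ℕ}
variable (Sy : Symbols N)
variable {O : Type} [CommRing O] [IsDomain O] [IsDiscreteValuationRing O]
  [IsAdicComplete (IsLocalRing.maximalIdeal O) O] [Finite (IsLocalRing.ResidueField O)]
  [CharZero O] [Module.IsTorsionFree ℤ O]
variable (𝔪 : Ideal (Sy.𝕋 O)) [𝔪.IsMaximal]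
variable (H : PrimeData N p K r e N') {ϖ : O} {s0 : Sy.ι₁} (h : Hyp Sy 𝔪 p ϖ s0)
variable (s k : ℕ) (c : Fin s → O) (hc : ∀ v : Fin s, c v ^ p ^ e (s + k - 1 - v) = 1)
  (hc1 : ∀ v, (1 : O) - c v ∈ Ideal.span {ϖ})

variable {N'' : ℕ} [NeZero N''] {S : Finset ℕ}
  (twP : ↥(heckeAlgebra N'' 2 (↑S : Set ℕ)) →+* Module.End O (bigLevel Sy 𝔪 H h (s + k)).M)
  (hD : ∀ t i, twP t * (bigLevel Sy 𝔪 H h (s + k)).D i =
    (bigLevel Sy 𝔪 H h (s + k)).D i * twP t)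
  (θA : ↥(heckeAlgebra N'' 2 (↑S : Set ℕ)) →+* IsLocalRing.ResidueField O)

/-- **(1pt) on the `G2` objects at `Plug.tw`** -/
theorem h1_G2 (hN : Squarefree N) (hsk : s + k ≤ K)
    [IsLocalRing (G2.T Sy 𝔪 H h s k c hc hc1 twP hD θA)]
    [IsNoetherianRing (G2.T Sy 𝔪 H h s k c hc hc1 twP hD θA)]
    [Algebra.IsIntegral O (G2.T Sy 𝔪 H h s k c hc hc1 twP hD θA)]
    (i : Fin k)
    (ρQ : GaloisRepAdic (G2.T Sy 𝔪 H h s k c hc hc1 twP hD θA))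
    (hpS : p ∈ S) (hNtopS : ∀ q : ℕ, q.Prime → q ∣ N'' → q ∈ S)
    (hNS : ∀ q : ℕ, q.Prime → q ∣ N → q ∈ S)
    (hchar : ∀ (ℓ : ℕ) (hℓ : ℓ.Prime) (hℓN : ¬ ℓ ∣ N'') (hℓS : ℓ ∉ (↑S : Set ℕ))
      (A : ValuationSubring Qb), A.LiesOverPrime ℓ → ∀ σ : GQ, A.IsFrobeniusAt σ ℓ →
        LinearMap.charpoly (ρQ.ρ σ) =
          X ^ 2 - C (chi O θA (prodTw O (G2.tw₁ Sy 𝔪 H h s k c hc hc1 twP hD)
              (G2.twχ Sy 𝔪 H h s k c hc hc1 twP hD)) (heckeAlgebra.T hℓ hℓN hℓS)) * X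
            + C ((ℓ : G2.T Sy 𝔪 H h s k c hc hc1 twP hD θA)))
    (dℓ : PrimesOff (↑S : Set ℕ) → Gamma0 N)
    (hdℓ : ∀ (l : PrimesOff (↑S : Set ℕ)) (u : (ZMod N)ˣ),
      (u : ZMod N) = ((l.1 : ℕ) : ZMod N) →
      chi (Theta (Δs p e) H.psi (s + k)) (dℓ l) ^ 2 * Theta (Δs p e) H.psi (s + k) u = 1)
    (hnd : ∀ l : PrimesOff (↑S : Set ℕ), ¬ (l.1 : ℕ) ∣ N)
    (hι : ∀ (l : PrimesOff (↑S : Set ℕ)) (x : (bigLevel Sy 𝔪 H h (s + k)).M),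
      (bigReal Sy 𝔪 H h (s + k)).ι (twP (formsGenS N'' (↑S : Set ℕ) l) x) =
        diaH (Theta (Δs p e) H.psi (s + k)) O (dℓ l)
          (haveI : Fact (l.1 : ℕ).Prime := ⟨l.1.2⟩
           TH (Theta (Δs p e) H.psi (s + k)) O (hnd l)
            ((bigReal Sy 𝔪 H h (s + k)).ι x)))
    (ev : Sy.𝕋 O →ₐ[O] IsLocalRing.ResidueField O) (hker𝔪 : ∀ t : Sy.𝕋 O, t ∈ 𝔪 ↔ ev t = 0)
    (hsym : ∀ l : PrimesOff (↑S : Set ℕ), ∃ i : Sy.ι₁, Sy.ℓ i = (l.1 : ℕ) ∧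
      θA (formsGenS N'' (↑S : Set ℕ) l) = ev (MvPolynomial.X (Sum.inl i)))
    (ρbar : ResidualGaloisRep (IsLocalRing.ResidueField O)) (habs : ρbar.IsAbsolutelyIrreducible)
    (hfrob : ∀ l : PrimesOff (↑S : Set ℕ),
      ∀ P : ValuationSubring Qb, P.LiesOverPrime (l.1 : ℕ) → ∀ σ : GQ,
        P.IsFrobeniusAt σ (l.1 : ℕ) →
        ∃ d₀ : IsLocalRing.ResidueField O, LinearMap.charpoly (ρbar.ρ σ)
          = X ^ 2 - C (θA (formsGenS N'' (↑S : Set ℕ) l)) * X + C d₀)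
    {Ω : Type} [CommRing Ω] [IsReduced Ω] [Nontrivial Ω] [Algebra O Ω]
    (h2 : ∀ c : Ω, (2 : Ω) * c = 0 → c = 0)
    (hrp : r (k - 1 - (i : ℕ)) ≠ p)
    (P : ValuationSubring Qb) (hP : P.LiesOverPrime (r (k - 1 - (i : ℕ))))
    (Bas : Module.Basis (Fin 2) (G2.T Sy 𝔪 H h s k c hc hc1 twP hD θA) ρQ.V)
    (χ : Fin 2 → P.decompositionSubgroup ℚ →* (G2.T Sy 𝔪 H h s k c hc hc1 twP hD θA)ˣ)
    (hχ : ∀ (j : Fin 2) (σ : P.decompositionSubgroup ℚ),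
      ρQ.ρ (σ : GQ) (Bas j) = (χ j σ : G2.T Sy 𝔪 H h s k c hc hc1 twP hD θA) • Bas j)
    (σ : GQ) (hσ : σ ∈ P.inertiaSubgroupIn ℚ) (hσD : σ ∈ P.decompositionSubgroup ℚ)
    (θ : G2.T Sy 𝔪 H h s k c hc hc1 twP hD θA →ₐ[O] Ω)
    (hocc : (∀ t, (∀ m, G2.a₁ Sy 𝔪 H h s k c hc hc1 twP hD θA t m ∈
        LinearMap.range ((tw Sy 𝔪 H h s k c hc hc1).L1.D i - 1)) → θ t = 0) ∨
      (∀ t, (∀ m, G2.a₂ Sy 𝔪 H h s k c hc hc1 twP hD θA t m ∈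
        LinearMap.range ((tw Sy 𝔪 H h s k c hc hc1).Lχ.D i - 1)) → θ t = 0))
    (j : Fin 2) : θ (χ j ⟨σ, hσD⟩ : G2.T Sy 𝔪 H h s k c hc hc1 twP hD θA) = 1 := by
  choose idx hidx hθidx using hsym
  -- the generator description of `twP` in the `diaLin * actH` form
  have hιX : ∀ (l : PrimesOff (↑S : Set ℕ)) (x x' : (bigLevel Sy 𝔪 H h (s + k)).M),
      (bigReal Sy 𝔪 H h (s + k)).ι x'
        = (diaLin O (Theta (Δs p e) H.psi (s + k)) (dℓ l)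
            * actH Sy O (Theta (Δs p e) H.psi (s + k)) (MvPolynomial.X (Sum.inl (idx l))))
          ((bigReal Sy 𝔪 H h (s + k)).ι x) →
      twP (formsGenS N'' (↑S : Set ℕ) l) x = x' := by
    intro l x x' hx
    haveI : Fact (l.1 : ℕ).Prime := ⟨l.1.2⟩
    exact eq_of_ι Sy (Theta (Δs p e) H.psi (s + k)) (bigReal Sy 𝔪 H h (s + k))
      (twP (formsGenS N'' (↑S : Set ℕ) l)) (dℓ l) (hnd l) (fun x => hι l x) (idx l) (hidx l)
      x x' hx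
  refine h1_plug Sy 𝔪 H h s k c hc hc1 hN hsk
    (G2.a₁ Sy 𝔪 H h s k c hc hc1 twP hD θA) (G2.a₂ Sy 𝔪 H h s k c hc hc1 twP hD θA) i
    (fun t => G2.a₁_D Sy 𝔪 H h s k c hc hc1 twP hD θA t i)
    (fun t => G2.a₂_D Sy 𝔪 H h s k c hc hc1 twP hD θA t i)
    ρQ S hpS hNtopS hNS
    (chi O θA (prodTw O (G2.tw₁ Sy 𝔪 H h s k c hc hc1 twP hD)
      (G2.twχ Sy 𝔪 H h s k c hc hc1 twP hD)))
    hchar dℓ hdℓ idx hidx ?_ ?_
    (ev : Sy.𝕋 O →+* IsLocalRing.ResidueField O) (fun c => ?_) hker𝔪 ρbar habs ?_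
    h2 hrp P hP Bas χ hχ σ hσ hσD θ hocc j
  · intro l x x' hx
    exact (LinearMap.congr_fun
      (G2.a₁_chi Sy 𝔪 H h s k c hc hc1 twP hD θA (formsGenS N'' (↑S : Set ℕ) l)) _).trans
      ((G2.tw₁_fmk Sy 𝔪 H h s k c hc hc1 twP hD (formsGenS N'' (↑S : Set ℕ) l) x).trans
        (congrArg (fmk (frD (bigLevel Sy 𝔪 H h (s + k))) (fun _ => (1 : O))) (hιX l x x' hx)))
  · intro l x x' hx
    exact (LinearMap.congr_fun
      (G2.a₂_chi Sy 𝔪 H h s k c hc hc1 twP hD θA (formsGenS N'' (↑S : Set ℕ) l)) _).trans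
      ((G2.twχ_fmk Sy 𝔪 H h s k c hc hc1 twP hD (formsGenS N'' (↑S : Set ℕ) l) x).trans
        (congrArg (fmk (frD (bigLevel Sy 𝔪 H h (s + k))) c) (hιX l x x' hx)))
  · exact ev.commutes c
  · intro l P' hP' σ' hσ'
    obtain ⟨d₀, hd₀⟩ := hfrob l P' hP' σ' hσ'
    exact ⟨d₀, by rw [hd₀, hθidx l]; rfl⟩

end Plug

end Fermat.Agent.GB.B9.ProviderFlat.G4H1
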