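/-
GATE-B / B9 PROVIDER (flat branch), group **G7 = `he`** at THE `TWLevelData` of record
`Q.tw1F hq hqM hsq hcong hp3 hcq hcq1` (helper51 `G1One`; ruling R9-superseded, board 6725)
(helper52).

`he_tw1F` = `G7.TWSetG7.he_twF` with `Q.twF … 0 …` replaced by `Q.tw1F …`
(`Plug.tw Q.Sy Q.𝔪 (Q.primeData …) (Q.hyp hp3) 1 g (fun _ => cq) _ _`): the binder `he` of
`Q.exists_level1` / `Lower.GroupsOn` / helper59 `G5Pkg.nonempty_TWInput_thetaAt`, for EVERY Kummer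
test pair at `q`.

DISCHARGED: the level bookkeeping (`Q.N = Nl Q q * q`), `hbase` (from
`¬ W.IsResiduallyModularOfLevel p (M / q)`, helper69 `N3`), (BND) (squarefree level).
LEFT as binders: the G2 outputs `T_Q χ a₁ tw₁ twP` and the G3 outputs `ψ ρ_Q` + the characteristic
polynomials of Frobenius.
-/
import Mathlib
import Fermat.Agent.GB.B9.ProviderFlat.G7
import Fermat.Agent.GB.B9.ProviderFlat.G1One

set_option autoImplicit false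
set_option linter.unusedSectionVars false
set_option linter.unusedVariables false
set_option linter.style.haveILetI false

noncomputable section

open scoped MatrixGroups
open CongruenceSubgroup Polynomial IsLocalRing CuspForm
open Fermat.Agent.GM.B
open Fermat.Agent.GB.B3 Fermat.Agent.GB.B3.EisGamma0 Fermat.Agent.GB.B3.GamH
open Fermat.Agent.GB.B3.RealLevel Fermat.Agent.GB.B3.HeckeActH Fermat.Agent.GB.B3.HeckeAct
open Fermat.Agent.GB.B3.TWChars Fermat.Agent.GB.B3.Tower Fermat.Agent.GB.B3.FinalTW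
open Fermat.Agent.GJ.J2.Lat

namespace Fermat.Agent.GB.B9.ProviderFlat.G7

/-- `G_ℚ`. -/
local notation "GQ" => AlgebraicClosure ℚ ≃ₐ[ℚ] AlgebraicClosure ℚ
/-- `ℚ̄`. -/
local notation "Qb" => AlgebraicClosure ℚ

open Fermat.Agent.GB.B3.L1Iso Fermat.Agent.GB.B3.Plug Fermat.Agent.GB.B3.ChiLevelMulti
  Fermat.Agent.GB.B3.Final Fermat.Agent.GB.B3.TWLevel
  Fermat.Agent.GB.B3.LocTransport Fermat.Agent.S16_helper49 ModularCurve.Period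
  Fermat.Agent.GM.EisClass Fermat.Agent.GB.B9.ThetaT
  Fermat.Agent.GB.Setup.SetupPkg Fermat.Agent.GB.B9.ProviderFlat.G1
  Fermat.Agent.GB.B9.ProviderFlat.H1 Fermat.Agent.GB.B7.Kill1Var
  Fermat.Agent.GB.B8.LevelIter Fermat.Agent.GB.B3.StepInst Fermat.Agent.GB.B8.LevelGen
  Fermat.Agent.GB.Def.LocGenInst

variable {p : ℕ} [hpF : Fact p.Prime] {W : WeierstrassCurve ℤ}
  {hcard₁ : Nat.card (Submodule.torsionBy ℤ
    ((W.map (Int.castRingHom ℚ)).toAffine.baseChange (AlgebraicClosure ℚ)).Point p) = p ^ 2}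
  {hker : GaloisFactorsThroughFiniteLevel
    (WeierstrassCurve.Affine.Point.galoisRepModuleEnd (K := AlgebraicClosure ℚ) ℚ
      (W.map (Int.castRingHom ℚ)) p)}
  {M A : ℕ} {P : Pkg p W hcard₁ hker M A} {g n : ℕ} (Q : TWSet P g n)

namespace TWSetG7

variable {q eq : ℕ} (hq : q.Prime) (hqM : q ∣ M) (hsq : Squarefree M) (hcong : p ^ eq ∣ q - 1)
  (hp3 : p ≠ 3) {cq : P.O} (hcq : cq ^ p ^ eq = 1) (hcq1 : (1 : P.O) - cq ∈ Ideal.span {P.ϖ})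
variable {TQ : Type} [CommRing TQ] [IsLocalRing TQ] [Algebra P.O TQ]
  {ρbar : ResidualGaloisRep (ResidueField P.O)}
  {𝒟 : ∀ ⦃A : Type⦄ [CommRing A] [IsLocalRing A] [Algebra P.O A], GaloisRepAdic A → Prop}
  {DQ : GaloisRep.DeformationRingData P.O ρbar 𝒟}

/-- **G7 = the binder `he` of `Q.exists_level1` / `Lower.GroupsOn` /
`G5Pkg.nonempty_TWInput_thetaAt` at THE `TWLevelData` of record `Q.tw1F …`**, for every Kummer
test pair at `q`. -/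
theorem he_tw1F (hno : ¬ W.IsResiduallyModularOfLevel p (M / q))
    (S : Finset ℕ) (hSN : ∀ ℓ : ℕ, ℓ.Prime → ℓ ∣ Q.N → ℓ ∈ S) (hpS : p ∈ S) (hqp : q ≠ p)
    {N' : ℕ} [NeZero N'] (hSN' : ∀ ℓ : ℕ, ℓ.Prime → ℓ ∣ N' → ℓ ∈ (↑S : Set ℕ))
    (ψ : DQ.R →ₐ[P.O] TQ) (hψ : IsLocalHom (ψ : DQ.R →+* TQ)) (ρQ : GaloisRepAdic TQ)
    (hequiv : (DQ.ρ.baseChangeAlong (ψ : DQ.R →+* TQ) hψ).IsEquiv ρQ)
    (χ : ↥(heckeAlgebra N' 2 (↑S : Set ℕ)) →+* TQ)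
    (hχ : Algebra.adjoin P.O (Set.range χ) = ⊤)
    (a₁ : TQ →ₐ[P.O] Module.End P.O (Q.tw1F hq hqM hsq hcong hp3 hcq hcq1).L1.M)
    (hred : ∀ t : TQ, a₁ t * a₁ t = 0 → a₁ t = 0)
    (tw₁ : ↥(heckeAlgebra N' 2 (↑S : Set ℕ)) →+*
      Module.End P.O (Q.tw1F hq hqM hsq hcong hp3 hcq hcq1).L1.M)
    (ha : ∀ t, a₁ (χ t) = tw₁ t)
    (twP : ↥(heckeAlgebra N' 2 (↑S : Set ℕ)) →+*
      Module.End P.O (bigLevel Q.Sy Q.𝔪 (Q.primeData hq hqM hsq hcong) (Q.hyp hp3) (1 + g)).M)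
    (hfmk : ∀ t (x : (bigLevel Q.Sy Q.𝔪 (Q.primeData hq hqM hsq hcong) (Q.hyp hp3) (1 + g)).M),
      tw₁ t (fmk (frD (bigLevel Q.Sy Q.𝔪 (Q.primeData hq hqM hsq hcong) (Q.hyp hp3) (1 + g)))
          (fun _ => (1 : P.O)) x)
        = fmk (frD (bigLevel Q.Sy Q.𝔪 (Q.primeData hq hqM hsq hcong) (Q.hyp hp3) (1 + g)))
          (fun _ => (1 : P.O)) (twP t x))
    (hT : ∀ (ℓ : ℕ) (hℓ : ℓ.Prime) (hℓN' : ¬ ℓ ∣ N') (hℓS : ℓ ∉ (↑S : Set ℕ))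
        (hℓN : ¬ ℓ ∣ Q.N),
      haveI : Fact ℓ.Prime := ⟨hℓ⟩
      ∃ d : Gamma0 Q.N,
        (∀ u : (ZMod Q.N)ˣ, (u : ZMod Q.N) = ((ℓ : ℕ) : ZMod Q.N) →
          chi (Theta (Δs p (eOf g (n + 1) eq)) (Q.primeData hq hqM hsq hcong).psi (1 + g)) d ^ 2 *
            Theta (Δs p (eOf g (n + 1) eq)) (Q.primeData hq hqM hsq hcong).psi (1 + g) u = 1) ∧
        ∀ x : (bigLevel Q.Sy Q.𝔪 (Q.primeData hq hqM hsq hcong) (Q.hyp hp3) (1 + g)).M,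
          (bigReal Q.Sy Q.𝔪 (Q.primeData hq hqM hsq hcong) (Q.hyp hp3) (1 + g)).ι
              (twP (heckeAlgebra.T hℓ hℓN' hℓS) x)
            = diaH (Theta (Δs p (eOf g (n + 1) eq)) (Q.primeData hq hqM hsq hcong).psi (1 + g))
                P.O d
                (TH (Theta (Δs p (eOf g (n + 1) eq)) (Q.primeData hq hqM hsq hcong).psi (1 + g))
                  P.O hℓN
                  ((bigReal Q.Sy Q.𝔪 (Q.primeData hq hqM hsq hcong) (Q.hyp hp3) (1 + g)).ι x)))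
    (hρ : ∀ (ℓ : ℕ) (hℓ : ℓ.Prime) (hℓN' : ¬ ℓ ∣ N') (hℓS : ℓ ∉ (↑S : Set ℕ)),
      ∀ A : ValuationSubring Qb, A.LiesOverPrime ℓ → ∀ σ : GQ, A.IsFrobeniusAt σ ℓ →
        LinearMap.charpoly (ρQ.ρ σ)
          = X ^ 2 - C (χ (heckeAlgebra.T hℓ hℓN' hℓS)) * X + C ((ℓ : TQ))) :
    haveI : Fact q.Prime := ⟨hq⟩
    ∀ φ τ₀ : GQ, KummerTests q p φ τ₀ →
      a₁ ((matT ψ φ).trace ^ 2 - (1 + (q : TQ)) ^ 2) = 0 := by
  haveI : Fact q.Prime := ⟨hq⟩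
  intro φ τ₀ hK
  haveI : NeZero (Nl Q q) := neZero_Nl Q hqM
  obtain ⟨x, ζ, hx, hζ, hφ, hτ, hτx⟩ := hK
  exact he_plug_var (N_eq Q hqM) Q.Sy (hrN Q) (hqN Q hq hqM hsq) Q.𝔪
    (Q.primeData hq hqM hsq hcong) (Q.hyp hp3) g (fun _ => cq)
    (TWSet.hc_one (g := g) (eOf_eq (n + 1) eq) hcq) (fun _ => hcq1) (Nat.le_succ g) (hrk Q)
    (hbase_Nl Q hqM hsq hno) (hbnd_N Q hq hqM hsq hcong hp3 g) S hSN hpS hqp hSN' ψ hψ ρQ hequiv
    χ hχ a₁ hred tw₁ ha twP hfmk hT hρ (padicPlace q)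
    (Fermat.Agent.GP.Loc.TWLocalHlc.natCast_mem_nonunits_padicPlace q) φ hφ

end TWSetG7

end Fermat.Agent.GB.B9.ProviderFlat.G7
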