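/-
GATE-B / B9 PROVIDER, flat branch, groups **G3 (shape) + G5** of helper53's split (board 6307) of the
binders of helper51's `LevelMulti.nonempty_TWInput_multi` (helper59): **the `Θ`-side of ONE
`TWInput` is discharged by the outputs of B2 and B4.**

`nonempty_TWInput_theta` = `LevelMulti.nonempty_TWInput_multi` with

* `ζ := Fr × Fin 3`, `e := eFr pl hpl`, `RQ := DQ.R`, `Θ₀ := Ψ`, `ψ := ψ`                 (G3),
* `S v := matT ψ (τ₀ v)`, `F v := matT ψ (φ v)`, `γ v := gMat (pl v)`, `γi v := (gMat (pl v))⁻¹`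
  and `hFdet hrel hFres hSres hγ hΘa hΘn hSdet hres` from helper4's `ThetaT.package`, `htr hSu`
  from `ThetaT.unip_matT_of_isUnipotentOnInertiaAt`                                        (G5),

so that the binders left are

* G1 (B3) `tw hd₁ hd₂ hN hd`, G2 (B4) `T a₁ a₂ a₁_D a₂_D a_U`, G4 (P5) `x hx unit₁ unit₂`,
* the OUTPUT of helper4's `FrameThetaInst.MultiP6ThetaConcl` at `I := Fin (s + 1)`:
  `pl` (bijective onto the framed places), tame data `dd v` with `(dd v).q = ℓ v`, test elements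
  `φ v`, `τ₀ v`, `Ψ` surjective, `hcoords hpair hrel` VERBATIM,
* the OUTPUT of `G3.exists_psi_flat`: `ψ` local surjective, `ρ_Q` with `DQ.ρ ⊗_ψ T ≅ ρ_Q`,
  unipotent on inertia at `ℓ v`, `v ≠ last`; `τ₀ v` in an inertia group at `ℓ v`
  (`hin_of_kummerTests`),
* G6 `hnu` and G7 `he`, now statements about `matT ψ (τ₀ last)` and `matT ψ (φ last)`, whose
  characteristic polynomials are those of `ρ_Q(τ₀ last)`, `ρ_Q(φ last)` (`charpoly_matT_eq`,
  `trace_matT_eq`, `det_matT_eq`).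
-/
import Fermat.Agent.GB.B9.ThetaT
import Fermat.Agent.GB.B9.LevelMulti

set_option autoImplicit false
set_option linter.unusedSectionVars false
set_option linter.unusedVariables false
set_option linter.style.haveILetI false

namespace Fermat.Agent.GB.B9.ProviderFlat.G5

open IsLocalRing MvPowerSeries Matrix Module
open Fermat.Agent.S53_helper35 Fermat.Agent.GP.Tan.Linear
open Fermat.Agent.GB.Def.FramedRing Fermat.Agent.GB.Def.Frame Fermat.Agent.GB.Def.FrameRep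
open Fermat.Agent.GB.Local Fermat.Agent.GB.Local.ABig Fermat.Agent.GB.Local.Multi
open Fermat.Agent.GB.B9.ThetaT Fermat.Agent.GB.B9.LevelMulti Fermat.Agent.GB.B9.AlgHypMulti
open Fermat.Agent.GB.B9.AlgHypKill2 Fermat.Agent.GB.Local.Multi.Kill2Field
open Fermat.Agent.GB.Local.Multi.Kill2Q Fermat.Agent.GB.B3.TWLevel Fermat.Agent.GB.PatchSupp

noncomputable section

/-! ### the reindexing `e` -/

/-- **`e : Fr × Fin 3 ≃ Fin (3 (s + 1))`** from an enumeration of the framed places -/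
def eFr {Fr : Type} {s : ℕ} (pl : Fin (s + 1) → Fr) (hpl : Function.Bijective pl) :
    Fr × Fin 3 ≃ Fin (3 * (s + 1)) :=
  ((Equiv.prodCongr (Equiv.ofBijective pl hpl).symm (Equiv.refl (Fin 3))).trans
    (Equiv.prodComm (Fin (s + 1)) (Fin 3))).trans finProdFinEquiv

/-! ### `matT` and `ρ_Q` -/

section MatT

variable {𝒪 : Type} [CommRing 𝒪] [IsDomain 𝒪] [IsDiscreteValuationRing 𝒪]
  [IsAdicComplete (maximalIdeal 𝒪) 𝒪]
  {ρbar : ResidualGaloisRep (ResidueField 𝒪)}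
  {𝒟 : ∀ ⦃A : Type⦄ [CommRing A] [IsLocalRing A] [Algebra 𝒪 A], GaloisRepAdic A → Prop}
  {DQ : GaloisRep.DeformationRingData 𝒪 ρbar 𝒟}
  {T : Type} [CommRing T] [IsLocalRing T] [Algebra 𝒪 T]
  (ψ : DQ.R →ₐ[𝒪] T)

/-- the characteristic polynomial of `matT ψ σ` is the one of `ρ_Q(σ)` -/
theorem charpoly_matT_eq (hψ : IsLocalHom (ψ : DQ.R →+* T)) (ρQ : GaloisRepAdic T)
    (he : (DQ.ρ.baseChangeAlong (ψ : DQ.R →+* T) hψ).IsEquiv ρQ) (σ : GQ) :
    (matT ψ σ).charpoly = LinearMap.charpoly (ρQ.ρ σ) := by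
  rw [charpoly_matT ψ hψ, charpoly_eq_of_isEquiv he]

/-- if `charpoly ρ_Q(σ) = X² - t X + d` then `tr (matT ψ σ) = t` and `det (matT ψ σ) = d` -/
theorem trace_det_matT_eq (hψ : IsLocalHom (ψ : DQ.R →+* T)) (ρQ : GaloisRepAdic T)
    (he : (DQ.ρ.baseChangeAlong (ψ : DQ.R →+* T) hψ).IsEquiv ρQ) (σ : GQ) (t d : T)
    (hc : LinearMap.charpoly (ρQ.ρ σ) =
      Polynomial.X ^ 2 - Polynomial.C t * Polynomial.X + Polynomial.C d) :
    (matT ψ σ).trace = t ∧ (matT ψ σ).det = d := by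
  have h1 := charpoly_matT_eq ψ hψ ρQ he σ
  rw [hc, Matrix.charpoly_fin_two] at h1
  constructor
  · have := congrArg (fun f => Polynomial.coeff f 1) h1
    simp only [Polynomial.coeff_add, Polynomial.coeff_sub, Polynomial.coeff_X_pow,
      Polynomial.coeff_C_mul, Polynomial.coeff_X_one, Polynomial.coeff_C] at this
    norm_num at this
    first
      | exact this
      | exact this.symm
      | exact neg_injective this
      | exact (neg_injective this).symm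
  · have := congrArg (fun f => Polynomial.coeff f 0) h1
    simp only [Polynomial.coeff_add, Polynomial.coeff_sub, Polynomial.coeff_X_pow,
      Polynomial.coeff_C_mul, Polynomial.coeff_X_zero, Polynomial.coeff_C_zero] at this
    norm_num at this
    first
      | exact this
      | exact this.symm

end MatT

/-- the inertia binder `hin` of `nonempty_TWInput_theta` from Kummer test elements -/
theorem hin_of_kummerTests {q : ℕ} [Fact q.Prime] {p : ℕ} {φ τ₀ : GQ}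
    (h : Fermat.Agent.GB.Def.LocGenInst.KummerTests q p φ τ₀) :
    ∃ P : ValuationSubring (AlgebraicClosure ℚ), P.LiesOverPrime q ∧
      τ₀ ∈ P.inertiaSubgroupIn ℚ := by
  obtain ⟨x, ζ, hx, hζ, hφ, hτ, hτx⟩ := h
  exact ⟨padicPlace q,
    Fermat.Agent.GP.Loc.TWLocalHlc.natCast_mem_nonunits_padicPlace q, hτ⟩

/-! ### the `TWInput` -/

variable {O : Type} [CommRing O] [IsDomain O] [IsDiscreteValuationRing O]
  [IsAdicComplete (maximalIdeal O) O] [CharZero O]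

/-- **ONE `TWInput` on the multi ring, `Θ`-side discharged** (G3 + G5 of board 6307). -/
theorem nonempty_TWInput_theta {lam : O} {h : O} (hh : 2 * h = 1) {s g : ℕ}
    (ℓ : Fin (s + 1) → ℕ) {J₂ : Ideal (RM O (s + 1) g)} (hkill : Kill2Handle h ℓ J₂)
    {N : Fin g → ℕ} (hN : ∀ i, 0 < N i) {d : ℕ} (hd : 0 < d)
    {𝕋 : Type} [CommRing 𝕋] [Algebra O 𝕋]
    {M0 : Type} [AddCommGroup M0] [Module O M0] {act0 : 𝕋 →ₐ[O] Module.End O M0}
    {M0χ : Type} [AddCommGroup M0χ] [Module O M0χ] {act0χ : 𝕋 →ₐ[O] Module.End O M0χ}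
    -- G1 (B3)
    (tw : TWLevelData O lam 𝕋 M0 act0 M0χ act0χ g N) (hd₁ : tw.L1.d = d) (hd₂ : tw.Lχ.d = d)
    -- G2 (B4)
    (T : Type) [CommRing T] [IsLocalRing T] [Algebra O T] [Module.Finite O T] [IsReduced T]
    (a₁ : T →ₐ[O] Module.End O tw.L1.M) (a₂ : T →ₐ[O] Module.End O tw.Lχ.M)
    (a₁_D : ∀ t i, a₁ t * tw.L1.D i = tw.L1.D i * a₁ t)
    (a₂_D : ∀ t i, a₂ t * tw.Lχ.D i = tw.Lχ.D i * a₂ t)
    (a_U : ∀ (t : T) (x : tw.L1.M) (y : tw.Lχ.M),
      tw.U (Submodule.Quotient.mk x) = Submodule.Quotient.mk y →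
        tw.U (Submodule.Quotient.mk (a₁ t x)) = Submodule.Quotient.mk (a₂ t y))
    -- B2: the output of `FrameThetaInst.MultiP6ThetaConcl` at `I := Fin (s + 1)`
    {ρbar : ResidualGaloisRep (ResidueField O)}
    {𝒟 : ∀ ⦃A : Type⦄ [CommRing A] [IsLocalRing A] [Algebra O A], GaloisRepAdic A → Prop}
    {DQ : GaloisRep.DeformationRingData O ρbar 𝒟}
    {Fr : Type} [Finite Fr] (pl : Fin (s + 1) → Fr) (hpl : Function.Bijective pl)
    (dd : Fin (s + 1) → TameDatum O) (hdq : ∀ v, (dd v).q = ℓ v)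
    (φ τ₀ : Fin (s + 1) → GQ)
    (Ψ : RM O (s + 1) g →ₐ[O] FRing DQ Fr) (hΨ : Function.Surjective Ψ)
    (hcoords : ∀ i t, Ψ (X (Sum.inl (i, t))) =
      coords (dd i) (framedMat DQ Fr (pl i) (φ i)) (framedMat DQ Fr (pl i) (τ₀ i)) t)
    (hpair : ∀ i, IsTamePair (dd i) (framedMat DQ Fr (pl i) (φ i))
      (framedMat DQ Fr (pl i) (τ₀ i)))
    (hrel : ∀ i, framedMat DQ Fr (pl i) (φ i) * framedMat DQ Fr (pl i) (τ₀ i) =
      framedMat DQ Fr (pl i) (τ₀ i) ^ (dd i).q * framedMat DQ Fr (pl i) (φ i))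
    -- B4: the output of `G3.exists_psi_flat`
    (ψ : DQ.R →ₐ[O] T) (hψl : IsLocalHom (ψ : DQ.R →+* T)) (hψ : Function.Surjective ψ)
    (ρQ : GaloisRepAdic T)
    (hequiv : (DQ.ρ.baseChangeAlong (ψ : DQ.R →+* T) hψl).IsEquiv ρQ)
    (hu : ∀ v, v ≠ Fin.last s → ρQ.IsUnipotentOnInertiaAt (ℓ v))
    (hin : ∀ v, v ≠ Fin.last s → ∃ P : ValuationSubring (AlgebraicClosure ℚ),
      P.LiesOverPrime (ℓ v) ∧ τ₀ v ∈ P.inertiaSubgroupIn ℚ)
    -- G4 (P5)
    (x : Fin g → T) (hx : ∀ i, x i - 1 ∈ maximalIdeal T)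
    (unit₁ : ∀ i m, ∃ m', tw.L1.D i m - m = a₁ (x i) m' - m')
    (unit₂ : ∀ i m, ∃ m', tw.Lχ.D i m - m = a₂ (x i) m' - m')
    -- G6 (B5 at `q`)
    (hnu : ∀ i : Fermat.Agent.GB.Glue.Points.Idx O (Tchi a₂),
      ((matT ψ (τ₀ (Fin.last s))).map (phi a₂ i) - 1) ^ 2 = 0 →
        (matT ψ (τ₀ (Fin.last s))).map (phi a₂ i) = 1)
    -- G7 (B7)
    (he : a₁ ((matT ψ (φ (Fin.last s))).trace ^ 2 - (1 + (ℓ (Fin.last s) : T)) ^ 2) = 0) :
    Nonempty (TWInput O lam (RM O (s + 1) g) (J1 s g ((ℓ (Fin.last s) : O) - 1)) J₂ g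
      (3 * (s + 1)) N d) := by
  obtain ⟨hFdet, hrelT, hFres, hSres, hγ, hΘa, hΘn, -, hSdet, hres⟩ :=
    package ψ pl dd φ τ₀ Ψ hΨ hcoords hpair hrel hψl hh
  have hunip : ∀ v, v ≠ Fin.last s →
      (matT ψ (τ₀ v)).trace = 2 ∧ (matT ψ (τ₀ v)).det = 1 ∧ (matT ψ (τ₀ v) - 1) ^ 2 = 0 := by
    intro v hv
    obtain ⟨P, hP, hτ⟩ := hin v hv
    exact unip_matT_of_isUnipotentOnInertiaAt ψ hψl ρQ hequiv (hu v hv) P hP (τ₀ v) hτ
  exact nonempty_TWInput_multi hh ℓ hkill hN hd tw hd₁ hd₂ T a₁ a₂ a₁_D a₂_D a_U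
    (eFr pl hpl) Ψ hΨ ψ hψ x hx unit₁ unit₂
    (fun v => matT ψ (τ₀ v)) (fun v => matT ψ (φ v))
    (fun v => gMat (pl v)) (fun v => (gMat (pl v))⁻¹)
    (fun v => by rw [hFdet v, hdq v]) (fun v => by rw [hrelT v, hdq v]) hFres hSres hγ
    (fun v k => hΘa v k) (fun v k => hΘn v k)
    (fun v hv => (hunip v hv).1) (fun v hv => (hunip v hv).2.2) (hSdet _) (hres _) hnu he

end

end Fermat.Agent.GB.B9.ProviderFlat.G5
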