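/-
GATE-B / B9 PROVIDER, flat branch, groups G3 (shape) + G5 over the SETUP bundle (helper59):
**`G5.nonempty_TWInput_theta` fed DIRECTLY with helper4's `ThetaSupply.ThetaAt`.**

`nonempty_TWInput_thetaAt` : `P : SetupPkg.Pkg p W hcard₁ hker M A`, an INJECTIVE enumeration
`ℓs : Fin (s + 1) → ℕ` of the framed primes (`q = ℓs (Fin.last s)`), ONE Taylor–Wiles level
`(Sig, qv, DQ)` with `hΘ : ThetaAt P ℓs base Sig qv DQ` (= the last conjunct of
`ThetaSupply.exists_theta_FL` / `_SO`), and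

* G1 (B3) `tw hd₁ hd₂ hN hd`, G2 (B4) `T a₁ a₂ a₁_D a₂_D a_U`, G4 (P5) `x hx unit₁ unit₂` VERBATIM,
* the output of `G3.exists_psi_flat` : `ψ hψl hψ ρQ hequiv hu`,
* G6 `hnu`, G7 `he` asked for EVERY pair of Kummer test elements at `q` (the pair is chosen inside
  `ThetaAt`): `φ` any Frobenius element at `padicPlace q`, `τ₀` any element of the inertia group of
  `padicPlace q` moving a `p`-th root of `q` by a primitive `p`-th root of unity.

Conclusion: the `TWInput` of `LevelMulti.nonempty_TWInput_multi` on `RM P.O (s + 1) r`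
(`g := r` = the uniform number of Taylor–Wiles primes).
-/
import Fermat.Agent.GB.B9.ProviderFlat.G5
import Fermat.Agent.GB.B9.ThetaSupply

set_option autoImplicit false
set_option linter.unusedSectionVars false
set_option linter.unusedVariables false
set_option linter.style.haveILetI false

open WeierstrassCurve WeierstrassCurve.Affine.Point IsLocalRing
open scoped WeierstrassCurve.Affine

namespace Fermat.Agent.GB.B9.ProviderFlat.G5Pkg

open MvPowerSeries Matrix Module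
open Fermat.Agent.S53_helper35 Fermat.Agent.GP.Tan.Linear
open Fermat.Agent.GB.Setup.SetupPkg
open Fermat.Agent.GB.Def.FramedRing Fermat.Agent.GB.Def.Frame Fermat.Agent.GB.Def.FrameRep
open Fermat.Agent.GB.Def.FramedNodes Fermat.Agent.GB.Def.LocGenInst
open Fermat.Agent.GB.Local Fermat.Agent.GB.Local.ABig Fermat.Agent.GB.Local.Multi
open Fermat.Agent.GB.B9.ThetaT Fermat.Agent.GB.B9.LevelMulti Fermat.Agent.GB.B9.AlgHypMulti
open Fermat.Agent.GB.B9.AlgHypKill2 Fermat.Agent.GB.Local.Multi.Kill2Field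
open Fermat.Agent.GB.Local.Multi.Kill2Q Fermat.Agent.GB.B3.TWLevel Fermat.Agent.GB.PatchSupp
open Fermat.Agent.GB.B9.ThetaSupply Fermat.Agent.GB.B9.ProviderFlat.G5

noncomputable section

variable {p : ℕ} [Fact p.Prime] {W : WeierstrassCurve ℤ}
  {hcard₁ : Nat.card (Submodule.torsionBy ℤ
    ((W.map (Int.castRingHom ℚ))⁄(AlgebraicClosure ℚ)).Point p) = p ^ 2}
  {hker : GaloisFactorsThroughFiniteLevel
    (galoisRepModuleEnd (K := AlgebraicClosure ℚ) ℚ (W.map (Int.castRingHom ℚ)) p)}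
  {M A : ℕ} (P : Pkg p W hcard₁ hker M A)

/-- **ONE `TWInput` from `ThetaAt`** (G3 + G5 over the SETUP bundle). -/
theorem nonempty_TWInput_thetaAt {s : ℕ} (ℓs : Fin (s + 1) → ℕ) (hinj : Function.Injective ℓs)
    [Fact (ℓs (Fin.last s)).Prime]
    (base : Finset ℕ → ∀ ⦃B : Type⦄ [CommRing B] [IsLocalRing B] [Algebra P.O B],
      GaloisRepAdic B → Prop)
    {Sig : Finset Nat.Primes} {r : ℕ} {qv : Fin r → ℕ}
    {DQ : GaloisRep.DeformationRingData P.O P.rhobar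
      (framedCond p base P.Smin P.Su (Finset.univ.image qv))}
    (hΘ : ThetaAt P ℓs base Sig qv DQ)
    {h : P.O} (hh : 2 * h = 1)
    {J₂ : Ideal (RM P.O (s + 1) r)} (hkill : Kill2Handle h ℓs J₂)
    {N : Fin r → ℕ} (hN : ∀ i, 0 < N i) {d : ℕ} (hd : 0 < d)
    {𝕋 : Type} [CommRing 𝕋] [Algebra P.O 𝕋]
    {M0 : Type} [AddCommGroup M0] [Module P.O M0] {act0 : 𝕋 →ₐ[P.O] Module.End P.O M0}
    {M0χ : Type} [AddCommGroup M0χ] [Module P.O M0χ] {act0χ : 𝕋 →ₐ[P.O] Module.End P.O M0χ}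
    -- G1 (B3)
    (tw : TWLevelData P.O P.ϖ 𝕋 M0 act0 M0χ act0χ r N) (hd₁ : tw.L1.d = d) (hd₂ : tw.Lχ.d = d)
    -- G2 (B4)
    (T : Type) [CommRing T] [IsLocalRing T] [Algebra P.O T] [Module.Finite P.O T] [IsReduced T]
    (a₁ : T →ₐ[P.O] Module.End P.O tw.L1.M) (a₂ : T →ₐ[P.O] Module.End P.O tw.Lχ.M)
    (a₁_D : ∀ t i, a₁ t * tw.L1.D i = tw.L1.D i * a₁ t)
    (a₂_D : ∀ t i, a₂ t * tw.Lχ.D i = tw.Lχ.D i * a₂ t)
    (a_U : ∀ (t : T) (x : tw.L1.M) (y : tw.Lχ.M),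
      tw.U (Submodule.Quotient.mk x) = Submodule.Quotient.mk y →
        tw.U (Submodule.Quotient.mk (a₁ t x)) = Submodule.Quotient.mk (a₂ t y))
    -- G3 (B4): the output of `G3.exists_psi_flat`
    (ψ : DQ.R →ₐ[P.O] T) (hψl : IsLocalHom (ψ : DQ.R →+* T)) (hψ : Function.Surjective ψ)
    (ρQ : GaloisRepAdic T)
    (hequiv : (DQ.ρ.baseChangeAlong (ψ : DQ.R →+* T) hψl).IsEquiv ρQ)
    (hu : ∀ v, v ≠ Fin.last s → ρQ.IsUnipotentOnInertiaAt (ℓs v))
    -- G4 (P5)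
    (x : Fin r → T) (hx : ∀ i, x i - 1 ∈ maximalIdeal T)
    (unit₁ : ∀ i m, ∃ m', tw.L1.D i m - m = a₁ (x i) m' - m')
    (unit₂ : ∀ i m, ∃ m', tw.Lχ.D i m - m = a₂ (x i) m' - m')
    -- G6 (B5 at `q`), for every Kummer test pair at `q`
    (hnu : ∀ φ τ₀ : GQ, KummerTests (ℓs (Fin.last s)) p φ τ₀ →
      ∀ i : Fermat.Agent.GB.Glue.Points.Idx P.O (Tchi a₂),
        ((matT ψ τ₀).map (phi a₂ i) - 1) ^ 2 = 0 → (matT ψ τ₀).map (phi a₂ i) = 1)
    -- G7 (B7), for every Kummer test pair at `q`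
    (he : ∀ φ τ₀ : GQ, KummerTests (ℓs (Fin.last s)) p φ τ₀ →
      a₁ ((matT ψ φ).trace ^ 2 - (1 + (ℓs (Fin.last s) : T)) ^ 2) = 0) :
    Nonempty (TWInput P.O P.ϖ (RM P.O (s + 1) r) (J1 s r ((ℓs (Fin.last s) : P.O) - 1)) J₂ r
      (3 * (s + 1)) N d) := by
  obtain ⟨pl, dd, φ, τ₀, Ψ, hpls, hplOf, hdq, hK, hΨ, hco, hpair, hrel⟩ := hΘ
  have hplinj : Function.Injective pl := by
    intro i j hij
    apply hinj
    rw [← hplOf i, ← hplOf j, hij]
  have hKlast : KummerTests (ℓs (Fin.last s)) p (φ (Fin.last s)) (τ₀ (Fin.last s)) :=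
    Fermat.Agent.GB.Def.FrameThetaInst.kummerTests_congr p (hplOf (Fin.last s)) (hK (Fin.last s))
  have hin : ∀ v, v ≠ Fin.last s → ∃ Pl : ValuationSubring (AlgebraicClosure ℚ),
      Pl.LiesOverPrime (ℓs v) ∧ τ₀ v ∈ Pl.inertiaSubgroupIn ℚ := by
    intro v _
    have h1 := hin_of_kummerTests (hK v)
    rw [hplOf v] at h1
    exact h1
  exact nonempty_TWInput_theta hh ℓs hkill hN hd tw hd₁ hd₂ T a₁ a₂ a₁_D a₂_D a_U
    pl ⟨hplinj, hpls⟩ dd hdq φ τ₀ Ψ hΨ hco hpair hrel ψ hψl hψ ρQ hequiv hu hin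
    x hx unit₁ unit₂ (hnu _ _ hKlast) (he _ _ hKlast)

end

end Fermat.Agent.GB.B9.ProviderFlat.G5Pkg
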