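/-
GATE-B / B9 PROVIDER, flat branch, **LOWER HALF of the final assembly, file 1** (helper54, ruling
R7.2 of helper53, board 6542 / 6552): the record of what the groups G2 (B4: `T`, `a₁`, `a₂`),
G3 (`ψ`, `ρ_Q`), G4 (P5: `x`, units), G6 (B5: `hnu`), G7 (B7: `he`) owe ON A GIVEN Taylor–Wiles
level datum `tw` (G1), and ONE `TWInput` from it.

* `GroupsOn P ℓs base DQ tw` : the binders of helper59's `G5Pkg.nonempty_TWInput_thetaAt` after
  the G1 block, VERBATIM, as ONE record (`hnu`, `he` for every pair of Kummer test elements at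
  `q = ℓs (Fin.last s)`).  The deformation condition `base` at `p` is a PARAMETER (flat /
  strict-ordinary), `tw` is a PARAMETER (`G1.TWSet.twF` in `LowerQ.lean`);
* `nonempty_TWInput_of_groupsOn` : `G5Pkg.nonempty_TWInput_thetaAt` on the record.
-/
import Fermat.Agent.GB.B9.ProviderFlat.G5Pkg

set_option autoImplicit false
set_option linter.unusedSectionVars false
set_option linter.unusedVariables false
set_option linter.style.haveILetI false

open WeierstrassCurve WeierstrassCurve.Affine.Point IsLocalRing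
open scoped WeierstrassCurve.Affine

namespace Fermat.Agent.GB.B9.ProviderFlat.Lower

open MvPowerSeries Matrix Module
open Fermat.Agent.S53_helper35 Fermat.Agent.GP.Tan.Linear
open Fermat.Agent.GB.Setup.SetupPkg
open Fermat.Agent.GB.Def.FramedRing Fermat.Agent.GB.Def.Frame Fermat.Agent.GB.Def.FrameRep
open Fermat.Agent.GB.Def.FramedNodes Fermat.Agent.GB.Def.LocGenInst
open Fermat.Agent.GB.Local Fermat.Agent.GB.Local.ABig Fermat.Agent.GB.Local.Multi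
open Fermat.Agent.GB.B9.ThetaT Fermat.Agent.GB.B9.LevelMulti Fermat.Agent.GB.B9.AlgHypMulti
open Fermat.Agent.GB.B9.AlgHypKill2 Fermat.Agent.GB.Local.Multi.Kill2Field
open Fermat.Agent.GB.Local.Multi.Kill2Q Fermat.Agent.GB.B3.TWLevel Fermat.Agent.GB.PatchSupp
open Fermat.Agent.GB.B9.ThetaSupply Fermat.Agent.GB.B9.ProviderFlat.G5

noncomputable section

variable {p : ℕ} [Fact p.Prime] {W : WeierstrassCurve ℤ}
  {hcard₁ : Nat.card (Submodule.torsionBy ℤ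
    ((W.map (Int.castRingHom ℚ))⁄(AlgebraicClosure ℚ)).Point p) = p ^ 2}
  {hker : GaloisFactorsThroughFiniteLevel
    (galoisRepModuleEnd (K := AlgebraicClosure ℚ) ℚ (W.map (Int.castRingHom ℚ)) p)}
  {M A : ℕ} (P : Pkg p W hcard₁ hker M A)

/-- **Everything the groups G2, G3, G4, G6, G7 owe at ONE Taylor–Wiles level** `(qv, DQ)` on the
level datum `tw` of G1: the binders of `G5Pkg.nonempty_TWInput_thetaAt` VERBATIM (`hnu`, `he` for
every pair of Kummer test elements at `q = ℓs (Fin.last s)`). -/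
structure GroupsOn {s : ℕ} (ℓs : Fin (s + 1) → ℕ) [Fact (ℓs (Fin.last s)).Prime]
    (base : Finset ℕ → ∀ ⦃B : Type⦄ [CommRing B] [IsLocalRing B] [Algebra P.O B],
      GaloisRepAdic B → Prop)
    {r : ℕ} {qv : Fin r → ℕ}
    (DQ : GaloisRep.DeformationRingData P.O P.rhobar
      (framedCond p base P.Smin P.Su (Finset.univ.image qv)))
    {N : Fin r → ℕ}
    {𝕋 : Type} [CommRing 𝕋] [Algebra P.O 𝕋]
    {M0 : Type} [AddCommGroup M0] [Module P.O M0] {act0 : 𝕋 →ₐ[P.O] Module.End P.O M0}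
    {M0χ : Type} [AddCommGroup M0χ] [Module P.O M0χ] {act0χ : 𝕋 →ₐ[P.O] Module.End P.O M0χ}
    (tw : TWLevelData P.O P.ϖ 𝕋 M0 act0 M0χ act0χ r N) : Type 1 where
  /-- G2 (B4): the Hecke algebra `T_Q` -/
  T : Type
  [crT : CommRing T]
  [locT : IsLocalRing T]
  [algT : Algebra P.O T]
  [finT : Module.Finite P.O T]
  [redT : IsReduced T]
  a₁ : T →ₐ[P.O] Module.End P.O tw.L1.M
  a₂ : T →ₐ[P.O] Module.End P.O tw.Lχ.M
  a₁_D : ∀ t i, a₁ t * tw.L1.D i = tw.L1.D i * a₁ t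
  a₂_D : ∀ t i, a₂ t * tw.Lχ.D i = tw.Lχ.D i * a₂ t
  a_U : ∀ (t : T) (x : tw.L1.M) (y : tw.Lχ.M),
    tw.U (Submodule.Quotient.mk x) = Submodule.Quotient.mk y →
      tw.U (Submodule.Quotient.mk (a₁ t x)) = Submodule.Quotient.mk (a₂ t y)
  /-- G3 (B4): the output of `G3.exists_psi_flat` / `ProviderNew.G3.exists_psi_TQ_strict` -/
  ψ : DQ.R →ₐ[P.O] T
  hψl : IsLocalHom (ψ : DQ.R →+* T)
  hψ : Function.Surjective ψ
  ρQ : GaloisRepAdic T
  hequiv : (DQ.ρ.baseChangeAlong (ψ : DQ.R →+* T) hψl).IsEquiv ρQ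
  hu : ∀ v, v ≠ Fin.last s → ρQ.IsUnipotentOnInertiaAt (ℓs v)
  /-- G4 (P5): the Galois diamonds -/
  x : Fin r → T
  hx : ∀ i, x i - 1 ∈ maximalIdeal T
  unit₁ : ∀ i m, ∃ m', tw.L1.D i m - m = a₁ (x i) m' - m'
  unit₂ : ∀ i m, ∃ m', tw.Lχ.D i m - m = a₂ (x i) m' - m'
  /-- G6 (B5 at `q`), for every Kummer test pair at `q` -/
  hnu : ∀ φ τ₀ : GQ, KummerTests (ℓs (Fin.last s)) p φ τ₀ →
    ∀ i : Fermat.Agent.GB.Glue.Points.Idx P.O (Tchi a₂),
      ((matT ψ τ₀).map (phi a₂ i) - 1) ^ 2 = 0 → (matT ψ τ₀).map (phi a₂ i) = 1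
  /-- G7 (B7), for every Kummer test pair at `q` -/
  he : ∀ φ τ₀ : GQ, KummerTests (ℓs (Fin.last s)) p φ τ₀ →
    a₁ ((matT ψ φ).trace ^ 2 - (1 + (ℓs (Fin.last s) : T)) ^ 2) = 0

attribute [instance] GroupsOn.crT GroupsOn.locT GroupsOn.algT GroupsOn.finT GroupsOn.redT

/-- **ONE `TWInput` from `ThetaAt` + the G1 block + `GroupsOn`**
(= `G5Pkg.nonempty_TWInput_thetaAt` on the record). -/
theorem nonempty_TWInput_of_groupsOn {s : ℕ} (ℓs : Fin (s + 1) → ℕ)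
    (hinj : Function.Injective ℓs) [Fact (ℓs (Fin.last s)).Prime]
    (base : Finset ℕ → ∀ ⦃B : Type⦄ [CommRing B] [IsLocalRing B] [Algebra P.O B],
      GaloisRepAdic B → Prop)
    {Sig : Finset Nat.Primes} {r : ℕ} {qv : Fin r → ℕ}
    {DQ : GaloisRep.DeformationRingData P.O P.rhobar
      (framedCond p base P.Smin P.Su (Finset.univ.image qv))}
    (hΘ : ThetaAt P ℓs base Sig qv DQ)
    {h : P.O} (hh : 2 * h = 1)
    {J₂ : Ideal (RM P.O (s + 1) r)} (hkill : Kill2Handle h ℓs J₂)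
    {N : Fin r → ℕ} (hN : ∀ i, 0 < N i) {d : ℕ} (hd : 0 < d)
    {𝕋 : Type} [CommRing 𝕋] [Algebra P.O 𝕋]
    {M0 : Type} [AddCommGroup M0] [Module P.O M0] {act0 : 𝕋 →ₐ[P.O] Module.End P.O M0}
    {M0χ : Type} [AddCommGroup M0χ] [Module P.O M0χ] {act0χ : 𝕋 →ₐ[P.O] Module.End P.O M0χ}
    (tw : TWLevelData P.O P.ϖ 𝕋 M0 act0 M0χ act0χ r N) (hd₁ : tw.L1.d = d) (hd₂ : tw.Lχ.d = d)
    (G : GroupsOn P ℓs base DQ tw) :
    Nonempty (TWInput P.O P.ϖ (RM P.O (s + 1) r) (J1 s r ((ℓs (Fin.last s) : P.O) - 1)) J₂ r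
      (3 * (s + 1)) N d) :=
  Fermat.Agent.GB.B9.ProviderFlat.G5Pkg.nonempty_TWInput_thetaAt P ℓs hinj base hΘ hh hkill
    hN hd tw hd₁ hd₂ G.T G.a₁ G.a₂ G.a₁_D G.a₂_D G.a_U G.ψ G.hψl G.hψ G.ρQ G.hequiv
    G.hu G.x G.hx G.unit₁ G.unit₂ G.hnu G.he

end

end Fermat.Agent.GB.B9.ProviderFlat.Lower
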