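/-
GATE-B / B9 PROVIDER, **LOWER HALF of the final assembly, file 3** (helper54): the record
`Lower.GroupsOn` on helper51's `Q.tw1F …` over an ABSTRACT Hecke ring `T` (to be
`ImageRing.TQ P.O θQ (prodTw P.O tw₁ twχ)`, the image ring of the twisted Hecke action of
`heckeAlgebra N'' 2 SQ` on `M¹_Q × M^χ_Q`: helper74 `TQCompat.exists_fields_big` / `PlugTwisted`,
instances from `ImageRing` + `TQReduced`), from

* G2 : `T` with its eight instances, `a₁ a₂ a₁_D a₂_D a_U`;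
* G3 : the record of `G3Pkg.exists_psi_pkg` / `ProviderNew.G3Pkg.exists_psi_pkg_strict` as a
  HYPOTHESIS (so the statement is generic in the deformation condition `base` at `p`);
* G4 : `G4TW.exists_x_tw1F_rev` called inside; its open binders `h1 hB5₁ hB5₂` (at the prime
  `Q.qv (Fin.rev i)` of the `i`-th Taylor–Wiles diamond) are binders here;
* G6 `hnu`, G7 `he` : binders, in the `GroupsOn` spelling.

`ℓs (Fin.last s) = q` is NOT used here: the fields `hnu he hu` speak about `ℓs`, the level datum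
about `q`; the two are identified by the callers (`subst` along `FramedEnum.last`).
-/
import Fermat.Agent.GB.B9.ProviderFlat.LowerQ
import Fermat.Agent.GB.B9.ProviderFlat.G4TW1Rev

set_option autoImplicit false
set_option linter.unusedSectionVars false
set_option linter.unusedVariables false
set_option linter.style.haveILetI false

open WeierstrassCurve WeierstrassCurve.Affine.Point IsLocalRing
open scoped WeierstrassCurve.Affine

namespace Fermat.Agent.GB.B9.ProviderFlat.LowerFill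

open CuspForm Polynomial
open Fermat.Agent.GB.Setup.SetupPkg
open Fermat.Agent.GB.Def.FramedNodes
open Fermat.Agent.GB.B3.TWLevel
open Fermat.Agent.GB.B9.ThetaT Fermat.Agent.GB.B9.ThetaSupply
open Fermat.Agent.GB.Local.Multi.Kill2Field Fermat.Agent.GB.Local.Multi.Kill2Q
open Fermat.Agent.GB.Def.LocGenInst
open Fermat.Agent.GB.B9.ProviderFlat.Lower Fermat.Agent.GB.B9.ProviderFlat.G1
open Fermat.Agent.GB.B9.ProviderFlat.G4 Fermat.Agent.GB.B9.ProviderFlat.G4TW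
open Fermat.Agent.GB.E2.TWDiag Fermat.Agent.GB.Glue.Points

/-- `ℚ̄`. -/
local notation "Qb" => AlgebraicClosure ℚ
/-- `G_ℚ`. -/
local notation "GQ" => (AlgebraicClosure ℚ ≃ₐ[ℚ] AlgebraicClosure ℚ)

noncomputable section

variable {p : ℕ} [hpF : Fact p.Prime] {W : WeierstrassCurve ℤ}
  {hcard₁ : Nat.card (Submodule.torsionBy ℤ
    ((W.map (Int.castRingHom ℚ))⁄(AlgebraicClosure ℚ)).Point p) = p ^ 2}
  {hker : GaloisFactorsThroughFiniteLevel
    (galoisRepModuleEnd (K := AlgebraicClosure ℚ) ℚ (W.map (Int.castRingHom ℚ)) p)}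
  {M A : ℕ} {P : Pkg p W hcard₁ hker M A} {g n : ℕ} (Q : TWSet P g n)
  {q eq : ℕ} (hq : q.Prime) (hqM : q ∣ M) (hsq : Squarefree M) (hcong : p ^ eq ∣ q - 1)
  (hp3 : p ≠ 3) {cq : P.O} (hcq : cq ^ p ^ eq = 1)
  (hcq1 : (1 : P.O) - cq ∈ Ideal.span {P.ϖ})

/-- **`GroupsOn` on `Q.tw1F …` over a Hecke ring `T`**:
G4 discharged (`G4TW.exists_x_tw1F_rev`), G2 / G3 / (1pt) / (B5 at the Taylor–Wiles primes) /
G6 / G7 as hypotheses. -/
theorem groupsOn_of_parts {s : ℕ} (ℓs : Fin (s + 1) → ℕ) [Fact (ℓs (Fin.last s)).Prime]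
    (base : Finset ℕ → ∀ ⦃B : Type⦄ [CommRing B] [IsLocalRing B] [Algebra P.O B],
      GaloisRepAdic B → Prop)
    (DQ : GaloisRep.DeformationRingData P.O P.rhobar
      (framedCond p base P.Smin P.Su (Finset.univ.image Q.qv)))
    -- G2 (B4)
    (T : Type) [CommRing T] [IsLocalRing T] [Algebra P.O T] [IsLocalHom (algebraMap P.O T)]
    [Module.Finite P.O T] [IsReduced T] [IsNoetherianRing T] [IsAdicComplete (maximalIdeal T) T]
    (a₁ : T →ₐ[P.O]
      Module.End P.O (Q.tw1F hq hqM hsq hcong hp3 hcq hcq1).L1.M)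
    (a₂ : T →ₐ[P.O]
      Module.End P.O (Q.tw1F hq hqM hsq hcong hp3 hcq hcq1).Lχ.M)
    (a₁_D : ∀ t i, a₁ t * (Q.tw1F hq hqM hsq hcong hp3 hcq hcq1).L1.D i =
      (Q.tw1F hq hqM hsq hcong hp3 hcq hcq1).L1.D i * a₁ t)
    (a₂_D : ∀ t i, a₂ t * (Q.tw1F hq hqM hsq hcong hp3 hcq hcq1).Lχ.D i =
      (Q.tw1F hq hqM hsq hcong hp3 hcq hcq1).Lχ.D i * a₂ t)
    (a_U : ∀ (t : T)
      (x : (Q.tw1F hq hqM hsq hcong hp3 hcq hcq1).L1.M)
      (y : (Q.tw1F hq hqM hsq hcong hp3 hcq hcq1).Lχ.M),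
      (Q.tw1F hq hqM hsq hcong hp3 hcq hcq1).U (Submodule.Quotient.mk x) =
        Submodule.Quotient.mk y →
      (Q.tw1F hq hqM hsq hcong hp3 hcq hcq1).U (Submodule.Quotient.mk (a₁ t x)) =
        Submodule.Quotient.mk (a₂ t y))
    -- G3 : the record of `G3Pkg.exists_psi_pkg(_strict)`
    (ψ : DQ.R →ₐ[P.O] T)
    (hψl : IsLocalHom (ψ : DQ.R →+* T))
    (ρQ : GaloisRepAdic T)
    (hψ : Function.Surjective ψ)
    (hequiv : (DQ.ρ.baseChangeAlong (ψ : DQ.R →+* T) hψl).IsEquiv ρQ)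
    (hdet : ρQ.DetIsCyclotomic p)
    (hu : ∀ v, v ≠ Fin.last s → ρQ.IsUnipotentOnInertiaAt (ℓs v))
    (hres : ρQ.residual.IsEquiv
      (P.rhobar.baseChangeAlong
        (ResidueField.map (algebraMap P.O T))))
    -- (1pt) at the prime `Q.qv (Fin.rev i)` of the `i`-th Taylor–Wiles diamond
    (h1 : ∀ (i : Fin g) (Pl : ValuationSubring Qb) (hPl : Pl.LiesOverPrime (Q.qv (Fin.rev i)))
      (σ : GQ) (hσ : σ ∈ Pl.inertiaSubgroupIn ℚ)
      (Bas : Module.Basis (Fin 2) T ρQ.V)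
      (χ : Fin 2 → Pl.decompositionSubgroup ℚ →* Tˣ),
      (∀ (j : Fin 2) (τ : Pl.decompositionSubgroup ℚ),
        ρQ.ρ (τ : GQ) (Bas j) = (χ j τ : T) • Bas j) →
      ∀ θ : T →ₐ[P.O] AlgebraicClosure (FractionRing P.O),
        (Occ₁ (Q.tw1F hq hqM hsq hcong hp3 hcq hcq1).L1 a₁ i θ ∨
          Occ₁ (Q.tw1F hq hqM hsq hcong hp3 hcq hcq1).Lχ a₂ i θ) →
          θ (χ 0 ⟨σ, inertia_le_decomposition Pl hσ⟩ : T) = 1)
    -- (B5) at the DVR points, at the prime `Q.qv (Fin.rev i)`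
    (hB5₁ : ∀ (i : Fin g) (x : Idx P.O T)
      (hloc : IsLocalHom ((Fermat.Agent.GB.Glue.Points.ψ x :
        T →ₐ[P.O] Rq x) :
        T →+* Rq x)),
      (∀ t : T, (∀ m, a₁ t m ∈
        (Q.tw1F hq hqM hsq hcong hp3 hcq hcq1).L1.unitSub p dvd_nfun1 i) →
          Fermat.Agent.GB.Glue.Points.ψ x t = 0) →
      ¬ (ρQ.baseChangeAlong ((Fermat.Agent.GB.Glue.Points.ψ x :
        T →ₐ[P.O] Rq x) :
        T →+* Rq x) hloc).IsUnipotentOnInertiaAt
        (Q.qv (Fin.rev i)))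
    (hB5₂ : ∀ (i : Fin g) (x : Idx P.O T)
      (hloc : IsLocalHom ((Fermat.Agent.GB.Glue.Points.ψ x :
        T →ₐ[P.O] Rq x) :
        T →+* Rq x)),
      (∀ t : T, (∀ m, a₂ t m ∈
        (Q.tw1F hq hqM hsq hcong hp3 hcq hcq1).Lχ.unitSub p dvd_nfun1 i) →
          Fermat.Agent.GB.Glue.Points.ψ x t = 0) →
      ¬ (ρQ.baseChangeAlong ((Fermat.Agent.GB.Glue.Points.ψ x :
        T →ₐ[P.O] Rq x) :
        T →+* Rq x) hloc).IsUnipotentOnInertiaAt
        (Q.qv (Fin.rev i)))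
    -- G6 (B5 at `q`), G7 (B7), for every Kummer test pair at `q`
    (hnu : ∀ φ τ₀ : GQ, KummerTests (ℓs (Fin.last s)) p φ τ₀ →
      ∀ i : Fermat.Agent.GB.Glue.Points.Idx P.O (Tchi a₂),
        ((matT ψ τ₀).map (phi a₂ i) - 1) ^ 2 = 0 → (matT ψ τ₀).map (phi a₂ i) = 1)
    (he : ∀ φ τ₀ : GQ, KummerTests (ℓs (Fin.last s)) p φ τ₀ →
      a₁ ((matT ψ φ).trace ^ 2 -
        (1 + (ℓs (Fin.last s) : T)) ^ 2) = 0) :
    Nonempty (GroupsOn P ℓs base DQ (Q.tw1F hq hqM hsq hcong hp3 hcq hcq1)) := by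
  obtain ⟨x, hx, unit₁, unit₂⟩ := exists_x_tw1F_rev Q hq hqM hsq hcong hp3 hcq hcq1
    T a₁ a₂ a₁_D a₂_D ρQ hdet hres h1 hB5₁ hB5₂
  exact ⟨{
    T := T
    a₁ := a₁
    a₂ := a₂
    a₁_D := a₁_D
    a₂_D := a₂_D
    a_U := a_U
    ψ := ψ
    hψl := hψl
    hψ := hψ
    ρQ := ρQ
    hequiv := hequiv
    hu := hu
    x := x
    hx := hx
    unit₁ := unit₁
    unit₂ := unit₂
    hnu := hnu
    he := he }⟩

end

end Fermat.Agent.GB.B9.ProviderFlat.LowerFill
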