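/-
GATE-B / B9 PROVIDER, flat branch, **LOWER HALF of the final assembly, file 4 = the FINAL WIRING**
(helper54): `LowerQ.FlatGroupsStmt`, i.e. the record `Lower.GroupsOn` on helper51's level datum
`Q.tw1F …` at EVERY Taylor–Wiles set `Q` of EVERY flat context, from the landed groups

* G2 : helper11 `G2.lean` (`exists_dl_theta`, `exists_twP_hecke`, `T a₁ a₂ a₁_D a₂_D a_U`,
  instances), helper28 `G2HT.hT_of_hι`, helper67 `G2Red.hred₁ / hred₂`;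
* G3 : helper28 `G3Q.exists_psi_Q` (flat) — a HYPOTHESIS of the base-generic part;
* G4 : helper6 `G4TW1Rev.exists_x_tw1F_rev` (inside `LowerFill.groupsOn_of_parts`),
  helper6 `G4B5.hB5₁_tw1F / hB5₂_tw1F`, helper49 `G4H1` (the binder `h1`);
* G6 : helper35 `G6.hnu_tw1F`;  G7 : helper52 `G7One.he_tw1F`.

FACTORING (ask of helper32, board 7014):

* `groupsOn_of_twP_aux` (`h1`, `hnu` still binders) / `groupsOn_of_twP` : **BASE-GENERIC**.  Parameters: the deformation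
  condition `base` at `p`, the forms level `N''` (`hN''`), `SQ θQ` (+ `hpS hNS`), the half-diamonds
  `dℓ hdℓ hnd`, the twisted action `twP` on the big level with `hι hD hlocP`
  (= `G2.exists_twP_hecke`), the four instances on `M¹_Q × M^χ_Q` that make
  `T := G2.T … twP hD θQ` a local ring, and the G3 record over `T` as HYPOTHESES;
  conclusion `Nonempty (GroupsOn P ℓs base DQ (Q.tw1F …))`.
* `groupsOn_flat` / `flatGroups` : the flat branch (`G2.exists_twP_hecke` + `G3Q.exists_psi_Q` +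
  the above).
-/
import Fermat.Agent.GB.B9.ProviderFlat.LowerFill
import Fermat.Agent.GB.B9.ProviderFlat.G2
import Fermat.Agent.GB.B9.ProviderFlat.G2HT
import Fermat.Agent.GB.B9.ProviderFlat.G2Red
import Fermat.Agent.GB.B9.ProviderFlat.G3Q
import Fermat.Agent.GB.B9.ProviderFlat.G7One
import Fermat.Agent.GB.B9.ProviderFlat.G4B5
import Fermat.Agent.GB.B9.ProviderFlat.G4H1
import Fermat.Agent.GB.B9.ProviderFlat.G6
import Fermat.Agent.GB.B9.ProviderFlat.G2Sym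
import Fermat.Agent.GB.B3.FreeLevelInst
import Fermat.Agent.GB.Setup.PkgLevel

set_option autoImplicit false
set_option linter.unusedSectionVars false
set_option linter.unusedVariables false
set_option linter.style.haveILetI false

open WeierstrassCurve WeierstrassCurve.Affine.Point IsLocalRing
open scoped WeierstrassCurve.Affine
open scoped MatrixGroups
open CongruenceSubgroup ModularCurve.Period CuspForm Polynomial

namespace Fermat.Agent.GB.B9.ProviderFlat.FlatGroups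

open Fermat.Agent.GM.B
open Fermat.Agent.GB.B3.HeckeActH Fermat.Agent.GB.B3.RealLevel Fermat.Agent.GB.B3.Tower
  Fermat.Agent.GB.B3.TWChars Fermat.Agent.GB.B3.FinalTW Fermat.Agent.GB.B3.Plug
  Fermat.Agent.GB.B3.TWLevel Fermat.Agent.GB.B3.GamH Fermat.Agent.GB.B3.ChiLevelMulti
  Fermat.Agent.GB.B3.Final
open Fermat.Agent.GJ.J2.Lat
open Fermat.Agent.GB.B4.Datum.ImageRing Fermat.Agent.GB.B4.Datum.TQFields
open Fermat.Agent.GB.Setup.SetupPkg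
open Fermat.Agent.GB.Def.FramedNodes Fermat.Agent.GB.Def.LocGenInst
open Fermat.Agent.GB.B9.ThetaT Fermat.Agent.GB.B9.ThetaSupply
open Fermat.Agent.GB.B9.ProviderFlat.Lower Fermat.Agent.GB.B9.ProviderFlat.G1
open Fermat.Agent.GB.B9.ProviderFlat.H1 Fermat.Agent.GB.B9.ProviderFlat.Top

/-- local instance (Prop-valued class) -/
local instance factPrimeOffFG {S : Set ℕ} (l : PrimesOff S) : Fact (l.1 : ℕ).Prime := ⟨l.1.2⟩

/-- `ℚ̄`. -/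
local notation "Qb" => AlgebraicClosure ℚ
/-- `G_ℚ`. -/
local notation "GQ" => (AlgebraicClosure ℚ ≃ₐ[ℚ] AlgebraicClosure ℚ)
/-- the character `Γ₀(N) → Δ` of a character of `(ℤ/N)ˣ`. -/
local notation "chiΓ" => Fermat.Agent.GB.B3.EisGamma0.chi
/-- the structure map `A → T_Q`. -/
local notation "chiT" => Fermat.Agent.GB.B4.Datum.ImageRing.chi
/-- `T / ker a₂`. -/
local notation "TchiK" => Fermat.Agent.GB.Local.Multi.Kill2Field.Tchi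
/-- the points of `T / ker a₂`. -/
local notation "phiK" => Fermat.Agent.GB.Local.Multi.Kill2Q.phi

noncomputable section

variable {p : ℕ} [hpF : Fact p.Prime] {W : WeierstrassCurve ℤ}
  {hcard₁ : Nat.card (Submodule.torsionBy ℤ
    ((W.map (Int.castRingHom ℚ))⁄(AlgebraicClosure ℚ)).Point p) = p ^ 2}
  {hker : GaloisFactorsThroughFiniteLevel
    (galoisRepModuleEnd (K := AlgebraicClosure ℚ) ℚ (W.map (Int.castRingHom ℚ)) p)}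
  {M A : ℕ} {P : Pkg p W hcard₁ hker M A} {g n : ℕ} (Q : TWSet P g n)
  {q eq : ℕ} (hq : q.Prime) (hqM : q ∣ M) (hsq : Squarefree M) (hcong : p ^ eq ∣ q - 1)
  (hp3 : p ≠ 3) {cq : P.O} (hcq : cq ^ p ^ eq = 1)
  (hcq1 : (1 : P.O) - cq ∈ Ideal.span {P.ϖ})

/-! ### the objects of G2 at `Q` -/

/-- **the level datum of record in `Plug.tw` spelling** (`= Q.tw1F …`, by `rfl`). -/
abbrev twR :=
  Fermat.Agent.GB.B3.Plug.tw Q.Sy Q.𝔪 (Q.primeData hq hqM hsq hcong) (Q.hyp hp3) 1 g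
    (fun _ : Fin 1 => cq) (TWSet.hc_one (g := g) (eOf_eq (n + 1) eq) hcq) (fun _ => hcq1)

theorem twR_eq : twR Q hq hqM hsq hcong hp3 hcq hcq1 = Q.tw1F hq hqM hsq hcong hp3 hcq hcq1 := rfl

section TwP

variable {N'' : ℕ} [NeZero N''] {SQ : Finset ℕ}
  (twP : ↥(heckeAlgebra N'' 2 (↑SQ : Set ℕ)) →+*
    Module.End P.O (bigLevel Q.Sy Q.𝔪 (Q.primeData hq hqM hsq hcong) (Q.hyp hp3) (1 + g)).M)
  (hD : ∀ t i,
    twP t * (bigLevel Q.Sy Q.𝔪 (Q.primeData hq hqM hsq hcong) (Q.hyp hp3) (1 + g)).D i =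
      (bigLevel Q.Sy Q.𝔪 (Q.primeData hq hqM hsq hcong) (Q.hyp hp3) (1 + g)).D i * twP t)
  (θQ : ↥(heckeAlgebra N'' 2 (↑SQ : Set ℕ)) →+* P.k)

/-- helper11's `G2.tw₁` at `Q` -/
abbrev tw₁Q :=
  G2.tw₁ Q.Sy Q.𝔪 (Q.primeData hq hqM hsq hcong) (Q.hyp hp3) 1 g
    (fun _ : Fin 1 => cq) (TWSet.hc_one (g := g) (eOf_eq (n + 1) eq) hcq) (fun _ => hcq1) twP hD

/-- helper11's `G2.twχ` at `Q` -/
abbrev twχQ :=
  G2.twχ Q.Sy Q.𝔪 (Q.primeData hq hqM hsq hcong) (Q.hyp hp3) 1 g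
    (fun _ : Fin 1 => cq) (TWSet.hc_one (g := g) (eOf_eq (n + 1) eq) hcq) (fun _ => hcq1) twP hD

/-- **the Hecke ring `T_Q`**: helper11's `G2.T` at `Q` -/
abbrev TR : Type :=
  G2.T Q.Sy Q.𝔪 (Q.primeData hq hqM hsq hcong) (Q.hyp hp3) 1 g
    (fun _ : Fin 1 => cq) (TWSet.hc_one (g := g) (eOf_eq (n + 1) eq) hcq) (fun _ => hcq1) twP hD θQ

/-- helper11's `G2.a₁` at `Q` -/
abbrev a₁R :=
  G2.a₁ Q.Sy Q.𝔪 (Q.primeData hq hqM hsq hcong) (Q.hyp hp3) 1 g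
    (fun _ : Fin 1 => cq) (TWSet.hc_one (g := g) (eOf_eq (n + 1) eq) hcq) (fun _ => hcq1) twP hD θQ

/-- helper11's `G2.a₂` at `Q` -/
abbrev a₂R :=
  G2.a₂ Q.Sy Q.𝔪 (Q.primeData hq hqM hsq hcong) (Q.hyp hp3) 1 g
    (fun _ : Fin 1 => cq) (TWSet.hc_one (g := g) (eOf_eq (n + 1) eq) hcq) (fun _ => hcq1) twP hD θQ

/-- (LOC) for the product action, as a `Fact` (instance binder of `groupsOn_of_twP`) -/
theorem fact_locHyp (hlocP : LocHyp P.O θQ twP) :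
    Fact (LocHyp P.O θQ (prodTw P.O (tw₁Q Q hq hqM hsq hcong hp3 hcq hcq1 twP hD)
      (twχQ Q hq hqM hsq hcong hp3 hcq hcq1 twP hD))) :=
  ⟨G2.locHyp_T Q.Sy Q.𝔪 (Q.primeData hq hqM hsq hcong) (Q.hyp hp3) 1 g
    (fun _ : Fin 1 => cq) (TWSet.hc_one (g := g) (eOf_eq (n + 1) eq) hcq) (fun _ => hcq1) twP hD θQ
    hlocP⟩

/-- **BASE-GENERIC WIRING, stage A** (`h1` and `hnu` still binders): `GroupsOn` on `Q.tw1F …` over
helper11's `T_Q := G2.T … twP hD θQ`, from `twP` with its properties and the G3 record. -/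
theorem groupsOn_of_twP_aux {s : ℕ} (ℓs : Fin (s + 1) → ℕ) [Fact (ℓs (Fin.last s)).Prime]
    (hlast : ℓs (Fin.last s) = q)
    (base : Finset ℕ → ∀ ⦃B : Type⦄ [CommRing B] [IsLocalRing B] [Algebra P.O B],
      GaloisRepAdic B → Prop)
    (DQ : GaloisRep.DeformationRingData P.O P.rhobar
      (framedCond p base P.Smin P.Su (Finset.univ.image Q.qv)))
    (hno : ¬ W.IsResiduallyModularOfLevel p (M / q)) (hqp : q ≠ p)
    (hN'' : N'' = Q.N * ∏ i : Fin (1 + g), rOf Q.qv q i)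
    (hpS : p ∈ SQ) (hNS : ∀ ℓ : ℕ, ℓ.Prime → ℓ ∣ N'' → ℓ ∈ SQ)
    -- G2 : the half-diamonds and the `ι`-formula of `twP` on the generators
    (dℓ : PrimesOff (↑SQ : Set ℕ) → Gamma0 Q.N)
    (hdℓ : ∀ (l : PrimesOff (↑SQ : Set ℕ)) (u : (ZMod Q.N)ˣ),
      (u : ZMod Q.N) = ((l.1 : ℕ) : ZMod Q.N) →
        chiΓ (Theta (Δs p (eOf g (n + 1) eq)) (Q.primeData hq hqM hsq hcong).psi (1 + g))
            (dℓ l) ^ 2 *
          Theta (Δs p (eOf g (n + 1) eq)) (Q.primeData hq hqM hsq hcong).psi (1 + g) u = 1)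
    (hnd : ∀ l : PrimesOff (↑SQ : Set ℕ), ¬ (l.1 : ℕ) ∣ Q.N)
    (hι : ∀ (l : PrimesOff (↑SQ : Set ℕ))
        (x : (bigLevel Q.Sy Q.𝔪 (Q.primeData hq hqM hsq hcong) (Q.hyp hp3) (1 + g)).M),
      (bigReal Q.Sy Q.𝔪 (Q.primeData hq hqM hsq hcong) (Q.hyp hp3) (1 + g)).ι
          (twP (formsGenS N'' (↑SQ : Set ℕ) l) x) =
        diaH (Theta (Δs p (eOf g (n + 1) eq)) (Q.primeData hq hqM hsq hcong).psi (1 + g)) P.O
          (dℓ l)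
          (TH (Theta (Δs p (eOf g (n + 1) eq)) (Q.primeData hq hqM hsq hcong).psi (1 + g)) P.O
            (hnd l)
            ((bigReal Q.Sy Q.𝔪 (Q.primeData hq hqM hsq hcong) (Q.hyp hp3) (1 + g)).ι x)))
    (hlocP : LocHyp P.O θQ twP)
    -- the instances that make `T_Q` a complete local noetherian `O`-algebra
    [Fact (LocHyp P.O θQ (prodTw P.O (tw₁Q Q hq hqM hsq hcong hp3 hcq hcq1 twP hD)
      (twχQ Q hq hqM hsq hcong hp3 hcq hcq1 twP hD)))]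
    [Module.Finite P.O ((twR Q hq hqM hsq hcong hp3 hcq hcq1).L1.M ×
      (twR Q hq hqM hsq hcong hp3 hcq hcq1).Lχ.M)]
    [Module.Free P.O ((twR Q hq hqM hsq hcong hp3 hcq hcq1).L1.M ×
      (twR Q hq hqM hsq hcong hp3 hcq hcq1).Lχ.M)]
    [Nontrivial ((twR Q hq hqM hsq hcong hp3 hcq hcq1).L1.M ×
      (twR Q hq hqM hsq hcong hp3 hcq hcq1).Lχ.M)]
    -- G3 : the record of `G3Q.exists_psi_Q` / `ProviderNew.G3Q.exists_psi_Q_strict`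
    (ψ : DQ.R →ₐ[P.O] TR Q hq hqM hsq hcong hp3 hcq hcq1 twP hD θQ)
    (hψl : IsLocalHom (ψ : DQ.R →+* TR Q hq hqM hsq hcong hp3 hcq hcq1 twP hD θQ))
    (ρQ : GaloisRepAdic (TR Q hq hqM hsq hcong hp3 hcq hcq1 twP hD θQ))
    (hψ : Function.Surjective ψ)
    (hequiv : (DQ.ρ.baseChangeAlong
      (ψ : DQ.R →+* TR Q hq hqM hsq hcong hp3 hcq hcq1 twP hD θQ) hψl).IsEquiv ρQ)
    (hρ : ∀ (ℓ : ℕ) (hℓ : ℓ.Prime) (hℓN : ¬ ℓ ∣ N'') (hℓS : ℓ ∉ (↑SQ : Set ℕ))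
        (Pl : ValuationSubring Qb), Pl.LiesOverPrime ℓ → ∀ σ : GQ, Pl.IsFrobeniusAt σ ℓ →
          LinearMap.charpoly (ρQ.ρ σ) =
            X ^ 2 - C (chiT P.O θQ (prodTw P.O (tw₁Q Q hq hqM hsq hcong hp3 hcq hcq1 twP hD)
                (twχQ Q hq hqM hsq hcong hp3 hcq hcq1 twP hD)) (heckeAlgebra.T hℓ hℓN hℓS)) * X
              + C ((ℓ : TR Q hq hqM hsq hcong hp3 hcq hcq1 twP hD θQ)))
    (hdet : ρQ.DetIsCyclotomic p)
    (hu : ∀ v, v ≠ Fin.last s → ρQ.IsUnipotentOnInertiaAt (ℓs v))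
    (hres : ρQ.residual.IsEquiv
      (P.rhobar.baseChangeAlong
        (ResidueField.map (algebraMap P.O (TR Q hq hqM hsq hcong hp3 hcq hcq1 twP hD θQ)))))
    -- (1pt) at the prime `Q.qv (Fin.rev i)` of the `i`-th Taylor–Wiles diamond  [G4H1]
    (h1 : ∀ (i : Fin g) (Pl : ValuationSubring Qb) (hPl : Pl.LiesOverPrime (Q.qv (Fin.rev i)))
      (σ : GQ) (hσ : σ ∈ Pl.inertiaSubgroupIn ℚ)
      (Bas : Module.Basis (Fin 2) (TR Q hq hqM hsq hcong hp3 hcq hcq1 twP hD θQ) ρQ.V)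
      (χ : Fin 2 → Pl.decompositionSubgroup ℚ →*
        (TR Q hq hqM hsq hcong hp3 hcq hcq1 twP hD θQ)ˣ),
      (∀ (j : Fin 2) (τ : Pl.decompositionSubgroup ℚ),
        ρQ.ρ (τ : GQ) (Bas j) =
          (χ j τ : TR Q hq hqM hsq hcong hp3 hcq hcq1 twP hD θQ) • Bas j) →
      ∀ θ : TR Q hq hqM hsq hcong hp3 hcq hcq1 twP hD θQ →ₐ[P.O]
          AlgebraicClosure (FractionRing P.O),
        (G4.Occ₁ (twR Q hq hqM hsq hcong hp3 hcq hcq1).L1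
            (a₁R Q hq hqM hsq hcong hp3 hcq hcq1 twP hD θQ) i θ ∨
          G4.Occ₁ (twR Q hq hqM hsq hcong hp3 hcq hcq1).Lχ
            (a₂R Q hq hqM hsq hcong hp3 hcq hcq1 twP hD θQ) i θ) →
          θ (χ 0 ⟨σ, Fermat.Agent.GB.E2.TWDiag.inertia_le_decomposition Pl hσ⟩ :
            TR Q hq hqM hsq hcong hp3 hcq hcq1 twP hD θQ) = 1)
    -- G6 (B5 at `q`)  [G6.hnu_tw1F]
    (hnu : ∀ φ τ₀ : GQ, KummerTests (ℓs (Fin.last s)) p φ τ₀ →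
      ∀ i : Fermat.Agent.GB.Glue.Points.Idx P.O
          (TchiK (a₂R Q hq hqM hsq hcong hp3 hcq hcq1 twP hD θQ)),
        ((matT ψ τ₀).map (phiK (a₂R Q hq hqM hsq hcong hp3 hcq hcq1 twP hD θQ) i) - 1) ^ 2 = 0 →
          (matT ψ τ₀).map (phiK (a₂R Q hq hqM hsq hcong hp3 hcq hcq1 twP hD θQ) i) = 1) :
    Nonempty (GroupsOn P ℓs base DQ (Q.tw1F hq hqM hsq hcong hp3 hcq hcq1)) := by
  subst hlast
  have hS' : ∀ ℓ : ℕ, ℓ.Prime → ℓ ∣ N'' → ℓ ∈ (↑SQ : Set ℕ) :=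
    fun ℓ hℓ hd => Finset.mem_coe.mpr (hNS ℓ hℓ hd)
  have hQN : Q.N ∣ N'' := by
    rw [hN'']
    exact Dvd.intro _ rfl
  have hSN : ∀ ℓ : ℕ, ℓ.Prime → ℓ ∣ Q.N → ℓ ∈ SQ := fun ℓ hℓ hd => hNS ℓ hℓ (hd.trans hQN)
  have hd := Q.d1F_pos hq hqM hsq hcong hp3
  haveI : IsReduced (TR Q hq hqM hsq hcong hp3 hcq hcq1 twP hD θQ) :=
    G2.isReduced_T Q.Sy Q.𝔪 (Q.primeData hq hqM hsq hcong) (Q.hyp hp3) 1 g
      (fun _ : Fin 1 => cq) (TWSet.hc_one (g := g) (eOf_eq (n + 1) eq) hcq) (fun _ => hcq1)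
      twP hD θQ hlocP hd hNS
  have hT := G2HT.hT_of_hι Q.Sy Q.𝔪 (Q.primeData hq hqM hsq hcong) (Q.hyp hp3) (1 + g) SQ
    dℓ hdℓ hnd twP hι
  have he := G7.TWSetG7.he_tw1F Q hq hqM hsq hcong hp3 hcq hcq1 hno SQ hSN hpS hqp hS'
    ψ hψl ρQ hequiv
    (chiT P.O θQ (prodTw P.O (tw₁Q Q hq hqM hsq hcong hp3 hcq hcq1 twP hD)
      (twχQ Q hq hqM hsq hcong hp3 hcq hcq1 twP hD)))
    (adjoin_range_chi P.O θQ _)
    (a₁R Q hq hqM hsq hcong hp3 hcq hcq1 twP hD θQ)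
    (G2Red.hred₁ Q.Sy Q.𝔪 (Q.primeData hq hqM hsq hcong) (Q.hyp hp3) 1 g
      (fun _ : Fin 1 => cq) (TWSet.hc_one (g := g) (eOf_eq (n + 1) eq) hcq) (fun _ => hcq1)
      twP hD θQ hlocP hd hNS)
    (tw₁Q Q hq hqM hsq hcong hp3 hcq hcq1 twP hD)
    (G2.a₁_chi Q.Sy Q.𝔪 (Q.primeData hq hqM hsq hcong) (Q.hyp hp3) 1 g
      (fun _ : Fin 1 => cq) (TWSet.hc_one (g := g) (eOf_eq (n + 1) eq) hcq) (fun _ => hcq1)
      twP hD θQ)
    twP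
    (G2.tw₁_fmk Q.Sy Q.𝔪 (Q.primeData hq hqM hsq hcong) (Q.hyp hp3) 1 g
      (fun _ : Fin 1 => cq) (TWSet.hc_one (g := g) (eOf_eq (n + 1) eq) hcq) (fun _ => hcq1)
      twP hD)
    hT hρ
  have hB5₁ := G4B5.hB5₁_tw1F Q hq hqM hsq hcong hp3 hcq hcq1 SQ hpS hN'' hS'
    (TR Q hq hqM hsq hcong hp3 hcq hcq1 twP hD θQ) ρQ
    (chiT P.O θQ (prodTw P.O (tw₁Q Q hq hqM hsq hcong hp3 hcq hcq1 twP hD)
      (twχQ Q hq hqM hsq hcong hp3 hcq hcq1 twP hD)))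
    (a₁R Q hq hqM hsq hcong hp3 hcq hcq1 twP hD θQ)
    (G2.a₁_D Q.Sy Q.𝔪 (Q.primeData hq hqM hsq hcong) (Q.hyp hp3) 1 g
      (fun _ : Fin 1 => cq) (TWSet.hc_one (g := g) (eOf_eq (n + 1) eq) hcq) (fun _ => hcq1)
      twP hD θQ)
    (tw₁Q Q hq hqM hsq hcong hp3 hcq hcq1 twP hD)
    (G2.a₁_chi Q.Sy Q.𝔪 (Q.primeData hq hqM hsq hcong) (Q.hyp hp3) 1 g
      (fun _ : Fin 1 => cq) (TWSet.hc_one (g := g) (eOf_eq (n + 1) eq) hcq) (fun _ => hcq1)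
      twP hD θQ)
    twP
    (G2.tw₁_fmk Q.Sy Q.𝔪 (Q.primeData hq hqM hsq hcong) (Q.hyp hp3) 1 g
      (fun _ : Fin 1 => cq) (TWSet.hc_one (g := g) (eOf_eq (n + 1) eq) hcq) (fun _ => hcq1)
      twP hD)
    hT hρ
  have hB5₂ := G4B5.hB5₂_tw1F Q hq hqM hsq hcong hp3 hcq hcq1 SQ hpS hN'' hS'
    (TR Q hq hqM hsq hcong hp3 hcq hcq1 twP hD θQ) ρQ
    (chiT P.O θQ (prodTw P.O (tw₁Q Q hq hqM hsq hcong hp3 hcq hcq1 twP hD)
      (twχQ Q hq hqM hsq hcong hp3 hcq hcq1 twP hD)))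
    (a₂R Q hq hqM hsq hcong hp3 hcq hcq1 twP hD θQ)
    (G2.a₂_D Q.Sy Q.𝔪 (Q.primeData hq hqM hsq hcong) (Q.hyp hp3) 1 g
      (fun _ : Fin 1 => cq) (TWSet.hc_one (g := g) (eOf_eq (n + 1) eq) hcq) (fun _ => hcq1)
      twP hD θQ)
    (twχQ Q hq hqM hsq hcong hp3 hcq hcq1 twP hD)
    (G2.a₂_chi Q.Sy Q.𝔪 (Q.primeData hq hqM hsq hcong) (Q.hyp hp3) 1 g
      (fun _ : Fin 1 => cq) (TWSet.hc_one (g := g) (eOf_eq (n + 1) eq) hcq) (fun _ => hcq1)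
      twP hD θQ)
    twP
    (G2.twχ_fmk Q.Sy Q.𝔪 (Q.primeData hq hqM hsq hcong) (Q.hyp hp3) 1 g
      (fun _ : Fin 1 => cq) (TWSet.hc_one (g := g) (eOf_eq (n + 1) eq) hcq) (fun _ => hcq1)
      twP hD)
    hT hρ
  exact LowerFill.groupsOn_of_parts Q hq hqM hsq hcong hp3 hcq hcq1 ℓs base DQ
    (TR Q hq hqM hsq hcong hp3 hcq hcq1 twP hD θQ)
    (a₁R Q hq hqM hsq hcong hp3 hcq hcq1 twP hD θQ)
    (a₂R Q hq hqM hsq hcong hp3 hcq hcq1 twP hD θQ)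
    (G2.a₁_D Q.Sy Q.𝔪 (Q.primeData hq hqM hsq hcong) (Q.hyp hp3) 1 g
      (fun _ : Fin 1 => cq) (TWSet.hc_one (g := g) (eOf_eq (n + 1) eq) hcq) (fun _ => hcq1)
      twP hD θQ)
    (G2.a₂_D Q.Sy Q.𝔪 (Q.primeData hq hqM hsq hcong) (Q.hyp hp3) 1 g
      (fun _ : Fin 1 => cq) (TWSet.hc_one (g := g) (eOf_eq (n + 1) eq) hcq) (fun _ => hcq1)
      twP hD θQ)
    (G2.a_U Q.Sy Q.𝔪 (Q.primeData hq hqM hsq hcong) (Q.hyp hp3) 1 g
      (fun _ : Fin 1 => cq) (TWSet.hc_one (g := g) (eOf_eq (n + 1) eq) hcq) (fun _ => hcq1)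
      twP hD θQ)
    ψ hψl ρQ hψ hequiv hdet hu hres h1 hB5₁ hB5₂ hnu he

/-- **BASE-GENERIC WIRING** (ask of helper32, board 7014): `GroupsOn` on `Q.tw1F …` over helper11's
`T_Q := G2.T … twP hD θQ`, from `twP` with its properties (`G2.exists_twP_hecke`), the facts on
`θQ` (`PkgLevel.exists_thetaQ` / `G2Sym.hsym_Q`) and the G3 record.  G4 (`G4TW1Rev`, `G4B5`,
`G4H1`), G6, G7 are wired inside. -/
theorem groupsOn_of_twP {s : ℕ} (ℓs : Fin (s + 1) → ℕ) [Fact (ℓs (Fin.last s)).Prime]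
    (hlast : ℓs (Fin.last s) = q)
    (base : Finset ℕ → ∀ ⦃B : Type⦄ [CommRing B] [IsLocalRing B] [Algebra P.O B],
      GaloisRepAdic B → Prop)
    (DQ : GaloisRep.DeformationRingData P.O P.rhobar
      (framedCond p base P.Smin P.Su (Finset.univ.image Q.qv)))
    (hno : ¬ W.IsResiduallyModularOfLevel p (M / q)) (hqp : q ≠ p) (hcq0 : cq ≠ 1)
    (hunrbar : P.rhobar.IsUnramifiedAt q)
    (hN'' : N'' = Q.N * ∏ i : Fin (1 + g), rOf Q.qv q i)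
    (hpS : p ∈ SQ) (hNS : ∀ ℓ : ℕ, ℓ.Prime → ℓ ∣ N'' → ℓ ∈ SQ)
    -- the facts on `θQ`
    (hsym : ∀ l : PrimesOff (↑SQ : Set ℕ), ∃ i : Q.Sy.ι₁, Q.Sy.ℓ i = (l.1 : ℕ) ∧
      θQ (formsGenS N'' (↑SQ : Set ℕ) l) = Q.lamTop (MvPolynomial.X (Sum.inl i)))
    (hfrobQ : ∀ (ℓ : ℕ) (hℓ : ℓ.Prime) (hℓN : ¬ ℓ ∣ N'') (hℓS : ℓ ∉ (↑SQ : Set ℕ))
      (Pl : ValuationSubring Qb), Pl.LiesOverPrime ℓ → ∀ σ : GQ, Pl.IsFrobeniusAt σ ℓ →
        LinearMap.charpoly (P.rhobar.ρ σ) =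
          X ^ 2 - C (θQ (heckeAlgebra.T hℓ hℓN hℓS)) * X + C ((ℓ : ℕ) : P.k))
    -- G2 : the half-diamonds and the `ι`-formula of `twP` on the generators
    (dℓ : PrimesOff (↑SQ : Set ℕ) → Gamma0 Q.N)
    (hdℓ : ∀ (l : PrimesOff (↑SQ : Set ℕ)) (u : (ZMod Q.N)ˣ),
      (u : ZMod Q.N) = ((l.1 : ℕ) : ZMod Q.N) →
        chiΓ (Theta (Δs p (eOf g (n + 1) eq)) (Q.primeData hq hqM hsq hcong).psi (1 + g))
            (dℓ l) ^ 2 *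
          Theta (Δs p (eOf g (n + 1) eq)) (Q.primeData hq hqM hsq hcong).psi (1 + g) u = 1)
    (hnd : ∀ l : PrimesOff (↑SQ : Set ℕ), ¬ (l.1 : ℕ) ∣ Q.N)
    (hι : ∀ (l : PrimesOff (↑SQ : Set ℕ))
        (x : (bigLevel Q.Sy Q.𝔪 (Q.primeData hq hqM hsq hcong) (Q.hyp hp3) (1 + g)).M),
      (bigReal Q.Sy Q.𝔪 (Q.primeData hq hqM hsq hcong) (Q.hyp hp3) (1 + g)).ι
          (twP (formsGenS N'' (↑SQ : Set ℕ) l) x) =
        diaH (Theta (Δs p (eOf g (n + 1) eq)) (Q.primeData hq hqM hsq hcong).psi (1 + g)) P.O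
          (dℓ l)
          (TH (Theta (Δs p (eOf g (n + 1) eq)) (Q.primeData hq hqM hsq hcong).psi (1 + g)) P.O
            (hnd l)
            ((bigReal Q.Sy Q.𝔪 (Q.primeData hq hqM hsq hcong) (Q.hyp hp3) (1 + g)).ι x)))
    (hlocP : LocHyp P.O θQ twP)
    -- the instances that make `T_Q` a complete local noetherian `O`-algebra
    [Fact (LocHyp P.O θQ (prodTw P.O (tw₁Q Q hq hqM hsq hcong hp3 hcq hcq1 twP hD)
      (twχQ Q hq hqM hsq hcong hp3 hcq hcq1 twP hD)))]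
    [Module.Finite P.O ((twR Q hq hqM hsq hcong hp3 hcq hcq1).L1.M ×
      (twR Q hq hqM hsq hcong hp3 hcq hcq1).Lχ.M)]
    [Module.Free P.O ((twR Q hq hqM hsq hcong hp3 hcq hcq1).L1.M ×
      (twR Q hq hqM hsq hcong hp3 hcq hcq1).Lχ.M)]
    [Nontrivial ((twR Q hq hqM hsq hcong hp3 hcq hcq1).L1.M ×
      (twR Q hq hqM hsq hcong hp3 hcq hcq1).Lχ.M)]
    -- G3 : the record of `G3Q.exists_psi_Q` / `ProviderNew.G3Q.exists_psi_Q_strict`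
    (ψ : DQ.R →ₐ[P.O] TR Q hq hqM hsq hcong hp3 hcq hcq1 twP hD θQ)
    (hψl : IsLocalHom (ψ : DQ.R →+* TR Q hq hqM hsq hcong hp3 hcq hcq1 twP hD θQ))
    (ρQ : GaloisRepAdic (TR Q hq hqM hsq hcong hp3 hcq hcq1 twP hD θQ))
    (hψ : Function.Surjective ψ)
    (hequiv : (DQ.ρ.baseChangeAlong
      (ψ : DQ.R →+* TR Q hq hqM hsq hcong hp3 hcq hcq1 twP hD θQ) hψl).IsEquiv ρQ)
    (hρ : ∀ (ℓ : ℕ) (hℓ : ℓ.Prime) (hℓN : ¬ ℓ ∣ N'') (hℓS : ℓ ∉ (↑SQ : Set ℕ))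
        (Pl : ValuationSubring Qb), Pl.LiesOverPrime ℓ → ∀ σ : GQ, Pl.IsFrobeniusAt σ ℓ →
          LinearMap.charpoly (ρQ.ρ σ) =
            X ^ 2 - C (chiT P.O θQ (prodTw P.O (tw₁Q Q hq hqM hsq hcong hp3 hcq hcq1 twP hD)
                (twχQ Q hq hqM hsq hcong hp3 hcq hcq1 twP hD)) (heckeAlgebra.T hℓ hℓN hℓS)) * X
              + C ((ℓ : TR Q hq hqM hsq hcong hp3 hcq hcq1 twP hD θQ)))
    (hdet : ρQ.DetIsCyclotomic p)
    (hu : ∀ v, v ≠ Fin.last s → ρQ.IsUnipotentOnInertiaAt (ℓs v))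
    (hres : ρQ.residual.IsEquiv
      (P.rhobar.baseChangeAlong
        (ResidueField.map (algebraMap P.O (TR Q hq hqM hsq hcong hp3 hcq hcq1 twP hD θQ))))) :
    Nonempty (GroupsOn P ℓs base DQ (Q.tw1F hq hqM hsq hcong hp3 hcq hcq1)) := by
  subst hlast
  have hS' : ∀ ℓ : ℕ, ℓ.Prime → ℓ ∣ N'' → ℓ ∈ (↑SQ : Set ℕ) :=
    fun ℓ hℓ hd => Finset.mem_coe.mpr (hNS ℓ hℓ hd)
  have hQN : Q.N ∣ N'' := by
    rw [hN'']
    exact Dvd.intro _ rfl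
  have hSN : ∀ ℓ : ℕ, ℓ.Prime → ℓ ∣ Q.N → ℓ ∈ SQ := fun ℓ hℓ hd => hNS ℓ hℓ (hd.trans hQN)
  have hd := Q.d1F_pos hq hqM hsq hcong hp3
  haveI : IsReduced (TR Q hq hqM hsq hcong hp3 hcq hcq1 twP hD θQ) :=
    G2.isReduced_T Q.Sy Q.𝔪 (Q.primeData hq hqM hsq hcong) (Q.hyp hp3) 1 g
      (fun _ : Fin 1 => cq) (TWSet.hc_one (g := g) (eOf_eq (n + 1) eq) hcq) (fun _ => hcq1)
      twP hD θQ hlocP hd hNS
  haveI : Algebra.IsIntegral P.O (TR Q hq hqM hsq hcong hp3 hcq hcq1 twP hD θQ) :=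
    Algebra.IsIntegral.of_finite P.O _
  have hT := G2HT.hT_of_hι Q.Sy Q.𝔪 (Q.primeData hq hqM hsq hcong) (Q.hyp hp3) (1 + g) SQ
    dℓ hdℓ hnd twP hι
  -- G6
  have hnu := G6.TWSetG6.hnu_tw1F Q hq hqM hsq hcong hp3 hcq hcq1 hcq0 SQ hpS hqp hN'' hS'
    ψ hψl ρQ hequiv hres hunrbar
    (chiT P.O θQ (prodTw P.O (tw₁Q Q hq hqM hsq hcong hp3 hcq hcq1 twP hD)
      (twχQ Q hq hqM hsq hcong hp3 hcq hcq1 twP hD)))
    (a₂R Q hq hqM hsq hcong hp3 hcq hcq1 twP hD θQ)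
    (twχQ Q hq hqM hsq hcong hp3 hcq hcq1 twP hD)
    (G2.a₂_chi Q.Sy Q.𝔪 (Q.primeData hq hqM hsq hcong) (Q.hyp hp3) 1 g
      (fun _ : Fin 1 => cq) (TWSet.hc_one (g := g) (eOf_eq (n + 1) eq) hcq) (fun _ => hcq1)
      twP hD θQ)
    twP
    (G2.twχ_fmk Q.Sy Q.𝔪 (Q.primeData hq hqM hsq hcong) (Q.hyp hp3) 1 g
      (fun _ : Fin 1 => cq) (TWSet.hc_one (g := g) (eOf_eq (n + 1) eq) hcq) (fun _ => hcq1)
      twP hD)
    hT hρ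
  -- G4 (1pt)
  have hker𝔪 : ∀ t : Q.Sy.𝕋 P.O, t ∈ Q.𝔪 ↔ Q.lamTop t = 0 := fun t =>
    ⟨fun ht => G2Sym.hev_Q Q t ht, fun ht => by
      rw [Q.h𝔪]
      exact RingHom.mem_ker.mpr ht⟩
  have hfrob : ∀ l : PrimesOff (↑SQ : Set ℕ), ∀ Pl : ValuationSubring Qb,
      Pl.LiesOverPrime (l.1 : ℕ) → ∀ σ : GQ, Pl.IsFrobeniusAt σ (l.1 : ℕ) →
        ∃ d₀ : P.k, LinearMap.charpoly (P.rhobar.ρ σ) =
          X ^ 2 - C (θQ (formsGenS N'' (↑SQ : Set ℕ) l)) * X + C d₀ := by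
    intro l Pl hPl σ hσ
    have hlN'' : ¬ (l.1 : ℕ) ∣ N'' := fun h => l.2 (hS' _ l.1.2 h)
    refine ⟨((l.1 : ℕ) : P.k), ?_⟩
    rw [formsGenS_of_not_dvd N'' (↑SQ : Set ℕ) l hlN'']
    exact hfrobQ (l.1 : ℕ) l.1.2 hlN'' l.2 Pl hPl σ hσ
  have h2 : ∀ c : AlgebraicClosure (FractionRing P.O),
      (2 : AlgebraicClosure (FractionRing P.O)) * c = 0 → c = 0 := by
    haveI : CharZero (FractionRing P.O) :=
      charZero_of_injective_algebraMap (IsFractionRing.injective P.O (FractionRing P.O))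
    intro c hc
    exact (mul_eq_zero.mp hc).resolve_left two_ne_zero
  have h1 : ∀ (i : Fin g) (Pl : ValuationSubring Qb)
      (hPl : Pl.LiesOverPrime (Q.qv (Fin.rev i)))
      (σ : GQ) (hσ : σ ∈ Pl.inertiaSubgroupIn ℚ)
      (Bas : Module.Basis (Fin 2) (TR Q hq hqM hsq hcong hp3 hcq hcq1 twP hD θQ) ρQ.V)
      (χ : Fin 2 → Pl.decompositionSubgroup ℚ →*
        (TR Q hq hqM hsq hcong hp3 hcq hcq1 twP hD θQ)ˣ),
      (∀ (j : Fin 2) (τ : Pl.decompositionSubgroup ℚ),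
        ρQ.ρ (τ : GQ) (Bas j) =
          (χ j τ : TR Q hq hqM hsq hcong hp3 hcq hcq1 twP hD θQ) • Bas j) →
      ∀ θ : TR Q hq hqM hsq hcong hp3 hcq hcq1 twP hD θQ →ₐ[P.O]
          AlgebraicClosure (FractionRing P.O),
        (G4.Occ₁ (twR Q hq hqM hsq hcong hp3 hcq hcq1).L1
            (a₁R Q hq hqM hsq hcong hp3 hcq hcq1 twP hD θQ) i θ ∨
          G4.Occ₁ (twR Q hq hqM hsq hcong hp3 hcq hcq1).Lχ
            (a₂R Q hq hqM hsq hcong hp3 hcq hcq1 twP hD θQ) i θ) →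
          θ (χ 0 ⟨σ, Fermat.Agent.GB.E2.TWDiag.inertia_le_decomposition Pl hσ⟩ :
            TR Q hq hqM hsq hcong hp3 hcq hcq1 twP hD θQ) = 1 := by
    intro i Pl hPl σ hσ Bas χ hdiag θ hocc
    exact G4H1.h1_G2 Q.Sy Q.𝔪 (Q.primeData hq hqM hsq hcong) (Q.hyp hp3) 1 g
      (fun _ : Fin 1 => cq) (TWSet.hc_one (g := g) (eOf_eq (n + 1) eq) hcq) (fun _ => hcq1)
      twP hD θQ (G7.TWSetG7.squarefree_N Q hsq) (Nat.le_of_eq (Nat.add_comm 1 g)) i ρQ hpS hNS hSN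
      hρ dℓ hdℓ hnd hι Q.lamTop hker𝔪 hsym P.rhobar P.habs hfrob h2 (G4B5.rOf_rev_ne Q i)
      Pl (by rw [G4TW.rOf_rev Q i]; exact hPl) Bas χ hdiag σ hσ
      (Fermat.Agent.GB.E2.TWDiag.inertia_le_decomposition Pl hσ)
      θ hocc 0
  exact groupsOn_of_twP_aux Q hq hqM hsq hcong hp3 hcq hcq1 twP hD θQ ℓs rfl base DQ hno hqp
    hN'' hpS hNS dℓ hdℓ hnd hι hlocP ψ hψl ρQ hψ hequiv hρ hdet hu hres h1 hnu

end TwP

/-! ### the flat branch -/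

/-- **the groups at ONE Taylor–Wiles set, flat branch**. -/
theorem groupsOn_flat {a : ℕ} {P : Pkg p W hcard₁ hker M a} {g n : ℕ} (Q : TWSet P g n)
    {q : ℕ} (hq : q.Prime) (hqM : q ∣ M) (hsq : Squarefree M) (hcong : p ^ a ∣ q - 1)
    (hp3 : p ≠ 3) (ha : 1 ≤ a) (hpM : ¬ p ∣ M) (hqp : q ≠ p)
    (hno : ¬ W.IsResiduallyModularOfLevel p (M / q))
    {s : ℕ} {ℓs : Fin (s + 1) → ℕ} [Fact (ℓs (Fin.last s)).Prime] (E : FramedEnum P q s ℓs)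
    (DQ : GaloisRep.DeformationRingData P.O P.rhobar
      (framedCond p (GaloisRep.flatCondition P.O p) P.Smin P.Su (Finset.univ.image Q.qv))) :
    Nonempty (GroupsOn P ℓs (GaloisRep.flatCondition P.O p) DQ
      (LowerQ.twQ Q hq hqM hsq hcong hp3)) := by
  -- the forms level
  obtain ⟨N'', hN''⟩ : ∃ N'' : ℕ, N'' = Q.N * ∏ i : Fin (1 + g), rOf Q.qv q i := ⟨_, rfl⟩
  haveI : NeZero N'' := G3Q.neZero_level Q hq hN''
  -- the residual eigensystem at the forms level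
  obtain ⟨SQ, θQ, -, hpS, hNS, hbadS, hθT, hfrobQ, -⟩ :=
    Fermat.Agent.GB.Setup.PkgLevel.exists_thetaQ P (G3Q.dvd_level Q hN'')
  have hQN : Q.N ∣ N'' := by
    rw [hN'']
    exact Dvd.intro _ rfl
  have hnd : ∀ l : PrimesOff (↑SQ : Set ℕ), ¬ (l.1 : ℕ) ∣ Q.N := G2Sym.hnd_Q Q hQN SQ hNS
  -- G2 : half-diamonds, the twisted action on the big level
  obtain ⟨dℓ, hdℓ⟩ := G2.exists_dl_theta (Q.primeData hq hqM hsq hcong) (1 + g)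
    (Nat.le_of_eq (Nat.add_comm 1 g)) P.hp2 (↑SQ : Set ℕ) hnd
  have hsym : ∀ l : PrimesOff (↑SQ : Set ℕ), ∃ i : Q.Sy.ι₁, Q.Sy.ℓ i = (l.1 : ℕ) ∧
      θQ (formsGenS N'' (↑SQ : Set ℕ) l) = Q.lamTop (MvPolynomial.X (Sum.inl i)) :=
    G2Sym.hsym_Q Q hQN SQ hNS hpS hbadS θQ hθT
  have hev : ∀ t ∈ Q.𝔪, Q.lamTop t = 0 := G2Sym.hev_Q Q
  have key := G2.exists_twP_hecke Q.Sy Q.𝔪 (Q.primeData hq hqM hsq hcong) (Q.hyp hp3) 1 g
    (G7.TWSetG7.squarefree_N Q hsq) (Nat.le_of_eq (Nat.add_comm 1 g)) hN'' SQ hNS dℓ hdℓ hnd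
    Q.lamTop hev θQ hsym
  obtain ⟨twP, hι, hD, -, hlocP⟩ := key
  -- the instances on `M¹_Q × M^χ_Q`
  haveI := fact_locHyp Q hq hqM hsq hcong hp3 (LowerQ.hζpow P) (LowerQ.hζsub P) twP hD θQ hlocP
  haveI := Fermat.Agent.GB.B3.FreeLevelInst.finite_prod
    (twR Q hq hqM hsq hcong hp3 (LowerQ.hζpow P) (LowerQ.hζsub P))
  haveI := Fermat.Agent.GB.B3.FreeLevelInst.free_prod
    (twR Q hq hqM hsq hcong hp3 (LowerQ.hζpow P) (LowerQ.hζsub P))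
  haveI := Fermat.Agent.GB.B3.FreeLevelInst.nontrivial_prod
    (twR Q hq hqM hsq hcong hp3 (LowerQ.hζpow P) (LowerQ.hζsub P))
    (fun i => TWSet.Nfun_pos1 i) (Q.d1F_pos hq hqM hsq hcong hp3)
  -- G3
  obtain ⟨ψ, hψl, ρQ, hψ, hequiv, hρ, hdet, hu, hres⟩ :=
    G3Q.exists_psi_Q Q hq hqM hsq hpM E hN'' hpS hNS hfrobQ
      (tw := prodTw P.O (tw₁Q Q hq hqM hsq hcong hp3 (LowerQ.hζpow P) (LowerQ.hζsub P) twP hD)
        (twχQ Q hq hqM hsq hcong hp3 (LowerQ.hζpow P) (LowerQ.hζsub P) twP hD)) DQ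
  have hqSu : q ∈ P.Su := E.last ▸ E.mem (Fin.last s)
  exact groupsOn_of_twP Q hq hqM hsq hcong hp3 (LowerQ.hζpow P) (LowerQ.hζsub P) twP hD θQ
    ℓs E.last (GaloisRep.flatCondition P.O p) DQ hno hqp (LowerQ.hζne P ha)
    (P.mem_Su_iff.mp hqSu).2.2.2 hN'' hpS hNS hsym hfrobQ dℓ hdℓ hnd hι hlocP
    ψ hψl ρQ hψ hequiv hρ hdet hu hres

/-- **THE FLAT GROUPS**: `LowerQ.FlatGroupsStmt`. -/
theorem flatGroups : LowerQ.FlatGroupsStmt := by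
  intro p _ W hcard₁ hker M q C a n' hfac hn' ha P s ℓ E Sig hSig g
  haveI : Fact (ℓ (Fin.last s)).Prime := ⟨E.prime _⟩
  intro n Q hTW3 DQ hΘ
  exact groupsOn_flat Q C.hq C.hqM C.hsf (LowerQ.hcong_of_fac hfac) (LowerQ.hp3_of_hp5 C.hp5) ha
    C.hpM C.hqp C.hno E DQ

end

end Fermat.Agent.GB.B9.ProviderFlat.FlatGroups
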