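/-
GATE-B / B9 PROVIDER, group G2, the GENERATOR DATA (helper95, hedge of the G2 node).

helper74's `TwRestrictPlug.exists_twP` / `locHyp_twP` (the twist action on helper95's big level
`Plug.bigLevel`, with (LOC)) take

  `tw : A →+* End_O (parabolicHoms O (GammaH θ_j) O)`, `G ⊆ A` with `Subring.closure G = ⊤`,
  `ev : Sy.𝕋 O →ₐ[O] κ` vanishing on `𝔪`, `θA : A →+* κ`, and
  `hgen : ∀ g ∈ G, ∃ d u, θA g = ev u ∧ ∀ v, tw g v = diaH θ_j O d (actH Sy O θ_j u v)`.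

This file produces them for `A = heckeAlgebra N'' 2 S`, `N'' = N * ∏ i : Fin j, r i`:

* `TH_congr` : `GamH.TH` does not depend on the spelling of the prime;
* `exists_twist_gen` (generic Hecke symbols `Sy`, every prime outside `S` a good symbol `sym l`):
  `dℓ` (helper44 `TwFinal.exists_dl`), `tw` (helper44 `TwInst.exists_tw_primeData`),
  `G := Set.range (formsGenS N'' S)`, `hgen` with `d := dℓ l`, `u := X (inl (sym l))`;
* `symOf`, `exists_twist_gen_Q` : the same at helper51's objects `Q : G1.TWSet P g n`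
  (`Q.Sy = stdSymbols W p Q.N Q.qv`, `ev := Q.lamTop`, `θA (T_ℓ) = a_ℓ(W)`), for ANY prime data `H`
  of the level `Q.N` and any stage `j ≤ K`.
-/
import Mathlib
import Fermat.Agent.GB.B9.ProviderFlat.G1
import Fermat.Agent.GB.B4.Twist.TwInst
import Fermat.Agent.GB.B4.Datum.TwRestrictPlug

set_option autoImplicit false
set_option linter.unusedSectionVars false
set_option linter.unusedVariables false
set_option linter.style.haveILetI false

noncomputable section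

open scoped MatrixGroups
open CongruenceSubgroup MvPolynomial CuspForm ModularCurve.Period
open Fermat.Agent.S16_helper49 Fermat.Agent.GM.B Fermat.Agent.GM.EisClass
open Fermat.Agent.GB.B3 Fermat.Agent.GB.B3.EisGamma0 Fermat.Agent.GB.B3.GamH
open Fermat.Agent.GB.B3.HeckeActH Fermat.Agent.GB.B3.Tower Fermat.Agent.GB.B3.TWChars
open Fermat.Agent.GB.B3.FinalTW
open Fermat.Agent.GJ.J2.ZStruct Fermat.Agent.GJ.J2.Lat
open Fermat.Agent.GB.B4.Twist.Asm Fermat.Agent.GB.B4.Twist.TwFinal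
open Fermat.Agent.GB.B4.Twist.TwInst Fermat.Agent.GB.B4.Twist.TwHom

namespace Fermat.Agent.GB.B9.ProviderFlat.G2Gen

/-! ### `TH` and the spelling of the prime -/

section Congr

variable {N : ℕ} [NeZero N] {Δ : Type} [CommGroup Δ] (θ : (ZMod N)ˣ →* Δ)
  (O : Type*) [CommRing O]

/-- `GamH.TH` does not depend on the spelling of the prime -/
theorem TH_congr {ℓ ℓ' : ℕ} [Fact ℓ.Prime] [Fact ℓ'.Prime] (h : ℓ = ℓ') (hN : ¬ ℓ ∣ N)
    (hN' : ¬ ℓ' ∣ N) (ψ : Additive (GammaH θ) →+ O) :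
    GamH.TH θ O hN ψ = GamH.TH θ O hN' ψ := by
  subst h
  rfl

end Congr

/-! ### the generator data, generic symbols -/

section Generic

variable {N p K : ℕ} [NeZero N] [hpF : Fact p.Prime] {r e N' : ℕ → ℕ}
  (Sy : Symbols N) (H : PrimeData N p K r e N') (hp2 : p ≠ 2) (j : ℕ) (hj : j ≤ K)
  {N'' : ℕ} [NeZero N''] (hN'' : N'' = N * ∏ i : Fin j, r i)
  (S : Set ℕ) (hS : ∀ q : ℕ, q.Prime → q ∣ N'' → q ∈ S)
  {O : Type} [CommRing O] [IsDomain O] [CharZero O]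
  {κ : Type} [CommRing κ] [Algebra O κ]
  (sym : PrimesOff S → Sy.ι₁) (hsym : ∀ l : PrimesOff S, Sy.ℓ (sym l) = (l.1 : ℕ))
  (ev : Sy.𝕋 O →ₐ[O] κ) (θA : ↥(heckeAlgebra N'' 2 S) →+* κ)
  (hθA : ∀ l : PrimesOff S, θA (formsGenS N'' S l) = ev (X (Sum.inl (sym l))))

include hp2 hj hsym hθA in
/-- **the generator data of the twisted Hecke action** on `Hom_par(Γ_H(θ_j), O)`: the half-diamonds
`dℓ`, the twist ring homomorphism `tw` with its `T`-formula, and the `hgen` binder of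
`TwRestrictPlug.exists_twP` / `locHyp_twP` for `G := Set.range (formsGenS N'' S)`. -/
theorem exists_twist_gen :
    ∃ (dℓ : PrimesOff S → Gamma0 N)
      (tw : ↥(heckeAlgebra N'' 2 S) →+* Module.End O ↥(parabolicHoms O
        (GammaH (Theta (Δs p e) H.psi j)) O)),
      (∀ (l : PrimesOff S) (u : (ZMod N)ˣ), (u : ZMod N) = ((l.1 : ℕ) : ZMod N) →
        chi (Theta (Δs p e) H.psi j) (dℓ l) ^ 2 * Theta (Δs p e) H.psi j u = 1) ∧
      (∀ (l : PrimesOff S) (v : ↥(parabolicHoms O (GammaH (Theta (Δs p e) H.psi j)) O)),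
        haveI : Fact (l.1 : ℕ).Prime := ⟨l.1.2⟩
        ((tw (heckeAlgebra.T l.1.2 (not_dvd_level' S hS l) l.2) v : ↥(parabolicHoms O
            (GammaH (Theta (Δs p e) H.psi j)) O)) :
            Additive (GammaH (Theta (Δs p e) H.psi j)) →+ O)
          = diaH (Theta (Δs p e) H.psi j) O (dℓ l)
              (GamH.TH (Theta (Δs p e) H.psi j) O
                (not_dvd_level S hS (dvd_level_pi r hN'') l)
                (v : Additive (GammaH (Theta (Δs p e) H.psi j)) →+ O))) ∧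
      (∀ g ∈ Set.range (formsGenS N'' S), ∃ (d : Gamma0 N) (u : Sy.𝕋 O), θA g = ev u ∧
        ∀ v : ↥(parabolicHoms O (GammaH (Theta (Δs p e) H.psi j)) O),
          ((tw g v : ↥(parabolicHoms O (GammaH (Theta (Δs p e) H.psi j)) O)) :
              Additive (GammaH (Theta (Δs p e) H.psi j)) →+ O)
            = diaH (Theta (Δs p e) H.psi j) O d (actH Sy O (Theta (Δs p e) H.psi j) u
                (v : Additive (GammaH (Theta (Δs p e) H.psi j)) →+ O))) := by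
  classical
  haveI : ∀ i, Fintype (Multiplicative (ZMod (p ^ e i))) := fun i => by
    haveI : NeZero (p ^ e i) := ⟨pow_ne_zero _ hpF.out.ne_zero⟩
    infer_instance
  have hSN : ∀ l : PrimesOff S, ¬ (l.1 : ℕ) ∣ N := fun l =>
    not_dvd_level S hS (dvd_level_pi r hN'') l
  obtain ⟨dℓ, hdℓ⟩ := exists_dl (S := S) (Theta (fun i => Multiplicative (ZMod (p ^ e i))) H.psi j)
    (Theta_surjective H j hj) (odd_card_pi hpF.out hp2 e j) hSN
  obtain ⟨tw, htw1, htw2⟩ := exists_tw_primeData (O := O) H hpF.out hp2 j hj hN'' S hS dℓ hdℓ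
  refine ⟨dℓ, tw, hdℓ, fun l v => htw2 l v, ?_⟩
  rintro g ⟨l, rfl⟩
  refine ⟨dℓ l, X (Sum.inl (sym l)), hθA l, fun v => ?_⟩
  haveI : Fact (l.1 : ℕ).Prime := ⟨l.1.2⟩
  haveI := Sy.factℓ (sym l)
  rw [htw1 l v, actH_X_inl]
  exact congrArg _ (TH_congr _ O (hsym l).symm _ _ _)

end Generic

/-! ### the generator data at a Taylor–Wiles set -/

section AtQ

open Fermat.Agent.GB.Setup.SetupPkg Fermat.Agent.GB.Setup.MQ Fermat.Agent.GB.B9.ProviderFlat.G1

variable {p : ℕ} [hpF : Fact p.Prime] {W : WeierstrassCurve ℤ}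
  {hcard₁ : Nat.card (Submodule.torsionBy ℤ
    ((W.map (Int.castRingHom ℚ)).toAffine.baseChange (AlgebraicClosure ℚ)).Point p) = p ^ 2}
  {hker : GaloisFactorsThroughFiniteLevel
    (WeierstrassCurve.Affine.Point.galoisRepModuleEnd (K := AlgebraicClosure ℚ) ℚ
      (W.map (Int.castRingHom ℚ)) p)}
  {M A : ℕ} {P : Pkg p W hcard₁ hker M A} {g n : ℕ} (Q : TWSet P g n)
  {K : ℕ} {r e N' : ℕ → ℕ} (H : PrimeData Q.N p K r e N') (j : ℕ) (hj : j ≤ K)
  {N'' : ℕ} [NeZero N''] (hN'' : N'' = Q.N * ∏ i : Fin j, r i)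
  (S : Finset ℕ) (hS : ∀ q : ℕ, q.Prime → q ∣ N'' → q ∈ (↑S : Set ℕ)) (hpS : p ∈ S)
  (hbad : ∀ q : ℕ, q.Prime → ¬ W.IsGoodPrimeFor q → q ∈ S)

include hN'' hS hpS hbad in
/-- every prime outside `S ⊇ primes(N'') ∪ {p} ∪ bad(W)` is a good symbol of `Q.Sy` -/
def symOf (l : PrimesOff (↑S : Set ℕ)) : Q.Sy.ι₁ :=
  ⟨(l.1 : ℕ), l.1.2,
    by
      by_contra hg
      exact l.2 (Finset.mem_coe.mpr (hbad _ l.1.2 hg)),
    not_dvd_level (↑S : Set ℕ) hS (dvd_level_pi r hN'') l,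
    fun h => l.2 (Finset.mem_coe.mpr (h ▸ hpS))⟩

theorem ℓ_symOf (l : PrimesOff (↑S : Set ℕ)) :
    Q.Sy.ℓ (symOf Q j hN'' S hS hpS hbad l) = (l.1 : ℕ) := rfl

/-- `Q.lamTop` vanishes on `Q.𝔪` (the `hev` binder of `TwRestrictPlug.locHyp_twP`) -/
theorem lamTop_eq_zero_of_mem (s : Q.Sy.𝕋 P.O) (hs : s ∈ Q.𝔪) : Q.lamTop s = 0 := by
  rw [Q.h𝔪] at hs
  exact hs

variable (θA : ↥(heckeAlgebra N'' 2 (↑S : Set ℕ)) →+* P.k)
  (hθA : ∀ (ℓ : ℕ) (hℓ : ℓ.Prime) (hℓN : ¬ ℓ ∣ N'') (hℓS : ℓ ∉ (↑S : Set ℕ)),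
    θA (heckeAlgebra.T hℓ hℓN hℓS) = ((W.apOfModel ℓ : ℤ) : P.k))

include hj hpS hbad hθA in
/-- **the generator data of G2 at `Q`** (any prime data `H` of the level `Q.N`, any stage
`j ≤ K`): `ev := Q.lamTop`, `θA (T_ℓ) = a_ℓ(W)` (helper39 `PkgLevel.exists_thetaQ` at the level
`N''`). -/
theorem exists_twist_gen_Q :
    ∃ (dℓ : PrimesOff (↑S : Set ℕ) → Gamma0 Q.N)
      (tw : ↥(heckeAlgebra N'' 2 (↑S : Set ℕ)) →+* Module.End P.O ↥(parabolicHoms P.O
        (GammaH (Theta (Δs p e) H.psi j)) P.O)),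
      (∀ (l : PrimesOff (↑S : Set ℕ)) (u : (ZMod Q.N)ˣ),
        (u : ZMod Q.N) = ((l.1 : ℕ) : ZMod Q.N) →
        chi (Theta (Δs p e) H.psi j) (dℓ l) ^ 2 * Theta (Δs p e) H.psi j u = 1) ∧
      (∀ (l : PrimesOff (↑S : Set ℕ))
          (v : ↥(parabolicHoms P.O (GammaH (Theta (Δs p e) H.psi j)) P.O)),
        haveI : Fact (l.1 : ℕ).Prime := ⟨l.1.2⟩
        ((tw (heckeAlgebra.T l.1.2 (not_dvd_level' (↑S : Set ℕ) hS l) l.2) v :
            ↥(parabolicHoms P.O (GammaH (Theta (Δs p e) H.psi j)) P.O)) :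
            Additive (GammaH (Theta (Δs p e) H.psi j)) →+ P.O)
          = diaH (Theta (Δs p e) H.psi j) P.O (dℓ l)
              (GamH.TH (Theta (Δs p e) H.psi j) P.O
                (not_dvd_level (↑S : Set ℕ) hS (dvd_level_pi r hN'') l)
                (v : Additive (GammaH (Theta (Δs p e) H.psi j)) →+ P.O))) ∧
      (∀ g ∈ Set.range (formsGenS N'' (↑S : Set ℕ)), ∃ (d : Gamma0 Q.N) (u : Q.Sy.𝕋 P.O),
        θA g = Q.lamTop u ∧
        ∀ v : ↥(parabolicHoms P.O (GammaH (Theta (Δs p e) H.psi j)) P.O),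
          ((tw g v : ↥(parabolicHoms P.O (GammaH (Theta (Δs p e) H.psi j)) P.O)) :
              Additive (GammaH (Theta (Δs p e) H.psi j)) →+ P.O)
            = diaH (Theta (Δs p e) H.psi j) P.O d
                (actH Q.Sy P.O (Theta (Δs p e) H.psi j) u
                  (v : Additive (GammaH (Theta (Δs p e) H.psi j)) →+ P.O))) := by
  refine exists_twist_gen Q.Sy H P.hp2 j hj hN'' (↑S : Set ℕ) hS
    (symOf Q j hN'' S hS hpS hbad) (ℓ_symOf Q j hN'' S hS hpS hbad) Q.lamTop θA fun l => ?_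
  rw [formsGenS_of_not_dvd N'' (↑S : Set ℕ) l (not_dvd_level' (↑S : Set ℕ) hS l),
    hθA _ l.1.2 (not_dvd_level' (↑S : Set ℕ) hS l) l.2, Q.lamTop_X_inl]
  rfl

end AtQ

end Fermat.Agent.GB.B9.ProviderFlat.G2Gen
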