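/-
GATE-B / B9 PROVIDER, flat branch, **group G2 AT a Taylor–Wiles set `Q : G1.TWSet P g n`, on
helper51's `Q.tw1F …`, in the field shape of `LowerFill.groupsOn_of_parts`** (helper11).

`G2.lean` instantiated at `Sy := Q.Sy`, `𝔪 := Q.𝔪`, `H := Q.primeData hq hqM hsq hcong`,
`h := Q.hyp hp3`, `s := 1`, `k := g`, `c := fun _ => cq`, `ev := Q.lamTop`.  The forms level `N''`
and the Hecke set `SQ` are VARIABLES (`hN'' : N'' = Q.N * ∏ i : Fin (1 + g), rOf Q.qv q i`,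
helper32 6873); `θQ` is any residual eigensystem on `heckeAlgebra N'' 2 ↑SQ` with
`θQ (T_ℓ) = a_ℓ(W)` (helper39 `PkgLevel.exists_thetaQ`), `SQ ⊇ primes(N'') ∪ {p} ∪ bad(W)`.

* `squarefree_N`, `N_dvd_level`, `not_dvd_N` : arithmetic of the levels;
* `hsym_Q` : every prime `ℓ ∉ SQ` is a good symbol of `Q.Sy` and `θQ (T_ℓ) = Q.lamTop (X_ℓ)`;
* `exists_dl_Q` : the half-diamonds;
* **`exists_twP_Q`** : the twisted Hecke action `twP` on the big level `P_Q` at `Q`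
  (`ι`-characterised on the `T_ℓ`, commuting with all diamonds and symbols, (LOC));
* for such `twP hD` : `tw₁Q twχQ` (`tw₁Q_fmk`, `twχQ_fmk`), **`TQ'`** (the ring `T_Q`), **`a₁Q a₂Q`**
  on `(Q.tw1F …).L1.M / .Lχ.M`, `a₁Q_chi a₂Q_chi`, **`a₁Q_D a₂Q_D aQ_U`** (the binders of
  `groupsOn_of_parts` / `G1.exists_level1` VERBATIM), `factLocHyp_Q` and the eight instances
  `isLocalRing_Q … isAdicComplete_Q` as theorems.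
-/
import Fermat.Agent.GB.B9.ProviderFlat.G2
import Fermat.Agent.GB.B9.ProviderFlat.G1One

set_option autoImplicit false
set_option linter.unusedSectionVars false
set_option linter.unusedVariables false
set_option linter.style.haveILetI false

open IsLocalRing
open scoped MatrixGroups
open CongruenceSubgroup ModularCurve.Period CuspForm

noncomputable section

namespace Fermat.Agent.GB.B9.ProviderFlat.G2Q

open Fermat.Agent.GB.Setup.SetupPkg Fermat.Agent.GB.Setup.MQ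
  Fermat.Agent.GM.B Fermat.Agent.GB.B3 Fermat.Agent.GB.B3.EisGamma0
  Fermat.Agent.GB.B3.HeckeActH Fermat.Agent.GB.B3.RealLevel Fermat.Agent.GB.B3.Tower
  Fermat.Agent.GB.B3.TWChars Fermat.Agent.GB.B3.FinalTW Fermat.Agent.GB.B3.Plug
  Fermat.Agent.GB.B3.TWLevel Fermat.Agent.GB.B3.GamH Fermat.Agent.GB.B3.ChiLevelMulti
  Fermat.Agent.GB.B3.Final Fermat.Agent.GJ.J2.Lat
  Fermat.Agent.GB.B4.Datum.ImageRing Fermat.Agent.GB.B4.Datum.TQFields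
  Fermat.Agent.GB.B9.ProviderFlat.H1 Fermat.Agent.GB.B9.ProviderFlat.G1

/-- local instance (Prop-valued class) -/
local instance factPrimeOffG2Q {S : Set ℕ} (l : PrimesOff S) : Fact (l.1 : ℕ).Prime := ⟨l.1.2⟩

variable {p : ℕ} [hpF : Fact p.Prime] {W : WeierstrassCurve ℤ}
  {hcard₁ : Nat.card (Submodule.torsionBy ℤ
    ((W.map (Int.castRingHom ℚ)).toAffine.baseChange (AlgebraicClosure ℚ)).Point p) = p ^ 2}
  {hker : GaloisFactorsThroughFiniteLevel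
    (WeierstrassCurve.Affine.Point.galoisRepModuleEnd (K := AlgebraicClosure ℚ) ℚ
      (W.map (Int.castRingHom ℚ)) p)}
  {M A : ℕ} {P : Pkg p W hcard₁ hker M A} {g n : ℕ} (Q : TWSet P g n)

/-! ### arithmetic of the levels -/

/-- the level `M * ∏ qv` of the symbols is squarefree -/
theorem squarefree_N (hsq : Squarefree M) : Squarefree Q.N :=
  squarefree_bigN hsq Q.prime (fun i => (Q.good i).2.1) Q.inj

/-- the level of the symbols divides the forms level -/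
theorem N_dvd_level {q N'' : ℕ} (hN'' : N'' = Q.N * ∏ i : Fin (1 + g), rOf Q.qv q i) :
    Q.N ∣ N'' := by
  rw [hN'']
  exact Dvd.intro _ rfl

/-- the primes outside `SQ` do not divide the level of the symbols -/
theorem not_dvd_N {q N'' : ℕ} (hN'' : N'' = Q.N * ∏ i : Fin (1 + g), rOf Q.qv q i)
    {SQ : Finset ℕ} (hNS : ∀ ℓ : ℕ, ℓ.Prime → ℓ ∣ N'' → ℓ ∈ SQ)
    (l : PrimesOff (↑SQ : Set ℕ)) : ¬ (l.1 : ℕ) ∣ Q.N := fun hl =>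
  l.2 (Finset.mem_coe.2 (hNS _ l.1.2 (hl.trans (N_dvd_level Q hN''))))

/-! ### the symbols -/

/-- a good prime not dividing `Q.N p` is a good symbol of `Q.Sy` -/
theorem exists_symbol (ℓ : ℕ) (hℓ : ℓ.Prime) (hgood : W.IsGoodPrimeFor ℓ) (hℓN : ¬ ℓ ∣ Q.N)
    (hℓp : ℓ ≠ p) : ∃ i : Q.Sy.ι₁, Q.Sy.ℓ i = ℓ :=
  ⟨(⟨ℓ, hℓ, hgood, hℓN, hℓp⟩ : (stdSymbols W p Q.N Q.qv Q.prime Q.qv_dvd_N).ι₁), rfl⟩

/-- **every prime outside `SQ` is a good symbol of `Q.Sy`**, and `θQ (T_ℓ) = Q.lamTop (X_ℓ)` -/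
theorem hsym_Q {q N'' : ℕ} [NeZero N'']
    (hN'' : N'' = Q.N * ∏ i : Fin (1 + g), rOf Q.qv q i)
    {SQ : Finset ℕ} {θQ : heckeAlgebra N'' 2 (↑SQ : Set ℕ) →+* P.k}
    (hpS : p ∈ SQ) (hNS : ∀ ℓ : ℕ, ℓ.Prime → ℓ ∣ N'' → ℓ ∈ SQ)
    (hWS : ∀ ℓ : ℕ, ℓ.Prime → ¬ W.IsGoodPrimeFor ℓ → ℓ ∈ SQ)
    (hθT : ∀ (ℓ : ℕ) (hℓ : ℓ.Prime) (hℓN : ¬ ℓ ∣ N'') (hℓS : ℓ ∉ (↑SQ : Set ℕ)),
      θQ (heckeAlgebra.T hℓ hℓN hℓS) = ((W.apOfModel ℓ : ℤ) : P.k))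
    (l : PrimesOff (↑SQ : Set ℕ)) :
    ∃ i : Q.Sy.ι₁, Q.Sy.ℓ i = (l.1 : ℕ) ∧
      θQ (formsGenS N'' (↑SQ : Set ℕ) l) = Q.lamTop (MvPolynomial.X (Sum.inl i)) := by
  have hlS : (l.1 : ℕ) ∉ SQ := fun h => l.2 (Finset.mem_coe.2 h)
  have hlN'' : ¬ (l.1 : ℕ) ∣ N'' := fun h => hlS (hNS _ l.1.2 h)
  have hlp : (l.1 : ℕ) ≠ p := fun h => hlS (h ▸ hpS)
  have hgood : W.IsGoodPrimeFor (l.1 : ℕ) := by
    by_contra hbad
    exact hlS (hWS _ l.1.2 hbad)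
  obtain ⟨i, hi⟩ := exists_symbol Q (l.1 : ℕ) l.1.2 hgood (not_dvd_N Q hN'' hNS l) hlp
  refine ⟨i, hi, ?_⟩
  rw [formsGenS_of_not_dvd N'' (↑SQ : Set ℕ) l hlN'', hθT, Q.lamTop_X_inl]
  show _ = ((W.apOfModel (Q.Sy.ℓ i) : ℤ) : P.k)
  rw [hi]

variable {q eq : ℕ} (hq : q.Prime) (hqM : q ∣ M) (hsq : Squarefree M) (hcong : p ^ eq ∣ q - 1)
  (hp3 : p ≠ 3) {cq : P.O} (hcq : cq ^ p ^ eq = 1)
  (hcq1 : (1 : P.O) - cq ∈ Ideal.span {P.ϖ})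

/-- **the half-diamonds** at `Q` -/
theorem exists_dl_Q {N'' : ℕ} (hN'' : N'' = Q.N * ∏ i : Fin (1 + g), rOf Q.qv q i)
    {SQ : Finset ℕ} (hNS : ∀ ℓ : ℕ, ℓ.Prime → ℓ ∣ N'' → ℓ ∈ SQ) :
    ∃ dℓ : PrimesOff (↑SQ : Set ℕ) → Gamma0 Q.N,
      ∀ (l : PrimesOff (↑SQ : Set ℕ)) (u : (ZMod Q.N)ˣ), (u : ZMod Q.N) = ((l.1 : ℕ) : ZMod Q.N) →
        chi (Theta (Δs p (eOf g (n + 1) eq)) (Q.primeData hq hqM hsq hcong).psi (1 + g)) (dℓ l) ^ 2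
          * Theta (Δs p (eOf g (n + 1) eq)) (Q.primeData hq hqM hsq hcong).psi (1 + g) u = 1 :=
  G2.exists_dl_theta (Q.primeData hq hqM hsq hcong) (1 + g) (by omega) P.hp2
    (↑SQ : Set ℕ) (not_dvd_N Q hN'' hNS)

/-- **the twisted Hecke action on the big level `P_Q` at `Q`**, with (LOC) -/
theorem exists_twP_Q {N'' : ℕ} [NeZero N'']
    (hN'' : N'' = Q.N * ∏ i : Fin (1 + g), rOf Q.qv q i)
    {SQ : Finset ℕ} {θQ : heckeAlgebra N'' 2 (↑SQ : Set ℕ) →+* P.k}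
    (hpS : p ∈ SQ) (hNS : ∀ ℓ : ℕ, ℓ.Prime → ℓ ∣ N'' → ℓ ∈ SQ)
    (hWS : ∀ ℓ : ℕ, ℓ.Prime → ¬ W.IsGoodPrimeFor ℓ → ℓ ∈ SQ)
    (hθT : ∀ (ℓ : ℕ) (hℓ : ℓ.Prime) (hℓN : ¬ ℓ ∣ N'') (hℓS : ℓ ∉ (↑SQ : Set ℕ)),
      θQ (heckeAlgebra.T hℓ hℓN hℓS) = ((W.apOfModel ℓ : ℤ) : P.k))
    (dℓ : PrimesOff (↑SQ : Set ℕ) → Gamma0 Q.N)
    (hdℓ : ∀ (l : PrimesOff (↑SQ : Set ℕ)) (u : (ZMod Q.N)ˣ),
      (u : ZMod Q.N) = ((l.1 : ℕ) : ZMod Q.N) →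
        chi (Theta (Δs p (eOf g (n + 1) eq)) (Q.primeData hq hqM hsq hcong).psi (1 + g)) (dℓ l) ^ 2
          * Theta (Δs p (eOf g (n + 1) eq)) (Q.primeData hq hqM hsq hcong).psi (1 + g) u = 1) :
    ∃ twP : ↥(heckeAlgebra N'' 2 (↑SQ : Set ℕ)) →+*
        Module.End P.O (bigLevel Q.Sy Q.𝔪 (Q.primeData hq hqM hsq hcong) (Q.hyp hp3) (1 + g)).M,
      (∀ (l : PrimesOff (↑SQ : Set ℕ))
          (x : (bigLevel Q.Sy Q.𝔪 (Q.primeData hq hqM hsq hcong) (Q.hyp hp3) (1 + g)).M),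
        (bigReal Q.Sy Q.𝔪 (Q.primeData hq hqM hsq hcong) (Q.hyp hp3) (1 + g)).ι
            (twP (formsGenS N'' (↑SQ : Set ℕ) l) x) =
          diaH (Theta (Δs p (eOf g (n + 1) eq)) (Q.primeData hq hqM hsq hcong).psi (1 + g)) P.O
            (dℓ l)
            (TH (Theta (Δs p (eOf g (n + 1) eq)) (Q.primeData hq hqM hsq hcong).psi (1 + g)) P.O
              (not_dvd_N Q hN'' hNS l)
              ((bigReal Q.Sy Q.𝔪 (Q.primeData hq hqM hsq hcong) (Q.hyp hp3) (1 + g)).ι x))) ∧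
      (∀ t i, twP t *
          (bigLevel Q.Sy Q.𝔪 (Q.primeData hq hqM hsq hcong) (Q.hyp hp3) (1 + g)).D i =
        (bigLevel Q.Sy Q.𝔪 (Q.primeData hq hqM hsq hcong) (Q.hyp hp3) (1 + g)).D i * twP t) ∧
      (∀ t u, twP t *
          (bigLevel Q.Sy Q.𝔪 (Q.primeData hq hqM hsq hcong) (Q.hyp hp3) (1 + g)).act u =
        (bigLevel Q.Sy Q.𝔪 (Q.primeData hq hqM hsq hcong) (Q.hyp hp3) (1 + g)).act u * twP t) ∧
      LocHyp P.O θQ twP :=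
  G2.exists_twP_hecke Q.Sy Q.𝔪 (Q.primeData hq hqM hsq hcong) (Q.hyp hp3) 1 g
    (squarefree_N Q hsq) (by omega) hN'' SQ hNS dℓ hdℓ (not_dvd_N Q hN'' hNS) Q.lamTop
    (fun t ht => by
      rw [Q.h𝔪] at ht
      exact ht)
    θQ (hsym_Q Q hN'' hpS hNS hWS hθT)

/-! ### the ring `T_Q` and its two actions on `Q.tw1F …` -/

section TQ

variable {N'' : ℕ} [NeZero N''] {SQ : Finset ℕ}
  (twP : ↥(heckeAlgebra N'' 2 (↑SQ : Set ℕ)) →+*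
    Module.End P.O (bigLevel Q.Sy Q.𝔪 (Q.primeData hq hqM hsq hcong) (Q.hyp hp3) (1 + g)).M)
  (hD : ∀ t i, twP t *
      (bigLevel Q.Sy Q.𝔪 (Q.primeData hq hqM hsq hcong) (Q.hyp hp3) (1 + g)).D i =
    (bigLevel Q.Sy Q.𝔪 (Q.primeData hq hqM hsq hcong) (Q.hyp hp3) (1 + g)).D i * twP t)
  (θQ : ↥(heckeAlgebra N'' 2 (↑SQ : Set ℕ)) →+* P.k)

/-- the action of the Hecke algebra of forms on `M¹_Q` -/
abbrev tw₁Q : ↥(heckeAlgebra N'' 2 (↑SQ : Set ℕ)) →+*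
    Module.End P.O (Q.tw1F hq hqM hsq hcong hp3 hcq hcq1).L1.M :=
  G2.tw₁ Q.Sy Q.𝔪 (Q.primeData hq hqM hsq hcong) (Q.hyp hp3) 1 g (fun _ => cq)
    (TWSet.hc_one (g := g) (eOf_eq (n + 1) eq) hcq) (fun _ => hcq1) twP hD

/-- the action of the Hecke algebra of forms on `M^χ_Q` -/
abbrev twχQ : ↥(heckeAlgebra N'' 2 (↑SQ : Set ℕ)) →+*
    Module.End P.O (Q.tw1F hq hqM hsq hcong hp3 hcq hcq1).Lχ.M :=
  G2.twχ Q.Sy Q.𝔪 (Q.primeData hq hqM hsq hcong) (Q.hyp hp3) 1 g (fun _ => cq)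
    (TWSet.hc_one (g := g) (eOf_eq (n + 1) eq) hcq) (fun _ => hcq1) twP hD

/-- **the ring `T_Q`** at `Q` -/
abbrev TQ' : Type :=
  TQ P.O θQ (prodTw P.O (tw₁Q Q hq hqM hsq hcong hp3 hcq hcq1 twP hD)
    (twχQ Q hq hqM hsq hcong hp3 hcq hcq1 twP hD))

theorem tw₁Q_fmk (t : ↥(heckeAlgebra N'' 2 (↑SQ : Set ℕ)))
    (x : (bigLevel Q.Sy Q.𝔪 (Q.primeData hq hqM hsq hcong) (Q.hyp hp3) (1 + g)).M) :
    tw₁Q Q hq hqM hsq hcong hp3 hcq hcq1 twP hD t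
        (fmk (frD (bigLevel Q.Sy Q.𝔪 (Q.primeData hq hqM hsq hcong) (Q.hyp hp3) (1 + g)))
          (fun _ => (1 : P.O)) x) =
      fmk (frD (bigLevel Q.Sy Q.𝔪 (Q.primeData hq hqM hsq hcong) (Q.hyp hp3) (1 + g)))
        (fun _ => (1 : P.O)) (twP t x) := rfl

theorem twχQ_fmk (t : ↥(heckeAlgebra N'' 2 (↑SQ : Set ℕ)))
    (x : (bigLevel Q.Sy Q.𝔪 (Q.primeData hq hqM hsq hcong) (Q.hyp hp3) (1 + g)).M) :
    twχQ Q hq hqM hsq hcong hp3 hcq hcq1 twP hD t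
        (fmk (frD (bigLevel Q.Sy Q.𝔪 (Q.primeData hq hqM hsq hcong) (Q.hyp hp3) (1 + g)))
          (fun _ : Fin 1 => cq) x) =
      fmk (frD (bigLevel Q.Sy Q.𝔪 (Q.primeData hq hqM hsq hcong) (Q.hyp hp3) (1 + g)))
        (fun _ : Fin 1 => cq) (twP t x) := rfl

/-- **`a₁`** at `Q` -/
abbrev a₁Q : TQ' Q hq hqM hsq hcong hp3 hcq hcq1 twP hD θQ →ₐ[P.O]
    Module.End P.O (Q.tw1F hq hqM hsq hcong hp3 hcq hcq1).L1.M :=
  actL P.O θQ (tw₁Q Q hq hqM hsq hcong hp3 hcq hcq1 twP hD)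
    (twχQ Q hq hqM hsq hcong hp3 hcq hcq1 twP hD)

/-- **`a₂`** at `Q` -/
abbrev a₂Q : TQ' Q hq hqM hsq hcong hp3 hcq hcq1 twP hD θQ →ₐ[P.O]
    Module.End P.O (Q.tw1F hq hqM hsq hcong hp3 hcq hcq1).Lχ.M :=
  actR P.O θQ (tw₁Q Q hq hqM hsq hcong hp3 hcq hcq1 twP hD)
    (twχQ Q hq hqM hsq hcong hp3 hcq hcq1 twP hD)

theorem a₁Q_chi (t : ↥(heckeAlgebra N'' 2 (↑SQ : Set ℕ))) :
    a₁Q Q hq hqM hsq hcong hp3 hcq hcq1 twP hD θQ (chi P.O θQ _ t) =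
      tw₁Q Q hq hqM hsq hcong hp3 hcq hcq1 twP hD t :=
  actL_chi P.O θQ _ _ t

theorem a₂Q_chi (t : ↥(heckeAlgebra N'' 2 (↑SQ : Set ℕ))) :
    a₂Q Q hq hqM hsq hcong hp3 hcq hcq1 twP hD θQ (chi P.O θQ _ t) =
      twχQ Q hq hqM hsq hcong hp3 hcq hcq1 twP hD t :=
  actR_chi P.O θQ _ _ t

/-- **`a₁_D`** on `Q.tw1F …` -/
theorem a₁Q_D (t : TQ' Q hq hqM hsq hcong hp3 hcq hcq1 twP hD θQ) (i : Fin g) :
    a₁Q Q hq hqM hsq hcong hp3 hcq hcq1 twP hD θQ t *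
        (Q.tw1F hq hqM hsq hcong hp3 hcq hcq1).L1.D i =
      (Q.tw1F hq hqM hsq hcong hp3 hcq hcq1).L1.D i *
        a₁Q Q hq hqM hsq hcong hp3 hcq hcq1 twP hD θQ t :=
  G2.a₁_D Q.Sy Q.𝔪 (Q.primeData hq hqM hsq hcong) (Q.hyp hp3) 1 g (fun _ => cq)
    (TWSet.hc_one (g := g) (eOf_eq (n + 1) eq) hcq) (fun _ => hcq1) twP hD θQ t i

/-- **`a₂_D`** on `Q.tw1F …` -/
theorem a₂Q_D (t : TQ' Q hq hqM hsq hcong hp3 hcq hcq1 twP hD θQ) (i : Fin g) :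
    a₂Q Q hq hqM hsq hcong hp3 hcq hcq1 twP hD θQ t *
        (Q.tw1F hq hqM hsq hcong hp3 hcq hcq1).Lχ.D i =
      (Q.tw1F hq hqM hsq hcong hp3 hcq hcq1).Lχ.D i *
        a₂Q Q hq hqM hsq hcong hp3 hcq hcq1 twP hD θQ t :=
  G2.a₂_D Q.Sy Q.𝔪 (Q.primeData hq hqM hsq hcong) (Q.hyp hp3) 1 g (fun _ => cq)
    (TWSet.hc_one (g := g) (eOf_eq (n + 1) eq) hcq) (fun _ => hcq1) twP hD θQ t i

/-- **`a_U`** on `Q.tw1F …` -/
theorem aQ_U (t : TQ' Q hq hqM hsq hcong hp3 hcq hcq1 twP hD θQ)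
    (x : (Q.tw1F hq hqM hsq hcong hp3 hcq hcq1).L1.M)
    (y : (Q.tw1F hq hqM hsq hcong hp3 hcq hcq1).Lχ.M)
    (hxy : (Q.tw1F hq hqM hsq hcong hp3 hcq hcq1).U (Submodule.Quotient.mk x) =
      Submodule.Quotient.mk y) :
    (Q.tw1F hq hqM hsq hcong hp3 hcq hcq1).U
        (Submodule.Quotient.mk (a₁Q Q hq hqM hsq hcong hp3 hcq hcq1 twP hD θQ t x)) =
      Submodule.Quotient.mk (a₂Q Q hq hqM hsq hcong hp3 hcq hcq1 twP hD θQ t y) :=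
  G2.a_U Q.Sy Q.𝔪 (Q.primeData hq hqM hsq hcong) (Q.hyp hp3) 1 g (fun _ => cq)
    (TWSet.hc_one (g := g) (eOf_eq (n + 1) eq) hcq) (fun _ => hcq1) twP hD θQ t x y hxy

/-- joint faithfulness -/
theorem eq_zero_of_a₁Q_a₂Q (t : TQ' Q hq hqM hsq hcong hp3 hcq hcq1 twP hD θQ)
    (h₁ : a₁Q Q hq hqM hsq hcong hp3 hcq hcq1 twP hD θQ t = 0)
    (h₂ : a₂Q Q hq hqM hsq hcong hp3 hcq hcq1 twP hD θQ t = 0) : t = 0 :=
  eq_zero_of_actL_of_actR P.O θQ _ _ t h₁ h₂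

/-- (LOC) for the product action, as a `Fact` (for the `ImageRing` / `TQReduced` instances and
`G3Q.exists_psi_Q`) -/
theorem factLocHyp_Q (hlocP : LocHyp P.O θQ twP) :
    Fact (LocHyp P.O θQ (prodTw P.O (tw₁Q Q hq hqM hsq hcong hp3 hcq hcq1 twP hD)
      (twχQ Q hq hqM hsq hcong hp3 hcq hcq1 twP hD))) :=
  ⟨G2.locHyp_T Q.Sy Q.𝔪 (Q.primeData hq hqM hsq hcong) (Q.hyp hp3) 1 g (fun _ => cq)
    (TWSet.hc_one (g := g) (eOf_eq (n + 1) eq) hcq) (fun _ => hcq1) twP hD θQ hlocP⟩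

theorem finite_L1_Q : Module.Finite P.O (Q.tw1F hq hqM hsq hcong hp3 hcq hcq1).L1.M :=
  G2.finite_L1 Q.Sy Q.𝔪 (Q.primeData hq hqM hsq hcong) (Q.hyp hp3) 1 g (fun _ => cq)
    (TWSet.hc_one (g := g) (eOf_eq (n + 1) eq) hcq) (fun _ => hcq1)

theorem free_L1_Q : Module.Free P.O (Q.tw1F hq hqM hsq hcong hp3 hcq hcq1).L1.M :=
  G2.free_L1 Q.Sy Q.𝔪 (Q.primeData hq hqM hsq hcong) (Q.hyp hp3) 1 g (fun _ => cq)
    (TWSet.hc_one (g := g) (eOf_eq (n + 1) eq) hcq) (fun _ => hcq1)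

theorem finite_Lχ_Q : Module.Finite P.O (Q.tw1F hq hqM hsq hcong hp3 hcq hcq1).Lχ.M :=
  G2.finite_Lχ Q.Sy Q.𝔪 (Q.primeData hq hqM hsq hcong) (Q.hyp hp3) 1 g (fun _ => cq)
    (TWSet.hc_one (g := g) (eOf_eq (n + 1) eq) hcq) (fun _ => hcq1)

theorem free_Lχ_Q : Module.Free P.O (Q.tw1F hq hqM hsq hcong hp3 hcq hcq1).Lχ.M :=
  G2.free_Lχ Q.Sy Q.𝔪 (Q.primeData hq hqM hsq hcong) (Q.hyp hp3) 1 g (fun _ => cq)
    (TWSet.hc_one (g := g) (eOf_eq (n + 1) eq) hcq) (fun _ => hcq1)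

theorem nontrivial_L1_Q : Nontrivial (Q.tw1F hq hqM hsq hcong hp3 hcq hcq1).L1.M :=
  G2.nontrivial_L1 Q.Sy Q.𝔪 (Q.primeData hq hqM hsq hcong) (Q.hyp hp3) 1 g (fun _ => cq)
    (TWSet.hc_one (g := g) (eOf_eq (n + 1) eq) hcq) (fun _ => hcq1)
    (Q.d1F_pos hq hqM hsq hcong hp3)

theorem finite_prod_Q : Module.Finite P.O ((Q.tw1F hq hqM hsq hcong hp3 hcq hcq1).L1.M ×
    (Q.tw1F hq hqM hsq hcong hp3 hcq hcq1).Lχ.M) :=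
  haveI := finite_L1_Q Q hq hqM hsq hcong hp3 hcq hcq1
  haveI := finite_Lχ_Q Q hq hqM hsq hcong hp3 hcq hcq1
  inferInstance

theorem free_prod_Q : Module.Free P.O ((Q.tw1F hq hqM hsq hcong hp3 hcq hcq1).L1.M ×
    (Q.tw1F hq hqM hsq hcong hp3 hcq hcq1).Lχ.M) :=
  haveI := free_L1_Q Q hq hqM hsq hcong hp3 hcq hcq1
  haveI := free_Lχ_Q Q hq hqM hsq hcong hp3 hcq hcq1
  inferInstance

theorem nontrivial_prod_Q : Nontrivial ((Q.tw1F hq hqM hsq hcong hp3 hcq hcq1).L1.M ×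
    (Q.tw1F hq hqM hsq hcong hp3 hcq hcq1).Lχ.M) :=
  haveI := nontrivial_L1_Q Q hq hqM hsq hcong hp3 hcq hcq1
  inferInstance

/-- **`T_Q` is local** -/
theorem isLocalRing_Q (hlocP : LocHyp P.O θQ twP) :
    IsLocalRing (TQ' Q hq hqM hsq hcong hp3 hcq hcq1 twP hD θQ) :=
  haveI := factLocHyp_Q Q hq hqM hsq hcong hp3 hcq hcq1 twP hD θQ hlocP
  haveI := finite_prod_Q Q hq hqM hsq hcong hp3 hcq hcq1
  haveI := free_prod_Q Q hq hqM hsq hcong hp3 hcq hcq1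
  haveI := nontrivial_prod_Q Q hq hqM hsq hcong hp3 hcq hcq1
  isLocalRing_TQ

/-- the structure map of `T_Q` is local -/
theorem isLocalHom_Q (hlocP : LocHyp P.O θQ twP) :
    haveI := isLocalRing_Q Q hq hqM hsq hcong hp3 hcq hcq1 twP hD θQ hlocP
    IsLocalHom (algebraMap P.O (TQ' Q hq hqM hsq hcong hp3 hcq hcq1 twP hD θQ)) :=
  haveI := factLocHyp_Q Q hq hqM hsq hcong hp3 hcq hcq1 twP hD θQ hlocP
  haveI := finite_prod_Q Q hq hqM hsq hcong hp3 hcq hcq1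
  haveI := free_prod_Q Q hq hqM hsq hcong hp3 hcq hcq1
  haveI := nontrivial_prod_Q Q hq hqM hsq hcong hp3 hcq hcq1
  isLocalHom_algebraMap_TQ

/-- **`T_Q` is finite over `O`** -/
theorem finite_Q : Module.Finite P.O (TQ' Q hq hqM hsq hcong hp3 hcq hcq1 twP hD θQ) :=
  haveI := finite_prod_Q Q hq hqM hsq hcong hp3 hcq hcq1
  haveI := free_prod_Q Q hq hqM hsq hcong hp3 hcq hcq1
  moduleFinite_TQ

/-- `T_Q` is noetherian -/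
theorem isNoetherianRing_Q : IsNoetherianRing (TQ' Q hq hqM hsq hcong hp3 hcq hcq1 twP hD θQ) :=
  haveI := finite_prod_Q Q hq hqM hsq hcong hp3 hcq hcq1
  haveI := free_prod_Q Q hq hqM hsq hcong hp3 hcq hcq1
  isNoetherianRing_TQ

/-- `T_Q` is complete -/
theorem isAdicComplete_Q (hlocP : LocHyp P.O θQ twP) :
    haveI := isLocalRing_Q Q hq hqM hsq hcong hp3 hcq hcq1 twP hD θQ hlocP
    IsAdicComplete (maximalIdeal (TQ' Q hq hqM hsq hcong hp3 hcq hcq1 twP hD θQ)) (TQ' Q hq hqM hsq hcong hp3 hcq hcq1 twP hD θQ) :=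
  haveI := factLocHyp_Q Q hq hqM hsq hcong hp3 hcq hcq1 twP hD θQ hlocP
  haveI := finite_prod_Q Q hq hqM hsq hcong hp3 hcq hcq1
  haveI := free_prod_Q Q hq hqM hsq hcong hp3 hcq hcq1
  haveI := nontrivial_prod_Q Q hq hqM hsq hcong hp3 hcq hcq1
  isAdicComplete_TQ

/-- **`T_Q` is reduced** -/
theorem isReduced_Q (hlocP : LocHyp P.O θQ twP)
    (hNS : ∀ ℓ : ℕ, ℓ.Prime → ℓ ∣ N'' → ℓ ∈ SQ) :
    IsReduced (TQ' Q hq hqM hsq hcong hp3 hcq hcq1 twP hD θQ) :=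
  haveI := factLocHyp_Q Q hq hqM hsq hcong hp3 hcq hcq1 twP hD θQ hlocP
  haveI := finite_prod_Q Q hq hqM hsq hcong hp3 hcq hcq1
  haveI := free_prod_Q Q hq hqM hsq hcong hp3 hcq hcq1
  haveI := nontrivial_prod_Q Q hq hqM hsq hcong hp3 hcq hcq1
  Fermat.Agent.GB.B4.Datum.TQReduced.isReduced_TQ_hecke θQ _ hNS

end TQ

end Fermat.Agent.GB.B9.ProviderFlat.G2Q

end
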