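/-
GATE-B / B9 PROVIDER, group G2 at a Taylor–Wiles set (helper95): **the binders `hnd`, `hsym`,
`hev`, `Squarefree N` of helper11's `G2.exists_twP_hecke` at helper51's objects** `Q : G1.TWSet P g n`
(`Sy := Q.Sy = stdSymbols W p Q.N Q.qv`, `𝔪 := Q.𝔪`, `ev := Q.lamTop`), for a VARIABLE forms level
`N''` with `Q.N ∣ N''` and ANY `S ⊇ primes(N'') ∪ {p} ∪ bad(W)` (e.g. the `SQ` of helper39's
`PkgLevel.exists_thetaQ`), `θA (T_ℓ) = a_ℓ(W)`: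

* `hnd_Q` : `∀ l : PrimesOff ↑S, ¬ (l.1 : ℕ) ∣ Q.N`;
* `hsym_Q` : `∀ l : PrimesOff ↑S, ∃ i : Q.Sy.ι₁, Q.Sy.ℓ i = l.1 ∧
    θA (formsGenS N'' ↑S l) = Q.lamTop (X (inl i))`;
* `hev_Q` : `∀ t ∈ Q.𝔪, Q.lamTop t = 0`;
* `squarefree_N` : `Squarefree M → Squarefree Q.N`.
-/
import Mathlib
import Fermat.Agent.GB.B9.ProviderFlat.G2Gen
import Fermat.Agent.GB.B9.ProviderFlat.H1

set_option autoImplicit false
set_option linter.unusedSectionVars false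
set_option linter.unusedVariables false

noncomputable section

open scoped MatrixGroups
open CongruenceSubgroup MvPolynomial CuspForm
open Fermat.Agent.GB.B3.HeckeActH Fermat.Agent.GJ.J2.Lat
open Fermat.Agent.GB.Setup.SetupPkg Fermat.Agent.GB.Setup.MQ Fermat.Agent.GB.B9.ProviderFlat.G1

namespace Fermat.Agent.GB.B9.ProviderFlat.G2Sym

variable {p : ℕ} [hpF : Fact p.Prime] {W : WeierstrassCurve ℤ}
  {hcard₁ : Nat.card (Submodule.torsionBy ℤ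
    ((W.map (Int.castRingHom ℚ)).toAffine.baseChange (AlgebraicClosure ℚ)).Point p) = p ^ 2}
  {hker : GaloisFactorsThroughFiniteLevel
    (WeierstrassCurve.Affine.Point.galoisRepModuleEnd (K := AlgebraicClosure ℚ) ℚ
      (W.map (Int.castRingHom ℚ)) p)}
  {M A : ℕ} {P : Pkg p W hcard₁ hker M A} {g n : ℕ} (Q : TWSet P g n)
  {N'' : ℕ} [NeZero N''] (hNN'' : Q.N ∣ N'')
  (S : Finset ℕ) (hS : ∀ q : ℕ, q.Prime → q ∣ N'' → q ∈ S) (hpS : p ∈ S)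
  (hbad : ∀ q : ℕ, q.Prime → ¬ W.IsGoodPrimeFor q → q ∈ S)

include hNN'' hS in
/-- the binder `hnd` of `G2.exists_twP_hecke` / `G2.exists_dl_theta` at `Q` -/
theorem hnd_Q (l : PrimesOff (↑S : Set ℕ)) : ¬ (l.1 : ℕ) ∣ Q.N := fun h =>
  l.2 (Finset.mem_coe.mpr (hS _ l.1.2 (h.trans hNN'')))

include hNN'' hS hpS hbad in
/-- the binder `hsym` of `G2.exists_twP_hecke` at `Q`: every prime outside `S` is a good symbol of
`Q.Sy`, and `θA (T_ℓ) = Q.lamTop (X_ℓ)` as soon as `θA (T_ℓ) = a_ℓ(W)` -/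
theorem hsym_Q (θA : ↥(heckeAlgebra N'' 2 (↑S : Set ℕ)) →+* P.k)
    (hθA : ∀ (ℓ : ℕ) (hℓ : ℓ.Prime) (hℓN : ¬ ℓ ∣ N'') (hℓS : ℓ ∉ (↑S : Set ℕ)),
      θA (heckeAlgebra.T hℓ hℓN hℓS) = ((W.apOfModel ℓ : ℤ) : P.k))
    (l : PrimesOff (↑S : Set ℕ)) :
    ∃ i : Q.Sy.ι₁, Q.Sy.ℓ i = (l.1 : ℕ) ∧
      θA (formsGenS N'' (↑S : Set ℕ) l) = Q.lamTop (X (Sum.inl i)) := by
  have hlN'' : ¬ (l.1 : ℕ) ∣ N'' := fun h => l.2 (Finset.mem_coe.mpr (hS _ l.1.2 h))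
  have hgood : W.IsGoodPrimeFor (l.1 : ℕ) := by
    by_contra hg
    exact l.2 (Finset.mem_coe.mpr (hbad _ l.1.2 hg))
  let i : Q.Sy.ι₁ := ⟨(l.1 : ℕ), l.1.2, hgood, hnd_Q Q hNN'' S hS l,
    fun h => l.2 (Finset.mem_coe.mpr (h ▸ hpS))⟩
  refine ⟨i, rfl, ?_⟩
  rw [formsGenS_of_not_dvd N'' (↑S : Set ℕ) l hlN'', hθA _ l.1.2 hlN'' l.2]
  exact (Q.lamTop_X_inl i).symm

/-- the binder `hev` of `G2.exists_twP_hecke` at `Q` -/
theorem hev_Q (t : Q.Sy.𝕋 P.O) (ht : t ∈ Q.𝔪) : Q.lamTop t = 0 :=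
  G2Gen.lamTop_eq_zero_of_mem Q t ht

/-- the binder `hNsq` of `G2.exists_twP_hecke` at `Q` -/
theorem squarefree_N (hsq : Squarefree M) : Squarefree Q.N :=
  Fermat.Agent.GB.B9.ProviderFlat.H1.squarefree_bigN hsq Q.prime (fun i => (Q.good i).2.1) Q.inj

end Fermat.Agent.GB.B9.ProviderFlat.G2Sym
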