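/-
GATE-B / B9 PROVIDER, group **G4 = (P5)** of helper53's split of
`LevelMulti.nonempty_TWInput_multi` (helper6): the binders `x hx unit₁ unit₂`.

`TWInput.x` carries NO Galois meaning in the engine (`Provider.nonempty_TWInput_of_surjective` lifts
`C (x i - 1)` through the surjection `R ↠ T⟦z⟧`): any `x i ∈ T` with `x i - 1 ∈ 𝔪_T` and the two
unit fields will do.  The diamonds themselves are NOT in `T = T_Q` (`T_Q` is the anemic algebra of
the half-twisted operators `⟨ℓ⟩^{-1/2} T_ℓ`: an eigenform `f` of nebentypus `ψ` and its conjugate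
`f ⊗ ψ⁻¹` have the same `T_Q`-eigensystem but the diamond eigenvalues `ψ(δ)`, `ψ(δ)⁻¹`), so the
only available choice is the Galois one: `x i := χ₀(s i)`, the value at a tame generator `s i` of
one of the two characters of `ρ_Q|D_{P i} = χ₀ ⊕ χ₁` (`GB/E2/TWChars.exists_characters_of_unr`).

* `Occ₁ L a i θ`  : the point `θ : T →ₐ[O] Ω` occurs in `M / (D_i - 1) M`;
* `OccW L a p hN i θ` : the point occurs in `M / unitSub_i` (nebentypus of exact order `p` at the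
  `i`-th Taylor–Wiles prime, trivial at the others).
* `exists_x_of_chars` : **the group G4 in hypothesis form**: from the `TWChars` inputs at each
  Taylor–Wiles prime and the two POINTWISE statements
    `(1pt)`  `θ` occurs in `M¹/(D_i-1)` or `M^χ/(D_i-1)`  ⟹ `θ (χ₀ (s i)) = 1`
             (helper66 `UnitGlobalPt.chi_point_eq_one_of_algHom` ∘ helper49 `LowerPoint`),
    `(Wpt)`  `θ` occurs in `M¹/unitSub_i` or `M^χ/unitSub_i` ⟹ `Φ_p(θ (χ₀ (s i))) = 0`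
             (B5 at `r_i` + S36 + the integrality argument of helper66 `UnitOrder`),
  both quantified over EVERY diagonalisation `(Bas, χ)` of `ρ_Q|D_{P i}` (the suppliers prove them
  in that generality), the fields `x hx unit₁ unit₂` of `nonempty_TWInput_multi` VERBATIM.
* `pow_ppart_eq_one_of_chars` : `x i ^ p ^ a = 1` (`r i = p ^ a * m + 1`, `p ∤ m`), the `hxpow`
  binder of the weak form.
-/
import Fermat.Agent.GB.Alg.UnitPoints
import Fermat.Agent.GB.E2.TWChars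
import Fermat.Agent.GB.E2.DeltaHom

set_option autoImplicit false
set_option linter.unusedSectionVars false
set_option linter.unusedVariables false
set_option linter.style.haveILetI false

namespace Fermat.Agent.GB.B9.ProviderFlat.G4

open IsLocalRing Finset Fermat.Agent.GB.B3.TWLevel Fermat.Agent.Common_helper32
  Fermat.Agent.GB.E2.TWDiag

section Occ

variable {O : Type} [CommRing O] {𝕋 : Type} [CommRing 𝕋] [Algebra O 𝕋]
  {M0 : Type} [AddCommGroup M0] [Module O M0] {act0 : 𝕋 →ₐ[O] Module.End O M0}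
  {k : ℕ} {N : Fin k → ℕ}
  {T : Type} [CommRing T] [Algebra O T] {Ω : Type*} [CommRing Ω] [Algebra O Ω]

/-- the point `θ` occurs in `M / (D_i - 1) M` -/
def Occ₁ (L : FreeLevel O 𝕋 M0 act0 k N) (a : T →ₐ[O] Module.End O L.M) (i : Fin k)
    (θ : T →ₐ[O] Ω) : Prop :=
  ∀ r : T, (∀ m, a r m ∈ LinearMap.range (L.D i - 1)) → θ r = 0

/-- the point `θ` occurs in `M / unitSub_i` -/
def OccW [∀ i, NeZero (N i)] (L : FreeLevel O 𝕋 M0 act0 k N) (a : T →ₐ[O] Module.End O L.M)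
    (p : ℕ) (hN : ∀ i, p ∣ N i) (i : Fin k) (θ : T →ₐ[O] Ω) : Prop :=
  ∀ r : T, (∀ m, a r m ∈ L.unitSub p hN i) → θ r = 0

end Occ

section Main

variable {O : Type} [CommRing O] [IsDomain O] [IsLocalRing O] {lam : O}
  {𝕋 : Type} [CommRing 𝕋] [Algebra O 𝕋]
  {M0 : Type} [AddCommGroup M0] [Module O M0] {act0 : 𝕋 →ₐ[O] Module.End O M0}
  {M0χ : Type} [AddCommGroup M0χ] [Module O M0χ] {act0χ : 𝕋 →ₐ[O] Module.End O M0χ}
  {g : ℕ} {N : Fin g → ℕ} [∀ i, NeZero (N i)]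

/-- **G4 in hypothesis form.** -/
theorem exists_x_of_chars
    (tw : TWLevelData O lam 𝕋 M0 act0 M0χ act0χ g N)
    {p : ℕ} (hp : p.Prime) (hpO : (p : O) ∈ maximalIdeal O)
    (hreg : ∀ c : O, (p : O) * c = 0 → c = 0)
    (hNpow : ∀ i, ∃ n, N i = p ^ n) (hN : ∀ i, p ∣ N i)
    (T : Type) [CommRing T] [IsLocalRing T] [Algebra O T] [IsReduced T] [Algebra.IsIntegral O T]
    [IsNoetherianRing T] [IsAdicComplete (maximalIdeal T) T]
    (a₁ : T →ₐ[O] Module.End O tw.L1.M) (a₂ : T →ₐ[O] Module.End O tw.Lχ.M)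
    (a₁_D : ∀ t i, a₁ t * tw.L1.D i = tw.L1.D i * a₁ t)
    (a₂_D : ∀ t i, a₂ t * tw.Lχ.D i = tw.Lχ.D i * a₂ t)
    (Ω : Type) [Field Ω] [IsAlgClosed Ω] [Algebra O Ω] [Module.IsTorsionFree O Ω]
    -- the Galois side at the Taylor–Wiles primes
    (ρ : GaloisRepAdic T) (hpT : (p : T) ∈ maximalIdeal T)
    (r : Fin g → ℕ) (hr : ∀ i, (r i).Prime) (hpr : ∀ i, p ≠ r i)
    (P : Fin g → ValuationSubring Qb) (hP : ∀ i, (P i).LiesOverPrime (r i))
    (φ : Fin g → GQ) (hφ : ∀ i, (P i).IsFrobeniusAt (φ i) (r i))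
    (a₀ b₀ : Fin g → T)
    (htr : ∀ i, LinearMap.trace T ρ.V (ρ.ρ (φ i)) - (a₀ i + b₀ i) ∈ maximalIdeal T)
    (hdet : ∀ i, LinearMap.det (ρ.ρ (φ i)) - a₀ i * b₀ i ∈ maximalIdeal T)
    (hab : ∀ i, IsUnit (a₀ i - b₀ i))
    (hunr : ∀ i, ∀ s ∈ (P i).inertiaSubgroupIn ℚ, ∀ v,
      ρ.ρ s v - v ∈ maximalIdeal T • (⊤ : Submodule T ρ.V))
    (hq : ∀ i, (r i : T) - 1 ∈ maximalIdeal T)
    (s : Fin g → GQ) (hs : ∀ i, s i ∈ (P i).inertiaSubgroupIn ℚ)
    -- (1pt)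
    (h1 : ∀ (i : Fin g) (Bas : Module.Basis (Fin 2) T ρ.V)
      (χ : Fin 2 → (P i).decompositionSubgroup ℚ →* Tˣ),
      (∀ (j : Fin 2) (σ : (P i).decompositionSubgroup ℚ),
        ρ.ρ (σ : GQ) (Bas j) = (χ j σ : T) • Bas j) →
      ∀ θ : T →ₐ[O] Ω, (Occ₁ tw.L1 a₁ i θ ∨ Occ₁ tw.Lχ a₂ i θ) →
        θ (χ 0 ⟨s i, inertia_le_decomposition (P i) (hs i)⟩ : T) = 1)
    -- (Wpt)
    (hW : ∀ (i : Fin g) (Bas : Module.Basis (Fin 2) T ρ.V)
      (χ : Fin 2 → (P i).decompositionSubgroup ℚ →* Tˣ),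
      (∀ (j : Fin 2) (σ : (P i).decompositionSubgroup ℚ),
        ρ.ρ (σ : GQ) (Bas j) = (χ j σ : T) • Bas j) →
      ∀ θ : T →ₐ[O] Ω, (OccW tw.L1 a₁ p hN i θ ∨ OccW tw.Lχ a₂ p hN i θ) →
        ∑ j ∈ range p,
          θ (χ 0 ⟨s i, inertia_le_decomposition (P i) (hs i)⟩ : T) ^ j = 0) :
    ∃ x : Fin g → T, (∀ i, x i - 1 ∈ maximalIdeal T) ∧
      (∀ i, ∀ a m : ℕ, r i = p ^ a * m + 1 → ¬ p ∣ m → x i ^ p ^ a = 1) ∧
      (∀ i m, ∃ m', tw.L1.D i m - m = a₁ (x i) m' - m') ∧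
      (∀ i m, ∃ m', tw.Lχ.D i m - m = a₂ (x i) m' - m') := by
  classical
  letI : HenselianLocalRing T :=
    Fermat.Agent.GB.E2.TWDiag.henselianLocalRing_of_henselianRing T
  have hch : ∀ i : Fin g, ∃ (Bas : Module.Basis (Fin 2) T ρ.V)
      (χ : Fin 2 → (P i).decompositionSubgroup ℚ →* Tˣ),
      (∀ (j : Fin 2) (σ : (P i).decompositionSubgroup ℚ),
        ρ.ρ (σ : GQ) (Bas j) = (χ j σ : T) • Bas j) ∧
      ∀ j (t : GQ) (ht : t ∈ (P i).inertiaSubgroupIn ℚ),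
        (χ j ⟨t, inertia_le_decomposition (P i) ht⟩ : T) - 1 ∈ maximalIdeal T ∧
          (χ j ⟨t, inertia_le_decomposition (P i) ht⟩ : T) ^ (r i) =
            χ j ⟨t, inertia_le_decomposition (P i) ht⟩ := by
    intro i
    obtain ⟨Bas, χ, hχ, -, -, hin⟩ :=
      Fermat.Agent.GB.E2.TWChars.exists_characters_of_unr ρ (P i) hp hpT (hr i) (hpr i) (hP i)
        (hφ i) (a₀ i) (b₀ i) (htr i) (hdet i) (hab i) (hunr i) (hq i)
    exact ⟨Bas, χ, hχ, hin⟩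
  choose Bas χ hχ hin using hch
  refine ⟨fun i => (χ i 0 ⟨s i, inertia_le_decomposition (P i) (hs i)⟩ : T),
    fun i => (hin i 0 (s i) (hs i)).1, ?_, ?_, ?_⟩
  · intro i a m hram hm
    have h := Fermat.Agent.GB.E2.DeltaHom.units_pow_ppart_eq_one hp hpT
      (u := χ i 0 ⟨s i, inertia_le_decomposition (P i) (hs i)⟩) (hin i 0 (s i) (hs i)).1 hram hm
      (hin i 0 (s i) (hs i)).2
    have h' := congrArg (Units.val) h
    rwa [Units.val_pow_eq_pow_val, Units.val_one] at h'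
  · exact Fermat.Agent.GB.Alg.UnitPoints.unit_field_of_points tw.L1 a₁ a₁_D Ω hp hpO hreg hNpow hN _
      (fun i θ hθ => h1 i (Bas i) (χ i) (hχ i) θ (Or.inl hθ))
      (fun i θ hθ => hW i (Bas i) (χ i) (hχ i) θ (Or.inl hθ))
  · exact Fermat.Agent.GB.Alg.UnitPoints.unit_field_of_points tw.Lχ a₂ a₂_D Ω hp hpO hreg hNpow hN _
      (fun i θ hθ => h1 i (Bas i) (χ i) (hχ i) θ (Or.inr hθ))
      (fun i θ hθ => hW i (Bas i) (χ i) (hχ i) θ (Or.inr hθ))

end Main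

end Fermat.Agent.GB.B9.ProviderFlat.G4
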