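/-
GATE-B / B9 PROVIDER, group G4 = (P5) (helper6), file 3: **G4 in hypothesis form with `(Wpt)`
weakened to `θ (x i) ≠ 1`** (`GB/Alg/UnitOrder.unit_field_of_points_ne`, helper66: exact order `p`
follows from `(1)_i` by integrality).

`exists_x_of_chars_ne` : the fields `x hx unit₁ unit₂` of `LevelMulti.nonempty_TWInput_multi` from
* the `TWChars` inputs at each Taylor–Wiles prime `r i` (see `G4Res.twChars_inputs`),
* `(1pt)`  `θ` occurs in `M¹/(D_i-1)` or `M^χ/(D_i-1)` ⟹ `θ (χ₀ (s i)) = 1`,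
* `(Wne)`  `θ` occurs in `M¹/unitSub_i` or `M^χ/unitSub_i` ⟹ `θ (χ₀ (s i)) ≠ 1`
  (B5 at `r_i` + S36: non-unipotent),
both for EVERY diagonalisation `(Bas, χ)` of `ρ|D_{P i}`.
-/
import Fermat.Agent.GB.B9.ProviderFlat.G4
import Fermat.Agent.GB.Alg.UnitOrder

set_option autoImplicit false
set_option linter.unusedSectionVars false
set_option linter.unusedVariables false
set_option linter.style.haveILetI false

namespace Fermat.Agent.GB.B9.ProviderFlat.G4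

open IsLocalRing Finset Fermat.Agent.GB.B3.TWLevel Fermat.Agent.Common_helper32
  Fermat.Agent.GB.E2.TWDiag

section Main

variable {O : Type} [CommRing O] [IsDomain O] [IsLocalRing O] {lam : O}
  {𝕋 : Type} [CommRing 𝕋] [Algebra O 𝕋]
  {M0 : Type} [AddCommGroup M0] [Module O M0] {act0 : 𝕋 →ₐ[O] Module.End O M0}
  {M0χ : Type} [AddCommGroup M0χ] [Module O M0χ] {act0χ : 𝕋 →ₐ[O] Module.End O M0χ}
  {g : ℕ} {N : Fin g → ℕ} [∀ i, NeZero (N i)]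

/-- **G4 in hypothesis form, weak `(Wpt)`.** -/
theorem exists_x_of_chars_ne
    (tw : TWLevelData O lam 𝕋 M0 act0 M0χ act0χ g N)
    {p : ℕ} (hp : p.Prime) (hp2 : p ≠ 2) (hpO : (p : O) ∈ maximalIdeal O)
    (hreg : ∀ c : O, (p : O) * c = 0 → c = 0)
    (hNpow : ∀ i, ∃ n, N i = p ^ n) (hN : ∀ i, p ∣ N i)
    (T : Type) [CommRing T] [IsLocalRing T] [Algebra O T] [IsReduced T] [Algebra.IsIntegral O T]
    [IsNoetherianRing T] [IsAdicComplete (maximalIdeal T) T]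
    (a₁ : T →ₐ[O] Module.End O tw.L1.M) (a₂ : T →ₐ[O] Module.End O tw.Lχ.M)
    (a₁_D : ∀ t i, a₁ t * tw.L1.D i = tw.L1.D i * a₁ t)
    (a₂_D : ∀ t i, a₂ t * tw.Lχ.D i = tw.Lχ.D i * a₂ t)
    (Ω : Type) [Field Ω] [IsAlgClosed Ω] [Algebra O Ω] [Module.IsTorsionFree O Ω]
    -- the Galois side at the Taylor–Wiles primes
    (ρ : GaloisRepAdic T) (hpT : (p : T) ∈ maximalIdeal T)
    (r : Fin g → ℕ) (hr : ∀ i, (r i).Prime) (hpr : ∀ i, p ≠ r i)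
    (P : Fin g → ValuationSubring Qb) (hP : ∀ i, (P i).LiesOverPrime (r i))
    (φ : Fin g → GQ) (hφ : ∀ i, (P i).IsFrobeniusAt (φ i) (r i))
    (a₀ b₀ : Fin g → T)
    (htr : ∀ i, LinearMap.trace T ρ.V (ρ.ρ (φ i)) - (a₀ i + b₀ i) ∈ maximalIdeal T)
    (hdet : ∀ i, LinearMap.det (ρ.ρ (φ i)) - a₀ i * b₀ i ∈ maximalIdeal T)
    (hab : ∀ i, IsUnit (a₀ i - b₀ i))
    (hunr : ∀ i, ∀ s ∈ (P i).inertiaSubgroupIn ℚ, ∀ v,
      ρ.ρ s v - v ∈ maximalIdeal T • (⊤ : Submodule T ρ.V))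
    (hq : ∀ i, (r i : T) - 1 ∈ maximalIdeal T)
    (s : Fin g → GQ) (hs : ∀ i, s i ∈ (P i).inertiaSubgroupIn ℚ)
    -- (1pt)
    (h1 : ∀ (i : Fin g) (Bas : Module.Basis (Fin 2) T ρ.V)
      (χ : Fin 2 → (P i).decompositionSubgroup ℚ →* Tˣ),
      (∀ (j : Fin 2) (σ : (P i).decompositionSubgroup ℚ),
        ρ.ρ (σ : GQ) (Bas j) = (χ j σ : T) • Bas j) →
      ∀ θ : T →ₐ[O] Ω, (Occ₁ tw.L1 a₁ i θ ∨ Occ₁ tw.Lχ a₂ i θ) →
        θ (χ 0 ⟨s i, inertia_le_decomposition (P i) (hs i)⟩ : T) = 1)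
    -- (Wne)
    (hne : ∀ (i : Fin g) (Bas : Module.Basis (Fin 2) T ρ.V)
      (χ : Fin 2 → (P i).decompositionSubgroup ℚ →* Tˣ),
      (∀ (j : Fin 2) (σ : (P i).decompositionSubgroup ℚ),
        ρ.ρ (σ : GQ) (Bas j) = (χ j σ : T) • Bas j) →
      ∀ θ : T →ₐ[O] Ω, (OccW tw.L1 a₁ p hN i θ ∨ OccW tw.Lχ a₂ p hN i θ) →
        θ (χ 0 ⟨s i, inertia_le_decomposition (P i) (hs i)⟩ : T) ≠ 1) :
    ∃ x : Fin g → T, (∀ i, x i - 1 ∈ maximalIdeal T) ∧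
      (∀ i m, ∃ m', tw.L1.D i m - m = a₁ (x i) m' - m') ∧
      (∀ i m, ∃ m', tw.Lχ.D i m - m = a₂ (x i) m' - m') := by
  classical
  letI : HenselianLocalRing T :=
    Fermat.Agent.GB.E2.TWDiag.henselianLocalRing_of_henselianRing T
  have hch : ∀ i : Fin g, ∃ (Bas : Module.Basis (Fin 2) T ρ.V)
      (χ : Fin 2 → (P i).decompositionSubgroup ℚ →* Tˣ),
      (∀ (j : Fin 2) (σ : (P i).decompositionSubgroup ℚ),
        ρ.ρ (σ : GQ) (Bas j) = (χ j σ : T) • Bas j) ∧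
      ∀ j (t : GQ) (ht : t ∈ (P i).inertiaSubgroupIn ℚ),
        (χ j ⟨t, inertia_le_decomposition (P i) ht⟩ : T) - 1 ∈ maximalIdeal T ∧
          (χ j ⟨t, inertia_le_decomposition (P i) ht⟩ : T) ^ (r i) =
            χ j ⟨t, inertia_le_decomposition (P i) ht⟩ := by
    intro i
    obtain ⟨Bas, χ, hχ, -, -, hin⟩ :=
      Fermat.Agent.GB.E2.TWChars.exists_characters_of_unr ρ (P i) hp hpT (hr i) (hpr i) (hP i)
        (hφ i) (a₀ i) (b₀ i) (htr i) (hdet i) (hab i) (hunr i) (hq i)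
    exact ⟨Bas, χ, hχ, hin⟩
  choose Bas χ hχ hin using hch
  -- `x i` has `p`-power order
  have hxpow : ∀ i, ∃ n,
      (χ i 0 ⟨s i, inertia_le_decomposition (P i) (hs i)⟩ : T) ^ p ^ n = 1 := by
    intro i
    have hr1 : r i - 1 ≠ 0 := by
      have := (hr i).two_le
      omega
    obtain ⟨a, m, hm, ham⟩ := Nat.exists_eq_pow_mul_and_not_dvd hr1 p hp.ne_one
    have hram : r i = p ^ a * m + 1 := by
      have := (hr i).two_le
      omega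
    refine ⟨a, ?_⟩
    have h := Fermat.Agent.GB.E2.DeltaHom.units_pow_ppart_eq_one hp hpT
      (u := χ i 0 ⟨s i, inertia_le_decomposition (P i) (hs i)⟩) (hin i 0 (s i) (hs i)).1 hram hm
      (hin i 0 (s i) (hs i)).2
    have h' := congrArg (Units.val) h
    rwa [Units.val_pow_eq_pow_val, Units.val_one] at h'
  refine ⟨fun i => (χ i 0 ⟨s i, inertia_le_decomposition (P i) (hs i)⟩ : T),
    fun i => (hin i 0 (s i) (hs i)).1, ?_, ?_⟩
  · exact Fermat.Agent.GB.Alg.UnitOrder.unit_field_of_points_ne tw.L1 a₁ a₁_D Ω hp hp2 hpO hreg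
      hNpow hN _ hxpow
      (fun i θ hθ => h1 i (Bas i) (χ i) (hχ i) θ (Or.inl hθ))
      (fun i θ hθ => hne i (Bas i) (χ i) (hχ i) θ (Or.inl hθ))
  · exact Fermat.Agent.GB.Alg.UnitOrder.unit_field_of_points_ne tw.Lχ a₂ a₂_D Ω hp hp2 hpO hreg
      hNpow hN _ hxpow
      (fun i θ hθ => h1 i (Bas i) (χ i) (hχ i) θ (Or.inr hθ))
      (fun i θ hθ => hne i (Bas i) (χ i) (hχ i) θ (Or.inr hθ))

end Main

end Fermat.Agent.GB.B9.ProviderFlat.G4
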