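/-
GATE-B / B9 PROVIDER, group G4 = (P5) (helper6), file 4: **the assembly of G4 over an abstract
`T = T_Q`**: `x hx unit₁ unit₂` of `LevelMulti.nonempty_TWInput_multi` from

* the RESIDUAL data of `ρ = ρ_Q : GaloisRepAdic T` (`ρ.residual ≃ ρbar ⊗ k_T`, `det ρ` cyclotomic:
  the last conjuncts of `TQGal.exists_galRep_flat_of_rhobar`),
* the S56 Taylor–Wiles clause at the primes `r i` (`p ∣ r i - 1`, `ρbar` unramified at `r i` with
  distinct Frobenius eigenvalues: `FramedSurjKummerConcl` clauses 1–2 + `Pkg.unram`),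
* `(1pt)` in the OCCURS form, for every place `P ∣ r i`, every inertia element `s` and every
  diagonalisation — the output shape of helper66 `UnitGlobalPt.chi_point_eq_one_of_algHom`
  (after helper49 `GB/P5`),
* `(B5)` at the DVR points `ψ q : T → Rq q` occurring in `M¹/unitSub_i`, `M^χ/unitSub_i`: NOT
  unipotent on inertia at `r i` — the output shape of helper41 `S36Plus` ∘ helper83 `Point/Final`
  (glue helper35 `GB/B5/Glue/Wne.hWne_occ_of_not_isUnipotent`).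

Inside: places `P i ∣ r i`, Frobenius lifts, tame generators `s i` are CHOSEN
(`exists_isFrobeniusAt`, `TameGenAdic.exists_isTameGenerator`); `x i := χ₀ (s i)`;
`G4Res.twChars_inputs` ⟹ `TWChars`; `G4.exists_x_of_chars_ne` (helper66 `UnitOrder`).
-/
import Fermat.Agent.GB.B9.ProviderFlat.G4Ne
import Fermat.Agent.GB.B9.ProviderFlat.G4Res
import Fermat.Agent.GB.B5.Glue.Wne

set_option autoImplicit false
set_option linter.unusedSectionVars false
set_option linter.unusedVariables false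
set_option linter.style.haveILetI false

namespace Fermat.Agent.GB.B9.ProviderFlat.G4

open IsLocalRing Finset Polynomial Fermat.Agent.GB.B3.TWLevel Fermat.Agent.Common_helper32
  Fermat.Agent.GB.E2.TWDiag Fermat.Agent.GB.E2.TameGenAdic Fermat.Agent.GB.Glue.Points

section Asm

variable {O : Type} [CommRing O] [IsDomain O] [IsDiscreteValuationRing O]
  [IsAdicComplete (maximalIdeal O) O] [CharZero O] {lam : O}
  {𝕋 : Type} [CommRing 𝕋] [Algebra O 𝕋]
  {M0 : Type} [AddCommGroup M0] [Module O M0] {act0 : 𝕋 →ₐ[O] Module.End O M0}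
  {M0χ : Type} [AddCommGroup M0χ] [Module O M0χ] {act0χ : 𝕋 →ₐ[O] Module.End O M0χ}
  {g : ℕ} {N : Fin g → ℕ} [∀ i, NeZero (N i)]

/-- **G4 assembled over an abstract `T`.** -/
theorem exists_x_of_residual
    (tw : TWLevelData O lam 𝕋 M0 act0 M0χ act0χ g N)
    {p : ℕ} [hpF : Fact p.Prime] (hp2 : p ≠ 2) (hpO : (p : O) ∈ maximalIdeal O)
    (hNpow : ∀ i, ∃ n, N i = p ^ n) (hN : ∀ i, p ∣ N i)
    (T : Type) [CommRing T] [IsLocalRing T] [Algebra O T] [IsLocalHom (algebraMap O T)]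
    [Module.Finite O T] [IsReduced T] [IsNoetherianRing T] [IsAdicComplete (maximalIdeal T) T]
    (a₁ : T →ₐ[O] Module.End O tw.L1.M) (a₂ : T →ₐ[O] Module.End O tw.Lχ.M)
    (a₁_D : ∀ t i, a₁ t * tw.L1.D i = tw.L1.D i * a₁ t)
    (a₂_D : ∀ t i, a₂ t * tw.Lχ.D i = tw.Lχ.D i * a₂ t)
    (Ω : Type) [Field Ω] [IsAlgClosed Ω] [Algebra O Ω] [Module.IsTorsionFree O Ω]
    -- the Galois representation over `T`
    (ρ : GaloisRepAdic T) (hdet : ρ.DetIsCyclotomic p)
    (ρbar : ResidualGaloisRep (ResidueField O))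
    (hres : ρ.residual.IsEquiv (ρbar.baseChangeAlong (ResidueField.map (algebraMap O T))))
    -- the Taylor–Wiles primes
    (r : Fin g → ℕ) (hr : ∀ i, (r i).Prime) (hpr : ∀ i, p ∣ r i - 1)
    (hunrbar : ∀ i, ρbar.IsUnramifiedAt (r i))
    (hsplit : ∀ i, ∀ P : ValuationSubring Qb, P.LiesOverPrime (r i) →
      ∀ φ : GQ, P.IsFrobeniusAt φ (r i) → ∃ α β : ResidueField O, α ≠ β ∧
        LinearMap.charpoly (ρbar.ρ φ) = (X - C α) * (X - C β))
    -- (1pt)
    (h1 : ∀ (i : Fin g) (P : ValuationSubring Qb) (hP : P.LiesOverPrime (r i)) (s : GQ)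
      (hs : s ∈ P.inertiaSubgroupIn ℚ) (Bas : Module.Basis (Fin 2) T ρ.V)
      (χ : Fin 2 → P.decompositionSubgroup ℚ →* Tˣ),
      (∀ (j : Fin 2) (σ : P.decompositionSubgroup ℚ),
        ρ.ρ (σ : GQ) (Bas j) = (χ j σ : T) • Bas j) →
      ∀ θ : T →ₐ[O] Ω, (Occ₁ tw.L1 a₁ i θ ∨ Occ₁ tw.Lχ a₂ i θ) →
        θ (χ 0 ⟨s, inertia_le_decomposition P hs⟩ : T) = 1)
    -- (B5) at the DVR points
    (hB5₁ : ∀ (i : Fin g) (q : Idx O T)
      (hloc : IsLocalHom ((ψ q : T →ₐ[O] Rq q) : T →+* Rq q)),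
      (∀ t : T, (∀ m, a₁ t m ∈ tw.L1.unitSub p hN i) → ψ q t = 0) →
      ¬ (ρ.baseChangeAlong ((ψ q : T →ₐ[O] Rq q) : T →+* Rq q) hloc).IsUnipotentOnInertiaAt
        (r i))
    (hB5₂ : ∀ (i : Fin g) (q : Idx O T)
      (hloc : IsLocalHom ((ψ q : T →ₐ[O] Rq q) : T →+* Rq q)),
      (∀ t : T, (∀ m, a₂ t m ∈ tw.Lχ.unitSub p hN i) → ψ q t = 0) →
      ¬ (ρ.baseChangeAlong ((ψ q : T →ₐ[O] Rq q) : T →+* Rq q) hloc).IsUnipotentOnInertiaAt
        (r i)) :
    ∃ x : Fin g → T, (∀ i, x i - 1 ∈ maximalIdeal T) ∧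
      (∀ i m, ∃ m', tw.L1.D i m - m = a₁ (x i) m' - m') ∧
      (∀ i m, ∃ m', tw.Lχ.D i m - m = a₂ (x i) m' - m') := by
  classical
  have hp : p.Prime := hpF.out
  have hpT : (p : T) ∈ maximalIdeal T := hdet.1
  have hreg : ∀ c : O, (p : O) * c = 0 → c = 0 := fun c hc =>
    (mul_eq_zero.mp hc).resolve_left (Nat.cast_ne_zero.mpr hp.ne_zero)
  have hpne : ∀ i, p ≠ r i := by
    intro i h
    have h1 := hpr i
    rw [← h] at h1
    have := Nat.le_of_dvd (by have := hp.two_le; omega) h1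
    have := hp.two_le
    omega
  -- choose places, Frobenius lifts, eigenvalues, tame generators
  have hex : ∀ i : Fin g, ∃ (P : ValuationSubring Qb) (φ : GQ),
      P.LiesOverPrime (r i) ∧ P.IsFrobeniusAt φ (r i) := fun i =>
    exists_isFrobeniusAt (r i) (hr i)
  choose P φ hP hφ using hex
  have hτ : ∀ i : Fin g, ∃ τ₀ : GQ, IsTameGenerator (P i) p τ₀ := fun i =>
    exists_isTameGenerator (P i) (hr i) (hP i) p (hpne i)
  choose τ₀ hτ₀ using hτ
  have hαβ : ∀ i : Fin g, ∃ α β : ResidueField O, α ≠ β ∧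
      LinearMap.charpoly (ρbar.ρ (φ i)) = (X - C α) * (X - C β) := fun i =>
    hsplit i (P i) (hP i) (φ i) (hφ i)
  choose α β hne hchar using hαβ
  have hlift : ∀ c : ResidueField O, ∃ a : T,
      residue T a = ResidueField.map (algebraMap O T) c := by
    intro c
    obtain ⟨c₀, rfl⟩ := residue_surjective c
    exact ⟨algebraMap O T c₀, (ResidueField.map_residue (algebraMap O T) c₀).symm⟩
  choose lift hlift' using hlift
  have hin : ∀ i, LinearMap.trace T ρ.V (ρ.ρ (φ i)) - (lift (α i) + lift (β i)) ∈ maximalIdeal T ∧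
      LinearMap.det (ρ.ρ (φ i)) - lift (α i) * lift (β i) ∈ maximalIdeal T ∧
      IsUnit (lift (α i) - lift (β i)) ∧
      ∀ s ∈ (P i).inertiaSubgroupIn ℚ, ∀ v,
        ρ.ρ s v - v ∈ maximalIdeal T • (⊤ : Submodule T ρ.V) := fun i =>
    Fermat.Agent.GB.B9.ProviderFlat.G4Res.twChars_inputs ρ ρbar
      (ResidueField.map (algebraMap O T)) hres (P i) (hP i) (hunrbar i) (φ i) (α i) (β i) (hne i)
      (hchar i) (lift (α i)) (lift (β i)) (hlift' _) (hlift' _)
  have hq : ∀ i, (r i : T) - 1 ∈ maximalIdeal T := fun i =>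
    Fermat.Agent.GB.B9.ProviderFlat.G4Res.natCast_sub_one_mem hpT (hr i).one_le (hpr i)
  refine exists_x_of_chars_ne tw hp hp2 hpO hreg hNpow hN T a₁ a₂ a₁_D a₂_D Ω ρ hpT r hr hpne P hP
    φ hφ (fun i => lift (α i)) (fun i => lift (β i)) (fun i => (hin i).1) (fun i => (hin i).2.1)
    (fun i => (hin i).2.2.1) (fun i => (hin i).2.2.2) hq τ₀ (fun i => (hτ₀ i).1)
    (fun i Bas χ hχ θ hθ => h1 i (P i) (hP i) (τ₀ i) (hτ₀ i).1 Bas χ hχ θ hθ) ?_
  -- (Wne) from (B5)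
  intro i Bas χ hχ θ hθ
  -- a family of diagonalisations extending the given one at `i`
  have hch : ∀ j : Fin g, ∃ (Bj : Module.Basis (Fin 2) T ρ.V)
      (χj : Fin 2 → (P j).decompositionSubgroup ℚ →* Tˣ),
      ∀ (c : Fin 2) (σ : (P j).decompositionSubgroup ℚ),
        ρ.ρ (σ : GQ) (Bj c) = (χj c σ : T) • Bj c := by
    intro j
    letI : HenselianLocalRing T :=
      Fermat.Agent.GB.E2.TWDiag.henselianLocalRing_of_henselianRing T
    obtain ⟨Bj, χj, hχj, -⟩ :=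
      Fermat.Agent.GB.E2.TWChars.exists_characters_of_unr ρ (P j) hp hpT (hr j) (hpne j) (hP j)
        (hφ j) (lift (α j)) (lift (β j)) (hin j).1 (hin j).2.1 (hin j).2.2.1 (hin j).2.2.2 (hq j)
    exact ⟨Bj, χj, hχj⟩
  choose B' χ' hχ' using hch
  let BB : ∀ j, Module.Basis (Fin 2) T ρ.V := Function.update B' i Bas
  let XX : ∀ j, Fin 2 → (P j).decompositionSubgroup ℚ →* Tˣ := Function.update χ' i χ
  have hBBi : BB i = Bas := Function.update_self _ _ _
  have hXXi : XX i = χ := Function.update_self _ _ _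
  have hXX : ∀ (j : Fin g) (c : Fin 2) (σ : (P j).decompositionSubgroup ℚ),
      ρ.ρ (σ : GQ) (BB j c) = (XX j c σ : T) • BB j c := by
    intro j c σ
    by_cases h : j = i
    · subst h
      rw [hBBi, hXXi]
      exact hχ c σ
    · have h1 : BB j = B' j := Function.update_of_ne h _ _
      have h2 : XX j = χ' j := Function.update_of_ne h _ _
      rw [h1, h2]
      exact hχ' j c σ
  have hτD : ∀ j, τ₀ j ∈ (P j).decompositionSubgroup ℚ := fun j =>
    inertia_le_decomposition (P j) (hτ₀ j).1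
  rcases hθ with hθ | hθ
  · have := Fermat.Agent.GB.B5.Glue.Wne.hWne_occ_of_not_isUnipotent (ρ := ρ) (Ω := Ω) a₁
      (fun j => tw.L1.unitSub p hN j) hp hdet r hr hpne P hP τ₀ hτ₀ hτD (fun j => (hin j).2.2.2)
      BB XX hXX 0 (fun j => (XX j 0 ⟨τ₀ j, hτD j⟩ : T)) (fun j => rfl) hB5₁ i θ hθ
    rwa [hXXi] at this
  · have := Fermat.Agent.GB.B5.Glue.Wne.hWne_occ_of_not_isUnipotent (ρ := ρ) (Ω := Ω) a₂
      (fun j => tw.Lχ.unitSub p hN j) hp hdet r hr hpne P hP τ₀ hτ₀ hτD (fun j => (hin j).2.2.2)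
      BB XX hXX 0 (fun j => (XX j 0 ⟨τ₀ j, hτD j⟩ : T)) (fun j => rfl) hB5₂ i θ hθ
    rwa [hXXi] at this

end Asm

end Fermat.Agent.GB.B9.ProviderFlat.G4
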