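/-
GATE-B / B9 PROVIDER, group G4 = (P5) (helper6), file 5: **G4 over the SETUP bundle `P : Pkg …` and
ONE Taylor–Wiles level `(Sig, qv)`** of `ThetaSupply.exists_theta_FL / _SO`
(= `FramedSurjKummerConcl`): `G4.exists_x_of_residual` with

* `O := P.O`, `lam := P.ϖ`, `ρbar := P.rhobar`, `hp2 := P.hp2`, `hpO := P.hpO`,
* `r := qv`, `hr hpr hsplit` = the Taylor–Wiles clauses `hTW1 hTW2` VERBATIM,
  `hunrbar` from `hTW3` + `hSig` + `P.hmin`,
* `Ω := AlgebraicClosure (FractionRing P.O)` (`isTorsionFree_algebraicClosure`).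

No hypothesis on `p ∣ M` / flatness: SHARED by the flat and the `p`-new branch.
Binders left: G1 `tw`, G2 `T a₁ a₂ a₁_D a₂_D` (+ instances), `ρQ hdet hres` (last conjuncts of
`TQGal.exists_galRep_flat_of_rhobar` / `G3.exists_psi_flat`), `(1pt)` `h1`, `(B5)` `hB5₁ hB5₂`.
-/
import Fermat.Agent.GB.B9.ProviderFlat.G4Asm
import Fermat.Agent.GB.Setup.SetupPkg

set_option autoImplicit false
set_option linter.unusedSectionVars false
set_option linter.unusedVariables false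
set_option linter.style.haveILetI false

open WeierstrassCurve WeierstrassCurve.Affine.Point
open scoped WeierstrassCurve.Affine

namespace Fermat.Agent.GB.B9.ProviderFlat.G4Pkg

open IsLocalRing Finset Polynomial Fermat.Agent.GB.B3.TWLevel Fermat.Agent.Common_helper32
  Fermat.Agent.GB.E2.TWDiag Fermat.Agent.GB.Glue.Points Fermat.Agent.GB.Setup.SetupPkg
  Fermat.Agent.GB.B9.ProviderFlat.G4

/-- `Ω := \overline{Frac O}` is a torsion-free `O`-module. -/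
theorem isTorsionFree_algebraicClosure (O : Type) [CommRing O] [IsDomain O] :
    Module.IsTorsionFree O (AlgebraicClosure (FractionRing O)) := by
  have hinj : Function.Injective (algebraMap O (AlgebraicClosure (FractionRing O))) := by
    rw [IsScalarTower.algebraMap_eq O (FractionRing O) (AlgebraicClosure (FractionRing O))]
    exact (algebraMap (FractionRing O) (AlgebraicClosure (FractionRing O))).injective.comp
      (IsFractionRing.injective O (FractionRing O))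
  refine ⟨fun c hc x y hxy => ?_⟩
  have hc0 : c ≠ 0 := hc.ne_zero
  have h1 : algebraMap O (AlgebraicClosure (FractionRing O)) c ≠ 0 := fun h =>
    hc0 (hinj (by rw [h, _root_.map_zero]))
  simp only [Algebra.smul_def] at hxy
  exact mul_left_cancel₀ h1 hxy

section Main

variable {p : ℕ} [Fact p.Prime] {W : WeierstrassCurve ℤ}
  {hcard₁ : Nat.card (Submodule.torsionBy ℤ
    ((W.map (Int.castRingHom ℚ))⁄(AlgebraicClosure ℚ)).Point p) = p ^ 2}
  {hker : GaloisFactorsThroughFiniteLevel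
    (galoisRepModuleEnd (K := AlgebraicClosure ℚ) ℚ (W.map (Int.castRingHom ℚ)) p)}
  {M A : ℕ} (P : Pkg p W hcard₁ hker M A)

/-- `ρ̄` is unramified at the Taylor–Wiles primes. -/
theorem unramified_qv {Sig : Finset Nat.Primes}
    (hSig : ∀ q : Nat.Primes, (q : ℕ) ∈ P.Smin ∪ P.Su → q ∈ Sig)
    {S : Finset ℕ} {r n : ℕ} {qv : Fin r → ℕ}
    (hTW1 : ∀ i, (qv i).Prime ∧ qv i ∉ S ∧ p ^ (n + 1) ∣ qv i - 1)
    (hTW3 : ∀ i, ∀ q ∈ Sig, ((q : Nat.Primes) : ℕ) ≠ qv i) (i : Fin r) :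
    qv i ≠ p ∧ P.rhobar.IsUnramifiedAt (qv i) := by
  have hp : p.Prime := Fact.out
  have hne : qv i ≠ p := by
    intro h
    have h1 := (hTW1 i).2.2
    rw [h] at h1
    have h2 : p ∣ p - 1 := dvd_trans (dvd_pow_self p (Nat.succ_ne_zero n)) h1
    have := Nat.le_of_dvd (by have := hp.two_le; omega) h2
    have := hp.two_le
    omega
  refine ⟨hne, ?_⟩
  by_contra hram
  have hmem : qv i ∈ P.Smin := (P.hmin (qv i) (hTW1 i).1 hne).2 hram
  exact hTW3 i ⟨qv i, (hTW1 i).1⟩ (hSig ⟨qv i, (hTW1 i).1⟩ (Finset.mem_union_left _ hmem)) rfl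

/-- **G4 over the SETUP bundle at ONE Taylor–Wiles level.** -/
theorem exists_x_of_pkg {Sig : Finset Nat.Primes}
    (hSig : ∀ q : Nat.Primes, (q : ℕ) ∈ P.Smin ∪ P.Su → q ∈ Sig)
    {S : Finset ℕ} {r n : ℕ} {qv : Fin r → ℕ}
    (hTW1 : ∀ i, (qv i).Prime ∧ qv i ∉ S ∧ p ^ (n + 1) ∣ qv i - 1)
    (hTW2 : ∀ i, ∀ Pl : ValuationSubring (AlgebraicClosure ℚ), Pl.LiesOverPrime (qv i) →
      ∀ φ : AlgebraicClosure ℚ ≃ₐ[ℚ] AlgebraicClosure ℚ, Pl.IsFrobeniusAt φ (qv i) →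
        ∃ α β : P.k, α ≠ β ∧
          LinearMap.charpoly (P.rhobar.ρ φ) = (Polynomial.X - Polynomial.C α) *
            (Polynomial.X - Polynomial.C β))
    (hTW3 : ∀ i, ∀ q ∈ Sig, ((q : Nat.Primes) : ℕ) ≠ qv i)
    {N : Fin r → ℕ} [∀ i, NeZero (N i)]
    (hNpow : ∀ i, ∃ m, N i = p ^ m) (hN : ∀ i, p ∣ N i)
    {𝕋 : Type} [CommRing 𝕋] [Algebra P.O 𝕋]
    {M0 : Type} [AddCommGroup M0] [Module P.O M0] {act0 : 𝕋 →ₐ[P.O] Module.End P.O M0}
    {M0χ : Type} [AddCommGroup M0χ] [Module P.O M0χ] {act0χ : 𝕋 →ₐ[P.O] Module.End P.O M0χ}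
    -- G1 (B3)
    (tw : TWLevelData P.O P.ϖ 𝕋 M0 act0 M0χ act0χ r N)
    -- G2 (B4)
    (T : Type) [CommRing T] [IsLocalRing T] [Algebra P.O T] [IsLocalHom (algebraMap P.O T)]
    [Module.Finite P.O T] [IsReduced T] [IsNoetherianRing T] [IsAdicComplete (maximalIdeal T) T]
    (a₁ : T →ₐ[P.O] Module.End P.O tw.L1.M) (a₂ : T →ₐ[P.O] Module.End P.O tw.Lχ.M)
    (a₁_D : ∀ t i, a₁ t * tw.L1.D i = tw.L1.D i * a₁ t)
    (a₂_D : ∀ t i, a₂ t * tw.Lχ.D i = tw.Lχ.D i * a₂ t)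
    -- the Galois representation over `T`
    (ρQ : GaloisRepAdic T) (hdet : ρQ.DetIsCyclotomic p)
    (hres : ρQ.residual.IsEquiv
      (P.rhobar.baseChangeAlong (ResidueField.map (algebraMap P.O T))))
    -- (1pt)
    (h1 : ∀ (i : Fin r) (Pl : ValuationSubring Qb) (hPl : Pl.LiesOverPrime (qv i)) (s : GQ)
      (hs : s ∈ Pl.inertiaSubgroupIn ℚ) (Bas : Module.Basis (Fin 2) T ρQ.V)
      (χ : Fin 2 → Pl.decompositionSubgroup ℚ →* Tˣ),
      (∀ (j : Fin 2) (σ : Pl.decompositionSubgroup ℚ),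
        ρQ.ρ (σ : GQ) (Bas j) = (χ j σ : T) • Bas j) →
      ∀ θ : T →ₐ[P.O] AlgebraicClosure (FractionRing P.O),
        (Occ₁ tw.L1 a₁ i θ ∨ Occ₁ tw.Lχ a₂ i θ) →
          θ (χ 0 ⟨s, inertia_le_decomposition Pl hs⟩ : T) = 1)
    -- (B5) at the DVR points
    (hB5₁ : ∀ (i : Fin r) (q : Idx P.O T)
      (hloc : IsLocalHom ((ψ q : T →ₐ[P.O] Rq q) : T →+* Rq q)),
      (∀ t : T, (∀ m, a₁ t m ∈ tw.L1.unitSub p hN i) → ψ q t = 0) →
      ¬ (ρQ.baseChangeAlong ((ψ q : T →ₐ[P.O] Rq q) : T →+* Rq q) hloc).IsUnipotentOnInertiaAt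
        (qv i))
    (hB5₂ : ∀ (i : Fin r) (q : Idx P.O T)
      (hloc : IsLocalHom ((ψ q : T →ₐ[P.O] Rq q) : T →+* Rq q)),
      (∀ t : T, (∀ m, a₂ t m ∈ tw.Lχ.unitSub p hN i) → ψ q t = 0) →
      ¬ (ρQ.baseChangeAlong ((ψ q : T →ₐ[P.O] Rq q) : T →+* Rq q) hloc).IsUnipotentOnInertiaAt
        (qv i)) :
    ∃ x : Fin r → T, (∀ i, x i - 1 ∈ maximalIdeal T) ∧
      (∀ i m, ∃ m', tw.L1.D i m - m = a₁ (x i) m' - m') ∧
      (∀ i m, ∃ m', tw.Lχ.D i m - m = a₂ (x i) m' - m') := by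
  haveI : Module.IsTorsionFree P.O (AlgebraicClosure (FractionRing P.O)) :=
    isTorsionFree_algebraicClosure P.O
  exact exists_x_of_residual tw P.hp2 P.hpO hNpow hN T a₁ a₂ a₁_D a₂_D
    (AlgebraicClosure (FractionRing P.O)) ρQ hdet P.rhobar hres qv (fun i => (hTW1 i).1)
    (fun i => dvd_trans (dvd_pow_self p (Nat.succ_ne_zero n)) (hTW1 i).2.2)
    (fun i => (unramified_qv P hSig hTW1 hTW3 i).2) hTW2 h1 hB5₁ hB5₂

end Main

end Fermat.Agent.GB.B9.ProviderFlat.G4Pkg
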