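/-
GATE-B / B9 PROVIDER, group G4 = (P5) (helper6), file 6: **G4 on THE `TWLevelData` of the flat
provider `Q.twF …`** (helper51 `G1Plug`), `Q : G1.TWSet P g n`.

`exists_x_twF` = the binders `x hx unit₁ unit₂` of `G1.TWSet.exists_level` VERBATIM from
* G2 : `T a₁ a₂ a₁_D a₂_D` on `Q.twF …` (+ instances of `ImageRing.TQ`),
* G3 : `ρQ` with `DetIsCyclotomic`, residual `≃ P.rhobar ⊗ k_T` (conjuncts 4, 6 of
  `G3.exists_psi_flat`),
* `(1pt)` `h1` (helper66 `OnePtGalRho.chi_point_eq_one_of_lower_rho` ∘ helper49 `LowerPoint`),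
* `(B5)` `hB5₁ hB5₂` at the DVR points (helper35 `Glue/…Point`).
Everything about the Taylor–Wiles primes comes from the fields of `Q`:
`hr := Q.prime`, `hpr` from `Q.cong`, `ρ̄` unramified at `Q.qv i` (`P.unram`, `Q.good`),
`charpoly ρ̄(Frob_{qv i}) = (X - al i)(X - be i)` (`P.hfrob`, `P.theta_T`, `Q.sum`, `Q.prod`,
`Q.ne`).  Diamond orders: `Nfun … = p ^ (n + 1)` (`TWSet.Nfun_eq`).
No hypothesis on `p ∣ M`: SHARED with the `p`-new branch (any `TWLevelData` built by `Q.tw`).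
-/
import Fermat.Agent.GB.B9.ProviderFlat.G4Pkg
import Fermat.Agent.GB.B9.ProviderFlat.G1Plug

set_option autoImplicit false
set_option linter.unusedSectionVars false
set_option linter.unusedVariables false
set_option linter.style.haveILetI false

open IsLocalRing
open scoped MatrixGroups
open CongruenceSubgroup

namespace Fermat.Agent.GB.B9.ProviderFlat.G4TW

open Polynomial Fermat.Agent.GB.Setup.SetupPkg Fermat.Agent.GB.B3.TWLevel
  Fermat.Agent.GB.B3.TWChars Fermat.Agent.GB.B3.Final Fermat.Agent.GB.B3.FinalTW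
  Fermat.Agent.GB.B3.Tower Fermat.Agent.GB.B9.ProviderFlat.H1
  Fermat.Agent.GB.B9.ProviderFlat.G1 Fermat.Agent.GB.B9.ProviderFlat.G4
  Fermat.Agent.Common_helper32 Fermat.Agent.GB.E2.TWDiag Fermat.Agent.GB.Glue.Points

variable {p : ℕ} [hpF : Fact p.Prime] {W : WeierstrassCurve ℤ}
  {hcard₁ : Nat.card (Submodule.torsionBy ℤ
    ((W.map (Int.castRingHom ℚ)).toAffine.baseChange (AlgebraicClosure ℚ)).Point p) = p ^ 2}
  {hker : GaloisFactorsThroughFiniteLevel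
    (WeierstrassCurve.Affine.Point.galoisRepModuleEnd (K := AlgebraicClosure ℚ) ℚ
      (W.map (Int.castRingHom ℚ)) p)}
  {M A : ℕ} {P : Pkg p W hcard₁ hker M A} {g n : ℕ} (Q : TWSet P g n)

/-- `p ∣ qv i - 1`. -/
theorem dvd_qv_sub_one (i : Fin g) : p ∣ Q.qv i - 1 :=
  dvd_trans (dvd_pow_self p (Nat.succ_ne_zero n)) (Q.cong i)

/-- `ρ̄` is unramified at the Taylor–Wiles primes of `Q`. -/
theorem unramified_qv (i : Fin g) : P.rhobar.IsUnramifiedAt (Q.qv i) := by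
  have hp : p.Prime := hpF.out
  obtain ⟨-, hM, hne⟩ := Q.good i
  refine P.unram (Q.prime i) fun hdvd => ?_
  rcases (Nat.Prime.dvd_mul (Q.prime i)).mp hdvd with h | h
  · exact hM h
  · exact hne ((Nat.prime_dvd_prime_iff_eq (Q.prime i) hp).mp h)

/-- the Frobenius characteristic polynomial of `ρ̄` at `Q.qv i` is `(X - al i)(X - be i)`. -/
theorem charpoly_frob_qv (i : Fin g) (Pl : ValuationSubring (AlgebraicClosure ℚ))
    (hPl : Pl.LiesOverPrime (Q.qv i)) (φ : AlgebraicClosure ℚ ≃ₐ[ℚ] AlgebraicClosure ℚ)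
    (hφ : Pl.IsFrobeniusAt φ (Q.qv i)) :
    ∃ α β : P.k, α ≠ β ∧
      LinearMap.charpoly (P.rhobar.ρ φ) = (X - C α) * (X - C β) := by
  haveI : NeZero M := P.neZeroM
  obtain ⟨-, hM, -⟩ := Q.good i
  refine ⟨Q.al i, Q.be i, Q.ne i, ?_⟩
  rw [P.hfrob (Q.qv i) (Q.prime i) hM (Q.notMem i) Pl hPl φ hφ, P.theta_T, ← Q.sum i, ← Q.prod i]
  simp only [map_add, map_mul]
  ring

variable {q eq : ℕ} (hq : q.Prime) (hqM : q ∣ M) (hsq : Squarefree M) (hcong : p ^ eq ∣ q - 1)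
  (hp3 : p ≠ 3) (s : ℕ) {cq : P.O} (hcq : cq ^ p ^ eq = 1)
  (hcq1 : (1 : P.O) - cq ∈ Ideal.span {P.ϖ})

/-- the orders of the Taylor–Wiles diamonds of `Q.twF` -/
theorem nfun_eq (i : Fin g) :
    Nfun p (eOf g (n + 1) eq) (s + 1 + g) (Fin.natAdd (s + 1) i) = p ^ (n + 1) :=
  congrFun (TWSet.Nfun_eq (g := g) (n := n) s (e := eOf g (n + 1) eq)
    (fun i hi => eOf_lt (n + 1) eq hi)) i

instance neZero_nfun (i : Fin g) :
    NeZero (Nfun p (eOf g (n + 1) eq) (s + 1 + g) (Fin.natAdd (s + 1) i)) :=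
  ⟨(TWSet.Nfun_pos' (p := p) (e := eOf g (n + 1) eq) s i).ne'⟩

theorem dvd_nfun (i : Fin g) :
    p ∣ Nfun p (eOf g (n + 1) eq) (s + 1 + g) (Fin.natAdd (s + 1) i) := by
  rw [nfun_eq]
  exact dvd_pow_self p (Nat.succ_ne_zero n)

/-- **G4 on `Q.twF …`**: the binders `x hx unit₁ unit₂` of `G1.TWSet.exists_level`. -/
theorem exists_x_twF
    -- G2 (B4)
    (T : Type) [CommRing T] [IsLocalRing T] [Algebra P.O T] [IsLocalHom (algebraMap P.O T)]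
    [Module.Finite P.O T] [IsReduced T] [IsNoetherianRing T] [IsAdicComplete (maximalIdeal T) T]
    (a₁ : T →ₐ[P.O] Module.End P.O (Q.twF hq hqM hsq hcong hp3 s hcq hcq1).L1.M)
    (a₂ : T →ₐ[P.O] Module.End P.O (Q.twF hq hqM hsq hcong hp3 s hcq hcq1).Lχ.M)
    (a₁_D : ∀ t i, a₁ t * (Q.twF hq hqM hsq hcong hp3 s hcq hcq1).L1.D i =
      (Q.twF hq hqM hsq hcong hp3 s hcq hcq1).L1.D i * a₁ t)
    (a₂_D : ∀ t i, a₂ t * (Q.twF hq hqM hsq hcong hp3 s hcq hcq1).Lχ.D i =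
      (Q.twF hq hqM hsq hcong hp3 s hcq hcq1).Lχ.D i * a₂ t)
    -- G3 : the Galois representation over `T`
    (ρQ : GaloisRepAdic T) (hdet : ρQ.DetIsCyclotomic p)
    (hres : ρQ.residual.IsEquiv
      (P.rhobar.baseChangeAlong (ResidueField.map (algebraMap P.O T))))
    -- (1pt)
    (h1 : ∀ (i : Fin g) (Pl : ValuationSubring Qb) (hPl : Pl.LiesOverPrime (Q.qv i)) (σ : GQ)
      (hσ : σ ∈ Pl.inertiaSubgroupIn ℚ) (Bas : Module.Basis (Fin 2) T ρQ.V)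
      (χ : Fin 2 → Pl.decompositionSubgroup ℚ →* Tˣ),
      (∀ (j : Fin 2) (τ : Pl.decompositionSubgroup ℚ),
        ρQ.ρ (τ : GQ) (Bas j) = (χ j τ : T) • Bas j) →
      ∀ θ : T →ₐ[P.O] AlgebraicClosure (FractionRing P.O),
        (Occ₁ (Q.twF hq hqM hsq hcong hp3 s hcq hcq1).L1 a₁ i θ ∨
          Occ₁ (Q.twF hq hqM hsq hcong hp3 s hcq hcq1).Lχ a₂ i θ) →
          θ (χ 0 ⟨σ, inertia_le_decomposition Pl hσ⟩ : T) = 1)
    -- (B5) at the DVR points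
    (hB5₁ : ∀ (i : Fin g) (x : Idx P.O T)
      (hloc : IsLocalHom ((ψ x : T →ₐ[P.O] Rq x) : T →+* Rq x)),
      (∀ t : T, (∀ m, a₁ t m ∈
        (Q.twF hq hqM hsq hcong hp3 s hcq hcq1).L1.unitSub p (dvd_nfun s) i) → ψ x t = 0) →
      ¬ (ρQ.baseChangeAlong ((ψ x : T →ₐ[P.O] Rq x) : T →+* Rq x) hloc).IsUnipotentOnInertiaAt
        (Q.qv i))
    (hB5₂ : ∀ (i : Fin g) (x : Idx P.O T)
      (hloc : IsLocalHom ((ψ x : T →ₐ[P.O] Rq x) : T →+* Rq x)),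
      (∀ t : T, (∀ m, a₂ t m ∈
        (Q.twF hq hqM hsq hcong hp3 s hcq hcq1).Lχ.unitSub p (dvd_nfun s) i) → ψ x t = 0) →
      ¬ (ρQ.baseChangeAlong ((ψ x : T →ₐ[P.O] Rq x) : T →+* Rq x) hloc).IsUnipotentOnInertiaAt
        (Q.qv i)) :
    ∃ x : Fin g → T, (∀ i, x i - 1 ∈ maximalIdeal T) ∧
      (∀ i m, ∃ m', (Q.twF hq hqM hsq hcong hp3 s hcq hcq1).L1.D i m - m = a₁ (x i) m' - m') ∧
      (∀ i m, ∃ m', (Q.twF hq hqM hsq hcong hp3 s hcq hcq1).Lχ.D i m - m =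
        a₂ (x i) m' - m') := by
  haveI : Module.IsTorsionFree P.O (AlgebraicClosure (FractionRing P.O)) :=
    Fermat.Agent.GB.B9.ProviderFlat.G4Pkg.isTorsionFree_algebraicClosure P.O
  exact exists_x_of_residual (Q.twF hq hqM hsq hcong hp3 s hcq hcq1) P.hp2 P.hpO
    (fun i => ⟨n + 1, nfun_eq s i⟩) (dvd_nfun s) T a₁ a₂ a₁_D a₂_D
    (AlgebraicClosure (FractionRing P.O)) ρQ hdet P.rhobar hres Q.qv Q.prime
    (dvd_qv_sub_one Q) (unramified_qv Q) (charpoly_frob_qv Q) h1 hB5₁ hB5₂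

end Fermat.Agent.GB.B9.ProviderFlat.G4TW
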