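/-
GATE-B / B9 PROVIDER (flat branch), group G7, the SEAM to G2 (helper52): the two binders of
`G7One.TWSetG7.he_tw1F` / `Kill1Var.he_plug_var` / `Kill1TQ.he_plug` that G2 does not export
verbatim, from the shapes G2 DOES export.

* `hT_of_tw` : the binder `hT` (`twP (T_ℓ) = ⟨d⟩ T_ℓ` on the big level with a half-diamond `d`)
  from helper44's `TwInst.exists_tw_primeData` (`dℓ hdℓ` + the `T_ℓ`-formula of `tw` on the
  parabolic homomorphisms) and helper74's `TwRestrictPlug.exists_twP` (`ι (twP t m) = tw t ⟨ι m, _⟩`);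
* `hred_of_free` : the binder `hred` (`a₁ t ^ 2 = 0 → a₁ t = 0`) for a reduced finite `O`-algebra
  `T` acting on a module with an `O`-basis (`FreeLevel.basis` of `M¹_Q`).
-/
import Mathlib
import Fermat.Agent.GB.B7.Kill1Var
import Fermat.Agent.GB.B7.Kill1Plug
import Fermat.Agent.GB.B4.Twist.TwInst

set_option autoImplicit false
set_option linter.unusedSectionVars false
set_option linter.unusedVariables false
set_option linter.style.haveILetI false

noncomputable section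

open scoped MatrixGroups
open CongruenceSubgroup Polynomial IsLocalRing CuspForm
open Fermat.Agent.GM.B
open Fermat.Agent.GB.B3 Fermat.Agent.GB.B3.EisGamma0 Fermat.Agent.GB.B3.GamH
open Fermat.Agent.GB.B3.RealLevel Fermat.Agent.GB.B3.HeckeActH Fermat.Agent.GB.B3.HeckeAct
open Fermat.Agent.GB.B3.TWChars Fermat.Agent.GB.B3.Tower Fermat.Agent.GB.B3.FinalTW
open Fermat.Agent.GJ.J2.Lat

namespace Fermat.Agent.GB.B9.ProviderFlat.G7Fill

open Fermat.Agent.GB.B3.Plug Fermat.Agent.GB.B3.TWLevel Fermat.Agent.S16_helper49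
  ModularCurve.Period Fermat.Agent.GM.EisClass

/-! ### `hT` -/

section HT

variable {N p K : ℕ} [NeZero N] [hpF : Fact p.Prime] {r e N'' : ℕ → ℕ}
variable (Sy : Symbols N)
variable {O : Type} [CommRing O] [IsDomain O] [IsDiscreteValuationRing O]
  [IsAdicComplete (maximalIdeal O) O] [CharZero O] [Finite (ResidueField O)]
variable (𝔪 : Ideal (Sy.𝕋 O)) [𝔪.IsMaximal]
variable (H : PrimeData N p K r e N'') {ϖ : O} {s0 : Sy.ι₁} (h : Plug.Hyp Sy 𝔪 p ϖ s0)
variable (j : ℕ) {N' : ℕ} [NeZero N'] (S : Set ℕ)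

/-- **the binder `hT` of `he_plug` / `he_plug_var` / `he_tw1F`** from the outputs of
`TwInst.exists_tw_primeData` (`dℓ`, `hdℓ`, `htwT`) and `TwRestrictPlug.exists_twP` (`twP`, `hιP`). -/
theorem hT_of_tw
    (dℓ : PrimesOff S → Gamma0 N)
    (hdℓ : ∀ (l : PrimesOff S) (u : (ZMod N)ˣ), (u : ZMod N) = ((l.1 : ℕ) : ZMod N) →
      chi (Theta (Δs p e) H.psi j) (dℓ l) ^ 2 * Theta (Δs p e) H.psi j u = 1)
    (tw : ↥(heckeAlgebra N' 2 S) →+*
      Module.End O ↥(parabolicHoms O (GammaH (Theta (Δs p e) H.psi j)) O))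
    (hN'S : ∀ l : PrimesOff S, ¬ (l.1 : ℕ) ∣ N') (hNS : ∀ l : PrimesOff S, ¬ (l.1 : ℕ) ∣ N)
    (htwT : ∀ (l : PrimesOff S)
        (v : ↥(parabolicHoms O (GammaH (Theta (Δs p e) H.psi j)) O)),
      haveI : Fact (l.1 : ℕ).Prime := ⟨l.1.2⟩
      ((tw (heckeAlgebra.T l.1.2 (hN'S l) l.2) v :
          ↥(parabolicHoms O (GammaH (Theta (Δs p e) H.psi j)) O)) :
          Additive (GammaH (Theta (Δs p e) H.psi j)) →+ O)
        = diaH (Theta (Δs p e) H.psi j) O (dℓ l)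
            (TH (Theta (Δs p e) H.psi j) O (hNS l)
              (v : Additive (GammaH (Theta (Δs p e) H.psi j)) →+ O)))
    (hpar : ∀ m : (bigLevel Sy 𝔪 H h j).M, (bigReal Sy 𝔪 H h j).ι m
      ∈ parabolicHoms O (GammaH (Theta (Δs p e) H.psi j)) O)
    (twP : ↥(heckeAlgebra N' 2 S) →+* Module.End O (bigLevel Sy 𝔪 H h j).M)
    (hιP : ∀ (t : ↥(heckeAlgebra N' 2 S)) (m : (bigLevel Sy 𝔪 H h j).M),
      (bigReal Sy 𝔪 H h j).ι (twP t m) =
        ((tw t ⟨(bigReal Sy 𝔪 H h j).ι m, hpar m⟩ :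
          ↥(parabolicHoms O (GammaH (Theta (Δs p e) H.psi j)) O)) :
          Additive (GammaH (Theta (Δs p e) H.psi j)) →+ O)) :
    ∀ (ℓ : ℕ) (hℓ : ℓ.Prime) (hℓN' : ¬ ℓ ∣ N') (hℓS : ℓ ∉ S) (hℓN : ¬ ℓ ∣ N),
      haveI : Fact ℓ.Prime := ⟨hℓ⟩
      ∃ d : Gamma0 N,
        (∀ u : (ZMod N)ˣ, (u : ZMod N) = ((ℓ : ℕ) : ZMod N) →
          chi (Theta (Δs p e) H.psi j) d ^ 2 * Theta (Δs p e) H.psi j u = 1) ∧
        ∀ x : (bigLevel Sy 𝔪 H h j).M,
          (bigReal Sy 𝔪 H h j).ι (twP (heckeAlgebra.T hℓ hℓN' hℓS) x)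
            = diaH (Theta (Δs p e) H.psi j) O d
                (TH (Theta (Δs p e) H.psi j) O hℓN ((bigReal Sy 𝔪 H h j).ι x)) := by
  intro ℓ hℓ hℓN' hℓS hℓN
  refine ⟨dℓ ⟨⟨ℓ, hℓ⟩, hℓS⟩, fun u hu => hdℓ ⟨⟨ℓ, hℓ⟩, hℓS⟩ u hu, fun x => ?_⟩
  rw [hιP]
  exact htwT ⟨⟨ℓ, hℓ⟩, hℓS⟩ ⟨(bigReal Sy 𝔪 H h j).ι x, hpar x⟩

end HT

/-! ### `hred` -/

section HRed

variable {O : Type} [CommRing O] [IsDomain O] {T : Type} [CommRing T] [Algebra O T]
  [IsReduced T] [Module.Finite O T]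
  {M : Type} [AddCommGroup M] [Module O M]

/-- **the binder `hred`**: a reduced finite `O`-algebra acting on a module with an `O`-basis acts
through a reduced ring. -/
theorem hred_of_basis {ι : Type} (b : Module.Basis ι O M) (a₁ : T →ₐ[O] Module.End O M) (t : T)
    (h : a₁ t * a₁ t = 0) : a₁ t = 0 := by
  haveI : Module.Free O M := Module.Free.of_basis b
  haveI : Module.IsTorsionFree O M := inferInstance
  exact Fermat.Agent.GB.B7.Kill1Plug.hred_of_isReduced a₁ t h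

end HRed

end Fermat.Agent.GB.B9.ProviderFlat.G7Fill
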