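/-
GATE-B / B9 PROVIDER (flat branch), group **G7 = `he`** AT helper11's G2 objects
(`ProviderFlat/G2`: `twP`, `G2.tw₁`, `G2.T`, `G2.a₁`) on THE `TWLevelData` of record
`Q.tw1F hq hqM hsq hcong hp3 hcq hcq1` (helper52).

`he_G2` = `G7One.TWSetG7.he_tw1F` with every G2 binder discharged by the G2 objects:

* `χ := ImageRing.chi`, `hχ := ImageRing.adjoin_range_chi`, `a₁ := G2.a₁`, `ha := G2.a₁_chi`,
  `tw₁ := G2.tw₁`, `hfmk := G2.tw₁_fmk` (`rfl`), `hred` from `[IsReduced T]` + the `O`-basis of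
  `M¹_Q` (`G7Fill.hred_of_basis`),
* `hT` from the `ι`-formula of `G2.exists_twP_hecke` on the generators
  (`formsGenS_of_not_dvd`) and the half-diamonds `dℓ hdℓ` of `G2.exists_dl_theta`.

Binders LEFT: the context facts (`hno : ¬ W.IsResiduallyModularOfLevel p (M / q)`, `q ≠ p`), the
outputs `twP hι hD` of `G2.exists_twP_hecke` (+ `dℓ hdℓ hnd`, `θA`), the instances
`[IsLocalRing T] [IsReduced T]` (`G2.isLocalRing_T`, `G2.isReduced_T`) and the G3 record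
`ψ hψ ρ_Q hequiv hρ` (helper28 `G3Q.exists_psi_Q` VERBATIM).  Conclusion = the field `he` of
`LowerFill.groupsOn_of_parts` at `a₁ := G2.a₁ …` (up to `ℓs (Fin.last s) = q`).
-/
import Mathlib
import Fermat.Agent.GB.B9.ProviderFlat.G7One
import Fermat.Agent.GB.B9.ProviderFlat.G7Fill
import Fermat.Agent.GB.B9.ProviderFlat.G2

set_option autoImplicit false
set_option linter.unusedSectionVars false
set_option linter.unusedVariables false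
set_option linter.style.haveILetI false

noncomputable section

open scoped MatrixGroups
open CongruenceSubgroup Polynomial IsLocalRing CuspForm
open Fermat.Agent.GM.B
open Fermat.Agent.GB.B3 Fermat.Agent.GB.B3.EisGamma0 Fermat.Agent.GB.B3.GamH
open Fermat.Agent.GB.B3.RealLevel Fermat.Agent.GB.B3.HeckeActH Fermat.Agent.GB.B3.HeckeAct
open Fermat.Agent.GB.B3.TWChars Fermat.Agent.GB.B3.Tower Fermat.Agent.GB.B3.FinalTW
open Fermat.Agent.GJ.J2.Lat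

namespace Fermat.Agent.GB.B9.ProviderFlat.G7

/-- `G_ℚ`. -/
local notation "GQ" => AlgebraicClosure ℚ ≃ₐ[ℚ] AlgebraicClosure ℚ
/-- `ℚ̄`. -/
local notation "Qb" => AlgebraicClosure ℚ

open Fermat.Agent.GB.B3.L1Iso Fermat.Agent.GB.B3.Plug Fermat.Agent.GB.B3.ChiLevelMulti
  Fermat.Agent.GB.B3.Final Fermat.Agent.GB.B3.TWLevel
  Fermat.Agent.GB.B3.LocTransport Fermat.Agent.S16_helper49 ModularCurve.Period
  Fermat.Agent.GM.EisClass Fermat.Agent.GB.B9.ThetaT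
  Fermat.Agent.GB.Setup.SetupPkg Fermat.Agent.GB.B9.ProviderFlat.G1
  Fermat.Agent.GB.B9.ProviderFlat.H1 Fermat.Agent.GB.B7.Kill1Var
  Fermat.Agent.GB.B8.LevelIter Fermat.Agent.GB.B3.StepInst Fermat.Agent.GB.B8.LevelGen
  Fermat.Agent.GB.Def.LocGenInst Fermat.Agent.GB.B4.Datum.ImageRing

variable {p : ℕ} [hpF : Fact p.Prime] {W : WeierstrassCurve ℤ}
  {hcard₁ : Nat.card (Submodule.torsionBy ℤ
    ((W.map (Int.castRingHom ℚ)).toAffine.baseChange (AlgebraicClosure ℚ)).Point p) = p ^ 2}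
  {hker : GaloisFactorsThroughFiniteLevel
    (WeierstrassCurve.Affine.Point.galoisRepModuleEnd (K := AlgebraicClosure ℚ) ℚ
      (W.map (Int.castRingHom ℚ)) p)}
  {M A : ℕ} {P : Pkg p W hcard₁ hker M A} {g n : ℕ} (Q : TWSet P g n)

namespace TWSetG7

variable {q eq : ℕ} (hq : q.Prime) (hqM : q ∣ M) (hsq : Squarefree M) (hcong : p ^ eq ∣ q - 1)
  (hp3 : p ≠ 3) {cq : P.O} (hcq : cq ^ p ^ eq = 1) (hcq1 : (1 : P.O) - cq ∈ Ideal.span {P.ϖ})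

/-- the forms level is a multiple of the level of record -/
theorem N_dvd_level {N'' : ℕ} (hN'' : N'' = Q.N * ∏ i : Fin (1 + g), rOf Q.qv q i) :
    Q.N ∣ N'' := Dvd.intro _ hN''.symm

variable {N'' : ℕ} [NeZero N''] (S : Finset ℕ)
  (twP : ↥(heckeAlgebra N'' 2 (↑S : Set ℕ)) →+*
    Module.End P.O (bigLevel Q.Sy Q.𝔪 (Q.primeData hq hqM hsq hcong) (Q.hyp hp3) (1 + g)).M)
  (hD : ∀ t i, twP t * (bigLevel Q.Sy Q.𝔪 (Q.primeData hq hqM hsq hcong) (Q.hyp hp3) (1 + g)).D i =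
    (bigLevel Q.Sy Q.𝔪 (Q.primeData hq hqM hsq hcong) (Q.hyp hp3) (1 + g)).D i * twP t)
  (θA : ↥(heckeAlgebra N'' 2 (↑S : Set ℕ)) →+* ResidueField P.O)

/-- **the ring `T_Q` of record**: helper11's `G2.T` at `Q.tw1F …` -/
abbrev TG2 : Type :=
  G2.T Q.Sy Q.𝔪 (Q.primeData hq hqM hsq hcong) (Q.hyp hp3) 1 g (fun _ : Fin 1 => cq)
    (TWSet.hc_one (g := g) (eOf_eq (n + 1) eq) hcq) (fun _ => hcq1) twP hD θA

/-- **`a₁` of record**: helper11's `G2.a₁` at `Q.tw1F …` -/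
abbrev a₁G2 : TG2 Q hq hqM hsq hcong hp3 hcq hcq1 S twP hD θA →ₐ[P.O]
    Module.End P.O (Q.tw1F hq hqM hsq hcong hp3 hcq hcq1).L1.M :=
  G2.a₁ Q.Sy Q.𝔪 (Q.primeData hq hqM hsq hcong) (Q.hyp hp3) 1 g (fun _ : Fin 1 => cq)
    (TWSet.hc_one (g := g) (eOf_eq (n + 1) eq) hcq) (fun _ => hcq1) twP hD θA

variable {ρbar : ResidualGaloisRep (ResidueField P.O)}
  {𝒟 : ∀ ⦃A : Type⦄ [CommRing A] [IsLocalRing A] [Algebra P.O A], GaloisRepAdic A → Prop}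
  {DQ : GaloisRep.DeformationRingData P.O ρbar 𝒟}

/-- **G7 at the G2 objects of record**: the field `he` of `LowerFill.groupsOn_of_parts` for
`T := G2.T …`, `a₁ := G2.a₁ …` on `Q.tw1F …`, for every Kummer test pair at `q`. -/
theorem he_G2 (hno : ¬ W.IsResiduallyModularOfLevel p (M / q)) (hqp : q ≠ p)
    (hN'' : N'' = Q.N * ∏ i : Fin (1 + g), rOf Q.qv q i)
    (hS : ∀ q' : ℕ, q'.Prime → q' ∣ N'' → q' ∈ S) (hpS : p ∈ S)
    (dℓ : PrimesOff (↑S : Set ℕ) → Gamma0 Q.N)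
    (hdℓ : ∀ (l : PrimesOff (↑S : Set ℕ)) (u : (ZMod Q.N)ˣ),
      (u : ZMod Q.N) = ((l.1 : ℕ) : ZMod Q.N) →
        chi (Theta (Δs p (eOf g (n + 1) eq)) (Q.primeData hq hqM hsq hcong).psi (1 + g)) (dℓ l) ^ 2
          * Theta (Δs p (eOf g (n + 1) eq)) (Q.primeData hq hqM hsq hcong).psi (1 + g) u = 1)
    (hnd : ∀ l : PrimesOff (↑S : Set ℕ), ¬ (l.1 : ℕ) ∣ Q.N)
    (hι : ∀ (l : PrimesOff (↑S : Set ℕ))
        (x : (bigLevel Q.Sy Q.𝔪 (Q.primeData hq hqM hsq hcong) (Q.hyp hp3) (1 + g)).M),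
      haveI : Fact (l.1 : ℕ).Prime := ⟨l.1.2⟩
      (bigReal Q.Sy Q.𝔪 (Q.primeData hq hqM hsq hcong) (Q.hyp hp3) (1 + g)).ι
          (twP (formsGenS N'' (↑S : Set ℕ) l) x) =
        diaH (Theta (Δs p (eOf g (n + 1) eq)) (Q.primeData hq hqM hsq hcong).psi (1 + g)) P.O
          (dℓ l)
          (TH (Theta (Δs p (eOf g (n + 1) eq)) (Q.primeData hq hqM hsq hcong).psi (1 + g)) P.O
            (hnd l)
            ((bigReal Q.Sy Q.𝔪 (Q.primeData hq hqM hsq hcong) (Q.hyp hp3) (1 + g)).ι x)))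
    [IsLocalRing (TG2 Q hq hqM hsq hcong hp3 hcq hcq1 S twP hD θA)]
    [IsReduced (TG2 Q hq hqM hsq hcong hp3 hcq hcq1 S twP hD θA)]
    (ψ : DQ.R →ₐ[P.O] TG2 Q hq hqM hsq hcong hp3 hcq hcq1 S twP hD θA)
    (hψ : IsLocalHom (ψ : DQ.R →+* TG2 Q hq hqM hsq hcong hp3 hcq hcq1 S twP hD θA))
    (ρQ : GaloisRepAdic (TG2 Q hq hqM hsq hcong hp3 hcq hcq1 S twP hD θA))
    (hequiv : (DQ.ρ.baseChangeAlong
      (ψ : DQ.R →+* TG2 Q hq hqM hsq hcong hp3 hcq hcq1 S twP hD θA) hψ).IsEquiv ρQ)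
    (hρ : ∀ (ℓ : ℕ) (hℓ : ℓ.Prime) (hℓN' : ¬ ℓ ∣ N'') (hℓS : ℓ ∉ (↑S : Set ℕ)),
      ∀ A : ValuationSubring Qb, A.LiesOverPrime ℓ → ∀ σ : GQ, A.IsFrobeniusAt σ ℓ →
        LinearMap.charpoly (ρQ.ρ σ)
          = X ^ 2 - C (chi P.O θA _ (heckeAlgebra.T hℓ hℓN' hℓS)) * X
            + C ((ℓ : TG2 Q hq hqM hsq hcong hp3 hcq hcq1 S twP hD θA))) :
    haveI : Fact q.Prime := ⟨hq⟩
    ∀ φ τ₀ : GQ, KummerTests q p φ τ₀ →
      a₁G2 Q hq hqM hsq hcong hp3 hcq hcq1 S twP hD θA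
        ((matT ψ φ).trace ^ 2 -
          (1 + (q : TG2 Q hq hqM hsq hcong hp3 hcq hcq1 S twP hD θA)) ^ 2) = 0 := by
  haveI : Module.Finite P.O (TG2 Q hq hqM hsq hcong hp3 hcq hcq1 S twP hD θA) :=
    G2.finite_T Q.Sy Q.𝔪 (Q.primeData hq hqM hsq hcong) (Q.hyp hp3) 1 g (fun _ : Fin 1 => cq)
      (TWSet.hc_one (g := g) (eOf_eq (n + 1) eq) hcq) (fun _ => hcq1) twP hD θA
  have hSN : ∀ ℓ : ℕ, ℓ.Prime → ℓ ∣ Q.N → ℓ ∈ S := fun ℓ hℓ hℓN =>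
    hS ℓ hℓ (hℓN.trans (N_dvd_level Q hN''))
  have hSN' : ∀ ℓ : ℕ, ℓ.Prime → ℓ ∣ N'' → ℓ ∈ (↑S : Set ℕ) := fun ℓ hℓ hℓN =>
    Finset.mem_coe.mpr (hS ℓ hℓ hℓN)
  -- `hT` from the `ι`-formula on the generators
  have hT : ∀ (ℓ : ℕ) (hℓ : ℓ.Prime) (hℓN' : ¬ ℓ ∣ N'') (hℓS : ℓ ∉ (↑S : Set ℕ))
      (hℓN : ¬ ℓ ∣ Q.N),
      haveI : Fact ℓ.Prime := ⟨hℓ⟩
      ∃ d : Gamma0 Q.N,
        (∀ u : (ZMod Q.N)ˣ, (u : ZMod Q.N) = ((ℓ : ℕ) : ZMod Q.N) →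
          chi (Theta (Δs p (eOf g (n + 1) eq)) (Q.primeData hq hqM hsq hcong).psi (1 + g)) d ^ 2 *
            Theta (Δs p (eOf g (n + 1) eq)) (Q.primeData hq hqM hsq hcong).psi (1 + g) u = 1) ∧
        ∀ x : (bigLevel Q.Sy Q.𝔪 (Q.primeData hq hqM hsq hcong) (Q.hyp hp3) (1 + g)).M,
          (bigReal Q.Sy Q.𝔪 (Q.primeData hq hqM hsq hcong) (Q.hyp hp3) (1 + g)).ι
              (twP (heckeAlgebra.T hℓ hℓN' hℓS) x)
            = diaH (Theta (Δs p (eOf g (n + 1) eq)) (Q.primeData hq hqM hsq hcong).psi (1 + g))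
                P.O d
                (TH (Theta (Δs p (eOf g (n + 1) eq)) (Q.primeData hq hqM hsq hcong).psi (1 + g))
                  P.O hℓN
                  ((bigReal Q.Sy Q.𝔪 (Q.primeData hq hqM hsq hcong) (Q.hyp hp3) (1 + g)).ι x)) := by
    intro ℓ hℓ hℓN' hℓS hℓN
    refine ⟨dℓ ⟨⟨ℓ, hℓ⟩, hℓS⟩, fun u hu => hdℓ ⟨⟨ℓ, hℓ⟩, hℓS⟩ u hu, fun x => ?_⟩
    have h1 := hι ⟨⟨ℓ, hℓ⟩, hℓS⟩ x
    rw [formsGenS_of_not_dvd N'' (↑S : Set ℕ) ⟨⟨ℓ, hℓ⟩, hℓS⟩ hℓN'] at h1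
    exact h1
  exact he_tw1F Q hq hqM hsq hcong hp3 hcq hcq1 hno S hSN hpS hqp hSN' ψ hψ ρQ hequiv
    (chi P.O θA _) (adjoin_range_chi P.O θA _)
    (a₁G2 Q hq hqM hsq hcong hp3 hcq hcq1 S twP hD θA)
    (fun t ht => Fermat.Agent.GB.B9.ProviderFlat.G7Fill.hred_of_basis
      (Q.tw1F hq hqM hsq hcong hp3 hcq hcq1).L1.basis _ t ht)
    (G2.tw₁ Q.Sy Q.𝔪 (Q.primeData hq hqM hsq hcong) (Q.hyp hp3) 1 g (fun _ : Fin 1 => cq)
      (TWSet.hc_one (g := g) (eOf_eq (n + 1) eq) hcq) (fun _ => hcq1) twP hD)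
    (fun t => G2.a₁_chi Q.Sy Q.𝔪 (Q.primeData hq hqM hsq hcong) (Q.hyp hp3) 1 g
      (fun _ : Fin 1 => cq) (TWSet.hc_one (g := g) (eOf_eq (n + 1) eq) hcq) (fun _ => hcq1)
      twP hD θA t)
    twP (fun t x => rfl) hT hρ

end TWSetG7

end Fermat.Agent.GB.B9.ProviderFlat.G7
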