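/-
GATE-B / ProviderFlat seam (helper78, answers helper54 6980 "ALSO NEEDED by he_tw1F"):
**the `hred` binder of `G7One.he_tw1F` / `Kill1TQ.he_plug` / the G6 twin, at ANY `FreeLevel`.**

`hred : ∀ t, a t * a t = 0 → a t = 0` for an `O`-algebra map `a : T →ₐ[O] End_O L.M` out of a
REDUCED `O`-integral `T` (e.g. `G2.T` with `G2.isReduced_T`, `G2.finite_T`) into the endomorphisms
of the module of a B3 `FreeLevel` (which is `O`-free by its `basis` field, hence torsion-free):
one call of helper66/helper52's `Kill1Plug.hred_of_isReduced`.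
-/
import Mathlib
import Fermat.Agent.GB.B3.TWLevel
import Fermat.Agent.GB.B7.Kill1Plug

set_option autoImplicit false
set_option linter.unusedSectionVars false
set_option linter.style.haveILetI false

namespace Fermat.Agent.GB.B9.ProviderFlat.HredLevel

open Fermat.Agent.GB.B3.TWLevel

variable {O : Type} [CommRing O] [IsDomain O] {𝕋 : Type} [CommRing 𝕋] [Algebra O 𝕋]
  {M0 : Type} [AddCommGroup M0] [Module O M0] {act0 : 𝕋 →ₐ[O] Module.End O M0}
  {k : ℕ} {N : Fin k → ℕ}

/-- the module of a `FreeLevel` is `O`-free. -/
theorem free_level (L : FreeLevel O 𝕋 M0 act0 k N) : Module.Free O L.M :=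
  Module.Free.of_basis L.basis

/-- the module of a `FreeLevel` is `O`-finite. -/
theorem finite_level (L : FreeLevel O 𝕋 M0 act0 k N) [∀ i, NeZero (N i)] : Module.Finite O L.M :=
  Module.Finite.of_basis L.basis

/-- the module of a `FreeLevel` over a domain is torsion-free. -/
theorem isTorsionFree_level (L : FreeLevel O 𝕋 M0 act0 k N) : Module.IsTorsionFree O L.M := by
  haveI := free_level L
  infer_instance

/-- **`hred` at a `FreeLevel`**: the image of a reduced integral `O`-algebra in `End_O L.M` is
reduced. -/
theorem hred_level (L : FreeLevel O 𝕋 M0 act0 k N) {T : Type} [CommRing T] [Algebra O T]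
    [IsReduced T] [Algebra.IsIntegral O T] (a : T →ₐ[O] Module.End O L.M) :
    ∀ t : T, a t * a t = 0 → a t = 0 := by
  haveI := isTorsionFree_level L
  exact fun t h => Fermat.Agent.GB.B7.Kill1Plug.hred_of_isReduced a t h

/-- `hred` at a `FreeLevel`, `Module.Finite` form of the integrality instance. -/
theorem hred_level_of_finite (L : FreeLevel O 𝕋 M0 act0 k N) {T : Type} [CommRing T] [Algebra O T]
    [IsReduced T] [Module.Finite O T] (a : T →ₐ[O] Module.End O L.M) :
    ∀ t : T, a t * a t = 0 → a t = 0 := by
  haveI : Algebra.IsIntegral O T := Algebra.IsIntegral.of_finite O T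
  exact hred_level L a

end Fermat.Agent.GB.B9.ProviderFlat.HredLevel
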